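import Fermat.Agent.S59.NonMin.Geom.Defs

/-!
# S59, RT-NONMIN, NMGEOM: the leaf RELPAR (helper94)

The degeneracy maps `A_a = resAlong j_a`, `C_a = corAlong j_a` (`a = 1, 2, 3`) preserve parabolic
homomorphisms and cuspidal homomorphisms, for EVERY coefficient group.

* `trace_pow_invariant` : for a `2 × 2` integer matrix `M` of determinant `1`, with
  `s n = tr (M ^ n)`: `s n ² - tr M · s n · s (n+1) + s (n+1) ² = 4 - (tr M)²`;
* `trace_pow_sq_eq`, `trace_pow_sq_le` : `tr(M)² = 4 ⟹ tr(M^n)² = 4`, `tr(M)² ≤ 4 ⟹ tr(M^n)² ≤ 4`;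
* `corAlong_kills` : the transfer of a homomorphism killing a class of elements closed under
  conjugation and powers kills this class;
* `stmt_RELPAR : Stmt_RELPAR`.
-/

set_option autoImplicit false
set_option linter.unusedSectionVars false
set_option linter.unusedVariables false
set_option linter.style.haveILetI false

open CongruenceSubgroup
open scoped MatrixGroups

namespace Fermat.Agent.S59.NonMin.Geom.H94

open Fermat.Agent.S41 Fermat.Agent.S59.NonMin.Geom ModularCurve.Period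

/-! ## Traces of powers -/

section Trace

theorem mul_self_eq (M : Matrix (Fin 2) (Fin 2) ℤ) (hd : M.det = 1) :
    M * M = M.trace • M - (1 : Matrix (Fin 2) (Fin 2) ℤ) := by
  rw [Matrix.det_fin_two] at hd
  ext i j
  fin_cases i <;> fin_cases j <;>
    simp [-zsmul_eq_mul, Matrix.mul_apply, Fin.sum_univ_two, Matrix.trace_fin_two,
      Matrix.smul_apply, Matrix.sub_apply] <;>
    first | ring1 | linear_combination (-1 : ℤ) * hd

theorem trace_pow_succ_succ (M : Matrix (Fin 2) (Fin 2) ℤ) (hd : M.det = 1) (n : ℕ) :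
    (M ^ (n + 2)).trace = M.trace * (M ^ (n + 1)).trace - (M ^ n).trace := by
  have h1 : M ^ (n + 2) = M.trace • M ^ (n + 1) - M ^ n := by
    rw [pow_add, pow_two, mul_self_eq M hd, mul_sub, mul_one, Matrix.mul_smul, ← pow_succ]
  rw [h1, Matrix.trace_sub, Matrix.trace_smul, smul_eq_mul]

theorem trace_pow_invariant (M : Matrix (Fin 2) (Fin 2) ℤ) (hd : M.det = 1) (n : ℕ) :
    (M ^ n).trace ^ 2 - M.trace * (M ^ n).trace * (M ^ (n + 1)).trace
      + (M ^ (n + 1)).trace ^ 2 = 4 - M.trace ^ 2 := by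
  induction n with
  | zero =>
    have h0 : (M ^ 0).trace = 2 := by
      rw [pow_zero, Matrix.trace_one]
      rfl
    rw [h0, zero_add, pow_one]
    ring
  | succ n ih =>
    rw [trace_pow_succ_succ M hd n]
    linear_combination ih

theorem trace_pow_sq_eq (M : Matrix (Fin 2) (Fin 2) ℤ) (hd : M.det = 1)
    (ht : M.trace ^ 2 = 4) (n : ℕ) : (M ^ n).trace ^ 2 = 4 := by
  induction n with
  | zero =>
    have h0 : (M ^ 0).trace = 2 := by
      rw [pow_zero, Matrix.trace_one]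
      rfl
    rw [h0]
    norm_num
  | succ n ih =>
    have hinv := trace_pow_invariant M hd n
    -- `(2 y - t x)² = 0`
    have h2 : (2 * (M ^ (n + 1)).trace - M.trace * (M ^ n).trace) ^ 2 = 0 := by
      linear_combination 4 * hinv + ((M ^ n).trace ^ 2 - 4) * ht
    have h3 : 2 * (M ^ (n + 1)).trace = M.trace * (M ^ n).trace := by
      have := pow_eq_zero_iff (two_ne_zero) |>.mp h2
      linarith
    have h4 : (2 * (M ^ (n + 1)).trace) ^ 2 = 16 := by
      rw [h3, mul_pow, ht, ih]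
      norm_num
    nlinarith

theorem trace_pow_sq_le (M : Matrix (Fin 2) (Fin 2) ℤ) (hd : M.det = 1)
    (ht : M.trace ^ 2 ≤ 4) (n : ℕ) : (M ^ n).trace ^ 2 ≤ 4 := by
  rcases eq_or_lt_of_le ht with h | h
  · exact (trace_pow_sq_eq M hd h n).le
  · rcases n with _ | n
    · have h0 : (M ^ 0).trace = 2 := by
        rw [pow_zero, Matrix.trace_one]
        rfl
      rw [h0]
      norm_num
    · have hinv := trace_pow_invariant M hd n
      -- `(2 x - t y)² + (4 - t²) y² = 4 (4 - t²)`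
      have h2 : (2 * (M ^ n).trace - M.trace * (M ^ (n + 1)).trace) ^ 2
          + (4 - M.trace ^ 2) * (M ^ (n + 1)).trace ^ 2 = 4 * (4 - M.trace ^ 2) := by
        linear_combination 4 * hinv
      have h3 : 0 < 4 - M.trace ^ 2 := by linarith
      have h4 : (4 - M.trace ^ 2) * (M ^ (n + 1)).trace ^ 2 ≤ (4 - M.trace ^ 2) * 4 := by
        nlinarith [sq_nonneg (2 * (M ^ n).trace - M.trace * (M ^ (n + 1)).trace)]
      exact le_of_mul_le_mul_left h4 h3

end Trace

/-! ## The transfer and classes closed under conjugation and powers -/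

section Transfer

variable {H G : Type*} [Group H] [Group G] {A : Type*} [AddCommGroup A]

/-- The transfer of a homomorphism killing a class `P` of elements, closed under conjugation and
powers, kills `P`. -/
theorem corAlong_kills (ι : H →* G) (P : G → Prop)
    (hconj : ∀ g r, P g → P (r⁻¹ * g * r)) (hpow : ∀ g (n : ℕ), P g → P (g ^ n))
    (φ : Additive H →+ A) (hφ : ∀ h, P (ι h) → φ (Additive.ofMul h) = 0) (g : G) (hg : P g) :
    corAlong A ι φ (Additive.ofMul g) = 0 := by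
  classical
  unfold corAlong
  split_ifs with h
  · haveI := h.2
    show Multiplicative.toAdd (MonoidHom.transfer _ g) = 0
    haveI : Fintype (Quotient (MulAction.orbitRel (Subgroup.zpowers g) (G ⧸ ι.range))) :=
      Fintype.ofFinite _
    rw [MonoidHom.transfer_eq_prod_quotient_orbitRel_zpowers_quot, Finset.prod_eq_one]
    · rfl
    · intro q _
      rw [MonoidHom.comp_apply]
      set x : ι.range := ⟨q.out.out⁻¹ * g ^ Function.minimalPeriod (g • ·) q.out * q.out.out,
        QuotientGroup.out_conj_pow_minimalPeriod_mem ι.range g q.out⟩ with hx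
      have h1 : ι ((MonoidHom.ofInjective h.1).symm x) = (x : G) :=
        MonoidHom.apply_ofInjective_symm h.1 x
      have h2 : P (ι ((MonoidHom.ofInjective h.1).symm x)) := by
        rw [h1]
        exact hconj _ _ (hpow _ _ hg)
      have h3 := hφ _ h2
      show Multiplicative.ofAdd (φ (Additive.ofMul ((MonoidHom.ofInjective h.1).symm x))) = 1
      rw [h3]
      rfl
  · rfl

theorem resAlong_kills (ι : H →* G) (P : G → Prop) (P' : H → Prop)
    (hP : ∀ h, P' h → P (ι h))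
    (φ : Additive G →+ A) (hφ : ∀ g, P g → φ (Additive.ofMul g) = 0) (h : H) (hh : P' h) :
    resAlong A ι φ (Additive.ofMul h) = 0 :=
  hφ _ (hP h hh)

end Transfer

/-! ## Traces in `Γ₀(N)` -/

section Gamma

/-- the trace of an element of a subgroup of `SL(2, ℤ)` -/
def trG {Γ : Subgroup SL(2, ℤ)} (g : Γ) : ℤ :=
  ((g : SL(2, ℤ)) : Matrix (Fin 2) (Fin 2) ℤ).trace

theorem trSL_conj (γ δ : SL(2, ℤ)) :
    ((δ⁻¹ * γ * δ : SL(2, ℤ)) : Matrix (Fin 2) (Fin 2) ℤ).trace
      = (γ : Matrix (Fin 2) (Fin 2) ℤ).trace := by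
  rw [Matrix.SpecialLinearGroup.coe_mul, Matrix.SpecialLinearGroup.coe_mul,
    Matrix.trace_mul_cycle, ← Matrix.SpecialLinearGroup.coe_mul, mul_inv_cancel,
    Matrix.SpecialLinearGroup.coe_one, one_mul]

theorem trG_conj {Γ : Subgroup SL(2, ℤ)} (g r : Γ) : trG (r⁻¹ * g * r) = trG g :=
  trSL_conj (g : SL(2, ℤ)) (r : SL(2, ℤ))

theorem trG_pow {Γ : Subgroup SL(2, ℤ)} (g : Γ) (n : ℕ) :
    trG (g ^ n) = (((g : SL(2, ℤ)) : Matrix (Fin 2) (Fin 2) ℤ) ^ n).trace := by
  unfold trG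
  rw [Subgroup.coe_pow, Matrix.SpecialLinearGroup.coe_pow]

theorem trG_pow_sq_eq {Γ : Subgroup SL(2, ℤ)} (g : Γ) (n : ℕ) (h : trG g ^ 2 = 4) :
    trG (g ^ n) ^ 2 = 4 := by
  rw [trG_pow]
  exact trace_pow_sq_eq _ (Matrix.SpecialLinearGroup.det_coe _) h n

theorem trG_pow_sq_le {Γ : Subgroup SL(2, ℤ)} (g : Γ) (n : ℕ) (h : trG g ^ 2 ≤ 4) :
    trG (g ^ n) ^ 2 ≤ 4 := by
  rw [trG_pow]
  exact trace_pow_sq_le _ (Matrix.SpecialLinearGroup.det_coe _) h n

theorem trace_conjMat' (q : ℕ) (M : Matrix (Fin 2) (Fin 2) ℤ) :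
    (conjMat q M).trace = M.trace := by
  simp [conjMat, Matrix.trace_fin_two]

theorem trG_j1 (N q : ℕ) (h : Gamma0 (N * q ^ 2)) : trG (j1 N q h) = trG h := rfl

theorem trG_j2 (N q : ℕ) (h : Gamma0 (N * q ^ 2)) : trG (j2 N q h) = trG h :=
  trace_conjMat' q _

theorem trG_j3 (N q : ℕ) (h : Gamma0 (N * q ^ 2)) : trG (j3 N q h) = trG h :=
  (trace_conjMat' q _).trans (trace_conjMat' q _)

variable {A : Type*} [AddCommGroup A]

/-- restriction along a trace preserving homomorphism preserves parabolic homs -/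
theorem resAlong_par {Γ Γ' : Subgroup SL(2, ℤ)} (ι : Γ' →* Γ) (hι : ∀ h, trG (ι h) = trG h)
    {φ : Additive Γ →+ A} (hφ : IsParabolicHom Γ φ) : IsParabolicHom Γ' (resAlong A ι φ) :=
  fun h hh => hφ (ι h) ((congrArg (· ^ 2) (hι h)).trans hh)

/-- restriction along a trace preserving homomorphism preserves cuspidal homs -/
theorem resAlong_cusp {Γ Γ' : Subgroup SL(2, ℤ)} (ι : Γ' →* Γ) (hι : ∀ h, trG (ι h) = trG h)
    {φ : Additive Γ →+ A} (hφ : IsCuspidalHom Γ φ) : IsCuspidalHom Γ' (resAlong A ι φ) :=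
  fun h hh => hφ (ι h) (le_of_eq_of_le (congrArg (· ^ 2) (hι h)) hh)

/-- the transfer along a trace preserving homomorphism preserves parabolic homs -/
theorem corAlong_par {Γ Γ' : Subgroup SL(2, ℤ)} (ι : Γ' →* Γ) (hι : ∀ h, trG (ι h) = trG h)
    {ψ : Additive Γ' →+ A} (hψ : IsParabolicHom Γ' ψ) : IsParabolicHom Γ (corAlong A ι ψ) :=
  fun g hg => corAlong_kills ι (fun g => trG g ^ 2 = 4)
    (fun g r h => (congrArg (· ^ 2) (trG_conj g r)).trans h)
    (fun g n h => trG_pow_sq_eq g n h) ψ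
    (fun h hh => hψ h ((congrArg (· ^ 2) (hι h)).symm.trans hh)) g hg

/-- the transfer along a trace preserving homomorphism preserves cuspidal homs -/
theorem corAlong_cusp {Γ Γ' : Subgroup SL(2, ℤ)} (ι : Γ' →* Γ) (hι : ∀ h, trG (ι h) = trG h)
    {ψ : Additive Γ' →+ A} (hψ : IsCuspidalHom Γ' ψ) : IsCuspidalHom Γ (corAlong A ι ψ) :=
  fun g hg => corAlong_kills ι (fun g => trG g ^ 2 ≤ 4)
    (fun g r h => le_of_eq_of_le (congrArg (· ^ 2) (trG_conj g r)) h)
    (fun g n h => trG_pow_sq_le g n h) ψ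
    (fun h hh => hψ h (le_of_eq_of_le (congrArg (· ^ 2) (hι h)).symm hh)) g hg

end Gamma

/-- **RELPAR**: the degeneracy maps preserve parabolic and cuspidal homomorphisms. -/
theorem stmt_RELPAR : Stmt_RELPAR := by
  intro N q _ hq hqN A _
  refine ⟨fun φ hφ => ⟨?_, ?_, ?_⟩, fun ψ hψ => ⟨?_, ?_, ?_⟩, fun φ hφ => ⟨?_, ?_, ?_⟩,
    fun ψ hψ => ⟨?_, ?_, ?_⟩⟩
  · exact resAlong_par (j1 N q) (trG_j1 N q) hφ
  · exact resAlong_par (j2 N q) (trG_j2 N q) hφ
  · exact resAlong_par (j3 N q) (trG_j3 N q) hφ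
  · exact corAlong_par (j1 N q) (trG_j1 N q) hψ
  · exact corAlong_par (j2 N q) (trG_j2 N q) hψ
  · exact corAlong_par (j3 N q) (trG_j3 N q) hψ
  · exact resAlong_cusp (j1 N q) (trG_j1 N q) hφ
  · exact resAlong_cusp (j2 N q) (trG_j2 N q) hφ
  · exact resAlong_cusp (j3 N q) (trG_j3 N q) hφ
  · exact corAlong_cusp (j1 N q) (trG_j1 N q) hψ
  · exact corAlong_cusp (j2 N q) (trG_j2 N q) hψ
  · exact corAlong_cusp (j3 N q) (trG_j3 N q) hψ

end Fermat.Agent.S59.NonMin.Geom.H94
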