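import Mathlib
import Fermat.Agent.S59.NonMin.Geom.Defs

/-!
# S59 / NMGEOM, assembly ASM-G, first half (helper48): interface

The assembly is split (planner helper61): helper48 constructs the abstract package `Deg3` at a
Betti state from the leaves (`deg3_of`), helper30 goes from `Deg3Out` to `NMStep` and runs the
induction.  This file is the interface between the two halves.

* `IsBettiVia s Sig ι` : the body of `Geom.IsBetti` for a given embedding `ι`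
  (`IsBetti s Sig ↔ ∃ ι, IsBettiVia s Sig ι` by `Iff.rfl`);
* `Deg3Data s hq hqN hqS rest M'` : the operators `U, A_a, C_a` between `s.M.V` and `M'.V` with
  the relations of `Geom.Deg3`;
* `Deg3Data.toDeg3` : the package `Deg3 𝒪 rest s.θ` with `L = s.M.V`, `L' = M'.V`, `η = s.M.η`,
  `η' = M'.η`, `q = q`, `Tq = T_q`, all by `rfl`;
* `Stmt_DEG3` : at a Betti state there is a `Deg3Data` whose `U` is `U_q` on the lattice.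

No `sorry`; definitions only.
-/

set_option autoImplicit false

open Polynomial CuspForm CongruenceSubgroup IsLocalRing
open scoped MatrixGroups

namespace Fermat.Agent.S59.NonMin.Geom.H48

open Fermat.Agent.S41 Fermat.Agent.Betti Fermat.Agent.S59 Fermat.Agent.S59.Asm
  Fermat.Agent.S59.NonMin Fermat.Agent.S59.NonMin.Geom
open ModularCurve.Period

section

variable {𝒪 : Type} [CommRing 𝒪] [IsLocalRing 𝒪]

/-- The body of `Geom.IsBetti`: `ι` identifies the module of the state `s` with the Betti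
lattice `InBetti 𝒪 s.N s.S s.θ Sig`, compatibly with the `T_ℓ`. -/
def IsBettiVia (s : NMState 𝒪) (Sig : Finset ℕ)
    (ι : s.M.V →ₗ[𝒪] (Additive (Gamma0 s.N) →+ 𝒪)) : Prop :=
  Function.Injective ι ∧
    (∀ φ, φ ∈ Set.range ι ↔ InBetti 𝒪 s.N (↑s.S : Set ℕ) s.θ Sig φ) ∧
    ∀ (ℓ : ℕ) (hℓ : ℓ.Prime) (hℓN : ¬ ℓ ∣ s.N) (hℓS : ℓ ∉ (↑s.S : Set ℕ)) (v : s.M.V),
      ι (s.M.η (CuspForm.heckeAlgebra.T hℓ hℓN hℓS) v) = TB s.N 𝒪 hℓ hℓN (ι v)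

theorem isBetti_iff_exists_via (s : NMState 𝒪) (Sig : Finset ℕ) :
    IsBetti s Sig ↔ ∃ ι, IsBettiVia s Sig ι := Iff.rfl

/-- The operators of `Geom.Deg3` between the module `s.M.V` of a state and a Hecke module `M'.V`
of level `N q²` (away from `S ∪ {q}`), with all the relations. -/
structure Deg3Data (s : NMState 𝒪) {q : ℕ} (hq : q.Prime) (hqN : ¬ q ∣ s.N)
    (hqS : q ∉ (↑s.S : Set ℕ)) [NeZero (s.N * q ^ 2)]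
    (rest : CuspForm.heckeAlgebra (s.N * q ^ 2) 2 (↑(insert q s.S) : Set ℕ) →+*
      CuspForm.heckeAlgebra s.N 2 (↑s.S : Set ℕ))
    (M' : HMod 𝒪 (s.N * q ^ 2) (↑(insert q s.S) : Set ℕ) (s.θ.comp rest)) : Type where
  q_unit : IsUnit (q : 𝒪)
  /-- `U_q` on `M'.V` -/
  U : Module.End 𝒪 M'.V
  U_η' : ∀ t, Commute U (M'.η t)
  A₁ : s.M.V →ₗ[𝒪] M'.V
  A₂ : s.M.V →ₗ[𝒪] M'.V
  A₃ : s.M.V →ₗ[𝒪] M'.V
  C₁ : M'.V →ₗ[𝒪] s.M.V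
  C₂ : M'.V →ₗ[𝒪] s.M.V
  C₃ : M'.V →ₗ[𝒪] s.M.V
  A₁_η : ∀ t (v : s.M.V), A₁ (s.M.η (rest t) v) = M'.η t (A₁ v)
  A₂_η : ∀ t (v : s.M.V), A₂ (s.M.η (rest t) v) = M'.η t (A₂ v)
  A₃_η : ∀ t (v : s.M.V), A₃ (s.M.η (rest t) v) = M'.η t (A₃ v)
  C₁_η : ∀ t (w : M'.V), C₁ (M'.η t w) = s.M.η (rest t) (C₁ w)
  C₂_η : ∀ t (w : M'.V), C₂ (M'.η t w) = s.M.η (rest t) (C₂ w)
  C₃_η : ∀ t (w : M'.V), C₃ (M'.η t w) = s.M.η (rest t) (C₃ w)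
  R1a : ∀ v : s.M.V, U (A₁ v) = A₁ (s.M.η (CuspForm.heckeAlgebra.T hq hqN hqS) v) - A₂ v
  R1b : ∀ v : s.M.V, U (A₂ v) = q • A₁ v
  R1c : ∀ v : s.M.V, U (A₃ v) = q • A₂ v
  R2a : ∀ w : M'.V, C₁ (U w) = q • C₂ w
  R2b : ∀ w : M'.V, C₂ (U w) = q • C₃ w
  R2c : ∀ w : M'.V, C₃ (U w) = s.M.η (CuspForm.heckeAlgebra.T hq hqN hqS) (C₃ w) - C₂ w
  R3a : ∀ v : s.M.V, C₁ (A₁ v) = (q * (q + 1)) • v
  R3b : ∀ v : s.M.V, C₁ (A₂ v) = q • s.M.η (CuspForm.heckeAlgebra.T hq hqN hqS) v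
  R3c : ∀ v : s.M.V, C₁ (A₃ v) =
    s.M.η (CuspForm.heckeAlgebra.T hq hqN hqS) (s.M.η (CuspForm.heckeAlgebra.T hq hqN hqS) v) -
      (q + 1) • v
  split : ∀ w : M'.V, ∃ w₀ w₁ : M'.V, w = w₀ + U w₁ ∧ U w₀ = 0
  ihara : ∀ v : s.M.V,
    q • A₁ v - A₂ (s.M.η (CuspForm.heckeAlgebra.T hq hqN hqS) v) + A₃ v ∈
      (maximalIdeal 𝒪 • ⊤ : Submodule 𝒪 M'.V) →
    v ∈ (maximalIdeal 𝒪 • ⊤ : Submodule 𝒪 s.M.V)
  dual : ∀ v : s.M.V, ∃ w : M'.V,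
    C₁ w - s.M.η (CuspForm.heckeAlgebra.T hq hqN hqS) (C₂ w) + q • C₃ w - v ∈
      (maximalIdeal 𝒪 • ⊤ : Submodule 𝒪 s.M.V)

/-- The package `Geom.Deg3` of a `Deg3Data`: `L = s.M.V`, `L' = M'.V`, `η = s.M.η`,
`η' = M'.η`, `q = q`, `Tq = T_q`, `U = d.U`, … (all definitional). -/
noncomputable def Deg3Data.toDeg3 {s : NMState 𝒪} {q : ℕ} {hq : q.Prime} {hqN : ¬ q ∣ s.N}
    {hqS : q ∉ (↑s.S : Set ℕ)} [NeZero (s.N * q ^ 2)]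
    {rest : CuspForm.heckeAlgebra (s.N * q ^ 2) 2 (↑(insert q s.S) : Set ℕ) →+*
      CuspForm.heckeAlgebra s.N 2 (↑s.S : Set ℕ)}
    {M' : HMod 𝒪 (s.N * q ^ 2) (↑(insert q s.S) : Set ℕ) (s.θ.comp rest)}
    (d : Deg3Data s hq hqN hqS rest M') : Deg3 𝒪 rest s.θ where
  L := s.M.V
  L' := M'.V
  η := s.M.η
  η' := M'.η
  η_local := s.M.η_local
  η'_local := M'.η_local
  q := q
  q_unit := d.q_unit
  Tq := CuspForm.heckeAlgebra.T hq hqN hqS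
  U := d.U
  U_η' := d.U_η'
  A₁ := d.A₁
  A₂ := d.A₂
  A₃ := d.A₃
  C₁ := d.C₁
  C₂ := d.C₂
  C₃ := d.C₃
  A₁_η := d.A₁_η
  A₂_η := d.A₂_η
  A₃_η := d.A₃_η
  C₁_η := d.C₁_η
  C₂_η := d.C₂_η
  C₃_η := d.C₃_η
  Tq_η := fun t => (Commute.all _ t).map s.M.η
  R1a := d.R1a
  R1b := d.R1b
  R1c := d.R1c
  R2a := d.R2a
  R2b := d.R2b
  R2c := d.R2c
  R3a := d.R3a
  R3b := d.R3b
  R3c := d.R3c
  split := d.split
  ihara := d.ihara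
  dual := d.dual

end

/-- **DEG3** (first half of ASM-G): at a Betti state `s` of the class `G` and a Betti lattice
`M'` of level `N q²` away from `S ∪ {q}` (no condition at `q`, the same `Sig`) there is a
`Deg3Data` whose operator `U` is `U_q` on the lattice. -/
def Stmt_DEG3 : Prop :=
  ∀ (𝒪 : Type) [CommRing 𝒪] [IsDomain 𝒪] [IsDiscreteValuationRing 𝒪]
    [IsAdicComplete (maximalIdeal 𝒪) 𝒪] [Finite (ResidueField 𝒪)] [CharZero 𝒪]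
    (p : ℕ) [Fact p.Prime], p ≠ 2 → (p : 𝒪) ∈ maximalIdeal 𝒪 →
    ∀ (ρbar : ResidualGaloisRep (ResidueField 𝒪)) (Smin : Finset ℕ), ResHyp p ρbar Smin →
    ∀ (N₀ : ℕ) (Sig : Finset ℕ) (s : NMState 𝒪), GeomHyp p Smin N₀ Sig s.N s.S →
    Fermat.Agent.S59.Datum.FrobHyp ρbar s.N s.S s.θ →
    ∀ (ι : s.M.V →ₗ[𝒪] (Additive (Gamma0 s.N) →+ 𝒪)), IsBettiVia s Sig ι →
    ∀ (q : ℕ) (hq : q.Prime), q ≠ p → ∀ (hqN : ¬ q ∣ s.N) (hqS : q ∉ (↑s.S : Set ℕ))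
      [NeZero (s.N * q ^ 2)]
      (rest : CuspForm.heckeAlgebra (s.N * q ^ 2) 2 (↑(insert q s.S) : Set ℕ) →+*
        CuspForm.heckeAlgebra s.N 2 (↑s.S : Set ℕ)),
    (∀ (ℓ : ℕ) (hℓ : ℓ.Prime) (hℓN' : ¬ ℓ ∣ s.N * q ^ 2)
      (hℓS' : ℓ ∉ (↑(insert q s.S) : Set ℕ)) (hℓN : ¬ ℓ ∣ s.N) (hℓS : ℓ ∉ (↑s.S : Set ℕ)),
      rest (CuspForm.heckeAlgebra.T hℓ hℓN' hℓS') = CuspForm.heckeAlgebra.T hℓ hℓN hℓS) →
    ∀ (M' : HMod 𝒪 (s.N * q ^ 2) (↑(insert q s.S) : Set ℕ) (s.θ.comp rest))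
      (ι' : M'.V →ₗ[𝒪] (Additive (Gamma0 (s.N * q ^ 2)) →+ 𝒪)),
    IsBettiVia (⟨s.N * q ^ 2, insert q s.S, s.θ.comp rest, M'⟩ : NMState 𝒪) Sig ι' →
    ∃ d : Deg3Data s hq hqN hqS rest M',
      ∀ (hd : q ∣ s.N * q ^ 2) (w : M'.V), ι' (d.U w) = UB (s.N * q ^ 2) 𝒪 hd (ι' w)

end Fermat.Agent.S59.NonMin.Geom.H48
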