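import Mathlib
import Fermat.Agent.Betti.H76_MatrixRep
import Fermat.Agent.Betti.Basis
import Fermat.Agent.Betti.H76_Vanish

/-!
# S59 / NMGEOM + PGEOM, shared lemma B-COMM (helper53)

The Betti Hecke operators `TB`, `UB` of a level `N` COMMUTE on the parabolic homomorphisms
`Γ₀(N) → A` with values in a torsion free group `A` ("GAP 3" of the assemblies ASM-G / P-ASM:
`U_q` acts on the Betti lattice and commutes with the Hecke action).

Proof: a word `w` in the Hecke generators which vanishes on `S₂(Γ₀(N))` vanishes on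
`Hom_par(Γ₀(N), ℤ)` (`Betti.H76.wordBL_eq_zero_iff`), hence on `Hom_par(Γ₀(N), A)` by the universal
basis (`Betti.stmt_basis`) and naturality in the coefficients (`Betti.H76.wordB_comp`); the
commutator of two generators vanishes on cusp forms because the Hecke algebra is commutative.

* `wordB_eq_zero_of_wordS` : the transfer principle;
* `genB_comm`              : two generators commute on parabolic homomorphisms;
* `TB_TB_comm`, `UB_TB_comm`, `TB_UB_comm`, `UB_UB_comm` : the four cases.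

No `sorry`.
-/

set_option autoImplicit false

open CongruenceSubgroup ModularCurve ModularCurve.Period
open scoped MatrixGroups

namespace Fermat.Agent.S59.NonMin.Geom.H53

open Fermat.Agent.Betti Fermat.Agent.Betti.H76

variable (N : ℕ) [NeZero N] (S : Set ℕ)

/-- **Transfer principle**: a word in the Hecke generators which vanishes on `S₂(Γ₀(N))`
vanishes on the parabolic homomorphisms with values in any torsion free group. -/
theorem wordB_eq_zero_of_wordS (A : Type) [AddCommGroup A] [IsAddTorsionFree A]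
    (w : FreeAlgebra ℤ (Gen S)) (hw : wordS N S w = 0) (φ : Additive (Gamma0 N) →+ A)
    (hφ : IsParabolicHom (Gamma0 N) φ) : wordB N S A w φ = 0 := by
  obtain ⟨r, b, hb⟩ := stmt_basis N
  obtain ⟨a, ha, -⟩ := hb.2 A φ hφ
  have hφ' : φ = ∑ i, (zmultiplesHom A (a i)).comp (b i) := by
    refine AddMonoidHom.ext fun γ => ?_
    rw [ha γ, AddMonoidHom.finsetSum_apply]
    refine Finset.sum_congr rfl fun i _ => ?_
    rw [AddMonoidHom.comp_apply, zmultiplesHom_apply]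
  have hz : ∀ i, wordB N S ℤ w (b i) = 0 := by
    intro i
    have h0 : wordBL N S w = 0 := (wordBL_eq_zero_iff N S w).mpr hw
    have h1 := wordBL_coe N S w (⟨b i, hb.1 i⟩ : ParZ N)
    rw [h0] at h1
    exact h1.symm
  rw [hφ', map_sum]
  refine Finset.sum_eq_zero fun i _ => ?_
  rw [wordB_comp, hz i, AddMonoidHom.comp_zero]

/-- Two Hecke generators commute on cusp forms. -/
theorem genS_comm (l l' : Gen S) : genS N S l * genS N S l' = genS N S l' * genS N S l := by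
  have h1 : genS N S l ∈ CuspForm.heckeAlgebra N 2 S := by
    have := wordS_mem_heckeAlgebra N S (FreeAlgebra.ι ℤ l)
    rwa [wordS_ι] at this
  have h2 : genS N S l' ∈ CuspForm.heckeAlgebra N 2 S := by
    have := wordS_mem_heckeAlgebra N S (FreeAlgebra.ι ℤ l')
    rwa [wordS_ι] at this
  have := mul_comm (⟨genS N S l, h1⟩ : CuspForm.heckeAlgebra N 2 S) ⟨genS N S l', h2⟩
  exact congrArg Subtype.val this

/-- Two Betti Hecke generators commute on the parabolic homomorphisms with values in a torsion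
free group. -/
theorem genB_comm (A : Type) [AddCommGroup A] [IsAddTorsionFree A] (l l' : Gen S)
    (φ : Additive (Gamma0 N) →+ A) (hφ : IsParabolicHom (Gamma0 N) φ) :
    genB N S A l (genB N S A l' φ) = genB N S A l' (genB N S A l φ) := by
  have hw : wordS N S (FreeAlgebra.ι ℤ l * FreeAlgebra.ι ℤ l'
      - FreeAlgebra.ι ℤ l' * FreeAlgebra.ι ℤ l) = 0 := by
    rw [map_sub, map_mul, map_mul, wordS_ι, wordS_ι, genS_comm N S l l', sub_self]
  have h := wordB_eq_zero_of_wordS N S A _ hw φ hφ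
  rw [map_sub, map_mul, map_mul, wordB_ι, wordB_ι, LinearMap.sub_apply, Module.End.mul_apply,
    Module.End.mul_apply, sub_eq_zero] at h
  exact h

variable {N}

theorem genB_of_not_dvd (A : Type) [AddCommGroup A] {ℓ : ℕ} (hℓ : ℓ.Prime) (hℓN : ¬ ℓ ∣ N)
    (hℓS : ℓ ∉ S) (φ : Additive (Gamma0 N) →+ A) :
    genB N S A (mkGen ℓ hℓ hℓS) φ = TB N A hℓ hℓN φ := by
  unfold genB
  rw [dif_neg (show ¬ (mkGen ℓ hℓ hℓS : Gen S).1 ∣ N from hℓN)]
  rfl

theorem genB_of_dvd (A : Type) [AddCommGroup A] {q : ℕ} (hq : q.Prime) (hqN : q ∣ N)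
    (hqS : q ∉ S) (φ : Additive (Gamma0 N) →+ A) :
    genB N S A (mkGen q hq hqS) φ = UB N A hqN φ := by
  unfold genB
  rw [dif_pos (show (mkGen q hq hqS : Gen S).1 ∣ N from hqN)]
  rfl

/-- `T_ℓ` and `T_ℓ'` commute on parabolic homomorphisms. -/
theorem TB_TB_comm (A : Type) [AddCommGroup A] [IsAddTorsionFree A] {ℓ ℓ' : ℕ} (hℓ : ℓ.Prime)
    (hℓN : ¬ ℓ ∣ N) (hℓ' : ℓ'.Prime) (hℓ'N : ¬ ℓ' ∣ N) (φ : Additive (Gamma0 N) →+ A)
    (hφ : IsParabolicHom (Gamma0 N) φ) :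
    TB N A hℓ hℓN (TB N A hℓ' hℓ'N φ) = TB N A hℓ' hℓ'N (TB N A hℓ hℓN φ) := by
  have h := genB_comm N (∅ : Set ℕ) A (mkGen ℓ hℓ (Set.notMem_empty ℓ))
    (mkGen ℓ' hℓ' (Set.notMem_empty ℓ')) φ hφ
  rwa [genB_of_not_dvd ∅ A hℓ' hℓ'N, genB_of_not_dvd ∅ A hℓ hℓN, genB_of_not_dvd ∅ A hℓ hℓN,
    genB_of_not_dvd ∅ A hℓ' hℓ'N] at h

/-- `U_q` and `T_ℓ` commute on parabolic homomorphisms. -/
theorem UB_TB_comm (A : Type) [AddCommGroup A] [IsAddTorsionFree A] {q ℓ : ℕ} (hq : q.Prime)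
    (hqN : q ∣ N) (hℓ : ℓ.Prime) (hℓN : ¬ ℓ ∣ N) (φ : Additive (Gamma0 N) →+ A)
    (hφ : IsParabolicHom (Gamma0 N) φ) :
    UB N A hqN (TB N A hℓ hℓN φ) = TB N A hℓ hℓN (UB N A hqN φ) := by
  have h := genB_comm N (∅ : Set ℕ) A (mkGen q hq (Set.notMem_empty q))
    (mkGen ℓ hℓ (Set.notMem_empty ℓ)) φ hφ
  rwa [genB_of_not_dvd ∅ A hℓ hℓN, genB_of_dvd ∅ A hq hqN, genB_of_dvd ∅ A hq hqN,
    genB_of_not_dvd ∅ A hℓ hℓN] at h

/-- `T_ℓ` and `U_q` commute on parabolic homomorphisms. -/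
theorem TB_UB_comm (A : Type) [AddCommGroup A] [IsAddTorsionFree A] {q ℓ : ℕ} (hq : q.Prime)
    (hqN : q ∣ N) (hℓ : ℓ.Prime) (hℓN : ¬ ℓ ∣ N) (φ : Additive (Gamma0 N) →+ A)
    (hφ : IsParabolicHom (Gamma0 N) φ) :
    TB N A hℓ hℓN (UB N A hqN φ) = UB N A hqN (TB N A hℓ hℓN φ) :=
  (UB_TB_comm A hq hqN hℓ hℓN φ hφ).symm

/-- `U_q` and `U_r` commute on parabolic homomorphisms. -/
theorem UB_UB_comm (A : Type) [AddCommGroup A] [IsAddTorsionFree A] {q r : ℕ} (hq : q.Prime)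
    (hqN : q ∣ N) (hr : r.Prime) (hrN : r ∣ N) (φ : Additive (Gamma0 N) →+ A)
    (hφ : IsParabolicHom (Gamma0 N) φ) :
    UB N A hqN (UB N A hrN φ) = UB N A hrN (UB N A hqN φ) := by
  have h := genB_comm N (∅ : Set ℕ) A (mkGen q hq (Set.notMem_empty q))
    (mkGen r hr (Set.notMem_empty r)) φ hφ
  rwa [genB_of_dvd ∅ A hr hrN, genB_of_dvd ∅ A hq hqN, genB_of_dvd ∅ A hq hqN,
    genB_of_dvd ∅ A hr hrN] at h

omit [NeZero N] in
/-- `T_ℓ` preserves parabolic homomorphisms. -/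
theorem TB_par (A : Type) [AddCommGroup A] {ℓ : ℕ} (hℓ : ℓ.Prime) (hℓN : ¬ ℓ ∣ N)
    (φ : Additive (Gamma0 N) →+ A) (hφ : IsParabolicHom (Gamma0 N) φ) :
    IsParabolicHom (Gamma0 N) (TB N A hℓ hℓN φ) :=
  TB_mem_parabolicHoms_gen ℤ hℓ hℓN (φ := φ) hφ

/-- `U_q` preserves parabolic homomorphisms. -/
theorem UB_par (A : Type) [AddCommGroup A] {q : ℕ} (hqN : q ∣ N)
    (φ : Additive (Gamma0 N) →+ A) (hφ : IsParabolicHom (Gamma0 N) φ) :
    IsParabolicHom (Gamma0 N) (UB N A hqN φ) :=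
  UB_mem_parabolicHoms_gen ℤ hqN (φ := φ) hφ

end Fermat.Agent.S59.NonMin.Geom.H53
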