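import Mathlib
import Fermat.Agent.S59.NonMin.Geom.H48_AsmGDefs
import Fermat.Agent.S59.NonMin.Geom.H53_BComm
import Fermat.Agent.S41.H77_CorComp

/-!
# S59 / NMGEOM, assembly ASM-G, first half (helper48): the Betti lattice

General lemmas on the lattice `InBetti` used by `deg3_of`:

* naturality of `TB`, `UB` in the coefficients and the `𝒪`-linear forms `TBl`, `UBl`, `resL`,
  `corL` of the operators;
* `Mval m` : the homomorphisms with values in `𝔪^m`; `mem_Mval_iff` (divisibility by `ϖ^m`);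
* `Dl a = T_ℓ - a` and the iterates;
* `inBetti_map` : an operator which commutes with the Hecke operators maps Betti lattices to
  Betti lattices;
* `inBetti_of_smul` : the lattice is saturated;
* `loc_of_loc` : locality for one lift of the eigenvalue gives locality for every lift.

No `sorry`.
-/

set_option autoImplicit false

open Polynomial CuspForm CongruenceSubgroup IsLocalRing
open scoped MatrixGroups

namespace Fermat.Agent.S59.NonMin.Geom.H48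

open Fermat.Agent.S41 Fermat.Agent.Betti Fermat.Agent.S59 Fermat.Agent.S59.Asm
  Fermat.Agent.S59.NonMin Fermat.Agent.S59.NonMin.Geom
open ModularCurve.Period

/-! ## 1. Naturality in the coefficients, linearity -/

section Nat

variable {N : ℕ} {A B : Type*} [AddCommGroup A] [AddCommGroup B]

theorem TB_nat (f : A →+ B) {p : ℕ} (hp : p.Prime) (hpN : ¬ p ∣ N)
    (φ : Additive (Gamma0 N) →+ A) :
    TB N B hp hpN (f.comp φ) = f.comp (TB N A hp hpN φ) := by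
  refine AddMonoidHom.ext fun γ => ?_
  obtain ⟨γ, rfl⟩ := Additive.ofMul.surjective γ
  rw [TB_apply_apply, AddMonoidHom.comp_apply, TB_apply_apply, map_sum]
  rfl

theorem UB_nat [NeZero N] (f : A →+ B) {p : ℕ} (hpN : p ∣ N)
    (φ : Additive (Gamma0 N) →+ A) :
    UB N B hpN (f.comp φ) = f.comp (UB N A hpN φ) := by
  refine AddMonoidHom.ext fun γ => ?_
  obtain ⟨γ, rfl⟩ := Additive.ofMul.surjective γ
  rw [UB_apply_apply, AddMonoidHom.comp_apply, UB_apply_apply, map_sum]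
  rfl

end Nat

section Lin

variable (𝒪 : Type) [CommRing 𝒪]

theorem smul_eq_comp {G : Type*} [AddGroup G] (c : 𝒪) (φ : G →+ 𝒪) :
    c • φ = (AddMonoidHom.mulLeft c).comp φ := by
  refine AddMonoidHom.ext fun γ => ?_
  rfl

/-- `T_p` as an `𝒪`-linear map -/
noncomputable def TBl (N : ℕ) {p : ℕ} (hp : p.Prime) (hpN : ¬ p ∣ N) :
    (Additive (Gamma0 N) →+ 𝒪) →ₗ[𝒪] (Additive (Gamma0 N) →+ 𝒪) where
  toFun := TB N 𝒪 hp hpN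
  map_add' := map_add _
  map_smul' c φ := by
    show TB N 𝒪 hp hpN (c • φ) = c • TB N 𝒪 hp hpN φ
    rw [smul_eq_comp 𝒪 c φ, TB_nat, ← smul_eq_comp]

@[simp] theorem TBl_apply (N : ℕ) {p : ℕ} (hp : p.Prime) (hpN : ¬ p ∣ N)
    (φ : Additive (Gamma0 N) →+ 𝒪) : TBl 𝒪 N hp hpN φ = TB N 𝒪 hp hpN φ := rfl

/-- `U_p` as an `𝒪`-linear map -/
noncomputable def UBl (N : ℕ) [NeZero N] {p : ℕ} (hpN : p ∣ N) :
    (Additive (Gamma0 N) →+ 𝒪) →ₗ[𝒪] (Additive (Gamma0 N) →+ 𝒪) where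
  toFun := UB N 𝒪 hpN
  map_add' := map_add _
  map_smul' c φ := by
    show UB N 𝒪 hpN (c • φ) = c • UB N 𝒪 hpN φ
    rw [smul_eq_comp 𝒪 c φ, UB_nat, ← smul_eq_comp]

@[simp] theorem UBl_apply (N : ℕ) [NeZero N] {p : ℕ} (hpN : p ∣ N)
    (φ : Additive (Gamma0 N) →+ 𝒪) : UBl 𝒪 N hpN φ = UB N 𝒪 hpN φ := rfl

variable {H G : Type*} [Group H] [Group G]

/-- restriction as an `𝒪`-linear map -/
def resL (j : H →* G) : (Additive G →+ 𝒪) →ₗ[𝒪] (Additive H →+ 𝒪) where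
  toFun := resAlong 𝒪 j
  map_add' _ _ := rfl
  map_smul' _ _ := rfl

@[simp] theorem resL_apply (j : H →* G) (φ : Additive G →+ 𝒪) :
    resL 𝒪 j φ = resAlong 𝒪 j φ := rfl

/-- transfer as an `𝒪`-linear map -/
noncomputable def corL (j : H →* G) : (Additive H →+ 𝒪) →ₗ[𝒪] (Additive G →+ 𝒪) where
  toFun := corAlong 𝒪 j
  map_add' := H19.corAlong_add j
  map_smul' c φ := H19.corAlong_smul j c φ

@[simp] theorem corL_apply (j : H →* G) (φ : Additive H →+ 𝒪) :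
    corL 𝒪 j φ = corAlong 𝒪 j φ := rfl

end Lin

/-! ## 2. Homomorphisms with values in `𝔪^m` -/

section MvalSec

variable (𝒪 : Type) [CommRing 𝒪] [IsLocalRing 𝒪] (G : Type*) [AddGroup G]

/-- the homomorphisms with values in `𝔪^m` -/
def Mval (m : ℕ) : Submodule 𝒪 (G →+ 𝒪) where
  carrier := {φ | ∀ γ, φ γ ∈ maximalIdeal 𝒪 ^ m}
  zero_mem' := fun _ => Ideal.zero_mem _
  add_mem' := fun ha hb γ => Ideal.add_mem _ (ha γ) (hb γ)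
  smul_mem' := fun c _ h γ => Ideal.mul_mem_left _ c (h γ)

variable {𝒪 G}

theorem mem_Mval {m : ℕ} {φ : G →+ 𝒪} : φ ∈ Mval 𝒪 G m ↔ ∀ γ, φ γ ∈ maximalIdeal 𝒪 ^ m :=
  Iff.rfl

theorem Mval_anti {m m' : ℕ} (h : m ≤ m') : Mval 𝒪 G m' ≤ Mval 𝒪 G m :=
  fun _ hφ γ => Ideal.pow_le_pow_right h (hφ γ)

theorem smul_mem_Mval {m : ℕ} {c : 𝒪} (hc : c ∈ maximalIdeal 𝒪 ^ m) (φ : G →+ 𝒪) :
    c • φ ∈ Mval 𝒪 G m :=
  fun _ => Ideal.mul_mem_right _ _ hc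

theorem exists_eq_smul_of_dvd [IsDomain 𝒪] {c : 𝒪} (hc : c ≠ 0) (φ : G →+ 𝒪)
    (h : ∀ γ, c ∣ φ γ) : ∃ φ' : G →+ 𝒪, φ = c • φ' := by
  choose f hf using h
  refine ⟨{ toFun := f, map_zero' := ?_, map_add' := ?_ }, ?_⟩
  · have h0 := hf 0
    rw [map_zero] at h0
    exact (mul_eq_zero.mp h0.symm).resolve_left hc
  · intro x y
    have h1 := hf (x + y)
    rw [map_add, hf x, hf y, ← mul_add] at h1
    exact (mul_left_cancel₀ hc h1).symm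
  · refine AddMonoidHom.ext fun γ => ?_
    exact hf γ

variable [IsDomain 𝒪] [IsDiscreteValuationRing 𝒪]

theorem maxPow_eq {ϖ : 𝒪} (hϖ : Irreducible ϖ) (m : ℕ) :
    maximalIdeal 𝒪 ^ m = Ideal.span {ϖ ^ m} := by
  rw [hϖ.maximalIdeal_eq, Ideal.span_singleton_pow]

theorem mem_Mval_iff_exists {ϖ : 𝒪} (hϖ : Irreducible ϖ) {m : ℕ} {φ : G →+ 𝒪} :
    φ ∈ Mval 𝒪 G m ↔ ∃ φ' : G →+ 𝒪, φ = ϖ ^ m • φ' := by
  constructor
  · intro h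
    refine exists_eq_smul_of_dvd (pow_ne_zero m hϖ.ne_zero) φ fun γ => ?_
    have := h γ
    rwa [maxPow_eq hϖ, Ideal.mem_span_singleton] at this
  · rintro ⟨φ', rfl⟩
    refine smul_mem_Mval ?_ φ'
    rw [maxPow_eq hϖ]
    exact Ideal.mem_span_singleton_self _

/-- every linear operator preserves the homomorphisms with values in `𝔪^m` -/
theorem map_mem_Mval {G' : Type*} [AddGroup G'] (Φ : (G →+ 𝒪) →ₗ[𝒪] (G' →+ 𝒪)) {m : ℕ}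
    {φ : G →+ 𝒪} (h : φ ∈ Mval 𝒪 G m) : Φ φ ∈ Mval 𝒪 G' m := by
  obtain ⟨ϖ, hϖ⟩ := IsDiscreteValuationRing.exists_irreducible 𝒪
  obtain ⟨φ', rfl⟩ := (mem_Mval_iff_exists hϖ).mp h
  rw [map_smul]
  exact (mem_Mval_iff_exists hϖ).mpr ⟨_, rfl⟩

theorem mem_Mval_of_smul {ϖ : 𝒪} (hϖ : Irreducible ϖ) {j m : ℕ} {φ : G →+ 𝒪}
    (h : ϖ ^ j • φ ∈ Mval 𝒪 G (m + j)) : φ ∈ Mval 𝒪 G m := by
  intro γ
  have h1 := h γ
  rw [maxPow_eq hϖ, Ideal.mem_span_singleton] at h1 ⊢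
  have h2 : ϖ ^ j * ϖ ^ m ∣ ϖ ^ j * φ γ := by
    rw [← pow_add, add_comm j m]
    exact h1
  exact (mul_dvd_mul_iff_left (pow_ne_zero j hϖ.ne_zero)).mp h2

theorem smul_left_inj' {c : 𝒪} (hc : c ≠ 0) {φ ψ : G →+ 𝒪} (h : c • φ = c • ψ) : φ = ψ := by
  refine AddMonoidHom.ext fun γ => ?_
  have := DFunLike.congr_fun h γ
  exact mul_left_cancel₀ hc this

end MvalSec

/-! ## 3. The operators `T_ℓ - a`, locality -/

section Loc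

variable (𝒪 : Type) [CommRing 𝒪] [IsLocalRing 𝒪]

/-- `T_ℓ - a` -/
noncomputable def Dl (N : ℕ) {ℓ : ℕ} (hℓ : ℓ.Prime) (hℓN : ¬ ℓ ∣ N) (a : 𝒪) :
    Module.End 𝒪 (Additive (Gamma0 N) →+ 𝒪) :=
  TBl 𝒪 N hℓ hℓN - a • 1

variable {𝒪}

theorem Dl_apply (N : ℕ) {ℓ : ℕ} (hℓ : ℓ.Prime) (hℓN : ¬ ℓ ∣ N) (a : 𝒪)
    (φ : Additive (Gamma0 N) →+ 𝒪) : Dl 𝒪 N hℓ hℓN a φ = TB N 𝒪 hℓ hℓN φ - a • φ := rfl

theorem iter_eq_pow (N : ℕ) {ℓ : ℕ} (hℓ : ℓ.Prime) (hℓN : ¬ ℓ ∣ N) (a : 𝒪) (n : ℕ)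
    (φ : Additive (Gamma0 N) →+ 𝒪) :
    (fun χ : Additive (Gamma0 N) →+ 𝒪 => TB N 𝒪 hℓ hℓN χ - a • χ)^[n] φ =
      (Dl 𝒪 N hℓ hℓN a ^ n) φ := by
  rw [Module.End.pow_apply]
  rfl

/-- `φ` is local at `T_ℓ` for the lift `a` of the eigenvalue -/
def Loc (N : ℕ) {ℓ : ℕ} (hℓ : ℓ.Prime) (hℓN : ¬ ℓ ∣ N) (a : 𝒪)
    (φ : Additive (Gamma0 N) →+ 𝒪) : Prop :=
  ∀ m : ℕ, ∃ n : ℕ, (Dl 𝒪 N hℓ hℓN a ^ n) φ ∈ Mval 𝒪 (Additive (Gamma0 N)) m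

theorem inBetti_iff {N : ℕ} [NeZero N] {S : Set ℕ}
    {θ : CuspForm.heckeAlgebra N 2 S →+* ResidueField 𝒪} {Sig : Finset ℕ}
    {φ : Additive (Gamma0 N) →+ 𝒪} :
    InBetti 𝒪 N S θ Sig φ ↔ IsParabolicHom (Gamma0 N) φ ∧
      (∀ r ∈ Sig, ∀ hr : r ∣ N, UB N 𝒪 hr φ = 0) ∧
      ∀ (ℓ : ℕ) (hℓ : ℓ.Prime) (hℓN : ¬ ℓ ∣ N) (hℓS : ℓ ∉ S) (a : 𝒪),
        residue 𝒪 a = θ (CuspForm.heckeAlgebra.T hℓ hℓN hℓS) → Loc N hℓ hℓN a φ := by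
  unfold InBetti Loc
  refine and_congr Iff.rfl (and_congr Iff.rfl ?_)
  refine forall_congr' fun ℓ => forall_congr' fun hℓ => forall_congr' fun hℓN =>
    forall_congr' fun hℓS => forall_congr' fun a => forall_congr' fun _ =>
    forall_congr' fun m => exists_congr fun n => ?_
  rw [iter_eq_pow]
  rfl

theorem isParabolic_Dl {N : ℕ} {ℓ : ℕ} (hℓ : ℓ.Prime) (hℓN : ¬ ℓ ∣ N) (a : 𝒪)
    {φ : Additive (Gamma0 N) →+ 𝒪} (h : IsParabolicHom (Gamma0 N) φ) :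
    IsParabolicHom (Gamma0 N) (Dl 𝒪 N hℓ hℓN a φ) := by
  rw [Dl_apply]
  exact (parabolicHoms 𝒪 (Gamma0 N) 𝒪).sub_mem (H53.TB_par 𝒪 hℓ hℓN φ h)
    ((parabolicHoms 𝒪 (Gamma0 N) 𝒪).smul_mem a h)

theorem isParabolic_Dl_pow {N : ℕ} {ℓ : ℕ} (hℓ : ℓ.Prime) (hℓN : ¬ ℓ ∣ N) (a : 𝒪) (n : ℕ)
    {φ : Additive (Gamma0 N) →+ 𝒪} (h : IsParabolicHom (Gamma0 N) φ) :
    IsParabolicHom (Gamma0 N) ((Dl 𝒪 N hℓ hℓN a ^ n) φ) := by
  induction n with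
  | zero => exact h
  | succ n ih =>
    rw [pow_succ', Module.End.mul_apply]
    exact isParabolic_Dl hℓ hℓN a ih

variable [IsDomain 𝒪] [IsDiscreteValuationRing 𝒪]

/-- An operator which commutes with the Hecke operators maps Betti lattices to Betti
lattices. -/
theorem inBetti_map {N₁ N₂ : ℕ} [NeZero N₁] [NeZero N₂] {S₁ S₂ : Set ℕ}
    {θ₁ : CuspForm.heckeAlgebra N₁ 2 S₁ →+* ResidueField 𝒪}
    {θ₂ : CuspForm.heckeAlgebra N₂ 2 S₂ →+* ResidueField 𝒪} {Sig : Finset ℕ}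
    (Φ : (Additive (Gamma0 N₁) →+ 𝒪) →ₗ[𝒪] (Additive (Gamma0 N₂) →+ 𝒪))
    (hpar : ∀ φ, IsParabolicHom (Gamma0 N₁) φ → IsParabolicHom (Gamma0 N₂) (Φ φ))
    (hU : ∀ r ∈ Sig, ∀ hr₂ : r ∣ N₂, ∃ hr₁ : r ∣ N₁, ∀ φ, IsParabolicHom (Gamma0 N₁) φ →
      UB N₂ 𝒪 hr₂ (Φ φ) = Φ (UB N₁ 𝒪 hr₁ φ))
    (hT : ∀ (ℓ : ℕ) (hℓ : ℓ.Prime) (hℓN₂ : ¬ ℓ ∣ N₂) (hℓS₂ : ℓ ∉ S₂),
      ∃ (hℓN₁ : ¬ ℓ ∣ N₁) (hℓS₁ : ℓ ∉ S₁),
        θ₂ (CuspForm.heckeAlgebra.T hℓ hℓN₂ hℓS₂) = θ₁ (CuspForm.heckeAlgebra.T hℓ hℓN₁ hℓS₁) ∧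
        ∀ φ, IsParabolicHom (Gamma0 N₁) φ →
          TB N₂ 𝒪 hℓ hℓN₂ (Φ φ) = Φ (TB N₁ 𝒪 hℓ hℓN₁ φ))
    {φ : Additive (Gamma0 N₁) →+ 𝒪} (h : InBetti 𝒪 N₁ S₁ θ₁ Sig φ) :
    InBetti 𝒪 N₂ S₂ θ₂ Sig (Φ φ) := by
  rw [inBetti_iff] at h ⊢
  obtain ⟨h1, h2, h3⟩ := h
  refine ⟨hpar φ h1, ?_, ?_⟩
  · intro r hr hr₂
    obtain ⟨hr₁, hc⟩ := hU r hr hr₂
    rw [hc φ h1, h2 r hr hr₁, map_zero]
  · intro ℓ hℓ hℓN₂ hℓS₂ a ha m
    obtain ⟨hℓN₁, hℓS₁, hθ, hc⟩ := hT ℓ hℓ hℓN₂ hℓS₂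
    obtain ⟨n, hn⟩ := h3 ℓ hℓ hℓN₁ hℓS₁ a (ha.trans hθ) m
    refine ⟨n, ?_⟩
    have key : ∀ k : ℕ, (Dl 𝒪 N₂ hℓ hℓN₂ a ^ k) (Φ φ) = Φ ((Dl 𝒪 N₁ hℓ hℓN₁ a ^ k) φ) := by
      intro k
      induction k with
      | zero => rfl
      | succ k ih =>
        rw [pow_succ', Module.End.mul_apply, ih, pow_succ', Module.End.mul_apply, Dl_apply,
          Dl_apply, hc _ (isParabolic_Dl_pow hℓ hℓN₁ a k h1), map_sub, map_smul]
    rw [key]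
    exact map_mem_Mval Φ hn

/-- The Betti lattice is saturated. -/
theorem inBetti_of_smul {N : ℕ} [NeZero N] {S : Set ℕ}
    {θ : CuspForm.heckeAlgebra N 2 S →+* ResidueField 𝒪} {Sig : Finset ℕ}
    {ϖ : 𝒪} (hϖ : Irreducible ϖ) (j : ℕ) {φ : Additive (Gamma0 N) →+ 𝒪}
    (h : InBetti 𝒪 N S θ Sig (ϖ ^ j • φ)) : InBetti 𝒪 N S θ Sig φ := by
  have hc : ϖ ^ j ≠ 0 := pow_ne_zero j hϖ.ne_zero
  rw [inBetti_iff] at h ⊢
  obtain ⟨h1, h2, h3⟩ := h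
  refine ⟨?_, ?_, ?_⟩
  · intro γ hγ
    have := h1 γ hγ
    exact (mul_eq_zero.mp this).resolve_left hc
  · intro r hr hrN
    have := h2 r hr hrN
    rw [← UBl_apply, map_smul, UBl_apply] at this
    exact smul_left_inj' hc (this.trans (smul_zero _).symm)
  · intro ℓ hℓ hℓN hℓS a ha m
    obtain ⟨n, hn⟩ := h3 ℓ hℓ hℓN hℓS a ha (m + j)
    refine ⟨n, ?_⟩
    rw [map_smul] at hn
    exact mem_Mval_of_smul hϖ hn

/-- Division by `ϖ^m` in the Betti lattice. -/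
theorem exists_inBetti_smul {N : ℕ} [NeZero N] {S : Set ℕ}
    {θ : CuspForm.heckeAlgebra N 2 S →+* ResidueField 𝒪} {Sig : Finset ℕ}
    {ϖ : 𝒪} (hϖ : Irreducible ϖ) {m : ℕ} {φ : Additive (Gamma0 N) →+ 𝒪}
    (h : InBetti 𝒪 N S θ Sig φ) (hm : φ ∈ Mval 𝒪 (Additive (Gamma0 N)) m) :
    ∃ φ', φ = ϖ ^ m • φ' ∧ InBetti 𝒪 N S θ Sig φ' := by
  obtain ⟨φ', rfl⟩ := (mem_Mval_iff_exists hϖ).mp hm
  exact ⟨φ', rfl, inBetti_of_smul hϖ m h⟩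

/-- Locality for one lift of the eigenvalue gives locality for every lift. -/
theorem loc_of_loc {N : ℕ} {ℓ : ℕ} (hℓ : ℓ.Prime) (hℓN : ¬ ℓ ∣ N) {a a₀ : 𝒪}
    (ha : a₀ - a ∈ maximalIdeal 𝒪) {φ : Additive (Gamma0 N) →+ 𝒪}
    (h : Loc N hℓ hℓN a₀ φ) : Loc N hℓ hℓN a φ := by
  intro m
  obtain ⟨n₀, hn₀⟩ := h m
  refine ⟨n₀ + m, ?_⟩
  have hD : Dl 𝒪 N hℓ hℓN a = Dl 𝒪 N hℓ hℓN a₀ + (a₀ - a) • 1 := by
    apply LinearMap.ext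
    intro ψ
    simp only [Dl, LinearMap.sub_apply, LinearMap.add_apply, LinearMap.smul_apply,
      Module.End.one_apply, sub_smul]
    abel
  set D₀ := Dl 𝒪 N hℓ hℓN a₀ with hD₀
  set c : 𝒪 := a₀ - a with hcdef
  have hcomm : Commute D₀ (c • (1 : Module.End 𝒪 (Additive (Gamma0 N) →+ 𝒪))) := by
    rw [Algebra.smul_def, mul_one]
    exact (Algebra.commutes c D₀).symm
  rw [hD, hcomm.add_pow, LinearMap.sum_apply]
  refine Submodule.sum_mem _ fun k hk => ?_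
  rw [Module.End.mul_apply, Module.End.mul_apply]
  by_cases hkn : n₀ ≤ k
  · -- `D₀^k` applied to something: write `k = (k - n₀) + n₀`
    have h1 : ∀ ψ : Additive (Gamma0 N) →+ 𝒪,
        ((c • (1 : Module.End 𝒪 (Additive (Gamma0 N) →+ 𝒪))) ^ (n₀ + m - k)) ψ =
          c ^ (n₀ + m - k) • ψ := by
      intro ψ
      rw [_root_.smul_pow, one_pow, LinearMap.smul_apply, Module.End.one_apply]
    have h2 : ∀ ψ : Additive (Gamma0 N) →+ 𝒪,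
        (((n₀ + m).choose k : ℕ) : Module.End 𝒪 (Additive (Gamma0 N) →+ 𝒪)) ψ =
          ((n₀ + m).choose k : 𝒪) • ψ := by
      intro ψ
      have : (((n₀ + m).choose k : ℕ) : Module.End 𝒪 (Additive (Gamma0 N) →+ 𝒪)) =
          ((n₀ + m).choose k : 𝒪) • (1 : Module.End 𝒪 (Additive (Gamma0 N) →+ 𝒪)) := by
        rw [Nat.cast_smul_eq_nsmul, nsmul_eq_mul, mul_one]
      rw [this, LinearMap.smul_apply, Module.End.one_apply]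
    rw [h2, h1, map_smul, map_smul]
    refine Submodule.smul_mem _ _ (Submodule.smul_mem _ _ ?_)
    have : k = (k - n₀) + n₀ := (Nat.sub_add_cancel hkn).symm
    rw [this, pow_add, Module.End.mul_apply]
    exact map_mem_Mval _ hn₀
  · have hlt : m ≤ n₀ + m - k := by omega
    have h1 : ∀ ψ : Additive (Gamma0 N) →+ 𝒪,
        ((c • (1 : Module.End 𝒪 (Additive (Gamma0 N) →+ 𝒪))) ^ (n₀ + m - k)) ψ =
          c ^ (n₀ + m - k) • ψ := by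
      intro ψ
      rw [_root_.smul_pow, one_pow, LinearMap.smul_apply, Module.End.one_apply]
    rw [h1, map_smul]
    exact smul_mem_Mval (Ideal.pow_le_pow_right hlt (Ideal.pow_mem_pow ha _)) _

end Loc

end Fermat.Agent.S59.NonMin.Geom.H48
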