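import Mathlib
import Fermat.Agent.S59.LL.SQ.H40_EigAbs

/-!
# S59 / NMGEOM + PGEOM, shared lemma COMMON-EIGEN (helper53)

Pure algebra (Mathlib + `LL.SQ.H40.exists_common_kernel_of_nilpotent`).

* `exists_common_kernel_in` : a commuting family of nilpotent endomorphisms of a finite
  dimensional vector space has a common kernel vector in every nonzero stable subspace;
* `exists_common_eigen_mod` : let `W` be a finite module over a local ring `𝒪`, `U i` a family
  of endomorphisms which commute modulo `𝔪 W` and are nilpotent modulo `𝔪 W`, `K ⊆ W` a stable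
  submodule not contained in `𝔪 W`; then there is `w ∈ K`, `w ∉ 𝔪 W`, with `U i w ∈ 𝔪 W` for all
  `i`.  [Use: `U i := T_ℓ - a_ℓ`, `K` := the kernel of the level raising map modulo `𝔪`: a common
  eigenvector modulo `𝔪` in the kernel, to which Ihara's lemma applies.]

No `sorry`.
-/

set_option autoImplicit false

open IsLocalRing

namespace Fermat.Agent.S59.NonMin.Geom.H53

/-- A commuting family of nilpotent endomorphisms of a finite-dimensional space has a common
kernel vector in every nonzero stable subspace. -/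
theorem exists_common_kernel_in {k : Type*} [Field k] {ι : Type*} {M : Type*} [AddCommGroup M]
    [Module k M] [FiniteDimensional k M] (U : ι → Module.End k M)
    (hcomm : ∀ i j, Commute (U i) (U j)) (hnil : ∀ i, IsNilpotent (U i))
    (K : Submodule k M) (hK : ∀ i, ∀ x ∈ K, U i x ∈ K) (hne : K ≠ ⊥) :
    ∃ m ∈ K, m ≠ 0 ∧ ∀ i, U i m = 0 := by
  have hfr : Module.finrank k K ≠ 0 := by
    intro h
    exact hne (Submodule.finrank_eq_zero.mp h)
  let U' : ι → Module.End k K := fun i => (U i).restrict (hK i)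
  have hcomm' : ∀ i j, Commute (U' i) (U' j) := by
    intro i j
    apply LinearMap.ext
    intro x
    apply Subtype.ext
    show U i (U j x) = U j (U i x)
    have := (hcomm i j).eq
    calc U i (U j x) = (U i * U j) x := rfl
      _ = (U j * U i) x := by rw [this]
      _ = U j (U i x) := rfl
  have hnil' : ∀ i, IsNilpotent (U' i) := by
    intro i
    obtain ⟨d, hd⟩ := hnil i
    refine ⟨d, ?_⟩
    apply LinearMap.ext
    intro x
    apply Subtype.ext
    have h1 : ∀ (e : ℕ) (y : K), (((U' i) ^ e) y : M) = ((U i) ^ e) (y : M) := by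
      intro e
      induction e with
      | zero => intro y; rfl
      | succ e ihe =>
        intro y
        rw [pow_succ, pow_succ, Module.End.mul_apply, Module.End.mul_apply, ihe]
        rfl
    rw [h1, hd]
    rfl
  obtain ⟨m, hm0, hm⟩ := Fermat.Agent.S59.LL.SQ.H40.exists_common_kernel_of_nilpotent
    (Module.finrank k K) K U' rfl hfr hcomm' hnil'
  exact ⟨m, m.2, fun h => hm0 (Subtype.ext h), fun i => congrArg Subtype.val (hm i)⟩

section Mod

variable {𝒪 : Type*} [CommRing 𝒪] [IsLocalRing 𝒪]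
  {W : Type*} [AddCommGroup W] [Module 𝒪 W] [Module.Finite 𝒪 W]

/-- **A common eigenvector modulo the maximal ideal** in a stable submodule. -/
theorem exists_common_eigen_mod {ι : Type*} (U : ι → Module.End 𝒪 W)
    (hcomm : ∀ i j w, U i (U j w) - U j (U i w) ∈ (maximalIdeal 𝒪 • ⊤ : Submodule 𝒪 W))
    (hnil : ∀ i, ∃ m : ℕ, ∀ w, ((U i) ^ m) w ∈ (maximalIdeal 𝒪 • ⊤ : Submodule 𝒪 W))
    (K : Submodule 𝒪 W) (hK : ∀ i, ∀ w ∈ K, U i w ∈ K)
    (hne : ¬ K ≤ (maximalIdeal 𝒪 • ⊤ : Submodule 𝒪 W)) :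
    ∃ w ∈ K, w ∉ (maximalIdeal 𝒪 • ⊤ : Submodule 𝒪 W) ∧
      ∀ i, U i w ∈ (maximalIdeal 𝒪 • ⊤ : Submodule 𝒪 W) := by
  classical
  set I : Ideal 𝒪 := maximalIdeal 𝒪 with hI
  set P : Submodule 𝒪 W := I • ⊤ with hP
  letI : Field (𝒪 ⧸ I) := Ideal.Quotient.field I
  have hsurj : Function.Surjective (algebraMap 𝒪 (𝒪 ⧸ I)) := Ideal.Quotient.mk_surjective
  haveI : Module.Finite (𝒪 ⧸ I) (W ⧸ P) := Module.Finite.of_restrictScalars_finite 𝒪 _ _
  -- the operators on the quotient
  let Ub : ι → Module.End (𝒪 ⧸ I) (W ⧸ P) := fun i =>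
    LinearMap.extendScalarsOfSurjective hsurj
      (Submodule.mapQ P P (U i) (Submodule.smul_top_le_comap_smul_top I (U i)))
  have hUb : ∀ i w, Ub i (Submodule.Quotient.mk w) = Submodule.Quotient.mk (U i w) := by
    intro i w
    rfl
  have hUbpow : ∀ i (e : ℕ) w,
      ((Ub i) ^ e) (Submodule.Quotient.mk w) = Submodule.Quotient.mk (((U i) ^ e) w) := by
    intro i e
    induction e with
    | zero => intro w; rfl
    | succ e ihe =>
      intro w
      rw [pow_succ, pow_succ, Module.End.mul_apply, Module.End.mul_apply, hUb, ihe]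
  have hcommb : ∀ i j, Commute (Ub i) (Ub j) := by
    intro i j
    apply LinearMap.ext
    intro x
    obtain ⟨w, rfl⟩ := Submodule.Quotient.mk_surjective P x
    rw [Module.End.mul_apply, Module.End.mul_apply, hUb, hUb, hUb, hUb,
      Submodule.Quotient.eq]
    exact hcomm i j w
  have hnilb : ∀ i, IsNilpotent (Ub i) := by
    intro i
    obtain ⟨m, hm⟩ := hnil i
    refine ⟨m, ?_⟩
    apply LinearMap.ext
    intro x
    obtain ⟨w, rfl⟩ := Submodule.Quotient.mk_surjective P x
    rw [hUbpow, LinearMap.zero_apply, Submodule.Quotient.mk_eq_zero]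
    exact hm w
  -- the image of `K`
  let Kb : Submodule (𝒪 ⧸ I) (W ⧸ P) :=
    { carrier := {x | ∃ w ∈ K, Submodule.Quotient.mk w = x}
      add_mem' := by
        rintro _ _ ⟨w, hw, rfl⟩ ⟨w', hw', rfl⟩
        exact ⟨w + w', K.add_mem hw hw', rfl⟩
      zero_mem' := ⟨0, K.zero_mem, rfl⟩
      smul_mem' := by
        rintro c _ ⟨w, hw, rfl⟩
        obtain ⟨c, rfl⟩ := Ideal.Quotient.mk_surjective c
        exact ⟨c • w, K.smul_mem c hw, rfl⟩ }
  have hKb : ∀ i, ∀ x ∈ Kb, Ub i x ∈ Kb := by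
    rintro i _ ⟨w, hw, rfl⟩
    exact ⟨U i w, hK i w hw, (hUb i w).symm⟩
  have hKbne : Kb ≠ ⊥ := by
    intro h
    apply hne
    intro w hw
    have h1 : (Submodule.Quotient.mk w : W ⧸ P) ∈ Kb := ⟨w, hw, rfl⟩
    rw [h, Submodule.mem_bot, Submodule.Quotient.mk_eq_zero] at h1
    exact h1
  obtain ⟨x, ⟨w, hw, rfl⟩, hx0, hx⟩ := exists_common_kernel_in Ub hcommb hnilb Kb hKb hKbne
  refine ⟨w, hw, ?_, ?_⟩
  · intro h
    exact hx0 ((Submodule.Quotient.mk_eq_zero P).mpr h)
  · intro i
    have := hx i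
    rw [hUb, Submodule.Quotient.mk_eq_zero] at this
    exact this

end Mod

end Fermat.Agent.S59.NonMin.Geom.H53
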