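import Mathlib

/-!
# S59 NMGEOM, leaf BM: the generic algebra (helper61)

Pure algebra (Mathlib only).  Let `𝒪` be a discrete valuation ring, `P` a finite free
`𝒪`-module with an action `η₀ : R →+* End P` of a commutative ring `R`, `θ : R →+* k` a character
with values in the residue field, `G ⊆ R` a set of generators and `K ⊆ P` a saturated stable
submodule.

* `NilMod f`        : `f` is nilpotent modulo the maximal ideal;
* `locSub K η₀ θ G` : the vectors `v ∈ K` with `(η₀ g - a)^n v → 0` for all `g ∈ G` and all lifts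
                      `a` of `θ g`;
* `locSub_stable`, `locSub_sat` : it is stable and saturated;
* `restrictHom`     : the restricted action;
* `locSub_local`    : `η t - a` is nilpotent modulo the maximal ideal on `locSub`, for ALL `t`;
* `local_shift`     : locality does not depend on the lift.
-/

set_option autoImplicit false

open IsLocalRing

namespace Fermat.Agent.S59.NonMin.Geom.H61

section Basic

variable {𝒪 : Type*} [CommRing 𝒪] {P : Type*} [AddCommGroup P] [Module 𝒪 P]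

/-- `I • ⊤` is stable under endomorphisms. -/
theorem map_mem_smul_top (I : Ideal 𝒪) (f : Module.End 𝒪 P) {x : P}
    (hx : x ∈ (I • ⊤ : Submodule 𝒪 P)) : f x ∈ (I • ⊤ : Submodule 𝒪 P) := by
  have h : (I • ⊤ : Submodule 𝒪 P).map f ≤ I • ⊤ := by
    rw [Submodule.map_smul'']
    exact Submodule.smul_mono le_rfl le_top
  exact h (Submodule.mem_map_of_mem hx)

theorem pow_mem_smul_top_of_le (I : Ideal 𝒪) (f : Module.End 𝒪 P) {x : P} {n n' : ℕ}
    (h : n ≤ n') (hx : (f ^ n) x ∈ (I • ⊤ : Submodule 𝒪 P)) :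
    (f ^ n') x ∈ (I • ⊤ : Submodule 𝒪 P) := by
  obtain ⟨d, rfl⟩ := Nat.exists_eq_add_of_le h
  rw [add_comm, pow_add, Module.End.mul_apply]
  exact map_mem_smul_top I _ hx

/-- `I^m • ⊤` decreases with `m`. -/
theorem pow_smul_top_anti (I : Ideal 𝒪) {m m' : ℕ} (h : m ≤ m') :
    (I ^ m' • ⊤ : Submodule 𝒪 P) ≤ I ^ m • ⊤ :=
  Submodule.smul_mono_left (Ideal.pow_le_pow_right h)

/-- Two endomorphisms, one of `P` and one of a submodule, which agree, have the same powers. -/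
theorem coe_pow_of_coe {V : Submodule 𝒪 P} (F : Module.End 𝒪 V) (F₀ : Module.End 𝒪 P)
    (h : ∀ v : V, ((F v : V) : P) = F₀ v) (n : ℕ) (v : V) :
    (((F ^ n) v : V) : P) = (F₀ ^ n) v := by
  induction n generalizing v with
  | zero => simp
  | succ n ih =>
    rw [pow_succ, pow_succ, Module.End.mul_apply, Module.End.mul_apply, ih, h]

end Basic

section NilMod

variable {𝒪 : Type*} [CommRing 𝒪] [IsLocalRing 𝒪] {P : Type*} [AddCommGroup P] [Module 𝒪 P]

/-- `f` is nilpotent modulo the maximal ideal. -/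
def NilMod (f : Module.End 𝒪 P) : Prop :=
  ∃ m : ℕ, ∀ v : P, (f ^ m) v ∈ (maximalIdeal 𝒪 • ⊤ : Submodule 𝒪 P)

theorem nilMod_smul_one {c : 𝒪} (hc : c ∈ maximalIdeal 𝒪) :
    NilMod (c • (1 : Module.End 𝒪 P)) :=
  ⟨1, fun v => by
    rw [pow_one, LinearMap.smul_apply, Module.End.one_apply]
    exact Submodule.smul_mem_smul hc Submodule.mem_top⟩

theorem NilMod.mul_left {f g : Module.End 𝒪 P} (hf : NilMod f) (h : Commute g f) :
    NilMod (g * f) := by
  obtain ⟨m, hm⟩ := hf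
  refine ⟨m, fun v => ?_⟩
  rw [h.mul_pow, Module.End.mul_apply]
  exact map_mem_smul_top _ _ (hm v)

theorem NilMod.smul {f : Module.End 𝒪 P} (hf : NilMod f) (c : 𝒪) : NilMod (c • f) := by
  obtain ⟨m, hm⟩ := hf
  refine ⟨m, fun v => ?_⟩
  rw [smul_pow, LinearMap.smul_apply]
  exact Submodule.smul_mem _ _ (hm v)

theorem NilMod.add {f g : Module.End 𝒪 P} (hf : NilMod f) (hg : NilMod g) (h : Commute f g) :
    NilMod (f + g) := by
  obtain ⟨m, hm⟩ := hf
  obtain ⟨n, hn⟩ := hg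
  refine ⟨m + n, fun v => ?_⟩
  rw [h.add_pow', LinearMap.sum_apply]
  refine Submodule.sum_mem _ fun ij hij => ?_
  rw [LinearMap.smul_apply]
  refine Submodule.smul_of_tower_mem _ _ ?_
  rw [Module.End.mul_apply]
  have hsum : ij.1 + ij.2 = m + n := Finset.HasAntidiagonal.mem_antidiagonal.mp hij
  by_cases hi : m ≤ ij.1
  · exact pow_mem_smul_top_of_le _ f hi (hm _)
  · have hj : n ≤ ij.2 := by omega
    exact map_mem_smul_top _ _ (pow_mem_smul_top_of_le _ g hj (hn v))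

/-- Locality does not depend on the lift: if `f^n x → 0` and `c ∈ 𝔪` then `(f + c)^n x → 0`. -/
theorem local_shift (f : Module.End 𝒪 P) {c : 𝒪} (hc : c ∈ maximalIdeal 𝒪) (x : P)
    (hx : ∀ m : ℕ, ∃ n : ℕ, (f ^ n) x ∈ (maximalIdeal 𝒪 ^ m • ⊤ : Submodule 𝒪 P)) (m : ℕ) :
    ∃ n : ℕ, ((f + c • (1 : Module.End 𝒪 P)) ^ n) x ∈
      (maximalIdeal 𝒪 ^ m • ⊤ : Submodule 𝒪 P) := by
  obtain ⟨n₀, hn₀⟩ := hx m
  refine ⟨n₀ + m, ?_⟩
  have hcomm : Commute f (c • (1 : Module.End 𝒪 P)) := (Commute.one_right f).smul_right c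
  rw [hcomm.add_pow', LinearMap.sum_apply]
  refine Submodule.sum_mem _ fun ij hij => ?_
  rw [LinearMap.smul_apply]
  refine Submodule.smul_of_tower_mem _ _ ?_
  rw [Module.End.mul_apply]
  have hsum : ij.1 + ij.2 = n₀ + m := Finset.HasAntidiagonal.mem_antidiagonal.mp hij
  by_cases hi : n₀ ≤ ij.1
  · have h1 : ((c • (1 : Module.End 𝒪 P)) ^ ij.2) x = c ^ ij.2 • x := by
      rw [smul_pow, one_pow, LinearMap.smul_apply, Module.End.one_apply]
    rw [h1, map_smul]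
    exact Submodule.smul_mem _ _ (pow_mem_smul_top_of_le _ f hi hn₀)
  · have hj : m ≤ ij.2 := by omega
    have h1 : ((c • (1 : Module.End 𝒪 P)) ^ ij.2) x = c ^ ij.2 • x := by
      rw [smul_pow, one_pow, LinearMap.smul_apply, Module.End.one_apply]
    rw [h1]
    apply map_mem_smul_top
    exact Submodule.smul_mem_smul (Ideal.pow_le_pow_right hj (Ideal.pow_mem_pow hc _))
      Submodule.mem_top

end NilMod

section Restrict

variable {𝒪 : Type*} [CommRing 𝒪] {P : Type*} [AddCommGroup P] [Module 𝒪 P]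
  {R : Type*} [Ring R]

/-- The restriction of an action to a stable submodule. -/
def restrictHom (V : Submodule 𝒪 P) (η₀ : R →+* Module.End 𝒪 P)
    (h : ∀ t, ∀ v ∈ V, η₀ t v ∈ V) : R →+* Module.End 𝒪 V where
  toFun t := (η₀ t).restrict (h t)
  map_one' := by
    ext v
    simp
  map_mul' x y := by
    ext v
    simp
  map_zero' := by
    ext v
    simp
  map_add' x y := by
    ext v
    simp

@[simp] theorem coe_restrictHom (V : Submodule 𝒪 P) (η₀ : R →+* Module.End 𝒪 P)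
    (h : ∀ t, ∀ v ∈ V, η₀ t v ∈ V) (t : R) (v : V) :
    ((restrictHom V η₀ h t v : V) : P) = η₀ t v := rfl

end Restrict

section DVR

variable {𝒪 : Type*} [CommRing 𝒪] [IsDomain 𝒪] [IsDiscreteValuationRing 𝒪]
  {P : Type*} [AddCommGroup P] [Module 𝒪 P]

/-- Membership in `𝔪^m • ⊤` over a discrete valuation ring with uniformiser `ϖ`. -/
theorem mem_pow_smul_top_iff {ϖ : 𝒪} (hϖ : Irreducible ϖ) (m : ℕ) (x : P) :
    x ∈ (maximalIdeal 𝒪 ^ m • ⊤ : Submodule 𝒪 P) ↔ ∃ y : P, ϖ ^ m • y = x := by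
  rw [hϖ.maximalIdeal_eq, Ideal.span_singleton_pow, Submodule.ideal_span_singleton_smul,
    Submodule.mem_smul_pointwise_iff_exists]
  simp

theorem mem_smul_top_iff {ϖ : 𝒪} (hϖ : Irreducible ϖ) (x : P) :
    x ∈ (maximalIdeal 𝒪 • ⊤ : Submodule 𝒪 P) ↔ ∃ y : P, ϖ • y = x := by
  have := mem_pow_smul_top_iff (P := P) hϖ 1 x
  rwa [pow_one, pow_one] at this

end DVR

section Loc

variable {𝒪 : Type*} [CommRing 𝒪] [IsDomain 𝒪] [IsDiscreteValuationRing 𝒪]
  {P : Type*} [AddCommGroup P] [Module 𝒪 P]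
  {R : Type*} [CommRing R]

/-- The `θ`-local part of `K`: the vectors `v ∈ K` such that `(η₀ g - a)^n v → 0` for all
`g ∈ G` and all lifts `a` of `θ g`. -/
def locSub (K : Submodule 𝒪 P) (η₀ : R →+* Module.End 𝒪 P) (θ : R →+* ResidueField 𝒪)
    (G : Set R) : Submodule 𝒪 P where
  carrier := {v | v ∈ K ∧ ∀ g ∈ G, ∀ a : 𝒪, residue 𝒪 a = θ g → ∀ m : ℕ, ∃ n : ℕ,
    ((η₀ g - a • (1 : Module.End 𝒪 P)) ^ n) v ∈ (maximalIdeal 𝒪 ^ m • ⊤ : Submodule 𝒪 P)}
  add_mem' := by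
    rintro v w ⟨hv, hv'⟩ ⟨hw, hw'⟩
    refine ⟨K.add_mem hv hw, fun g hg a ha m => ?_⟩
    obtain ⟨n₁, h₁⟩ := hv' g hg a ha m
    obtain ⟨n₂, h₂⟩ := hw' g hg a ha m
    refine ⟨max n₁ n₂, ?_⟩
    rw [map_add]
    exact Submodule.add_mem _ (pow_mem_smul_top_of_le _ _ (le_max_left _ _) h₁)
      (pow_mem_smul_top_of_le _ _ (le_max_right _ _) h₂)
  zero_mem' := ⟨K.zero_mem, fun g _ a _ m => ⟨0, by simp⟩⟩
  smul_mem' := by
    rintro c v ⟨hv, hv'⟩
    refine ⟨K.smul_mem c hv, fun g hg a ha m => ?_⟩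
    obtain ⟨n, hn⟩ := hv' g hg a ha m
    exact ⟨n, by rw [map_smul]; exact Submodule.smul_mem _ _ hn⟩

theorem mem_locSub {K : Submodule 𝒪 P} {η₀ : R →+* Module.End 𝒪 P}
    {θ : R →+* ResidueField 𝒪} {G : Set R} {v : P} :
    v ∈ locSub K η₀ θ G ↔ v ∈ K ∧ ∀ g ∈ G, ∀ a : 𝒪, residue 𝒪 a = θ g → ∀ m : ℕ, ∃ n : ℕ,
      ((η₀ g - a • (1 : Module.End 𝒪 P)) ^ n) v ∈
        (maximalIdeal 𝒪 ^ m • ⊤ : Submodule 𝒪 P) := Iff.rfl

theorem commute_sub_smul (η₀ : R →+* Module.End 𝒪 P) (x y : R) (a b : 𝒪) :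
    Commute (η₀ x - a • (1 : Module.End 𝒪 P)) (η₀ y - b • (1 : Module.End 𝒪 P)) := by
  have h1 : Commute (η₀ x) (η₀ y) := (Commute.all x y).map η₀
  have h2 : ∀ (f : Module.End 𝒪 P) (c : 𝒪), Commute f (c • (1 : Module.End 𝒪 P)) :=
    fun f c => (Commute.one_right f).smul_right c
  exact (h1.sub_right (h2 _ _)).sub_left ((h2 _ _).symm)

theorem commute_map_sub_smul (η₀ : R →+* Module.End 𝒪 P) (x y : R) (b : 𝒪) :
    Commute (η₀ x) (η₀ y - b • (1 : Module.End 𝒪 P)) :=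
  ((Commute.all x y).map η₀).sub_right ((Commute.one_right _).smul_right b)

/-- `locSub` is stable under the action. -/
theorem locSub_stable {K : Submodule 𝒪 P} {η₀ : R →+* Module.End 𝒪 P}
    {θ : R →+* ResidueField 𝒪} {G : Set R} (hK : ∀ t, ∀ v ∈ K, η₀ t v ∈ K) (t : R) :
    ∀ v ∈ locSub K η₀ θ G, η₀ t v ∈ locSub K η₀ θ G := by
  rintro v ⟨hv, hv'⟩
  refine ⟨hK t v hv, fun g hg a ha m => ?_⟩
  obtain ⟨n, hn⟩ := hv' g hg a ha m
  refine ⟨n, ?_⟩
  have hc : Commute (η₀ t) ((η₀ g - a • (1 : Module.End 𝒪 P)) ^ n) :=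
    (commute_map_sub_smul η₀ t g a).pow_right n
  have h1 : ((η₀ g - a • (1 : Module.End 𝒪 P)) ^ n) (η₀ t v)
      = η₀ t (((η₀ g - a • (1 : Module.End 𝒪 P)) ^ n) v) := by
    rw [← Module.End.mul_apply, ← Module.End.mul_apply, hc.eq]
  rw [h1]
  exact map_mem_smul_top _ _ hn

variable [Module.IsTorsionFree 𝒪 P]

/-- `locSub` is saturated. -/
theorem locSub_sat {K : Submodule 𝒪 P} {η₀ : R →+* Module.End 𝒪 P}
    {θ : R →+* ResidueField 𝒪} {G : Set R} {ϖ : 𝒪} (hϖ : Irreducible ϖ)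
    (hK : ∀ v : P, ϖ • v ∈ K → v ∈ K) (v : P) (hv : ϖ • v ∈ locSub K η₀ θ G) :
    v ∈ locSub K η₀ θ G := by
  obtain ⟨hv1, hv2⟩ := hv
  refine ⟨hK v hv1, fun g hg a ha m => ?_⟩
  obtain ⟨n, hn⟩ := hv2 g hg a ha (m + 1)
  refine ⟨n, ?_⟩
  rw [mem_pow_smul_top_iff hϖ] at hn ⊢
  obtain ⟨y, hy⟩ := hn
  refine ⟨y, ?_⟩
  rw [map_smul, pow_succ, mul_comm, mul_smul] at hy
  exact smul_right_injective P hϖ.ne_zero hy

end Loc

section Stable

variable {𝒪 : Type*} [CommRing 𝒪] {P : Type*} [AddCommGroup P] [Module 𝒪 P]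
  {R : Type*} [CommRing R]

/-- A submodule stable under the generators is stable. -/
theorem stable_of_gen {K : Submodule 𝒪 P} {η₀ : R →+* Module.End 𝒪 P} {G : Set R}
    (hG : Algebra.adjoin ℤ G = ⊤) (h : ∀ g ∈ G, ∀ v ∈ K, η₀ g v ∈ K) (t : R) :
    ∀ v ∈ K, η₀ t v ∈ K := by
  have ht : t ∈ Algebra.adjoin ℤ G := by rw [hG]; exact Algebra.mem_top
  induction ht using Algebra.adjoin_induction with
  | mem x hx => exact h x hx
  | algebraMap n =>
    intro v hv
    rw [eq_intCast (algebraMap ℤ R) n, map_intCast]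
    have h1 : ((n : Module.End 𝒪 P)) v = n • v := by
      rw [← zsmul_one, LinearMap.smul_apply, Module.End.one_apply]
    rw [h1]
    exact K.smul_of_tower_mem n hv
  | add x y _ _ hx hy =>
    intro v hv
    rw [map_add, LinearMap.add_apply]
    exact K.add_mem (hx v hv) (hy v hv)
  | mul x y _ _ hx hy =>
    intro v hv
    rw [map_mul, Module.End.mul_apply]
    exact hx _ (hy v hv)

end Stable

section Aux

variable {𝒪 : Type*} [CommRing 𝒪] {E : Type*} [Ring E] [Algebra 𝒪 E]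

theorem aux_int (n : ℤ) (a : 𝒪) : (n : E) - a • (1 : E) = (((n : 𝒪)) - a) • (1 : E) := by
  rw [sub_smul, Int.cast_smul_eq_zsmul 𝒪 n (1 : E), zsmul_eq_mul, mul_one]

theorem aux_add (f g : E) (a ax : 𝒪) :
    f + g - a • (1 : E) = (f - ax • (1 : E)) + (g - (a - ax) • (1 : E)) := by
  rw [sub_smul]
  abel

theorem aux_mul (f g : E) (a ax ay : 𝒪) :
    f * g - a • (1 : E) = (f * (g - ay • (1 : E)) + ay • (f - ax • (1 : E)))
      + (ax * ay - a) • (1 : E) := by
  rw [mul_sub, mul_smul_comm, mul_one, smul_sub, smul_smul, sub_smul, mul_comm ay ax]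
  abel

end Aux

section Local

variable {𝒪 : Type*} [CommRing 𝒪] [IsDomain 𝒪] [IsDiscreteValuationRing 𝒪]
  {P : Type*} [AddCommGroup P] [Module 𝒪 P] [Module.Finite 𝒪 P] [Module.IsTorsionFree 𝒪 P]
  {R : Type*} [CommRing R]

/-- On `locSub` the operators `η g - a`, `g ∈ G`, are nilpotent modulo the maximal ideal. -/
theorem nilMod_gen {K : Submodule 𝒪 P} {η₀ : R →+* Module.End 𝒪 P}
    {θ : R →+* ResidueField 𝒪} {G : Set R} {ϖ : 𝒪} (hϖ : Irreducible ϖ)
    (hKst : ∀ t, ∀ v ∈ K, η₀ t v ∈ K) (hKsat : ∀ v : P, ϖ • v ∈ K → v ∈ K)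
    {g : R} (hg : g ∈ G) (a : 𝒪) (ha : residue 𝒪 a = θ g) :
    NilMod (restrictHom (locSub K η₀ θ G) η₀ (locSub_stable hKst) g -
      a • (1 : Module.End 𝒪 (locSub K η₀ θ G))) := by
  classical
  set V := locSub K η₀ θ G with hV
  set F : Module.End 𝒪 V := restrictHom V η₀ (locSub_stable hKst) g -
    a • (1 : Module.End 𝒪 V) with hF
  set F₀ : Module.End 𝒪 P := η₀ g - a • (1 : Module.End 𝒪 P) with hF₀
  have hFF : ∀ v : V, ((F v : V) : P) = F₀ v := fun v => rfl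
  have hpt : ∀ v : V, ∃ n : ℕ, (F ^ n) v ∈ (maximalIdeal 𝒪 • ⊤ : Submodule 𝒪 V) := by
    intro v
    obtain ⟨n, hn⟩ := v.2.2 g hg a ha 1
    refine ⟨n, ?_⟩
    rw [pow_one, mem_smul_top_iff hϖ] at hn
    obtain ⟨y, hy⟩ := hn
    have hyV : y ∈ V := by
      apply locSub_sat hϖ hKsat
      rw [hy, ← coe_pow_of_coe F F₀ hFF n v]
      exact ((F ^ n) v).2
    rw [mem_smul_top_iff hϖ]
    refine ⟨⟨y, hyV⟩, Subtype.ext ?_⟩
    rw [Submodule.coe_smul, coe_pow_of_coe F F₀ hFF n v]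
    exact hy
  choose n hn using hpt
  obtain ⟨s, hs⟩ := (Module.Finite.fg_top : (⊤ : Submodule 𝒪 V).FG)
  refine ⟨s.sup n, fun v => ?_⟩
  have hle : Submodule.span 𝒪 (s : Set V) ≤
      Submodule.comap (F ^ s.sup n) (maximalIdeal 𝒪 • ⊤ : Submodule 𝒪 V) := by
    rw [Submodule.span_le]
    intro x hx
    exact pow_mem_smul_top_of_le _ F (Finset.le_sup (f := n) hx) (hn x)
  rw [hs] at hle
  exact hle Submodule.mem_top

/-- **Locality**: on `locSub` every operator `η t - a` (`a` a lift of `θ t`) is nilpotent modulo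
the maximal ideal, if `G` generates `R`. -/
theorem locSub_local {K : Submodule 𝒪 P} {η₀ : R →+* Module.End 𝒪 P}
    {θ : R →+* ResidueField 𝒪} {G : Set R} (hG : Algebra.adjoin ℤ G = ⊤) {ϖ : 𝒪}
    (hϖ : Irreducible ϖ)
    (hKst : ∀ t, ∀ v ∈ K, η₀ t v ∈ K) (hKsat : ∀ v : P, ϖ • v ∈ K → v ∈ K)
    (t : R) (a : 𝒪) (ha : residue 𝒪 a = θ t) :
    ∃ m : ℕ, ∀ v : locSub K η₀ θ G,
      ((restrictHom (locSub K η₀ θ G) η₀ (locSub_stable hKst) t -
        a • (1 : Module.End 𝒪 (locSub K η₀ θ G))) ^ m) v ∈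
        (maximalIdeal 𝒪 • ⊤ : Submodule 𝒪 (locSub K η₀ θ G)) := by
  set V := locSub K η₀ θ G with hV
  set η : R →+* Module.End 𝒪 V := restrictHom V η₀ (locSub_stable hKst) with hη
  suffices h : ∀ t : R, ∀ a : 𝒪, residue 𝒪 a = θ t →
      NilMod (η t - a • (1 : Module.End 𝒪 V)) from h t a ha
  intro t
  have ht : t ∈ Algebra.adjoin ℤ G := by rw [hG]; exact Algebra.mem_top
  induction ht using Algebra.adjoin_induction with
  | mem x hx => exact fun a ha => nilMod_gen hϖ hKst hKsat hx a ha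
  | algebraMap n =>
    intro a ha
    have h1 : η (algebraMap ℤ R n) - a • (1 : Module.End 𝒪 V)
        = (((n : 𝒪)) - a) • (1 : Module.End 𝒪 V) := by
      rw [eq_intCast (algebraMap ℤ R) n, map_intCast]
      exact aux_int n a
    have h2 : ((n : 𝒪)) - a ∈ maximalIdeal 𝒪 := by
      rw [← residue_eq_zero_iff, map_sub, ha, eq_intCast (algebraMap ℤ R) n, map_intCast,
        map_intCast, sub_self]
    rw [h1]
    exact nilMod_smul_one h2
  | add x y _ _ hx hy =>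
    intro a ha
    obtain ⟨ax, hax⟩ := residue_surjective (θ x)
    have hay : residue 𝒪 (a - ax) = θ y := by
      rw [map_sub, ha, hax, map_add, add_sub_cancel_left]
    have h1 : η (x + y) - a • (1 : Module.End 𝒪 V)
        = (η x - ax • (1 : Module.End 𝒪 V)) + (η y - (a - ax) • (1 : Module.End 𝒪 V)) := by
      rw [map_add]
      exact aux_add _ _ a ax
    rw [h1]
    exact (hx ax hax).add (hy (a - ax) hay) (commute_sub_smul η x y ax (a - ax))
  | mul x y _ _ hx hy =>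
    intro a ha
    obtain ⟨ax, hax⟩ := residue_surjective (θ x)
    obtain ⟨ay, hay⟩ := residue_surjective (θ y)
    have hc : ax * ay - a ∈ maximalIdeal 𝒪 := by
      rw [← residue_eq_zero_iff, map_sub, map_mul, hax, hay, ha, map_mul, sub_self]
    have h1 : η (x * y) - a • (1 : Module.End 𝒪 V)
        = (η x * (η y - ay • (1 : Module.End 𝒪 V)) + ay • (η x - ax • (1 : Module.End 𝒪 V)))
          + (ax * ay - a) • (1 : Module.End 𝒪 V) := by
      rw [map_mul]
      exact aux_mul _ _ a ax ay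
    rw [h1]
    have hT1 : NilMod (η x * (η y - ay • (1 : Module.End 𝒪 V))) :=
      (hy ay hay).mul_left (commute_map_sub_smul η x y ay)
    have hT2 : NilMod (ay • (η x - ax • (1 : Module.End 𝒪 V))) := (hx ax hax).smul ay
    have hT3 : NilMod ((ax * ay - a) • (1 : Module.End 𝒪 V)) := nilMod_smul_one hc
    have hc12 : Commute (η x * (η y - ay • (1 : Module.End 𝒪 V)))
        (ay • (η x - ax • (1 : Module.End 𝒪 V))) := by
      refine Commute.smul_right ?_ ay
      refine Commute.mul_left ?_ ?_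
      · exact commute_map_sub_smul η x x ax
      · exact commute_sub_smul η y x ay ax
    exact (hT1.add hT2 hc12).add hT3 ((Commute.one_right _).smul_right _)

end Local

end Fermat.Agent.S59.NonMin.Geom.H61
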