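import Mathlib
import Fermat.Agent.S59.NonMin.Geom.Defs
import Fermat.Agent.S59.NonMin.Geom.H61_BMAlg
import Fermat.Agent.S59.NonMin.Geom.H53_BComm

/-!
# S59 NMGEOM, leaf BM (helper61): the Betti lattice is a Hecke module

`stmt_BM : Stmt_BM`.  In a universal basis `b` of the parabolic homomorphisms
(`Betti.stmt_basis`) the parabolic homomorphisms `Γ₀(N) → 𝒪` are `𝒪^r` (`bmPhi`), the Hecke
algebra acts by the integer matrices of `Betti.H76.stmt_matrixRep` (`bmEta`), and the Betti lattice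
is `locSub K (bmEta) θ G` of `H61_BMAlg.lean`, `K` the common kernel of the `U_r`, `r ∈ Sig`.

Reusable: `bmPhi`, `bmPhi_par`, `bmPhi_injective`, `bmPhi_surj`, `heckeOp_bmPhi`,
`bmPhi_mem_iff` (values in `𝔪^m` iff coordinates in `𝔪^m`), `hom_div` (division of a homomorphism
with values in `𝔪^m` by `ϖ^m`).
-/

set_option autoImplicit false

open Polynomial CuspForm CongruenceSubgroup IsLocalRing
open scoped MatrixGroups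

namespace Fermat.Agent.S59.NonMin.Geom.H61

open Fermat.Agent.S41 Fermat.Agent.Betti Fermat.Agent.S59 Fermat.Agent.S59.Asm
open ModularCurve.Period
open Fermat.Agent.S59.NonMin.Geom

section Phi

variable (𝒪 : Type) [CommRing 𝒪] {N : ℕ} {r : ℕ} (b : Fin r → (Additive (Gamma0 N) →+ ℤ))

/-- The coordinate map `a ↦ ∑ i, a i • b i` from `𝒪^r` to `Hom(Γ₀(N), 𝒪)`. -/
noncomputable def bmPhi : (Fin r → 𝒪) →ₗ[𝒪] (Additive (Gamma0 N) →+ 𝒪) where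
  toFun a := ∑ i, a i • (Int.castAddHom 𝒪).comp (b i)
  map_add' a a' := by
    simp only [Pi.add_apply, add_smul, Finset.sum_add_distrib]
  map_smul' c a := by
    simp only [Pi.smul_apply, smul_eq_mul, mul_smul, Finset.smul_sum, RingHom.id_apply]

theorem bmPhi_apply (a : Fin r → 𝒪) (γ : Additive (Gamma0 N)) :
    bmPhi 𝒪 b a γ = ∑ i, a i * ((b i γ : ℤ) : 𝒪) := by
  simp [bmPhi]

variable {𝒪 b}

theorem bmPhi_par (hb : IsParBasis N b) (a : Fin r → 𝒪) :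
    IsParabolicHom (Gamma0 N) (bmPhi 𝒪 b a) := by
  intro γ hγ
  rw [bmPhi_apply]
  refine Finset.sum_eq_zero fun i _ => ?_
  rw [hb.1 i γ hγ, Int.cast_zero, mul_zero]

theorem bmPhi_rep (a : Fin r → 𝒪) (γ : Additive (Gamma0 N)) :
    bmPhi 𝒪 b a γ = ∑ i, b i γ • a i := by
  rw [bmPhi_apply]
  exact Finset.sum_congr rfl fun i _ => by rw [zsmul_eq_mul, mul_comm]

theorem bmPhi_injective [IsAddTorsionFree 𝒪] (hb : IsParBasis N b) :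
    Function.Injective (bmPhi 𝒪 b) := by
  intro a a' h
  obtain ⟨c, -, hc⟩ := hb.2 𝒪 (bmPhi 𝒪 b a) (bmPhi_par hb a)
  have h1 : a = c := hc a (fun γ => bmPhi_rep a γ)
  have h2 : a' = c := hc a' (fun γ => by rw [h]; exact bmPhi_rep a' γ)
  rw [h1, h2]

theorem bmPhi_surj [IsAddTorsionFree 𝒪] (hb : IsParBasis N b) (φ : Additive (Gamma0 N) →+ 𝒪)
    (hφ : IsParabolicHom (Gamma0 N) φ) : ∃ a : Fin r → 𝒪, bmPhi 𝒪 b a = φ := by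
  obtain ⟨c, hc, -⟩ := hb.2 𝒪 φ hφ
  exact ⟨c, AddMonoidHom.ext fun γ => by rw [bmPhi_rep, hc γ]⟩

/-- The Hecke operator of a Hecke family in the coordinates. -/
theorem heckeOp_bmPhi {ι : Type*} [Fintype ι] {rep : ι → GL (Fin 2) ℝ}
    (H : IsHeckeFamily (incl N) rep) (Mt : Matrix (Fin r) (Fin r) ℤ)
    (hM : ∀ j, H.heckeOp (incl_injective N) (b j) = ∑ i, Mt i j • b i) (a : Fin r → 𝒪) :
    H.heckeOp (incl_injective N) (bmPhi 𝒪 b a)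
      = bmPhi 𝒪 b ((Mt.map (Int.cast : ℤ → 𝒪)).mulVec a) := by
  refine AddMonoidHom.ext fun γ' => ?_
  set γ : Gamma0 N := Additive.toMul γ' with hγ
  show (H.heckeOp (incl_injective N) (bmPhi 𝒪 b a)) (Additive.ofMul γ)
    = (bmPhi 𝒪 b ((Mt.map (Int.cast : ℤ → 𝒪)).mulVec a)) (Additive.ofMul γ)
  rw [H.heckeOp_apply, bmPhi_apply]
  simp only [bmPhi_apply]
  rw [Finset.sum_comm]
  have h1 : ∀ j, ∑ x, a j * ((b j (Additive.ofMul (H.kap γ x)) : ℤ) : 𝒪)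
      = a j * ∑ i, ((Mt i j : ℤ) : 𝒪) * ((b i (Additive.ofMul γ) : ℤ) : 𝒪) := by
    intro j
    rw [← Finset.mul_sum]
    congr 1
    have h2 := congrArg (fun φ : Additive (Gamma0 N) →+ ℤ => φ (Additive.ofMul γ)) (hM j)
    simp only [H.heckeOp_apply, AddMonoidHom.finsetSum_apply, AddMonoidHom.smul_apply,
      smul_eq_mul] at h2
    rw [← Int.cast_sum, h2]
    push_cast
    rfl
  rw [Finset.sum_congr rfl fun j _ => h1 j]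
  simp only [Matrix.mulVec, Matrix.map_apply, dotProduct, Finset.sum_mul, Finset.mul_sum]
  rw [Finset.sum_comm]
  exact Finset.sum_congr rfl fun i _ => Finset.sum_congr rfl fun j _ => by ring

end Phi

section Div

variable {𝒪 : Type} [CommRing 𝒪] [IsDomain 𝒪] [IsDiscreteValuationRing 𝒪] {N : ℕ}

/-- Division by `ϖ^m` of a homomorphism with values in `𝔪^m`. -/
theorem hom_div {ϖ : 𝒪} (hϖ : Irreducible ϖ) (m : ℕ) (φ : Additive (Gamma0 N) →+ 𝒪)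
    (h : ∀ γ, φ γ ∈ maximalIdeal 𝒪 ^ m) :
    ∃ ψ : Additive (Gamma0 N) →+ 𝒪, ϖ ^ m • ψ = φ := by
  have hne : ϖ ^ m ≠ 0 := pow_ne_zero m hϖ.ne_zero
  have h1 : ∀ γ, ∃ c : 𝒪, ϖ ^ m * c = φ γ := by
    intro γ
    have := h γ
    rw [hϖ.maximalIdeal_eq, Ideal.span_singleton_pow, Ideal.mem_span_singleton'] at this
    obtain ⟨c, hc⟩ := this
    exact ⟨c, by rw [mul_comm, hc]⟩
  choose f hf using h1
  refine ⟨AddMonoidHom.mk' f fun x y => ?_, ?_⟩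
  · apply mul_left_cancel₀ hne
    rw [mul_add, hf, hf, hf, map_add]
  · refine AddMonoidHom.ext fun γ => ?_
    show ϖ ^ m • f γ = φ γ
    rw [smul_eq_mul, hf]

theorem par_of_smul_par {c : 𝒪} (hc : c ≠ 0) (ψ : Additive (Gamma0 N) →+ 𝒪)
    (h : IsParabolicHom (Gamma0 N) (c • ψ)) : IsParabolicHom (Gamma0 N) ψ := by
  intro γ hγ
  have h1 : c * ψ (Additive.ofMul γ) = 0 := h γ hγ
  exact (mul_eq_zero.mp h1).resolve_left hc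

theorem eq_zero_of_smul_eq_zero {c : 𝒪} (hc : c ≠ 0) (ψ : Additive (Gamma0 N) →+ 𝒪)
    (h : c • ψ = 0) : ψ = 0 := by
  refine AddMonoidHom.ext fun γ => ?_
  have h1 : c * ψ γ = 0 := congrArg (fun χ : Additive (Gamma0 N) →+ 𝒪 => χ γ) h
  exact (mul_eq_zero.mp h1).resolve_left hc

variable {r : ℕ} {b : Fin r → (Additive (Gamma0 N) →+ ℤ)}

/-- `bmPhi w` has values in `𝔪^m` iff the coordinates of `w` are in `𝔪^m`. -/
theorem bmPhi_mem_iff [IsAddTorsionFree 𝒪] (hb : IsParBasis N b) (m : ℕ) (w : Fin r → 𝒪) :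
    (∀ γ, bmPhi 𝒪 b w γ ∈ maximalIdeal 𝒪 ^ m) ↔
      w ∈ (maximalIdeal 𝒪 ^ m • ⊤ : Submodule 𝒪 (Fin r → 𝒪)) := by
  obtain ⟨ϖ, hϖ⟩ := IsDiscreteValuationRing.exists_irreducible 𝒪
  have hne : ϖ ^ m ≠ 0 := pow_ne_zero m hϖ.ne_zero
  rw [mem_pow_smul_top_iff hϖ]
  constructor
  · intro h
    obtain ⟨ψ, hψ⟩ := hom_div hϖ m _ h
    have hpar : IsParabolicHom (Gamma0 N) ψ := by
      apply par_of_smul_par hne
      rw [hψ]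
      exact bmPhi_par hb w
    obtain ⟨y, hy⟩ := bmPhi_surj hb ψ hpar
    refine ⟨y, bmPhi_injective hb ?_⟩
    rw [map_smul, hy, hψ]
  · rintro ⟨y, rfl⟩ γ
    rw [map_smul]
    show ϖ ^ m • (bmPhi 𝒪 b y γ) ∈ _
    rw [smul_eq_mul]
    exact Ideal.mul_mem_right _ _ (Ideal.pow_mem_pow (hϖ.maximalIdeal_eq ▸
      Ideal.mem_span_singleton_self ϖ) m)

end Div

section Eta

variable (𝒪 : Type) [CommRing 𝒪] {r : ℕ} {R : Type*} [Ring R]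

/-- The action of `R` on `𝒪^r` through integer matrices. -/
noncomputable def bmEta (Mat : R →+* Matrix (Fin r) (Fin r) ℤ) :
    R →+* Module.End 𝒪 (Fin r → 𝒪) :=
  ((Matrix.toLinAlgEquiv' (R := 𝒪) (n := Fin r)).toAlgHom.toRingHom).comp
    (((Int.castRingHom 𝒪).mapMatrix).comp Mat)

theorem bmEta_apply (Mat : R →+* Matrix (Fin r) (Fin r) ℤ) (t : R) (a : Fin r → 𝒪) :
    bmEta 𝒪 Mat t a = ((Mat t).map (Int.cast : ℤ → 𝒪)).mulVec a := rfl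

variable {𝒪} {N : ℕ} {b : Fin r → (Additive (Gamma0 N) →+ ℤ)}

/-- The iterates of `T - a` in the coordinates. -/
theorem iterate_bmPhi (Top : (Additive (Gamma0 N) →+ 𝒪) →+ (Additive (Gamma0 N) →+ 𝒪))
    (f : Module.End 𝒪 (Fin r → 𝒪)) (a : 𝒪)
    (h : ∀ v, Top (bmPhi 𝒪 b v) = bmPhi 𝒪 b (f v)) (n : ℕ) (v : Fin r → 𝒪) :
    (fun χ : Additive (Gamma0 N) →+ 𝒪 => Top χ - a • χ)^[n] (bmPhi 𝒪 b v)
      = bmPhi 𝒪 b (((f - a • (1 : Module.End 𝒪 (Fin r → 𝒪))) ^ n) v) := by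
  induction n with
  | zero => simp
  | succ n ih =>
    rw [Function.iterate_succ_apply', ih, pow_succ', Module.End.mul_apply, h,
      LinearMap.sub_apply, LinearMap.smul_apply, Module.End.one_apply, map_sub, map_smul]

end Eta

section Main

variable {𝒪 : Type} [CommRing 𝒪] [IsDomain 𝒪] [IsDiscreteValuationRing 𝒪] [CharZero 𝒪]
  {N : ℕ} [NeZero N]

/-- The common kernel of the `U_q`, `q ∈ Sig`, in the coordinates. -/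
noncomputable def bmK {r : ℕ} (b : Fin r → (Additive (Gamma0 N) →+ ℤ)) (Sig : Finset ℕ) :
    Submodule 𝒪 (Fin r → 𝒪) where
  carrier := {a | ∀ q ∈ Sig, ∀ hq : q ∣ N, UB N 𝒪 hq (bmPhi 𝒪 b a) = 0}
  add_mem' := by
    intro a a' ha ha' q hq hqN
    rw [map_add, map_add, ha q hq hqN, ha' q hq hqN, add_zero]
  zero_mem' := by
    intro q hq hqN
    rw [map_zero, map_zero]
  smul_mem' := by
    intro c a ha q hq hqN
    have : NeZero q := neZero_of_dvd hqN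
    have h1 : UB N 𝒪 hqN (c • bmPhi 𝒪 b a) = c • UB N 𝒪 hqN (bmPhi 𝒪 b a) :=
      ((isHeckeFamily_U N hqN).heckeOpLin (incl_injective N) 𝒪).map_smul c _
    rw [map_smul, h1, ha q hq hqN, smul_zero]

theorem mem_bmK {r : ℕ} {b : Fin r → (Additive (Gamma0 N) →+ ℤ)} {Sig : Finset ℕ}
    {a : Fin r → 𝒪} :
    a ∈ bmK (𝒪 := 𝒪) b Sig ↔ ∀ q ∈ Sig, ∀ hq : q ∣ N, UB N 𝒪 hq (bmPhi 𝒪 b a) = 0 := Iff.rfl

/-- The generators `T_ℓ` of the Hecke algebra. -/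
def bmG (N : ℕ) [NeZero N] (S : Set ℕ) : Set (CuspForm.heckeAlgebra N 2 S) :=
  {t | ∃ (ℓ : ℕ) (hℓ : ℓ.Prime) (hℓN : ¬ ℓ ∣ N) (hℓS : ℓ ∉ S),
    t = CuspForm.heckeAlgebra.T hℓ hℓN hℓS}

theorem adjoin_bmG (S : Set ℕ) (hS : ∀ q : ℕ, q.Prime → q ∣ N → q ∈ S) :
    Algebra.adjoin ℤ (bmG N S) = ⊤ := by
  have h1 : Algebra.adjoin ℤ
      ((Subtype.val : CuspForm.heckeAlgebra N 2 S → _) ⁻¹' CuspForm.heckeGenerators N 2 S) = ⊤ :=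
    Algebra.adjoin_adjoin_coe_preimage
  have h2 : (Subtype.val : CuspForm.heckeAlgebra N 2 S → _) ⁻¹' CuspForm.heckeGenerators N 2 S
      ⊆ bmG N S := by
    rintro ⟨t, ht⟩ (⟨ℓ, hℓ, hℓN, hℓS, h⟩ | ⟨q, hqN, hq, hqS, -⟩)
    · exact ⟨ℓ, hℓ, hℓN, hℓS, Subtype.ext h⟩
    · exact absurd (hS q hq hqN) hqS
  exact top_le_iff.mp (h1 ▸ Algebra.adjoin_mono h2)

section Core

variable {r : ℕ} {b : Fin r → (Additive (Gamma0 N) →+ ℤ)} {S : Set ℕ}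
  {Mat : CuspForm.heckeAlgebra N 2 S →+* Matrix (Fin r) (Fin r) ℤ}

/-- The Hecke operators `T_ℓ` in the coordinates. -/
theorem bm_TB
    (hT : ∀ (ℓ : ℕ) (hℓ : ℓ.Prime) (hℓN : ¬ ℓ ∣ N) (hℓS : ℓ ∉ S) (j : Fin r),
      TB N ℤ hℓ hℓN (b j) = ∑ i, Mat (CuspForm.heckeAlgebra.T hℓ hℓN hℓS) i j • b i)
    (ℓ : ℕ) (hℓ : ℓ.Prime) (hℓN : ¬ ℓ ∣ N) (hℓS : ℓ ∉ S) (v : Fin r → 𝒪) :
    TB N 𝒪 hℓ hℓN (bmPhi 𝒪 b v)
      = bmPhi 𝒪 b (bmEta 𝒪 Mat (CuspForm.heckeAlgebra.T hℓ hℓN hℓS) v) := by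
  have : Fact ℓ.Prime := ⟨hℓ⟩
  exact heckeOp_bmPhi (isHeckeFamily_T N hℓN) _ (fun j => hT ℓ hℓ hℓN hℓS j) v

theorem bmK_gen (hb : IsParBasis N b)
    (hT : ∀ (ℓ : ℕ) (hℓ : ℓ.Prime) (hℓN : ¬ ℓ ∣ N) (hℓS : ℓ ∉ S) (j : Fin r),
      TB N ℤ hℓ hℓN (b j) = ∑ i, Mat (CuspForm.heckeAlgebra.T hℓ hℓN hℓS) i j • b i)
    {Sig : Finset ℕ} (hSig : ∀ q ∈ Sig, q.Prime) :
    ∀ g ∈ bmG N S, ∀ v ∈ bmK (𝒪 := 𝒪) b Sig, bmEta 𝒪 Mat g v ∈ bmK (𝒪 := 𝒪) b Sig := by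
  rintro g ⟨ℓ, hℓ, hℓN, hℓS, rfl⟩ v hv q hq hqN
  rw [← bm_TB hT ℓ hℓ hℓN hℓS v,
    Fermat.Agent.S59.NonMin.Geom.H53.UB_TB_comm 𝒪 (hSig q hq) hqN hℓ hℓN _ (bmPhi_par hb v),
    hv q hq hqN, map_zero]

theorem bmK_sat {Sig : Finset ℕ} {ϖ : 𝒪} (hϖ : ϖ ≠ 0) (v : Fin r → 𝒪)
    (hv : ϖ • v ∈ bmK (𝒪 := 𝒪) b Sig) : v ∈ bmK (𝒪 := 𝒪) b Sig := by
  intro q hq hqN
  have : NeZero q := neZero_of_dvd hqN
  have h1 : UB N 𝒪 hqN (ϖ • bmPhi 𝒪 b v) = ϖ • UB N 𝒪 hqN (bmPhi 𝒪 b v) :=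
    ((isHeckeFamily_U N hqN).heckeOpLin (incl_injective N) 𝒪).map_smul ϖ _
  have h2 := hv q hq hqN
  rw [map_smul, h1] at h2
  exact eq_zero_of_smul_eq_zero hϖ _ h2

variable (b Mat)

/-- The Betti lattice in the coordinates. -/
noncomputable def bmV (θ : CuspForm.heckeAlgebra N 2 S →+* ResidueField 𝒪) (Sig : Finset ℕ) :
    Submodule 𝒪 (Fin r → 𝒪) :=
  locSub (bmK (𝒪 := 𝒪) b Sig) (bmEta 𝒪 Mat) θ (bmG N S)

variable {b Mat}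

/-- The characterisation of the Betti lattice. -/
theorem bmV_iff (hb : IsParBasis N b)
    (hT : ∀ (ℓ : ℕ) (hℓ : ℓ.Prime) (hℓN : ¬ ℓ ∣ N) (hℓS : ℓ ∉ S) (j : Fin r),
      TB N ℤ hℓ hℓN (b j) = ∑ i, Mat (CuspForm.heckeAlgebra.T hℓ hℓN hℓS) i j • b i)
    (θ : CuspForm.heckeAlgebra N 2 S →+* ResidueField 𝒪) (Sig : Finset ℕ)
    (φ : Additive (Gamma0 N) →+ 𝒪) :
    (∃ v : bmV b Mat θ Sig, bmPhi 𝒪 b (v : Fin r → 𝒪) = φ) ↔ InBetti 𝒪 N S θ Sig φ := by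
  constructor
  · rintro ⟨⟨v, hv⟩, rfl⟩
    refine ⟨bmPhi_par hb v, fun q hq hqN => hv.1 q hq hqN, ?_⟩
    intro ℓ hℓ hℓN hℓS a ha m
    obtain ⟨n, hn⟩ := hv.2 _ ⟨ℓ, hℓ, hℓN, hℓS, rfl⟩ a ha m
    refine ⟨n, ?_⟩
    have h3 := iterate_bmPhi (b := b) (TB N 𝒪 hℓ hℓN)
      (bmEta 𝒪 Mat (CuspForm.heckeAlgebra.T hℓ hℓN hℓS)) a (bm_TB hT ℓ hℓ hℓN hℓS) n v
    intro γ
    have h4 := (bmPhi_mem_iff hb m _).mpr hn γ
    rw [← h3] at h4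
    exact h4
  · rintro ⟨hpar, hU, hloc⟩
    obtain ⟨v, rfl⟩ := bmPhi_surj hb φ hpar
    have hv : v ∈ bmV b Mat θ Sig := by
      refine ⟨fun q hq hqN => hU q hq hqN, ?_⟩
      rintro g ⟨ℓ, hℓ, hℓN, hℓS, rfl⟩ a ha m
      obtain ⟨n, hn⟩ := hloc ℓ hℓ hℓN hℓS a ha m
      refine ⟨n, ?_⟩
      have h3 := iterate_bmPhi (b := b) (TB N 𝒪 hℓ hℓN)
        (bmEta 𝒪 Mat (CuspForm.heckeAlgebra.T hℓ hℓN hℓS)) a (bm_TB hT ℓ hℓ hℓN hℓS) n v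
      rw [← bmPhi_mem_iff hb m, ← h3]
      exact hn
    exact ⟨⟨v, hv⟩, rfl⟩

end Core

/-- **BM**. -/
theorem stmt_BM : Stmt_BM := by
  intro 𝒪 _ _ _ _ _ _ N _ S hS θ Sig hSig
  classical
  obtain ⟨r, b, hb⟩ := stmt_basis N
  obtain ⟨Mat, -, hT, -⟩ := Fermat.Agent.Betti.H76.stmt_matrixRep N (↑S : Set ℕ) r b hb
  obtain ⟨ϖ, hϖ⟩ := IsDiscreteValuationRing.exists_irreducible 𝒪
  have hG := adjoin_bmG (N := N) (↑S : Set ℕ) hS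
  have hKst := stable_of_gen hG (bmK_gen (𝒪 := 𝒪) hb hT hSig)
  have hKsat : ∀ v : Fin r → 𝒪, ϖ • v ∈ bmK (𝒪 := 𝒪) b Sig → v ∈ bmK (𝒪 := 𝒪) b Sig :=
    fun v hv => bmK_sat hϖ.ne_zero v hv
  have hrange := bmV_iff (𝒪 := 𝒪) hb hT θ Sig
  have hequiv : ∀ (ℓ : ℕ) (hℓ : ℓ.Prime) (hℓN : ¬ ℓ ∣ N) (hℓS : ℓ ∉ (↑S : Set ℕ))
      (v : bmV b Mat θ Sig),
      bmPhi 𝒪 b (bmEta 𝒪 Mat (CuspForm.heckeAlgebra.T hℓ hℓN hℓS) (v : Fin r → 𝒪))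
        = TB N 𝒪 hℓ hℓN (bmPhi 𝒪 b (v : Fin r → 𝒪)) :=
    fun ℓ hℓ hℓN hℓS v => (bm_TB hT ℓ hℓ hℓN hℓS v.1).symm
  have hinj : Function.Injective ((bmPhi 𝒪 b).comp (bmV b Mat θ Sig).subtype) :=
    (bmPhi_injective hb).comp Subtype.val_injective
  exact ⟨{ V := bmV b Mat θ Sig
           η := restrictHom (bmV b Mat θ Sig) (bmEta 𝒪 Mat) (locSub_stable hKst)
           η_local := fun t a ha => locSub_local hG hϖ hKst hKsat t a ha },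
    (bmPhi 𝒪 b).comp (bmV b Mat θ Sig).subtype, hinj, fun φ => hrange φ,
    fun ℓ hℓ hℓN hℓS v => hequiv ℓ hℓ hℓN hℓS v⟩

end Main

end Fermat.Agent.S59.NonMin.Geom.H61
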