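import Fermat.Agent.S59.NonMin.Geom.Defs
import Fermat.Agent.S41.H61_ChebFinal
import Fermat.Agent.S56.H13_LocInf
import Fermat.Agent.R.H91_Lucas

/-!
# S59, NMGEOM, leaf CHEB-k (helper61): the auxiliary primes for `ρbar`

`stmt_CHEBk : Stmt_CHEBk`: for an absolutely irreducible `ρbar` with cyclotomic determinant whose
Frobenius characteristic polynomials are given by `θ`, every modulus `M` divisible by `p` and every
finite set `S'` admit a prime `ℓ ∉ S'` in the Hecke algebra with `ℓ ≡ 1 mod M`, `q` not a `p`-th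
power mod `ℓ` and `θ(T_ℓ) ≠ 2`.

Port of `S41.H61.stmt_IhD_of` from `E[p]` to `ρbar`: Kummer theory (`S41.H41`), two-sided
Frobenius density (`Lib.FrobDensity.H47.stmt_FD2`), the group lemma D-GRP (`S41.H78`, any field
with `2 ≠ 0`), `det ρbar(c) = -1` (`S56.H13.det_complexConjugation`).
-/

set_option autoImplicit false

open Polynomial CuspForm CongruenceSubgroup IsLocalRing TensorProduct

namespace Fermat.Agent.S59.NonMin.Geom.H61

open Fermat.Agent.S59 Fermat.Agent.S59.NonMin.Geom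

/-- `ℚ̄`. -/
local notation "Qb" => AlgebraicClosure ℚ
/-- the absolute Galois group of `ℚ`. -/
local notation "GQ" => (AlgebraicClosure ℚ ≃ₐ[ℚ] AlgebraicClosure ℚ)

/-- Trace and determinant from the characteristic polynomial in rank 2. -/
theorem trace_det_of_charpoly2 {K V : Type*} [Field K] [AddCommGroup V] [Module K V]
    [Module.Finite K V] (hV : Module.finrank K V = 2) (f : Module.End K V)
    {t d : K} (h : f.charpoly = X ^ 2 - C t * X + C d) :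
    LinearMap.trace K V f = t ∧ LinearMap.det f = d := by
  rw [Fermat.Agent.R.H91.charpoly_eq_of_finrank_two hV f] at h
  have h0 := congrArg (fun q : K[X] => q.coeff 0) h
  have h1 := congrArg (fun q : K[X] => q.coeff 1) h
  simp only [coeff_add, coeff_sub, coeff_X_pow, coeff_C_mul, coeff_X_zero, coeff_X_one,
    coeff_C_zero, coeff_C_succ, mul_zero, mul_one, sub_zero, add_zero] at h0 h1
  norm_num at h0 h1
  exact ⟨h1, h0⟩

/-- An absolutely irreducible residual representation has no stable line. -/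
theorem no_stable_line {k : Type} [Field k] (ρbar : ResidualGaloisRep k)
    (habs : ρbar.IsAbsolutelyIrreducible) (v : ρbar.V) (hv0 : v ≠ 0)
    (hv : ∀ g : GQ, ∃ a : k, ρbar.ρ g v = a • v) : False := by
  set K := AlgebraicClosure k
  set w : K ⊗[k] ρbar.V := (1 : K) ⊗ₜ[k] v with hw
  have hw0 : w ≠ 0 := by
    intro h0
    have hinj : Function.Injective (TensorProduct.mk k K ρbar.V 1) :=
      Module.Flat.tensorProduct_mk_injective (R := k) (S := K) (M := ρbar.V)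
    exact hv0 (hinj (by simpa [hw] using h0))
  have hst : ∀ σ : GQ, ∀ x ∈ Submodule.span K {w}, (ρbar.baseChange K).ρ σ x ∈
      Submodule.span K {w} := by
    intro σ x hx
    obtain ⟨c, rfl⟩ := Submodule.mem_span_singleton.mp hx
    obtain ⟨a, ha⟩ := hv σ
    have h1 : (ρbar.baseChange K).ρ σ w = (algebraMap k K a) • w := by
      show (ρbar.ρ σ).baseChange K ((1 : K) ⊗ₜ[k] v) = _
      rw [LinearMap.baseChange_tmul, ha, hw, TensorProduct.tmul_smul, algebraMap_smul]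
    rw [map_smul, h1, smul_smul]
    exact Submodule.smul_mem _ _ (Submodule.mem_span_singleton_self w)
  rcases habs _ hst with h0 | h1
  · apply hw0
    have : w ∈ Submodule.span K {w} := Submodule.mem_span_singleton_self w
    rw [h0] at this
    exact (Submodule.mem_bot _).mp this
  · have h2 : Module.finrank K (Submodule.span K {w}) = 1 := finrank_span_singleton hw0
    rw [h1, finrank_top, (ρbar.baseChange K).finrank_eq] at h2
    exact absurd h2 (by norm_num)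

/-- **CHEB-k**, core: the prime `q` may be equal to `p`. -/
theorem chebk_core (𝒪 : Type) [CommRing 𝒪] [IsDomain 𝒪] [IsDiscreteValuationRing 𝒪]
    [Finite (ResidueField 𝒪)] (p : ℕ) [Fact p.Prime] (hp2 : p ≠ 2)
    (ρbar : ResidualGaloisRep (ResidueField 𝒪)) (Smin : Finset ℕ) (hres : ResHyp p ρbar Smin)
    (N : ℕ) [NeZero N] (S : Finset ℕ)
    (θ : CuspForm.heckeAlgebra N 2 (↑S : Set ℕ) →+* ResidueField 𝒪)
    (hθ : Fermat.Agent.S59.Datum.FrobHyp ρbar N S θ)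
    (q : ℕ) (hq : q.Prime) (M : ℕ) (hM : 0 < M) (hpM : p ∣ M) (S' : Finset ℕ) :
    ∃ (ℓ : ℕ) (hℓ : ℓ.Prime) (hℓN : ¬ ℓ ∣ N) (hℓS : ℓ ∉ (↑S : Set ℕ)), ℓ ∉ S' ∧
      ℓ % M = 1 % M ∧ (q : ZMod ℓ) ^ ((ℓ - 1) / p) ≠ 1 ∧
      θ (CuspForm.heckeAlgebra.T hℓ hℓN hℓS) ≠ 2 := by
  classical
  by_contra hcon
  have hcon' : ∀ (ℓ : ℕ) (hℓ : ℓ.Prime) (hℓN : ¬ ℓ ∣ N) (hℓS : ℓ ∉ (↑S : Set ℕ)), ℓ ∉ S' →
      ℓ % M = 1 % M → (q : ZMod ℓ) ^ ((ℓ - 1) / p) ≠ 1 →
      θ (CuspForm.heckeAlgebra.T hℓ hℓN hℓS) = 2 := by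
    intro ℓ hℓ hℓN hℓS h1 h2 h3
    by_contra h4
    exact hcon ⟨ℓ, hℓ, hℓN, hℓS, h1, h2, h3, h4⟩
  have hp : p.Prime := Fact.out
  have hpk : (p : ResidueField 𝒪) = 0 := by
    have := hres.hdet.1
    rwa [IsLocalRing.maximalIdeal_eq_bot, Ideal.mem_bot] at this
  have h2k : (2 : ResidueField 𝒪) ≠ 0 := Fermat.Agent.S56.H13.two_ne_zero_of p hp2 hpk
  have hfr : Module.finrank (ResidueField 𝒪) ρbar.V = 2 := ρbar.finrank_eq
  obtain ⟨L₀, hL₀, hρ1⟩ := ρbar.factorsThroughFiniteLevel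
  -- roots
  have : NeZero M := ⟨hM.ne'⟩
  obtain ⟨ζ, hζ⟩ := HasEnoughRootsOfUnity.exists_primitiveRoot Qb M
  obtain ⟨y, hy⟩ := IsAlgClosed.exists_pow_nat_eq ((q : ℕ) : Qb) (n := p) hp.pos
  -- the subgroup `H`
  set H : Subgroup GQ := MulAction.stabilizer GQ ζ with hH
  have hHmem : ∀ g : GQ, g ∈ H ↔ g ζ = ζ := fun g => by
    rw [hH, MulAction.mem_stabilizer_iff, AlgEquiv.smul_def]
  have hHcomm : ∀ g g' : GQ, g * g' * g⁻¹ * g'⁻¹ ∈ H := fun g g' =>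
    (hHmem _).mpr (Fermat.Agent.S41.H61.commutator_fix_root hM hζ g g')
  obtain ⟨κ, hκ⟩ := Fermat.Agent.S41.H41.stmt_KumHom p q M hp hq hM hpM ζ y hζ hy H
    (fun g hg => (hHmem g).mp hg)
  -- the field `L`
  set L₁ : IntermediateField ℚ Qb := IntermediateField.adjoin ℚ ({ζ, y} : Set Qb) with hL₁
  have halg : Algebra.IsAlgebraic ℚ Qb := AlgebraicClosure.isAlgebraic ℚ
  have hL₁fd : FiniteDimensional ℚ L₁ :=
    IntermediateField.finiteDimensional_adjoin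
      (fun x _ => (Algebra.IsAlgebraic.isAlgebraic x).isIntegral)
  have hζL : ζ ∈ L₀ ⊔ L₁ :=
    (le_sup_right : L₁ ≤ L₀ ⊔ L₁) (IntermediateField.subset_adjoin ℚ _ (by simp))
  have hyL : y ∈ L₀ ⊔ L₁ :=
    (le_sup_right : L₁ ≤ L₀ ⊔ L₁) (IntermediateField.subset_adjoin ℚ _ (by simp))
  have hLfd : FiniteDimensional ℚ ↥(L₀ ⊔ L₁) := by
    have := hL₀
    have := hL₁fd
    infer_instance
  -- the bad set
  have hN0 : N ≠ 0 := NeZero.ne N
  set S'' : Finset ℕ := S' ∪ S ∪ (M * p * q * N).primeFactors with hS''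
  have hne : M * p * q * N ≠ 0 :=
    mul_ne_zero (mul_ne_zero (mul_ne_zero hM.ne' hp.ne_zero) hq.ne_zero) hN0
  have hgood : ∀ ℓ : ℕ, ℓ.Prime → ℓ ∉ S'' →
      ℓ ∉ S' ∧ ℓ ∉ (↑S : Set ℕ) ∧ ¬ ℓ ∣ N ∧ ¬ ℓ ∣ M ∧ ℓ ≠ p ∧ ℓ ≠ q := by
    intro ℓ hℓ hℓS
    rw [hS'', Finset.mem_union, Finset.mem_union, not_or, not_or] at hℓS
    have hnd : ¬ ℓ ∣ M * p * q * N := fun hd =>
      hℓS.2 (by rw [Nat.mem_primeFactors]; exact ⟨hℓ, hd, hne⟩)
    refine ⟨hℓS.1.1, fun h => hℓS.1.2 (Finset.mem_coe.mp h), ?_, ?_, ?_, ?_⟩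
    · intro hd
      exact hnd (Dvd.dvd.mul_left hd _)
    · intro hd
      exact hnd (Dvd.dvd.mul_right (Dvd.dvd.mul_right (Dvd.dvd.mul_right hd p) q) _)
    · intro hd
      apply hnd
      rw [hd]
      exact Dvd.dvd.mul_right (Dvd.dvd.mul_right (dvd_mul_left p M) q) _
    · intro hd
      apply hnd
      rw [hd]
      exact Dvd.dvd.mul_right (dvd_mul_left q (M * p)) _
  -- unipotence on `D`
  have hunip : ∀ g : H, κ g ≠ 1 →
      LinearMap.trace (ResidueField 𝒪) ρbar.V (ρbar.ρ g) = 2 ∧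
        LinearMap.det (ρbar.ρ (g : GQ)) = 1 := by
    intro g hg
    have hgy : (g : GQ) y ≠ y := fun h => hg ((hκ g).mpr h)
    have hgζ : (g : GQ) ζ = ζ := (hHmem _).mp g.2
    obtain ⟨ℓ, A, σ, j, j', hℓ, hℓS, hA, hσ, hσj, hgj⟩ :=
      Fermat.Agent.Lib.FrobDensity.H47.stmt_FD2 S'' (L₀ ⊔ L₁) hLfd g
    obtain ⟨hℓS', hℓS0, hℓN, hℓM, hℓp, hℓq⟩ := hgood ℓ hℓ hℓS
    have hσζ : σ ζ = ζ := by
      rw [← hgj ζ hζL]
      exact Fermat.Agent.S41.H61.pow_apply_of_fix _ _ hgζ j'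
    have hσy : σ y ≠ y := by
      intro h
      apply hgy
      rw [← hσj y hyL]
      exact Fermat.Agent.S41.H61.pow_apply_of_fix _ _ h j
    have hmod : ℓ % M = 1 % M :=
      Fermat.Agent.S41.H41.stmt_KumB1 ℓ M hℓ hM hℓM A σ hA hσ ζ hζ hσζ
    have hMdvd : M ∣ ℓ - 1 := (Nat.modEq_iff_dvd' hℓ.one_le).mp (Nat.ModEq.symm hmod)
    have hpdvd : p ∣ ℓ - 1 := dvd_trans hpM hMdvd
    have hkum : (q : ZMod ℓ) ^ ((ℓ - 1) / p) ≠ 1 :=
      Fermat.Agent.S41.H41.stmt_KumB2 ℓ p q hℓ hp hq hℓp hℓq hpdvd A σ hA hσ y hy hσy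
    have hap : θ (CuspForm.heckeAlgebra.T hℓ hℓN hℓS0) = 2 :=
      hcon' ℓ hℓ hℓN hℓS0 hℓS' hmod hkum
    have hchar := hθ ℓ hℓ hℓN hℓS0 A hA σ hσ
    obtain ⟨htr, hdet⟩ := trace_det_of_charpoly2 hfr (ρbar.ρ σ) hchar
    have hℓ1 : (ℓ : ResidueField 𝒪) = 1 := by
      obtain ⟨c, hc⟩ := hpdvd
      have h1 : ℓ = p * c + 1 := by
        have := hℓ.one_le
        omega
      rw [h1]
      push_cast
      rw [hpk]
      ring
    have hρg : ρbar.ρ (g : GQ) = ρbar.ρ σ ^ j := by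
      rw [← map_pow]
      exact (Fermat.Agent.L.H52.map_eq_of_agree ρbar.ρ L₀ hρ1
        (fun x hx => hσj x ((le_sup_left : L₀ ≤ L₀ ⊔ L₁) hx))).symm
    rw [hρg]
    apply Fermat.Agent.S41.H61.unip_pow_end hfr
    · rw [htr, hap]
    · rw [hdet, hℓ1]
  -- `D` is not empty
  obtain ⟨s₀, hs₀ζ, hs₀y⟩ := Fermat.Agent.S41.H41.stmt_KumA p q M hp hp2 hq hM hpM ζ y hζ hy
  have hex : ∃ s : H, κ s ≠ 1 :=
    ⟨⟨s₀, (hHmem _).mpr hs₀ζ⟩, fun h => hs₀y ((hκ ⟨s₀, (hHmem _).mpr hs₀ζ⟩).mp h)⟩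
  -- the stable line
  obtain ⟨v, hv0, hv⟩ := Fermat.Agent.S41.H78.stmt_DGRP (ResidueField 𝒪) h2k ρbar.V hfr GQ
    ρbar.ρ H hHcomm (Multiplicative (ZMod p)) κ
    (fun g hg => Fermat.Agent.S41.H61.mul_self_eq_one_zmod hp2 _ hg) hex hunip
    ⟨complexConjugation, complexConjugation_mul_self,
      Fermat.Agent.S56.H13.det_complexConjugation p ρbar hres.hdet⟩
  exact no_stable_line ρbar hres.habs v hv0 hv

/-- **CHEB-k**. -/
theorem stmt_CHEBk : Stmt_CHEBk := by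
  intro 𝒪 _ _ _ _ p _ hp2 _ ρbar Smin hres N _ S θ hθ q hq _ M hM hpM S'
  exact chebk_core 𝒪 p hp2 ρbar Smin hres N S θ hθ q hq M hM hpM S'

end Fermat.Agent.S59.NonMin.Geom.H61
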