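import Fermat.Agent.S59.NonMin.Geom.H78_Ihara3Defs
import Fermat.Agent.S41.H19_IharaStep2

/-!
# S59 / NMGEOM, leaf ORB3 (helper11): the orbits of `Γ₀(N q²)` on `X_N` and `TT ℓ`

* `exists_gamma0_of_dvd` : the orbit criterion: for `g = [a b; c d]`, `g' = [a' b'; c' d']` in
  `SL₂(ℤ)` and `t` with `n ∣ c' d - c d' - t c c'`, the matrix `g' [1 t; 0 1] g⁻¹` lies in
  `Γ₀(n)` and maps `a / c` to `a' / c'`.
* `exists_gamma0_of_class` : two points of `X_N` with `q ∣ den` and the same class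
  `num · (den / q) mod q` are conjugate under `Γ₀(N q²)`.
* `branch_class` : the class is preserved by the branches `(x r + y) / w`, `x w = ℓ`,
  `ℓ ≡ 1 mod q`.
* `stmt_ORB3 : H78.Stmt_ORB3`.
-/

set_option autoImplicit false

open scoped MatrixGroups
open CongruenceSubgroup Matrix

namespace Fermat.Agent.S59.NonMin.Geom.H11

open Fermat.Agent.S41 Fermat.Agent.S41.H19 Fermat.Agent.S41.Ihara

/-- The orbit criterion. -/
lemma exists_gamma0_of_dvd (n : ℕ) {a b c d a' b' c' d' t : ℤ} (h1 : a * d - b * c = 1)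
    (h2 : a' * d' - b' * c' = 1) (hc : c ≠ 0) (hc' : c' ≠ 0)
    (ht : (n : ℤ) ∣ c' * d - c * d' - t * c * c') :
    ∃ h : Gamma0 n, mob (mat h) ((a : ℚ) / (c : ℚ)) = (a' : ℚ) / (c' : ℚ) := by
  have hdvd : (n : ℤ) ∣ c' * d - (c' * t + d') * c := by
    have e : c' * d - (c' * t + d') * c = c' * d - c * d' - t * c * c' := by ring
    rw [e]
    exact ht
  refine ⟨mkG0 n (a' * d - (a' * t + b') * c) (-(a' * b) + (a' * t + b') * a)
    (c' * d - (c' * t + d') * c) (-(c' * b) + (c' * t + d') * a)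
    (by linear_combination (a * d - b * c) * h2 + h1) hdvd, ?_⟩
  rw [mat_mkG0]
  simp only [mob, Matrix.of_apply, Matrix.cons_val', Matrix.cons_val_zero, Matrix.cons_val_one,
    Matrix.empty_val', Matrix.cons_val_fin_one]
  push_cast
  have hcq : (c : ℚ) ≠ 0 := by exact_mod_cast hc
  have hcq' : (c' : ℚ) ≠ 0 := by exact_mod_cast hc'
  have h1q : (a : ℚ) * d - b * c = 1 := by exact_mod_cast h1
  have e1 : ((a' : ℚ) * d - (a' * t + b') * c) * ((a : ℚ) / c) + (-((a' : ℚ) * b) + (a' * t + b') * a)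
      = (a' : ℚ) / c := by
    field_simp
    linear_combination (a' : ℚ) * h1q
  have e2 : ((c' : ℚ) * d - (c' * t + d') * c) * ((a : ℚ) / c) + (-((c' : ℚ) * b) + (c' * t + d') * a)
      = (c' : ℚ) / c := by
    field_simp
    linear_combination (c' : ℚ) * h1q
  rw [e1, e2, div_div_div_cancel_right₀ hcq]

/-- Two points of `X_N` with `q ∣ den` and the same class `num · (den / q) mod q` are conjugate
under `Γ₀(N q²)`. -/
lemma exists_gamma0_of_class {N q : ℕ} {r s : ℚ} (hr : InX N r) (hs : InX N s)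
    {c₁ c₁' : ℤ} (hc : (r.den : ℤ) = q * c₁) (hc' : (s.den : ℤ) = q * c₁')
    (hcl : (q : ℤ) ∣ s.num * c₁' - r.num * c₁) :
    ∃ h : Gamma0 (N * q ^ 2), mob (mat h) r = s := by
  obtain ⟨u, v, hb⟩ : IsCoprime r.num (r.den : ℤ) :=
    Int.isCoprime_iff_gcd_eq_one.mpr (by exact_mod_cast r.reduced)
  obtain ⟨u', v', hb'⟩ : IsCoprime s.num (s.den : ℤ) :=
    Int.isCoprime_iff_gcd_eq_one.mpr (by exact_mod_cast s.reduced)
  obtain ⟨k, hk⟩ := hcl
  obtain ⟨w, w', hw⟩ : IsCoprime ((r.den : ℤ) * (s.den : ℤ)) (N : ℤ) :=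
    hr.isCoprime.mul_left hs.isCoprime
  have hX : (s.den : ℤ) * u - (r.den : ℤ) * u'
      = (q : ℤ) ^ 2 * (u * u' * k + c₁' ^ 2 * u * v' - c₁ ^ 2 * u' * v) := by
    rw [hc] at hb
    rw [hc'] at hb'
    rw [hc, hc']
    linear_combination (-((q : ℤ) * c₁' * u)) * hb' + ((q : ℤ) * c₁ * u') * hb
      + ((q : ℤ) * u * u') * hk
  have hrd : (r.den : ℤ) ≠ 0 := by exact_mod_cast r.den_nz
  have hsd : (s.den : ℤ) ≠ 0 := by exact_mod_cast s.den_nz
  have h1 : r.num * u - (-v) * (r.den : ℤ) = 1 := by linear_combination hb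
  have h2 : s.num * u' - (-v') * (s.den : ℤ) = 1 := by linear_combination hb'
  have ht : ((N * q ^ 2 : ℕ) : ℤ) ∣ (s.den : ℤ) * u - (r.den : ℤ) * u'
      - (((s.den : ℤ) * u - (r.den : ℤ) * u') * w) * (r.den : ℤ) * (s.den : ℤ) := by
    refine ⟨(u * u' * k + c₁' ^ 2 * u * v' - c₁ ^ 2 * u' * v) * w', ?_⟩
    push_cast
    linear_combination (-((s.den : ℤ) * u - (r.den : ℤ) * u')) * hw + (w' * (N : ℤ)) * hX
  obtain ⟨h, hh⟩ := exists_gamma0_of_dvd (N * q ^ 2) h1 h2 hrd hsd ht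
  refine ⟨h, ?_⟩
  have er : (r.num : ℚ) / (((r.den : ℤ)) : ℚ) = r := by
    push_cast
    exact Rat.num_div_den r
  have es : (s.num : ℚ) / (((s.den : ℤ)) : ℚ) = s := by
    push_cast
    exact Rat.num_div_den s
  rw [er, es] at hh
  exact hh

/-- The square of a divisor of a prime `ℓ ≡ 1 mod q` is `≡ 1 mod q`. -/
lemma sq_sub_one_dvd_of_dvd_prime {q ℓ : ℕ} (hℓ : ℓ.Prime) (hℓq : (q : ℤ) ∣ (ℓ : ℤ) - 1)
    {g : ℤ} (hg : g ∣ (ℓ : ℤ)) : (q : ℤ) ∣ g ^ 2 - 1 := by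
  have h1 : g.natAbs ∣ ℓ := by
    have := Int.natAbs_dvd_natAbs.mpr hg
    simpa using this
  have h2 : g ^ 2 = ((g.natAbs : ℕ) : ℤ) ^ 2 := by
    rw [Int.natCast_natAbs, sq_abs]
  rcases (Nat.dvd_prime hℓ).mp h1 with h | h
  · rw [h2, h]
    simp
  · rw [h2, h]
    obtain ⟨m, hm⟩ := hℓq
    exact ⟨m * ((ℓ : ℤ) + 1), by linear_combination ((ℓ : ℤ) + 1) * hm⟩

/-- The class `num · (den / q) mod q` is preserved by the branches of `TT ℓ`, `ℓ ≡ 1 mod q`. -/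
lemma branch_class {q ℓ : ℕ} (hq : q.Prime) (hℓ : ℓ.Prime) (hℓq : (q : ℤ) ∣ (ℓ : ℤ) - 1)
    {r s : ℚ} {x y w : ℤ} (hxw : x * w = (ℓ : ℤ)) (hw0 : w ≠ 0)
    (hs : s = ((x : ℚ) * r + (y : ℚ)) / (w : ℚ)) {c₁ c₁' : ℤ}
    (hc : (r.den : ℤ) = q * c₁) (hc' : (s.den : ℤ) = q * c₁') :
    (q : ℤ) ∣ s.num * c₁' - r.num * c₁ := by
  have hq0 : (q : ℤ) ≠ 0 := by exact_mod_cast hq.ne_zero
  have hrd : (r.den : ℤ) ≠ 0 := by exact_mod_cast r.den_nz
  have hsd : (s.den : ℤ) ≠ 0 := by exact_mod_cast s.den_nz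
  -- cross multiplication
  have hcross : s.num * (w * (r.den : ℤ)) = (x * r.num + y * (r.den : ℤ)) * (s.den : ℤ) := by
    have hrdq : (r.den : ℚ) ≠ 0 := by exact_mod_cast r.den_nz
    have hsdq : (s.den : ℚ) ≠ 0 := by exact_mod_cast s.den_nz
    have hwq : (w : ℚ) ≠ 0 := by exact_mod_cast hw0
    have e1 : (s.num : ℚ) = s * s.den := (Rat.mul_den_eq_num s).symm
    have e2 : (r.num : ℚ) = r * r.den := (Rat.mul_den_eq_num r).symm
    have : ((s.num * (w * (r.den : ℤ)) : ℤ) : ℚ)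
        = (((x * r.num + y * (r.den : ℤ)) * (s.den : ℤ) : ℤ) : ℚ) := by
      push_cast
      rw [e1, e2, hs]
      field_simp
    exact_mod_cast this
  -- `w c = c' g`
  have hcop' : IsCoprime (s.den : ℤ) s.num :=
    (Int.isCoprime_iff_gcd_eq_one.mpr (by exact_mod_cast s.reduced)).symm
  have hdvd : (s.den : ℤ) ∣ w * (r.den : ℤ) := by
    apply hcop'.dvd_of_dvd_mul_left
    exact ⟨x * r.num + y * (r.den : ℤ), by linear_combination hcross⟩
  obtain ⟨g, hg⟩ := hdvd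
  have hag : s.num * g = x * r.num + y * (r.den : ℤ) := by
    apply mul_left_cancel₀ hsd
    rw [hg] at hcross
    linear_combination hcross
  -- `g ∣ ℓ`
  obtain ⟨u, v, hb⟩ : IsCoprime r.num (r.den : ℤ) :=
    Int.isCoprime_iff_gcd_eq_one.mpr (by exact_mod_cast r.reduced)
  have hgl : g ∣ (ℓ : ℤ) := by
    refine ⟨u * (w * s.num - y * (s.den : ℤ)) + v * x * (s.den : ℤ), ?_⟩
    linear_combination (-(x * w)) * hb - hxw + (-(u * w)) * hag + (v * x - u * y) * hg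
  have hg2 := sq_sub_one_dvd_of_dvd_prime hℓ hℓq hgl
  -- `w c₁ = c₁' g`
  have hg1 : w * c₁ = c₁' * g := by
    apply mul_left_cancel₀ hq0
    rw [hc, hc'] at hg
    linear_combination hg
  -- the class
  obtain ⟨m, hm⟩ := hℓq
  obtain ⟨m2, hm2⟩ := hg2
  refine ⟨m * r.num * c₁ + y * w * c₁ ^ 2 - m2 * s.num * c₁', ?_⟩
  rw [hc] at hag
  linear_combination (c₁' * g) * hag - (x * r.num + y * ((q : ℤ) * c₁)) * hg1
    + (r.num * c₁) * hxw + (r.num * c₁) * hm - (s.num * c₁') * hm2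

/-- **ORB3**: on a `Γ₀(N q²)`-invariant function on `X_N`, `TT ℓ` acts by `ℓ + 1` if
`ℓ ≡ 1 mod N q²`. -/
theorem stmt_ORB3 : H78.Stmt_ORB3 := by
  intro N q hN hq hqN A _ E hE ℓ hℓ hℓNq hℓ1 r hr
  have hℓN : ¬ ℓ ∣ N := fun h => hℓNq (Dvd.dvd.mul_right h q)
  have hℓq : ℓ ≠ q := by
    rintro rfl
    exact hℓNq (Dvd.intro_left N rfl)
  have hcop : ℓ.Coprime N := (Nat.Prime.coprime_iff_not_dvd hℓ).mpr hℓN
  have hℓ1q : (q : ℤ) ∣ (ℓ : ℤ) - 1 := by
    have h1 : ℓ ≡ 1 [MOD N * q ^ 2] := hℓ1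
    have h2 : ℓ ≡ 1 [MOD q] := h1.of_dvd ⟨N * q, by ring⟩
    have h3 := (Nat.modEq_iff_dvd.mp h2.symm)
    simpa using h3
  rw [TT_eq_sum_aMat]
  have hterm : ∀ j : Option (Fin ℓ), E (mob (aMat ℓ j) r) = E r := by
    intro j
    have hs : InX N (mob (aMat ℓ j) r) := inX_mob_aMat hcop j hr
    have hiff := dvd_den_mob_aMat_iff hq hℓ hℓq j r
    by_cases hqr : q ∣ r.den
    · have hqs : q ∣ (mob (aMat ℓ j) r).den := hiff.mpr hqr
      obtain ⟨c₁, hc₁⟩ := hqr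
      obtain ⟨c₁', hc₁'⟩ := hqs
      have hc : (r.den : ℤ) = (q : ℤ) * (c₁ : ℤ) := by exact_mod_cast hc₁
      have hc' : ((mob (aMat ℓ j) r).den : ℤ) = (q : ℤ) * (c₁' : ℤ) := by exact_mod_cast hc₁'
      have hcl : (q : ℤ) ∣ (mob (aMat ℓ j) r).num * (c₁' : ℤ) - r.num * (c₁ : ℤ) := by
        rcases j with _ | j
        · refine branch_class hq hℓ hℓ1q (x := (ℓ : ℤ)) (y := 0) (w := 1) (by ring) one_ne_zero
            ?_ hc hc'
          rw [mob_aMat_none]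
          simp
        · refine branch_class hq hℓ hℓ1q (x := 1) (y := ((j : ℕ) : ℤ)) (w := (ℓ : ℤ)) (by ring)
            (by exact_mod_cast hℓ.ne_zero) ?_ hc hc'
          rw [mob_aMat_some]
          simp
      obtain ⟨h, hh⟩ := exists_gamma0_of_class hr hs hc hc' hcl
      rw [← hh]
      exact hE h r hr
    · have hqs : ¬ q ∣ (mob (aMat ℓ j) r).den := fun h => hqr (hiff.mp h)
      have key : ∀ t : ℚ, InX N t → ¬ q ∣ t.den → E t = E 0 := by
        intro t ht hqt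
        have h1 : t.den.Coprime (q ^ 2) :=
          Nat.Coprime.pow_right 2 ((Nat.Prime.coprime_iff_not_dvd hq).mpr hqt).symm
        have ht' : InX (N * q ^ 2) t := Nat.Coprime.mul_right ht h1
        obtain ⟨g, hg⟩ := exists_mob_zero ht'
        rw [← hg]
        exact hE g 0 (inX_zero N)
      rw [key _ hs hqs, key r hr hqr]
  rw [Finset.sum_congr rfl (fun j _ => hterm j), Finset.sum_const, Finset.card_univ,
    Fintype.card_option, Fintype.card_fin]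

end Fermat.Agent.S59.NonMin.Geom.H11
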