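import Fermat.Agent.S59.NonMin.Geom.Defs

/-!
# S59 / NMGEOM, leaf IHARA3 (helper78): the three-vector form

`Stmt_IHARA3v` (proposed by helper48 and helper94; it replaces `Geom.Stmt_IHARA3`, which is too weak
for `Deg3.ihara` and for DUAL): three cuspidal eigen-homomorphisms `x₁, x₂, x₃ : Γ₀(N) → k` for the
same non-Eisenstein system of eigenvalues with `A₁ x₁ + A₂ x₂ + A₃ x₃ = 0` all vanish.
`Stmt_IHARA3` follows from it with `x_i := c_i • x`.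

Definition only; the proof is `H78.stmt_IHARA3v` (file `H78_Ihara3v.lean`).  No `sorry`.
-/

set_option autoImplicit false

open CongruenceSubgroup
open scoped MatrixGroups

namespace Fermat.Agent.S59.NonMin.Geom.H78

open Fermat.Agent.S41 Fermat.Agent.Betti Fermat.Agent.S59.NonMin.Geom

/-- **IHARA3, three-vector form.** -/
def Stmt_IHARA3v : Prop :=
  ∀ (k : Type) [Field k] (p : ℕ) [Fact p.Prime] [CharP k p], p ≠ 2 →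
    ∀ (N q : ℕ), 0 < N → q.Prime → ¬ q ∣ N → q ≠ p →
    ∀ (P : ℕ → Prop) (a : ℕ → k), (∀ ℓ, P ℓ → ℓ.Prime ∧ ¬ ℓ ∣ N * q ∧ ℓ ≠ p) →
    (∀ M : ℕ, 0 < M → p ∣ M →
      ∃ ℓ, P ℓ ∧ ℓ % M = 1 % M ∧ (q : ZMod ℓ) ^ ((ℓ - 1) / p) ≠ 1 ∧ a ℓ ≠ 2) →
    ∀ x₁ x₂ x₃ : Additive (Gamma0 N) →+ k,
    IsCuspidalHom (Gamma0 N) x₁ → IsCuspidalHom (Gamma0 N) x₂ → IsCuspidalHom (Gamma0 N) x₃ →
    (∀ (ℓ : ℕ) (hℓ : ℓ.Prime) (hℓN : ¬ ℓ ∣ N), P ℓ →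
      TB N k hℓ hℓN x₁ = a ℓ • x₁ ∧ TB N k hℓ hℓN x₂ = a ℓ • x₂ ∧ TB N k hℓ hℓN x₃ = a ℓ • x₃) →
    resA1 N q k x₁ + resA2 N q k x₂ + resA3 N q k x₃ = 0 → x₁ = 0 ∧ x₂ = 0 ∧ x₃ = 0

end Fermat.Agent.S59.NonMin.Geom.H78
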