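import Fermat.Agent.S59.NonMin.Geom.H78_Ihara3vCore
import Fermat.Agent.S59.NonMin.Geom.H78_Ihara3vDefs
import Fermat.Agent.S59.NonMin.Geom.H11_Orb3
import Fermat.Agent.S41.H20_Bridge

/-!
# S59 / NMGEOM, leaf IHARA3 (helper78): Ihara's lemma for three degeneracy maps over a field

All statements for a field `k` of characteristic `p`, a prime `q ∤ N` (`q = p` allowed), a
non-Eisenstein system of eigenvalues `(P, a)`:

* `ihara3_first` : `x₁` eigen, `x₂, x₃` cuspidal, `A₁ x₁ + A₂ x₂ + A₃ x₃ = 0` ⟹ `x₁ = 0`;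
* `ihara2_gen`   : `x₁` eigen, `x₂` cuspidal, `res1 x₁ + res2 x₂ = 0` ⟹ `x₁ = 0 ∧ x₂ = 0`
                   (this is `CaseC.Geom.Stmt_IHARA2k`);
* `ihara3v_gen`  : `x₁, x₂` eigen, `x₃` cuspidal, `A₁ x₁ + A₂ x₂ + A₃ x₃ = 0` ⟹ all vanish;
* `stmt_IHARA3v : Stmt_IHARA3v`, `stmt_IHARA3 : Geom.Stmt_IHARA3`.
This file contains no `sorry`.
-/

set_option autoImplicit false

open scoped MatrixGroups
open CongruenceSubgroup Matrix

namespace Fermat.Agent.S59.NonMin.Geom.H78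

open Fermat.Agent.S41 Fermat.Agent.S41.H19 Fermat.Agent.S41.Ihara Fermat.Agent.Betti
  Fermat.Agent.S59.NonMin.Geom

section Mats

theorem mat_j1 (N q : ℕ) (h : Gamma0 (N * q ^ 2)) : mat (j1 N q h) = mat h := rfl

theorem mat_j2 (N q : ℕ) (h : Gamma0 (N * q ^ 2)) : mat (j2 N q h) = conjMat q (mat h) := rfl

theorem mat_j3 (N q : ℕ) (h : Gamma0 (N * q ^ 2)) :
    mat (j3 N q h) = conjMat q (conjMat q (mat h)) := rfl

end Mats

section Main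

variable (k : Type) [Field k] (p : ℕ) [Fact p.Prime] [CharP k p] (N q : ℕ)

/-- **First component**: only `x₁` is assumed to be an eigenvector; `q = p` allowed. -/
theorem ihara3_first (hN : 0 < N) (hq : q.Prime) (hqN : ¬ q ∣ N)
    (P : ℕ → Prop) (a : ℕ → k) (hP : ∀ ℓ, P ℓ → ℓ.Prime ∧ ¬ ℓ ∣ N * q ∧ ℓ ≠ p)
    (hex : ∀ M : ℕ, 0 < M → p ∣ M →
      ∃ ℓ, P ℓ ∧ ℓ % M = 1 % M ∧ (q : ZMod ℓ) ^ ((ℓ - 1) / p) ≠ 1 ∧ a ℓ ≠ 2)
    (x₁ x₂ x₃ : Additive (Gamma0 N) →+ k)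
    (hx₁ : IsCuspidalHom (Gamma0 N) x₁) (hx₂ : IsCuspidalHom (Gamma0 N) x₂)
    (hx₃ : IsCuspidalHom (Gamma0 N) x₃)
    (heig : ∀ (ℓ : ℕ) (hℓ : ℓ.Prime) (hℓN : ¬ ℓ ∣ N), P ℓ → TB N k hℓ hℓN x₁ = a ℓ • x₁)
    (hrel : ∀ h : Gamma0 (N * q ^ 2), x₁ (Additive.ofMul (j1 N q h))
      + x₂ (Additive.ofMul (j2 N q h)) + x₃ (Additive.ofMul (j3 N q h)) = 0) : x₁ = 0 := by
  rcases Nat.lt_or_ge N 2 with hN1 | hN2
  · have h1 : N = 1 := by omega
    subst h1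
    exact eq_zero_of_level_one x₁ hx₁
  have hp : p.Prime := Fact.out
  have heigT : ∀ ℓ, P ℓ → Tcoh N k ℓ x₁ = a ℓ • x₁ := by
    intro ℓ hPℓ
    obtain ⟨hℓ, hℓNq, -⟩ := hP ℓ hPℓ
    have hℓN : ¬ ℓ ∣ N := fun h => hℓNq (dvd_mul_of_dvd_left h q)
    rw [Fermat.Agent.S41.H20.Tcoh_eq_TB hN hℓ hℓN]
    exact heig ℓ hℓ hℓN hPℓ
  have hM0 : 0 < N * q ^ 2 * p := by
    have := hp.pos
    have := hq.pos
    positivity
  obtain ⟨ℓ₀, hPℓ₀, hℓ₀M, -, haℓ₀⟩ := hex (N * q ^ 2 * p) hM0 (dvd_mul_left _ _)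
  obtain ⟨hℓ₀, hℓ₀Nq, -⟩ := hP ℓ₀ hPℓ₀
  have hℓ₀1 : ℓ₀ % (N * q ^ 2) = 1 % (N * q ^ 2) :=
    Nat.ModEq.of_dvd (Dvd.intro _ rfl) hℓ₀M
  have hMdvd : N * q ^ 2 * p ∣ ℓ₀ - 1 :=
    (Nat.modEq_iff_dvd' hℓ₀.one_le).mp (Nat.ModEq.symm hℓ₀M)
  have hpℓ : p ∣ ℓ₀ - 1 := dvd_trans (dvd_mul_left _ _) hMdvd
  have hℓk : (ℓ₀ : k) = 1 := by
    have h0 : ((ℓ₀ - 1 : ℕ) : k) = 0 := (CharP.cast_eq_zero_iff k p _).mpr hpℓ
    rw [Nat.cast_sub hℓ₀.one_le, Nat.cast_one, sub_eq_zero] at h0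
    exact h0
  have ha : a ℓ₀ ≠ (ℓ₀ : k) + 1 := by
    rw [hℓk]
    intro h
    apply haℓ₀
    rw [h]
    norm_num
  exact core_zero k p hN2 hq hqN P a hP hex x₁ hx₁ heigT
    (fun r hr => first_per Fermat.Agent.S59.NonMin.Geom.H11.stmt_ORB3 hN2 hq hqN x₁ x₂ x₃
      hx₁ hx₂ hx₃ (j1 N q) (j2 N q) (j3 N q) (mat_j1 N q) (mat_j2 N q) (mat_j3 N q) hrel
      hℓ₀ hℓ₀Nq hℓ₀1 (a ℓ₀) ha (heigT ℓ₀ hPℓ₀) hr)

omit [Field k] [Fact p.Prime] [CharP k p] in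
/-- The zero homomorphism is cuspidal. -/
theorem isCuspidal_zero' {A : Type*} [AddCommGroup A] :
    IsCuspidalHom (Gamma0 N) (0 : Additive (Gamma0 N) →+ A) :=
  fun _ _ => rfl

/-- **Two degeneracy maps** (`= CaseC.Geom.Stmt_IHARA2k`): only `x₁` is assumed to be an
eigenvector; `q = p` allowed. -/
theorem ihara2_gen (hN : 0 < N) (hq : q.Prime) (hqN : ¬ q ∣ N)
    (P : ℕ → Prop) (a : ℕ → k) (hP : ∀ ℓ, P ℓ → ℓ.Prime ∧ ¬ ℓ ∣ N * q ∧ ℓ ≠ p)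
    (hex : ∀ M : ℕ, 0 < M → p ∣ M →
      ∃ ℓ, P ℓ ∧ ℓ % M = 1 % M ∧ (q : ZMod ℓ) ^ ((ℓ - 1) / p) ≠ 1 ∧ a ℓ ≠ 2)
    (x₁ x₂ : Additive (Gamma0 N) →+ k)
    (hx₁ : IsCuspidalHom (Gamma0 N) x₁) (hx₂ : IsCuspidalHom (Gamma0 N) x₂)
    (heig : ∀ (ℓ : ℕ) (hℓ : ℓ.Prime) (hℓN : ¬ ℓ ∣ N), P ℓ → TB N k hℓ hℓN x₁ = a ℓ • x₁)
    (hrel : res1 N q k x₁ + res2 N q k x₂ = 0) : x₁ = 0 ∧ x₂ = 0 := by
  have hrel3 : ∀ h : Gamma0 (N * q ^ 2), x₁ (Additive.ofMul (j1 N q h))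
      + x₂ (Additive.ofMul (j2 N q h))
      + (0 : Additive (Gamma0 N) →+ k) (Additive.ofMul (j3 N q h)) = 0 := by
    intro h
    have h0 := DFunLike.congr_fun hrel (Additive.ofMul (inclG (N * q) q (castG N q h)))
    rw [AddMonoidHom.zero_apply, add_zero]
    exact h0
  have h1 : x₁ = 0 := ihara3_first k p N q hN hq hqN P a hP hex x₁ x₂ 0 hx₁ hx₂
    (isCuspidal_zero' N) heig hrel3
  refine ⟨h1, ?_⟩
  have hres2 : ∀ h : Gamma0 (N * q), x₂ (Additive.ofMul (conjG N q h)) = 0 := by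
    intro h
    have h0 := DFunLike.congr_fun hrel (Additive.ofMul h)
    rw [h1] at h0
    have h2 : (res1 N q k (0 : Additive (Gamma0 N) →+ k) + res2 N q k x₂) (Additive.ofMul h)
        = x₂ (Additive.ofMul (conjG N q h)) := by
      show (0 : k) + x₂ (Additive.ofMul (conjG N q h)) = _
      rw [zero_add]
    rw [h2] at h0
    exact h0
  exact eq_zero_of_conjG hq x₂ hres2 (hx₂ (uMat N 1) (trace_uMat N 1))

omit [Field k] [Fact p.Prime] [CharP k p] in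
/-- Descent of a relation between `A₂` and `A₃` to the level `N q`. -/
theorem rel23_descend {A : Type*} [AddCommGroup A] (hq : q.Prime)
    (x₂ x₃ : Additive (Gamma0 N) →+ A)
    (hx₂ : IsCuspidalHom (Gamma0 N) x₂) (hx₃ : IsCuspidalHom (Gamma0 N) x₃)
    (hrel : ∀ h : Gamma0 (N * q ^ 2),
      x₂ (Additive.ofMul (j2 N q h)) + x₃ (Additive.ofMul (j3 N q h)) = 0) :
    res1 N q A x₂ + res2 N q A x₃ = 0 := by
  apply eq_zero_of_conjG (N := N * q) hq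
  · intro h''
    have hle : Gamma0 (N * q * q) ≤ Gamma0 (N * q ^ 2) :=
      le_of_eq (congrArg (fun M => Gamma0 M) (by ring))
    have hmem : (h'' : SL(2, ℤ)) ∈ Gamma0 (N * q ^ 2) := hle h''.2
    have e2 : inclG N q (conjG (N * q) q h'') = j2 N q ⟨h''.1, hmem⟩ := mat_injective rfl
    have e3 : conjG N q (conjG (N * q) q h'') = j3 N q ⟨h''.1, hmem⟩ := mat_injective rfl
    show x₂ (Additive.ofMul (inclG N q (conjG (N * q) q h'')))
      + x₃ (Additive.ofMul (conjG N q (conjG (N * q) q h''))) = 0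
    rw [e2, e3]
    exact hrel _
  · show x₂ (Additive.ofMul (inclG N q (uMat (N * q) 1)))
      + x₃ (Additive.ofMul (conjG N q (uMat (N * q) 1))) = 0
    have t2 : x₂ (Additive.ofMul (inclG N q (uMat (N * q) 1))) = 0 :=
      hx₂ _ (trace_uMat (N * q) 1)
    have t3 : x₃ (Additive.ofMul (conjG N q (uMat (N * q) 1))) = 0 := by
      apply hx₃
      show (mat (conjG N q (uMat (N * q) 1))).trace ^ 2 ≤ 4
      rw [mat_conjG, trace_conjMat]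
      exact trace_uMat (N * q) 1
    rw [t2, t3, add_zero]

/-- **Three degeneracy maps, three vectors**: `x₁, x₂` eigen, `x₃` cuspidal; `q = p` allowed. -/
theorem ihara3v_gen (hN : 0 < N) (hq : q.Prime) (hqN : ¬ q ∣ N)
    (P : ℕ → Prop) (a : ℕ → k) (hP : ∀ ℓ, P ℓ → ℓ.Prime ∧ ¬ ℓ ∣ N * q ∧ ℓ ≠ p)
    (hex : ∀ M : ℕ, 0 < M → p ∣ M →
      ∃ ℓ, P ℓ ∧ ℓ % M = 1 % M ∧ (q : ZMod ℓ) ^ ((ℓ - 1) / p) ≠ 1 ∧ a ℓ ≠ 2)
    (x₁ x₂ x₃ : Additive (Gamma0 N) →+ k)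
    (hx₁ : IsCuspidalHom (Gamma0 N) x₁) (hx₂ : IsCuspidalHom (Gamma0 N) x₂)
    (hx₃ : IsCuspidalHom (Gamma0 N) x₃)
    (heig₁ : ∀ (ℓ : ℕ) (hℓ : ℓ.Prime) (hℓN : ¬ ℓ ∣ N), P ℓ → TB N k hℓ hℓN x₁ = a ℓ • x₁)
    (heig₂ : ∀ (ℓ : ℕ) (hℓ : ℓ.Prime) (hℓN : ¬ ℓ ∣ N), P ℓ → TB N k hℓ hℓN x₂ = a ℓ • x₂)
    (hrel : resA1 N q k x₁ + resA2 N q k x₂ + resA3 N q k x₃ = 0) :
    x₁ = 0 ∧ x₂ = 0 ∧ x₃ = 0 := by
  have hrel' : ∀ h : Gamma0 (N * q ^ 2), x₁ (Additive.ofMul (j1 N q h))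
      + x₂ (Additive.ofMul (j2 N q h)) + x₃ (Additive.ofMul (j3 N q h)) = 0 :=
    fun h => DFunLike.congr_fun hrel (Additive.ofMul h)
  have h1 : x₁ = 0 :=
    ihara3_first k p N q hN hq hqN P a hP hex x₁ x₂ x₃ hx₁ hx₂ hx₃ heig₁ hrel'
  have hrel23 : ∀ h : Gamma0 (N * q ^ 2),
      x₂ (Additive.ofMul (j2 N q h)) + x₃ (Additive.ofMul (j3 N q h)) = 0 := by
    intro h
    have h0 := hrel' h
    rw [h1, AddMonoidHom.zero_apply, zero_add] at h0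
    exact h0
  have hy := rel23_descend N q hq x₂ x₃ hx₂ hx₃ hrel23
  obtain ⟨h2, h3⟩ := ihara2_gen k p N q hN hq hqN P a hP hex x₂ x₃ hx₂ hx₃ heig₂ hy
  exact ⟨h1, h2, h3⟩

/-- **IHARA3, three-vector form.** -/
theorem stmt_IHARA3v : Stmt_IHARA3v := by
  intro k _ p _ _ _ N q hN hq hqN _ P a hP hex x₁ x₂ x₃ hx₁ hx₂ hx₃ heig hrel
  exact ihara3v_gen k p N q hN hq hqN P a hP hex x₁ x₂ x₃ hx₁ hx₂ hx₃
    (fun ℓ hℓ hℓN hPℓ => (heig ℓ hℓ hℓN hPℓ).1) (fun ℓ hℓ hℓN hPℓ => (heig ℓ hℓ hℓN hPℓ).2.1) hrel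

omit [Field k] [Fact p.Prime] [CharP k p] in
/-- A scalar multiple of a cuspidal homomorphism is cuspidal. -/
theorem isCuspidal_smul' {k : Type*} [Field k] (c : k) (x : Additive (Gamma0 N) →+ k)
    (hx : IsCuspidalHom (Gamma0 N) x) : IsCuspidalHom (Gamma0 N) (c • x) := by
  intro g hg
  show c • x (Additive.ofMul g) = 0
  rw [hx g hg, smul_zero]

/-- **IHARA3** (single vector, constants). -/
theorem stmt_IHARA3 : Stmt_IHARA3 := by
  intro k _ p _ _ _ N q hN hq hqN _ P a hP hex x hx heig c₁ c₂ c₃ hc hrel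
  have hrel' : ∀ h : Gamma0 (N * q ^ 2), c₁ * x (Additive.ofMul (j1 N q h))
      + c₂ * x (Additive.ofMul (j2 N q h)) + c₃ * x (Additive.ofMul (j3 N q h)) = 0 :=
    fun h => DFunLike.congr_fun hrel (Additive.ofMul h)
  by_cases h1 : c₁ = 0
  · by_cases h2 : c₂ = 0
    · have h3 : c₃ ≠ 0 := by
        rcases hc with h | h | h
        · exact absurd h1 h
        · exact absurd h2 h
        · exact h
      have hr3 : ∀ h : Gamma0 (N * q ^ 2),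
          (0 : Additive (Gamma0 N) →+ k) (Additive.ofMul (j2 N q h))
            + x (Additive.ofMul (j3 N q h)) = 0 := by
        intro h
        have h0 := hrel' h
        rw [h1, h2, zero_mul, zero_mul, zero_add, zero_add] at h0
        rw [AddMonoidHom.zero_apply, zero_add]
        exact (mul_eq_zero.mp h0).resolve_left h3
      have hy := rel23_descend N q hq 0 x (isCuspidal_zero' N) hx hr3
      have hres2 : ∀ h : Gamma0 (N * q), x (Additive.ofMul (conjG N q h)) = 0 := by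
        intro h
        have h0 := DFunLike.congr_fun hy (Additive.ofMul h)
        have h4 : (res1 N q k (0 : Additive (Gamma0 N) →+ k) + res2 N q k x) (Additive.ofMul h)
            = x (Additive.ofMul (conjG N q h)) := by
          show (0 : k) + x (Additive.ofMul (conjG N q h)) = _
          rw [zero_add]
        rw [h4] at h0
        exact h0
      exact eq_zero_of_conjG hq x hres2 (hx (uMat N 1) (trace_uMat N 1))
    · have hr23 : ∀ h : Gamma0 (N * q ^ 2), x (Additive.ofMul (j2 N q h))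
          + ((c₃ / c₂) • x) (Additive.ofMul (j3 N q h)) = 0 := by
        intro h
        have h0 := hrel' h
        rw [h1, zero_mul, zero_add] at h0
        show x (Additive.ofMul (j2 N q h)) + (c₃ / c₂) * x (Additive.ofMul (j3 N q h)) = 0
        field_simp
        linear_combination h0
      have hy := rel23_descend N q hq x ((c₃ / c₂) • x) hx (isCuspidal_smul' N _ x hx) hr23
      exact (ihara2_gen k p N q hN hq hqN P a hP hex x ((c₃ / c₂) • x) hx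
        (isCuspidal_smul' N _ x hx) heig hy).1
  · have hr : ∀ h : Gamma0 (N * q ^ 2), x (Additive.ofMul (j1 N q h))
        + ((c₂ / c₁) • x) (Additive.ofMul (j2 N q h))
        + ((c₃ / c₁) • x) (Additive.ofMul (j3 N q h)) = 0 := by
      intro h
      have h0 := hrel' h
      show x (Additive.ofMul (j1 N q h)) + (c₂ / c₁) * x (Additive.ofMul (j2 N q h))
        + (c₃ / c₁) * x (Additive.ofMul (j3 N q h)) = 0
      field_simp
      linear_combination h0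
    exact ihara3_first k p N q hN hq hqN P a hP hex x ((c₂ / c₁) • x) ((c₃ / c₁) • x) hx
      (isCuspidal_smul' N _ x hx) (isCuspidal_smul' N _ x hx) heig hr

end Main

end Fermat.Agent.S59.NonMin.Geom.H78
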