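/-
S59, package RT-NONMIN, sub-package NMGEOM (helper12): the transfer commutes with the Betti Hecke
operators — the abstract core of RELT / RELU.

Setting: `Γ' --ι--> Γ --e--> G` injective homomorphisms of groups, `rep : X → G` a family which
is a Hecke family (`Betti.IsHeckeFamily`) both for `(Γ, e)` and for `(Γ', e ∘ ι)`, and

  (C)  `rep x * e γ = e (ι ε) * rep x'` with `γ ∈ Γ`, `ε ∈ Γ'` implies `γ ∈ ι(Γ')`.

Then `corAlong ι (H'.heckeOp ψ) = H.heckeOp (corAlong ι ψ)` (`corAlong_heckeOp`), and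
`H'.heckeOp (resAlong ι φ) = resAlong ι (H.heckeOp φ)` (`heckeOp_resAlong`, no (C) needed).

Also: change of representatives (`isHeckeFamily_of_twist`, `heckeOp_of_twist`).
-/
import Fermat.Agent.S41.H19_Transfer
import Fermat.Agent.Betti.Family

set_option autoImplicit false
set_option linter.style.haveILetI false
set_option linter.unusedSectionVars false

namespace Fermat.Agent.S59.NonMin.Geom.H12

open Fermat.Agent.S41 Fermat.Agent.S41.H19 Fermat.Agent.Betti

section Abstract

variable {Γ' Γ G : Type*} [Group Γ'] [Group Γ] [Group G] {X : Type*}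

/-! ### Change of representatives -/

/-- A family obtained from a Hecke family by permuting the indices and multiplying on the left
by elements of `Γ` is a Hecke family. -/
theorem isHeckeFamily_of_twist {e : Γ →* G} {X' : Type*} {rep : X → G} (H : IsHeckeFamily e rep)
    {rep' : X' → G} (π : X' ≃ X) (ε : X' → Γ) (hrep : ∀ i, rep' i = e (ε i) * rep (π i)) :
    IsHeckeFamily e rep' where
  exists_mul γ i := by
    refine ⟨π.symm (H.perm γ (π i)), ε i * H.kap γ (π i) * (ε (π.symm (H.perm γ (π i))))⁻¹, ?_⟩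
    rw [hrep i, hrep (π.symm (H.perm γ (π i))), Equiv.apply_symm_apply, mul_assoc,
      H.rep_mul γ (π i), map_mul, map_mul, map_inv]
    group
  inj i j δ h := by
    rw [hrep i, hrep j] at h
    have h2 : rep (π i) = e ((ε i)⁻¹ * δ * ε j) * rep (π j) := by
      have h3 : rep (π i) = (e (ε i))⁻¹ * (e δ * (e (ε j) * rep (π j))) := by
        rw [← h, inv_mul_cancel_left]
      rw [h3]
      simp only [map_mul, map_inv]
      group
    exact π.injective (H.inj _ _ _ h2)

variable [Fintype X] {A : Type*} [AddCommGroup A]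

/-- The Hecke operator does not depend on the representatives. -/
theorem heckeOp_of_twist {e : Γ →* G} (he : Function.Injective e) {X' : Type*} [Fintype X']
    {rep : X → G} (H : IsHeckeFamily e rep) {rep' : X' → G} (H' : IsHeckeFamily e rep')
    (π : X' ≃ X) (ε : X' → Γ) (hrep : ∀ i, rep' i = e (ε i) * rep (π i))
    (φ : Additive Γ →+ A) : H'.heckeOp he φ = H.heckeOp he φ := by
  have h := IsHeckeFamily.heckeOp_eq_of_twist H' H he (MonoidHom.id G) (MonoidHom.id Γ)
    (fun _ => rfl) π ε (fun i => hrep i) φ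
  exact h.symm

/-! ### Restriction -/

/-- The Hecke operator commutes with the restriction along `ι`, when the same representatives
serve for `Γ` and for `Γ'`. -/
theorem heckeOp_resAlong (e : Γ →* G) (he : Function.Injective e) (ι : Γ' →* Γ)
    (he' : Function.Injective (e.comp ι)) {rep : X → G} (H : IsHeckeFamily e rep)
    (H' : IsHeckeFamily (e.comp ι) rep) (φ : Additive Γ →+ A) :
    H'.heckeOp he' (resAlong A ι φ) = resAlong A ι (H.heckeOp he φ) := by
  refine AddMonoidHom.ext fun γ' => ?_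
  obtain ⟨γ, rfl⟩ : ∃ g : Γ', Additive.ofMul g = γ' := ⟨Additive.toMul γ', rfl⟩
  show ∑ x, φ (Additive.ofMul (ι (H'.kap γ x))) = ∑ x, φ (Additive.ofMul (H.kap (ι γ) x))
  refine Finset.sum_congr rfl fun x _ => ?_
  have h : rep x * e (ι γ) = e (ι (H'.kap γ x)) * rep (H'.perm γ x) := H'.rep_mul γ x
  rw [(H.unique he h).2]

/-! ### Corestriction -/

/-- Uniqueness of the decomposition `e (t a * ι ε) * rep b`. -/
theorem decomp_unique {e : Γ →* G} (he : Function.Injective e) {ι : Γ' →* Γ}
    (hι : Function.Injective ι) {rep : X → G} (H : IsHeckeFamily e rep) {J : Type*} {t : J → Γ}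
    (ht : IsReps ι t) {a₁ a₂ : J} {ε₁ ε₂ : Γ'} {b₁ b₂ : X}
    (h : e (t a₁ * ι ε₁) * rep b₁ = e (t a₂ * ι ε₂) * rep b₂) :
    a₁ = a₂ ∧ ε₁ = ε₂ ∧ b₁ = b₂ := by
  have h1 : rep b₁ = e ((t a₁ * ι ε₁)⁻¹ * (t a₂ * ι ε₂)) * rep b₂ := by
    rw [map_mul, map_inv, mul_assoc, ← h, inv_mul_cancel_left]
  have hb : b₁ = b₂ := H.inj _ _ _ h1
  subst hb
  have h2 : e (t a₁ * ι ε₁) = e (t a₂ * ι ε₂) := mul_right_cancel h
  have h3 : t a₁ * ι ε₁ = t a₂ * ι ε₂ := he h2
  have ha : a₁ = a₂ := by
    apply ht.inj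
    refine ⟨ε₁ * ε₂⁻¹, ?_⟩
    rw [map_mul, map_inv]
    have : t a₂ = t a₁ * ι ε₁ * (ι ε₂)⁻¹ := by rw [h3]; group
    rw [this]; group
  subst ha
  exact ⟨rfl, hι (mul_left_cancel h3), rfl⟩

/-- **The transfer commutes with the Hecke operator.** -/
theorem corAlong_heckeOp (e : Γ →* G) (he : Function.Injective e) (ι : Γ' →* Γ)
    (hι : Function.Injective ι) (he' : Function.Injective (e.comp ι)) {rep : X → G}
    (H : IsHeckeFamily e rep) (H' : IsHeckeFamily (e.comp ι) rep)
    (hC : ∀ (x x' : X) (γ : Γ) (ε : Γ'), rep x * e γ = e (ι ε) * rep x' → γ ∈ ι.range)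
    (ψ : Additive Γ' →+ A) :
    corAlong A ι (H'.heckeOp he' ψ) = H.heckeOp he (corAlong A ι ψ) := by
  classical
  by_cases hfin : ι.range.FiniteIndex
  swap
  · have hn : ¬ (Function.Injective ι ∧ ι.range.FiniteIndex) := fun h => hfin h.2
    rw [corAlong_of_not hn, corAlong_of_not hn, H.heckeOp_zero]
  haveI : Finite (Γ ⧸ ι.range) := Subgroup.finite_quotient_of_finiteIndex
  letI : Fintype (Γ ⧸ ι.range) := Fintype.ofFinite _
  set t : Γ ⧸ ι.range → Γ := fun q => q.out with htdef
  have ht : IsReps ι t := isReps_out ι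
  -- the solutions of `κ * t j = t (σ κ j) * ι (h κ j)`
  choose σ h hh using fun κ : Γ => ht.exists_sol κ
  have hσ : ∀ κ, Function.Bijective (σ κ) := fun κ => ht.sol_bijective (hh κ)
  -- the decomposition of `κ_y(t_j)`
  have hdec : ∀ κ : Γ, ∃ (a : Γ ⧸ ι.range) (ε : Γ'), κ = t a * ι ε := by
    intro κ
    obtain ⟨a, ε, hε⟩ := ht.surj κ
    exact ⟨a, ε, by rw [hε, mul_inv_cancel_left]⟩
  choose a ε hε using fun (y : X) (j : Γ ⧸ ι.range) => hdec (H.kap (t j) y)
  have hD : ∀ (y : X) (j : Γ ⧸ ι.range),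
      rep y * e (t j) = e (t (a y j) * ι (ε y j)) * rep (H.perm (t j) y) := by
    intro y j
    rw [← hε y j]
    exact H.rep_mul (t j) y
  -- `j ↦ a y j` is a bijection
  have ha : ∀ y, Function.Bijective (a y) := by
    intro y
    apply Finite.injective_iff_bijective.mp
    intro j₁ j₂ h12
    apply ht.inj
    have h1 := hD y j₁
    have h2 := hD y j₂
    rw [← h12] at h2
    refine hC (H.perm (t j₁) y) (H.perm (t j₂) y) _ ((ε y j₁)⁻¹ * ε y j₂) ?_
    have e1 : rep (H.perm (t j₁) y) = (e (t (a y j₁) * ι (ε y j₁)))⁻¹ * (rep y * e (t j₁)) := by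
      rw [h1, inv_mul_cancel_left]
    calc rep (H.perm (t j₁) y) * e ((t j₁)⁻¹ * t j₂)
        = (e (t (a y j₁) * ι (ε y j₁)))⁻¹ * (rep y * e (t j₂)) := by
          rw [e1]; simp only [map_mul, map_inv]; group
      _ = (e (t (a y j₁) * ι (ε y j₁)))⁻¹ * (e (t (a y j₁) * ι (ε y j₂)) *
            rep (H.perm (t j₂) y)) := by rw [h2]
      _ = e (ι ((ε y j₁)⁻¹ * ε y j₂)) * rep (H.perm (t j₂) y) := by
          simp only [map_mul, map_inv]; group
  -- the key identity
  have key : ∀ (g : Γ) (x : X) (j : Γ ⧸ ι.range),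
      h (H.kap g x) (a (H.perm g x) j) * ε (H.perm g x) j
        = ε x (σ g j) * H'.kap (h g j) (H.perm (t (σ g j)) x) := by
    intro g x j
    have w1 : rep x * e (g * t j)
        = e (t (σ (H.kap g x) (a (H.perm g x) j)) *
              ι (h (H.kap g x) (a (H.perm g x) j) * ε (H.perm g x) j)) *
            rep (H.perm (t j) (H.perm g x)) := by
      calc rep x * e (g * t j) = (rep x * e g) * e (t j) := by rw [map_mul, mul_assoc]
        _ = e (H.kap g x) * (rep (H.perm g x) * e (t j)) := by rw [H.rep_mul g x, mul_assoc]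
        _ = e (H.kap g x * t (a (H.perm g x) j) * ι (ε (H.perm g x) j)) *
              rep (H.perm (t j) (H.perm g x)) := by
            rw [hD (H.perm g x) j]; simp only [map_mul]; group
        _ = _ := by
            rw [hh (H.kap g x) (a (H.perm g x) j)]; simp only [map_mul]; group
    have w2 : rep x * e (g * t j)
        = e (t (a x (σ g j)) * ι (ε x (σ g j) * H'.kap (h g j) (H.perm (t (σ g j)) x))) *
            rep (H'.perm (h g j) (H.perm (t (σ g j)) x)) := by
      have r' : rep (H.perm (t (σ g j)) x) * e (ι (h g j))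
          = e (ι (H'.kap (h g j) (H.perm (t (σ g j)) x))) *
            rep (H'.perm (h g j) (H.perm (t (σ g j)) x)) :=
        H'.rep_mul (h g j) (H.perm (t (σ g j)) x)
      calc rep x * e (g * t j) = (rep x * e (t (σ g j))) * e (ι (h g j)) := by
            rw [hh g j, map_mul, mul_assoc]
        _ = e (t (a x (σ g j)) * ι (ε x (σ g j))) *
              (rep (H.perm (t (σ g j)) x) * e (ι (h g j))) := by
            rw [hD x (σ g j), mul_assoc]
        _ = _ := by
            rw [r']; simp only [map_mul]; group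
    exact (decomp_unique he hι H ht (w1.symm.trans w2)).2.1
  -- the sums
  refine AddMonoidHom.ext fun g' => ?_
  obtain ⟨g, rfl⟩ : ∃ g : Γ, Additive.ofMul g = g' := ⟨Additive.toMul g', rfl⟩
  rw [corAlong_eq_sum ι hι t ht _ g (σ g) (h g) (hh g)]
  show ∑ j, ∑ x, ψ (Additive.ofMul (H'.kap (h g j) x))
    = ∑ x, corAlong A ι ψ (Additive.ofMul (H.kap g x))
  have hR : ∀ x, corAlong A ι ψ (Additive.ofMul (H.kap g x))
      = ∑ j, ψ (Additive.ofMul (h (H.kap g x) (a (H.perm g x) j))) := by
    intro x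
    rw [corAlong_eq_sum ι hι t ht ψ (H.kap g x) (σ _) (h _) (hh _)]
    exact (Equiv.sum_comp (Equiv.ofBijective _ (ha (H.perm g x)))
      (fun j => ψ (Additive.ofMul (h (H.kap g x) j)))).symm
  have hL : ∀ j, ∑ x, ψ (Additive.ofMul (H'.kap (h g j) x))
      = ∑ x, ψ (Additive.ofMul (H'.kap (h g j) (H.perm (t (σ g j)) x))) := by
    intro j
    exact (Equiv.sum_comp (H.permEquiv he (t (σ g j)))
      (fun x => ψ (Additive.ofMul (H'.kap (h g j) x)))).symm
  have hE : ∀ (x : X) (j : Γ ⧸ ι.range),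
      ψ (Additive.ofMul (H'.kap (h g j) (H.perm (t (σ g j)) x)))
        = ψ (Additive.ofMul (h (H.kap g x) (a (H.perm g x) j)))
          + ψ (Additive.ofMul (ε (H.perm g x) j)) - ψ (Additive.ofMul (ε x (σ g j))) := by
    intro x j
    have := congrArg (fun z => ψ (Additive.ofMul z)) (key g x j)
    simp only [ofMul_mul, map_add] at this
    rw [this]
    abel
  rw [Finset.sum_congr rfl fun x _ => hR x, Finset.sum_congr rfl fun j _ => hL j,
    Finset.sum_comm]
  rw [Finset.sum_congr rfl fun x _ => Finset.sum_congr rfl fun j _ => hE x j]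
  simp only [Finset.sum_sub_distrib, Finset.sum_add_distrib]
  have c1 : ∑ x, ∑ j, ψ (Additive.ofMul (ε (H.perm g x) j))
      = ∑ x, ∑ j, ψ (Additive.ofMul (ε x j)) :=
    Equiv.sum_comp (H.permEquiv he g) (fun x => ∑ j, ψ (Additive.ofMul (ε x j)))
  have c2 : ∑ x, ∑ j, ψ (Additive.ofMul (ε x (σ g j)))
      = ∑ x, ∑ j, ψ (Additive.ofMul (ε x j)) :=
    Finset.sum_congr rfl fun x _ =>
      Equiv.sum_comp (Equiv.ofBijective _ (hσ g)) (fun j => ψ (Additive.ofMul (ε x j)))
  rw [c1, c2]
  abel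

end Abstract

end Fermat.Agent.S59.NonMin.Geom.H12
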