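/-
S59, package RT-NONMIN, sub-package NMGEOM, leaf REL1 (helper12):
`U_q A₁ = A₁ T_q - A₂`, `U_q A₂ = q A₁`, `U_q A₃ = q A₂` in Betti cohomology
(`U_q` of level `N q²`, `T_q` of level `N`, any coefficient group).

Proof: `U_q` is the sum over the representatives `B_x = [[1, x], [0, q]]`, `x ∈ ZMod q`, with
`B_x γ = κ_x(γ) B_{x'}`.
* `T_q` of level `N` has the same representatives and `D = diag(q, 1)`, with
  `D γ = j₂(γ) D` for `γ ∈ Γ₀(N q²)`;
* `D B_x = q [[1, x], [0, 1]]`, so `j₂(κ_x) = t_x γ t_{x'}⁻¹`, `t_x = [[1, x], [0, 1]]`;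
* `j₃(κ_x) = s_x j₂(γ) s_{x'}⁻¹`, `s_x = [[1, q x], [0, 1]]`.
-/
import Fermat.Agent.S59.NonMin.Geom.Defs
import Fermat.Agent.S41.H39_AL

set_option autoImplicit false
set_option linter.style.haveILetI false
set_option linter.unusedSectionVars false

open scoped MatrixGroups
open CongruenceSubgroup Matrix ModularForm

namespace Fermat.Agent.S59.NonMin.Geom.H12

open Fermat.Agent.S41 Fermat.Agent.S41.H19 Fermat.Agent.S41.H39 Fermat.Agent.Betti
open Fermat.Agent.S59.NonMin.Geom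

/-! ### The matrices of the degeneracy maps -/

section Mat

variable (N q : ℕ)

theorem mat_j1 (γ : Gamma0 (N * q ^ 2)) : mat (j1 N q γ) = mat γ := rfl

theorem mat_j2 (γ : Gamma0 (N * q ^ 2)) : mat (j2 N q γ) = conjMat q (mat γ) := rfl

theorem mat_j3 (γ : Gamma0 (N * q ^ 2)) :
    mat (j3 N q γ) = conjMat q (conjMat q (mat γ)) := rfl

theorem incl_j1 (γ : Gamma0 (N * q ^ 2)) : incl N (j1 N q γ) = incl (N * q ^ 2) γ := rfl

variable {N q}

theorem q_dvd_mat (γ : Gamma0 (N * q ^ 2)) : (q : ℤ) ∣ mat γ 1 0 := by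
  refine Dvd.dvd.trans ?_ (mat_dvd γ)
  exact ⟨(N : ℤ) * q, by push_cast; ring⟩

theorem q_sq_dvd_mat (γ : Gamma0 (N * q ^ 2)) : (q : ℤ) ^ 2 ∣ mat γ 1 0 := by
  refine Dvd.dvd.trans ?_ (mat_dvd γ)
  exact ⟨(N : ℤ), by push_cast; ring⟩

theorem q_dvd_conjMat (hq : q ≠ 0) (γ : Gamma0 (N * q ^ 2)) :
    (q : ℤ) ∣ conjMat q (mat γ) 1 0 := by
  have hq' : (q : ℤ) ≠ 0 := by exact_mod_cast hq
  obtain ⟨c, hc⟩ := q_sq_dvd_mat γ
  have h1 : conjMat q (mat γ) 1 0 = mat γ 1 0 / (q : ℤ) := by simp [conjMat]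
  rw [h1, hc, pow_two, mul_assoc, Int.mul_ediv_cancel_left _ hq']
  exact dvd_mul_right _ _

/-- The unipotent matrix `[[1, j], [0, 1]]`. -/
def Tm (j : ℤ) : Matrix (Fin 2) (Fin 2) ℤ := !![1, j; 0, 1]

/-- The unipotent element `[[1, j], [0, 1]]` of `Γ₀(N)`. -/
def tU (N : ℕ) (j : ℤ) : Gamma0 N := mkG0 N 1 j 0 1 (by ring) (dvd_zero _)

theorem mat_tU (N : ℕ) (j : ℤ) : mat (tU N j) = Tm j := rfl

theorem Dq_Bmat (q : ℕ) (j : ℤ) : Dq q * Bmat q j = (q : ℤ) • Tm j := by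
  ext i k
  fin_cases i <;> fin_cases k <;>
    simp [Dq, Bmat, Tm, Matrix.mul_apply, Fin.sum_univ_two]

theorem conjMat_Tm (q : ℕ) (j : ℤ) : conjMat q (Tm j) = Tm ((q : ℤ) * j) := by
  ext i k
  fin_cases i <;> fin_cases k <;> simp [conjMat, Tm]

theorem Tm_one_zero (j : ℤ) : Tm j 1 0 = 0 := by simp [Tm]

end Mat

/-! ### The relations of the Hecke families, in `Γ₀(N)` -/

section Rel

variable {N q : ℕ}

theorem val_incl' (M : ℕ) (g : Gamma0 M) :
    ((incl M g : GL (Fin 2) ℝ) : Matrix (Fin 2) (Fin 2) ℝ) = (mat g).map (Int.cast : ℤ → ℝ) := by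
  ext a b
  simp [incl_apply, mat]

/-- The diagonal representative: `D γ = j₂(γ) D`. -/
theorem repT_infty_rel (hq : q ≠ 0) (γ : Gamma0 (N * q ^ 2)) :
    repT q (OnePoint.infty) * incl N (j1 N q γ) = incl N (j2 N q γ) * repT q (OnePoint.infty) := by
  apply Units.ext
  show ((heckeDiagMatrix q : GL (Fin 2) ℝ) : Matrix (Fin 2) (Fin 2) ℝ) *
      ((incl N (j1 N q γ) : GL (Fin 2) ℝ) : Matrix (Fin 2) (Fin 2) ℝ) =
    ((incl N (j2 N q γ) : GL (Fin 2) ℝ) : Matrix (Fin 2) (Fin 2) ℝ) *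
      ((heckeDiagMatrix q : GL (Fin 2) ℝ) : Matrix (Fin 2) (Fin 2) ℝ)
  rw [val_incl', val_incl',
    ModularForm.val_heckeDiagMatrix hq, mat_j1, mat_j2]
  have e : (Dq q).map (Int.cast : ℤ → ℝ) = !![(q : ℝ), 0; 0, 1] := by
    ext i k
    fin_cases i <;> fin_cases k <;> simp [Dq]
  rw [← e, ← Matrix.map_mul_intCast, ← Matrix.map_mul_intCast, conjMat_Dq (q_dvd_mat γ)]

/-- `j₂(κ) t_{x'} = t_x γ` when `B_x γ = κ B_{x'}`. -/
theorem j2_kap_rel (hq : q ≠ 0) {γ κ : Gamma0 (N * q ^ 2)} {x x' : ZMod q}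
    (h : repU q x * incl (N * q ^ 2) γ = incl (N * q ^ 2) κ * repU q x') :
    j2 N q κ * tU N (x'.val : ℤ) = tU N (x.val : ℤ) * j1 N q γ := by
  apply mat_injective
  rw [mat_mul, mat_mul, mat_j2, mat_j1, mat_tU, mat_tU]
  apply smul_mat_cancel hq
  calc (q : ℤ) • (conjMat q (mat κ) * Tm (x'.val : ℤ))
      = conjMat q (mat κ) * (Dq q * Bmat q (x'.val : ℤ)) := by
        rw [Dq_Bmat, Matrix.mul_smul]
    _ = (conjMat q (mat κ) * Dq q) * Bmat q (x'.val : ℤ) := by rw [Matrix.mul_assoc]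
    _ = Dq q * (mat κ * Bmat q (x'.val : ℤ)) := by
        rw [conjMat_Dq (q_dvd_mat κ), Matrix.mul_assoc]
    _ = Dq q * (Bmat q (x.val : ℤ) * mat γ) := by rw [Bmat_rel hq h]
    _ = (Dq q * Bmat q (x.val : ℤ)) * mat γ := by rw [Matrix.mul_assoc]
    _ = (q : ℤ) • (Tm (x.val : ℤ) * mat γ) := by rw [Dq_Bmat, Matrix.smul_mul]

/-- `j₃(κ) s_{x'} = s_x j₂(γ)` when `B_x γ = κ B_{x'}`. -/
theorem j3_kap_rel (hq : q ≠ 0) {γ κ : Gamma0 (N * q ^ 2)} {x x' : ZMod q}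
    (h : repU q x * incl (N * q ^ 2) γ = incl (N * q ^ 2) κ * repU q x') :
    j3 N q κ * tU N ((q : ℤ) * (x'.val : ℤ)) = tU N ((q : ℤ) * (x.val : ℤ)) * j2 N q γ := by
  have h2 := congrArg mat (j2_kap_rel hq h)
  rw [mat_mul, mat_mul, mat_j2, mat_j1, mat_tU, mat_tU] at h2
  have h3 := congrArg (conjMat q) h2
  rw [conjMat_mul (q_dvd_conjMat hq κ) (by rw [Tm_one_zero]; exact dvd_zero _),
    conjMat_mul (by rw [Tm_one_zero]; exact dvd_zero _) (q_dvd_mat γ),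
    conjMat_Tm, conjMat_Tm] at h3
  apply mat_injective
  rw [mat_mul, mat_mul, mat_j3, mat_j2, mat_tU, mat_tU]
  exact h3

end Rel

/-! ### Sums -/

section Sums

variable {A : Type*} [AddCommGroup A]

/-- A telescoping sum: `∑ x, (f x + a - f (σ x)) = card • a`. -/
theorem sum_conj_eq {ι : Type*} [Fintype ι] (σ : Equiv.Perm ι) (f : ι → A) (a : A) :
    ∑ x, (f x + a - f (σ x)) = Fintype.card ι • a := by
  rw [Finset.sum_sub_distrib, Finset.sum_add_distrib, Equiv.sum_comp σ f, Finset.sum_const,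
    Finset.card_univ]
  abel

theorem hom_of_mul_eq {G : Type*} [Group G] (φ : Additive G →+ A) {a b c d : G}
    (h : a * b = c * d) :
    φ (Additive.ofMul a) = φ (Additive.ofMul c) + φ (Additive.ofMul d) - φ (Additive.ofMul b) := by
  have h1 : φ (Additive.ofMul (a * b)) = φ (Additive.ofMul (c * d)) := by rw [h]
  rw [ofMul_mul, ofMul_mul, map_add, map_add] at h1
  rw [← h1]
  abel

end Sums

/-! ### REL1 -/

section Main

variable {N q : ℕ} [NeZero N] [NeZero (N * q ^ 2)] {A : Type} [AddCommGroup A]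

/-- `U_q A₁ = A₁ T_q - A₂`. -/
theorem UB_resA1 (hq : q.Prime) (hqN : ¬ q ∣ N) (hd : q ∣ N * q ^ 2)
    (φ : Additive (Gamma0 N) →+ A) :
    UB (N * q ^ 2) A hd (resA1 N q A φ) = resA1 N q A (TB N A hq hqN φ) - resA2 N q A φ := by
  haveI : Fact q.Prime := ⟨hq⟩
  haveI : NeZero q := ⟨hq.ne_zero⟩
  refine AddMonoidHom.ext fun γ' => ?_
  obtain ⟨γ, rfl⟩ : ∃ g : Gamma0 (N * q ^ 2), Additive.ofMul g = γ' := ⟨Additive.toMul γ', rfl⟩
  set HU := isHeckeFamily_U (N * q ^ 2) hd with hHU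
  set HT := isHeckeFamily_T N hqN with hHT
  have hx : ∀ x : ZMod q, HT.kap (j1 N q γ) (x : OnePoint (ZMod q)) = j1 N q (HU.kap γ x) := by
    intro x
    have h := HU.rep_mul γ x
    have h' : repT q (x : OnePoint (ZMod q)) * incl N (j1 N q γ)
        = incl N (j1 N q (HU.kap γ x)) * repT q ((HU.perm γ x : ZMod q) : OnePoint (ZMod q)) := h
    exact ((HT.unique (incl_injective N) h').2).symm
  have hinf : HT.kap (j1 N q γ) (OnePoint.infty) = j2 N q γ :=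
    ((HT.unique (incl_injective N) (repT_infty_rel hq.ne_zero γ)).2).symm
  have hT : TB N A hq hqN φ (Additive.ofMul (j1 N q γ))
      = φ (Additive.ofMul (j2 N q γ))
        + ∑ x : ZMod q, φ (Additive.ofMul (j1 N q (HU.kap γ x))) := by
    rw [TB_apply_apply]
    refine (Fintype.sum_option
      (fun y : OnePoint (ZMod q) => φ (Additive.ofMul (HT.kap (j1 N q γ) y)))).trans ?_
    congr 1
    · exact congrArg (fun g => φ (Additive.ofMul g)) hinf
    · exact Finset.sum_congr rfl fun x _ => congrArg (fun g => φ (Additive.ofMul g)) (hx x)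
  have hU : UB (N * q ^ 2) A hd (resA1 N q A φ) (Additive.ofMul γ)
      = ∑ x : ZMod q, φ (Additive.ofMul (j1 N q (HU.kap γ x))) := by
    rw [UB_apply_apply]
    rfl
  rw [hU, AddMonoidHom.sub_apply]
  show _ = TB N A hq hqN φ (Additive.ofMul (j1 N q γ)) - φ (Additive.ofMul (j2 N q γ))
  rw [hT]
  abel

/-- `U_q A₂ = q A₁`. -/
theorem UB_resA2 (hq : q.Prime) (hd : q ∣ N * q ^ 2) (φ : Additive (Gamma0 N) →+ A) :
    UB (N * q ^ 2) A hd (resA2 N q A φ) = q • resA1 N q A φ := by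
  haveI : NeZero q := ⟨hq.ne_zero⟩
  refine AddMonoidHom.ext fun γ' => ?_
  obtain ⟨γ, rfl⟩ : ∃ g : Gamma0 (N * q ^ 2), Additive.ofMul g = γ' := ⟨Additive.toMul γ', rfl⟩
  set HU := isHeckeFamily_U (N * q ^ 2) hd with hHU
  have hU : UB (N * q ^ 2) A hd (resA2 N q A φ) (Additive.ofMul γ)
      = ∑ x : ZMod q, φ (Additive.ofMul (j2 N q (HU.kap γ x))) := by
    rw [UB_apply_apply]
    rfl
  rw [hU]
  have hterm : ∀ x : ZMod q, φ (Additive.ofMul (j2 N q (HU.kap γ x)))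
      = φ (Additive.ofMul (tU N (x.val : ℤ))) + φ (Additive.ofMul (j1 N q γ))
        - φ (Additive.ofMul (tU N (((HU.permEquiv (incl_injective _) γ) x).val : ℤ))) :=
    fun x => hom_of_mul_eq φ (j2_kap_rel hq.ne_zero (HU.rep_mul γ x))
  rw [Finset.sum_congr rfl fun x _ => hterm x]
  rw [sum_conj_eq (HU.permEquiv (incl_injective _) γ)
    (fun x : ZMod q => φ (Additive.ofMul (tU N (x.val : ℤ)))), ZMod.card]
  rfl

/-- `U_q A₃ = q A₂`. -/
theorem UB_resA3 (hq : q.Prime) (hd : q ∣ N * q ^ 2) (φ : Additive (Gamma0 N) →+ A) :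
    UB (N * q ^ 2) A hd (resA3 N q A φ) = q • resA2 N q A φ := by
  haveI : NeZero q := ⟨hq.ne_zero⟩
  refine AddMonoidHom.ext fun γ' => ?_
  obtain ⟨γ, rfl⟩ : ∃ g : Gamma0 (N * q ^ 2), Additive.ofMul g = γ' := ⟨Additive.toMul γ', rfl⟩
  set HU := isHeckeFamily_U (N * q ^ 2) hd with hHU
  have hU : UB (N * q ^ 2) A hd (resA3 N q A φ) (Additive.ofMul γ)
      = ∑ x : ZMod q, φ (Additive.ofMul (j3 N q (HU.kap γ x))) := by
    rw [UB_apply_apply]
    rfl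
  rw [hU]
  have hterm : ∀ x : ZMod q, φ (Additive.ofMul (j3 N q (HU.kap γ x)))
      = φ (Additive.ofMul (tU N ((q : ℤ) * (x.val : ℤ)))) + φ (Additive.ofMul (j2 N q γ))
        - φ (Additive.ofMul
            (tU N ((q : ℤ) * (((HU.permEquiv (incl_injective _) γ) x).val : ℤ)))) :=
    fun x => hom_of_mul_eq φ (j3_kap_rel hq.ne_zero (HU.rep_mul γ x))
  rw [Finset.sum_congr rfl fun x _ => hterm x]
  rw [sum_conj_eq (HU.permEquiv (incl_injective _) γ)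
    (fun x : ZMod q => φ (Additive.ofMul (tU N ((q : ℤ) * (x.val : ℤ))))), ZMod.card]
  rfl

end Main

/-- **REL1**. -/
theorem stmt_REL1 : Stmt_REL1 := by
  intro N q _ _ hq hqN hd A _ φ
  exact ⟨UB_resA1 hq hqN hd φ, UB_resA2 hq hd φ, UB_resA3 hq hd φ⟩

end Fermat.Agent.S59.NonMin.Geom.H12
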