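/-
S59, package RT-NONMIN, sub-package NMGEOM, leaf RELU (helper12): the degeneracy maps
`A_a = j_a^*`, `C_a = (j_a)_*` (`a = 1, 2, 3`) commute with `U_r`, `r ∣ N` prime.

Method (`H12_CorHecke.lean`): `j_a` is "conjugation by `D_c = diag(c, 1)`", `c = 1, q, q²`
(`IsDeg j c : mat (j γ) * D_c = D_c * mat γ`).  The family `rep̃_x = [[1, c x], [0, r]]`
* is a Hecke family for `(Γ₀(N), incl)`, with the same operator as `repU r` (twist by unipotent
  matrices);
* is a Hecke family for `(Γ₀(N q²), incl ∘ j_a)`, with the same `kap` as `repU r` at the level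
  `N q²` (because `rep̃_x D_c = D_c B_x`);
* satisfies the coset condition (C) of `corAlong_heckeOp`.
-/
import Fermat.Agent.S59.NonMin.Geom.H12_CorHecke
import Fermat.Agent.S59.NonMin.Geom.H12_Rel1

set_option autoImplicit false
set_option linter.style.haveILetI false
set_option linter.unusedSectionVars false

open scoped MatrixGroups
open CongruenceSubgroup Matrix ModularForm

namespace Fermat.Agent.S59.NonMin.Geom.H12

open Fermat.Agent.S41 Fermat.Agent.S41.H19 Fermat.Agent.S41.H39 Fermat.Agent.Betti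
open Fermat.Agent.S59.NonMin.Geom

/-! ### Integer matrices and `GL₂(ℝ)` -/

section Conv

theorem map_Bmat (p : ℕ) (j : ℕ) :
    (Bmat p (j : ℤ)).map (Int.cast : ℤ → ℝ) = !![(1 : ℝ), (j : ℝ); 0, (p : ℝ)] := by
  ext i k
  fin_cases i <;> fin_cases k <;> simp [Bmat]

/-- The relation of a family of upper triangular representatives, in integer matrices. -/
theorem heckeMatrix_rel_iff {p : ℕ} (hp : p ≠ 0) {M : ℕ} (g κ : Gamma0 M) (j j' : ℕ) :
    heckeMatrix p j * incl M g = incl M κ * heckeMatrix p j' ↔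
      Bmat p (j : ℤ) * mat g = mat κ * Bmat p (j' : ℤ) := by
  constructor
  · intro h
    have h2 := congrArg (fun X : GL (Fin 2) ℝ => (X : Matrix (Fin 2) (Fin 2) ℝ)) h
    simp only [Units.val_mul] at h2
    rw [val_incl', val_incl', ModularForm.val_heckeMatrix hp, ModularForm.val_heckeMatrix hp,
      ← map_Bmat, ← map_Bmat, ← Matrix.map_mul_intCast, ← Matrix.map_mul_intCast] at h2
    exact Matrix.map_injective (Int.cast_injective (α := ℝ)) h2
  · intro h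
    apply Units.ext
    simp only [Units.val_mul]
    rw [val_incl', val_incl', ModularForm.val_heckeMatrix hp, ModularForm.val_heckeMatrix hp,
      ← map_Bmat, ← map_Bmat, ← Matrix.map_mul_intCast, ← Matrix.map_mul_intCast, h]

theorem Bmat_mul_Dq (p c : ℕ) (j : ℤ) : Bmat p ((c : ℤ) * j) * Dq c = Dq c * Bmat p j := by
  ext i k
  fin_cases i <;> fin_cases k <;>
    simp [Dq, Bmat, Matrix.mul_apply, Fin.sum_univ_two]

theorem Tm_mul_Bmat (p : ℕ) (m v : ℤ) : Tm m * Bmat p v = Bmat p (v + (p : ℤ) * m) := by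
  ext i k
  fin_cases i <;> fin_cases k <;>
    simp [Tm, Bmat, Matrix.mul_apply, Fin.sum_univ_two]
  ring

end Conv

/-! ### Degeneracy maps as conjugations -/

section Deg

variable {N M' : ℕ}

/-- `j : Γ₀(M') → Γ₀(N)` is the conjugation by `diag(c, 1)`. -/
def IsDeg (j : Gamma0 M' →* Gamma0 N) (c : ℕ) : Prop :=
  ∀ γ : Gamma0 M', mat (j γ) * Dq c = Dq c * mat γ

theorem Dq_one : Dq 1 = 1 := by
  ext i k
  fin_cases i <;> fin_cases k <;> simp [Dq]

theorem Dq_mul (a b : ℕ) : Dq a * Dq b = Dq (a * b) := by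
  ext i k
  fin_cases i <;> fin_cases k <;> simp [Dq, Matrix.mul_apply, Fin.sum_univ_two]

theorem isDeg_j1 (N q : ℕ) : IsDeg (j1 N q) 1 := by
  intro γ
  rw [Dq_one, mul_one, one_mul, mat_j1]

theorem isDeg_j2 (N q : ℕ) : IsDeg (j2 N q) q := by
  intro γ
  rw [mat_j2, conjMat_Dq (q_dvd_mat γ)]

theorem isDeg_j3 (N : ℕ) {q : ℕ} (hq : q ≠ 0) : IsDeg (j3 N q) (q ^ 2) := by
  intro γ
  have e : Dq (q ^ 2) = Dq q * Dq q := by rw [Dq_mul, pow_two]
  rw [mat_j3, e, ← Matrix.mul_assoc, conjMat_Dq (q_dvd_conjMat hq γ),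
    Matrix.mul_assoc, conjMat_Dq (q_dvd_mat γ), Matrix.mul_assoc]

theorem IsDeg.injective {j : Gamma0 M' →* Gamma0 N} {c : ℕ} (hj : IsDeg j c) (hc : c ≠ 0) :
    Function.Injective j := by
  intro γ₁ γ₂ h
  apply mat_injective
  apply Dq_cancel_left hc
  rw [← hj γ₁, ← hj γ₂, h]

end Deg

/-! ### The twisted representatives of `U_p` -/

section Twist

variable {N M' : ℕ} (p c : ℕ)

/-- The representatives `[[1, c x], [0, p]]`. -/
noncomputable def repUc : ZMod p → GL (Fin 2) ℝ := fun x => heckeMatrix p (c * x.val)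

variable {p c}

/-- `rep̃_x = [[1, m], [0, 1]] · rep_{c x}`. -/
theorem repUc_eq [NeZero p] (N : ℕ) (hcp : Nat.Coprime c p) (x : ZMod p) :
    repUc p c x = incl N (tU N ((c * x.val / p : ℕ) : ℤ)) *
      repU p ((ZMod.unitOfCoprime c hcp).mulLeft x) := by
  have hp : p ≠ 0 := NeZero.ne p
  have hval : ((ZMod.unitOfCoprime c hcp).mulLeft x).val = c * x.val % p := by
    show (((ZMod.unitOfCoprime c hcp : (ZMod p)ˣ) : ZMod p) * x).val = _
    rw [ZMod.coe_unitOfCoprime, ZMod.val_mul, ZMod.val_natCast, Nat.mod_mul_mod]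
  have h := (heckeMatrix_rel_iff hp (1 : Gamma0 N) (tU N ((c * x.val / p : ℕ) : ℤ))
    (c * x.val) (c * x.val % p)).mpr (by
      rw [mat_one, mul_one, mat_tU, Tm_mul_Bmat]
      congr 1
      have := Nat.mod_add_div (c * x.val) p
      exact_mod_cast this.symm)
  rw [map_one, mul_one] at h
  show heckeMatrix p (c * x.val) = _
  rw [h]
  show _ = _ * heckeMatrix p ((ZMod.unitOfCoprime c hcp).mulLeft x).val
  rw [hval]

/-- The twisted family is a Hecke family for `Γ₀(N)`, `p ∣ N`. -/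
theorem isHeckeFamily_Uc [NeZero p] (hcp : Nat.Coprime c p) (hpN : p ∣ N) :
    IsHeckeFamily (incl N) (repUc p c) :=
  isHeckeFamily_of_twist (isHeckeFamily_U N hpN) ((ZMod.unitOfCoprime c hcp).mulLeft)
    (fun x => tU N ((c * x.val / p : ℕ) : ℤ)) (repUc_eq N hcp)

/-- The twisted family defines the operator `U_p`. -/
theorem heckeOp_Uc [NeZero N] {A : Type*} [AddCommGroup A] (hcp : Nat.Coprime c p)
    (hpN : p ∣ N) (φ : Additive (Gamma0 N) →+ A) :
    haveI : NeZero p := neZero_of_dvd hpN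
    (isHeckeFamily_Uc hcp hpN).heckeOp (incl_injective N) φ = UB N A hpN φ := by
  haveI : NeZero p := neZero_of_dvd hpN
  exact heckeOp_of_twist (incl_injective N) (isHeckeFamily_U N hpN) (isHeckeFamily_Uc hcp hpN)
    ((ZMod.unitOfCoprime c hcp).mulLeft) (fun x => tU N ((c * x.val / p : ℕ) : ℤ))
    (repUc_eq N hcp) φ

/-- Transport of the relations of `repU` at the level `M'` along a degeneracy map. -/
theorem repUc_rel {j : Gamma0 M' →* Gamma0 N} (hj : IsDeg j c) (hc : c ≠ 0) (hp : p ≠ 0)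
    {γ κ : Gamma0 M'} {x x' : ZMod p}
    (h : repU p x * incl M' γ = incl M' κ * repU p x') :
    repUc p c x * (incl N).comp j γ = (incl N).comp j κ * repUc p c x' := by
  have h1 := (heckeMatrix_rel_iff hp γ κ x.val x'.val).mp h
  show heckeMatrix p (c * x.val) * incl N (j γ) = incl N (j κ) * heckeMatrix p (c * x'.val)
  rw [heckeMatrix_rel_iff hp]
  apply Dq_cancel_right hc
  push_cast
  calc Bmat p ((c : ℤ) * (x.val : ℤ)) * mat (j γ) * Dq c
      = Bmat p ((c : ℤ) * (x.val : ℤ)) * (mat (j γ) * Dq c) := by rw [Matrix.mul_assoc]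
    _ = (Bmat p ((c : ℤ) * (x.val : ℤ)) * Dq c) * mat γ := by rw [hj γ, Matrix.mul_assoc]
    _ = Dq c * (Bmat p (x.val : ℤ) * mat γ) := by rw [Bmat_mul_Dq, Matrix.mul_assoc]
    _ = Dq c * (mat κ * Bmat p (x'.val : ℤ)) := by rw [h1]
    _ = (mat (j κ) * Dq c) * Bmat p (x'.val : ℤ) := by rw [hj κ, Matrix.mul_assoc]
    _ = mat (j κ) * (Bmat p ((c : ℤ) * (x'.val : ℤ)) * Dq c) := by
        rw [Bmat_mul_Dq, Matrix.mul_assoc]
    _ = mat (j κ) * Bmat p ((c : ℤ) * (x'.val : ℤ)) * Dq c := by rw [Matrix.mul_assoc]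

/-- The twisted family is a Hecke family for `(Γ₀(M'), incl ∘ j)`. -/
theorem isHeckeFamily_Uc' [NeZero p] {j : Gamma0 M' →* Gamma0 N} (hj : IsDeg j c) (hc : c ≠ 0)
    (hcp : Nat.Coprime c p) (hpN : p ∣ N) (hpM : p ∣ M') :
    IsHeckeFamily ((incl N).comp j) (repUc p c) where
  exists_mul γ x :=
    ⟨(isHeckeFamily_U M' hpM).perm γ x, (isHeckeFamily_U M' hpM).kap γ x,
      repUc_rel hj hc (NeZero.ne p) ((isHeckeFamily_U M' hpM).rep_mul γ x)⟩
  inj x x' ε h := (isHeckeFamily_Uc (N := N) hcp hpN).inj x x' (j ε) h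

/-- The operator of the twisted family for `(Γ₀(M'), incl ∘ j)` is `U_p` of the level `M'`. -/
theorem heckeOp_Uc' [NeZero M'] [NeZero p] {A : Type*} [AddCommGroup A]
    {j : Gamma0 M' →* Gamma0 N}
    (hj : IsDeg j c) (hc : c ≠ 0) (hcp : Nat.Coprime c p) (hpN : p ∣ N) (hpM : p ∣ M')
    (he' : Function.Injective ((incl N).comp j)) (ψ : Additive (Gamma0 M') →+ A) :
    (isHeckeFamily_Uc' hj hc hcp hpN hpM).heckeOp he' ψ = UB M' A hpM ψ := by
  refine AddMonoidHom.ext fun γ' => ?_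
  obtain ⟨γ, rfl⟩ : ∃ g : Gamma0 M', Additive.ofMul g = γ' := ⟨Additive.toMul γ', rfl⟩
  rw [UB_apply_apply]
  show ∑ x, ψ (Additive.ofMul ((isHeckeFamily_Uc' hj hc hcp hpN hpM).kap γ x)) = _
  refine Finset.sum_congr rfl fun x _ => ?_
  have h := repUc_rel hj hc (NeZero.ne p) ((isHeckeFamily_U M' hpM).rep_mul γ x)
  rw [((isHeckeFamily_Uc' hj hc hcp hpN hpM).unique he' h).2]

end Twist

/-! ### The coset condition -/

section CosetCond

variable {N M' : ℕ} {p c : ℕ}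

/-- The condition (C) of `corAlong_heckeOp` for the twisted family. -/
theorem cosetCond_Uc {j : Gamma0 M' →* Gamma0 N} (hj : IsDeg j c) (hc : c ≠ 0) (hp : p ≠ 0)
    (hM : ∀ z : ℤ, (N : ℤ) ∣ z → (M' : ℤ) ∣ (p : ℤ) * ((c : ℤ) * z) → (M' : ℤ) ∣ (c : ℤ) * z)
    (x x' : ZMod p) (γ : Gamma0 N) (ε : Gamma0 M')
    (h : repUc p c x * incl N γ = (incl N) (j ε) * repUc p c x') : γ ∈ j.range := by
  have hc' : (c : ℤ) ≠ 0 := by exact_mod_cast hc
  have h1 : Bmat p ((c * x.val : ℕ) : ℤ) * mat γ = mat (j ε) * Bmat p ((c * x'.val : ℕ) : ℤ) :=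
    (heckeMatrix_rel_iff hp γ (j ε) (c * x.val) (c * x'.val)).mp h
  push_cast at h1
  have h2 : Bmat p ((c : ℤ) * (x.val : ℤ)) * (mat γ * Dq c)
      = Dq c * (mat ε * Bmat p (x'.val : ℤ)) := by
    calc Bmat p ((c : ℤ) * (x.val : ℤ)) * (mat γ * Dq c)
        = (Bmat p ((c : ℤ) * (x.val : ℤ)) * mat γ) * Dq c := by rw [Matrix.mul_assoc]
      _ = mat (j ε) * (Bmat p ((c : ℤ) * (x'.val : ℤ)) * Dq c) := by
          rw [h1, Matrix.mul_assoc]
      _ = (mat (j ε) * Dq c) * Bmat p (x'.val : ℤ) := by rw [Bmat_mul_Dq, Matrix.mul_assoc]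
      _ = Dq c * (mat ε * Bmat p (x'.val : ℤ)) := by rw [hj ε, Matrix.mul_assoc]
  have e01 := congrFun (congrFun h2 0) 1
  have e10 := congrFun (congrFun h2 1) 0
  simp only [Bmat, Dq, Matrix.mul_apply, Fin.sum_univ_two, Matrix.of_apply, Matrix.cons_val',
    Matrix.cons_val_zero, Matrix.cons_val_one, Matrix.empty_val', Matrix.cons_val_fin_one,
    mul_zero, add_zero, zero_add, mul_one, one_mul, zero_mul] at e01 e10
  -- `c ∣ γ₀₁`
  -- `c ∣ γ₀₁`
  obtain ⟨β', hβ'⟩ : (c : ℤ) ∣ mat γ 0 1 :=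
    ⟨mat ε 0 0 * (x'.val : ℤ) + mat ε 0 1 * (p : ℤ) - (x.val : ℤ) * mat γ 1 1, by
      linear_combination e01⟩
  -- `M' ∣ c γ₁₀`
  have hd10 : (M' : ℤ) ∣ (c : ℤ) * mat γ 1 0 := by
    apply hM _ (mat_dvd γ)
    have : (p : ℤ) * ((c : ℤ) * mat γ 1 0) = mat ε 1 0 := by linear_combination e10
    rw [this]
    exact mat_dvd ε
  -- the preimage
  have hdet := mat_det' γ
  refine ⟨mkG0 M' (mat γ 0 0) β' ((c : ℤ) * mat γ 1 0) (mat γ 1 1)
    (by rw [hβ'] at hdet; linear_combination hdet) hd10, ?_⟩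
  apply mat_injective
  apply Dq_cancel_right hc
  rw [hj, mat_mkG0]
  ext i k
  fin_cases i <;> fin_cases k <;>
    simp [Dq, Matrix.mul_apply, Fin.sum_univ_two, hβ'] <;> ring

end CosetCond

/-! ### `U_p` commutes with a degeneracy map -/

section General

variable {N M' : ℕ} [NeZero N] [NeZero M'] {p c : ℕ} {A : Type*} [AddCommGroup A]

/-- `U_p (j^* φ) = j^* (U_p φ)`. -/
theorem UB_resAlong {j : Gamma0 M' →* Gamma0 N} (hj : IsDeg j c) (hc : c ≠ 0)
    (hcp : Nat.Coprime c p) (hpN : p ∣ N) (hpM : p ∣ M') (φ : Additive (Gamma0 N) →+ A) :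
    UB M' A hpM (resAlong A j φ) = resAlong A j (UB N A hpN φ) := by
  haveI : NeZero p := neZero_of_dvd hpN
  have he' : Function.Injective ((incl N).comp j) :=
    (incl_injective N).comp (hj.injective hc)
  have h := heckeOp_resAlong (A := A) (incl N) (incl_injective N) j he'
    (isHeckeFamily_Uc hcp hpN) (isHeckeFamily_Uc' hj hc hcp hpN hpM) φ
  rw [heckeOp_Uc' hj hc hcp hpN hpM he', heckeOp_Uc hcp hpN] at h
  exact h

/-- `j_* (U_p ψ) = U_p (j_* ψ)`. -/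
theorem corAlong_UB {j : Gamma0 M' →* Gamma0 N} (hj : IsDeg j c) (hc : c ≠ 0)
    (hcp : Nat.Coprime c p) (hpN : p ∣ N) (hpM : p ∣ M')
    (hM : ∀ z : ℤ, (N : ℤ) ∣ z → (M' : ℤ) ∣ (p : ℤ) * ((c : ℤ) * z) → (M' : ℤ) ∣ (c : ℤ) * z)
    (ψ : Additive (Gamma0 M') →+ A) :
    corAlong A j (UB M' A hpM ψ) = UB N A hpN (corAlong A j ψ) := by
  haveI : NeZero p := neZero_of_dvd hpN
  have he' : Function.Injective ((incl N).comp j) :=
    (incl_injective N).comp (hj.injective hc)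
  have h := corAlong_heckeOp (A := A) (incl N) (incl_injective N) j (hj.injective hc) he'
    (isHeckeFamily_Uc hcp hpN) (isHeckeFamily_Uc' hj hc hcp hpN hpM)
    (cosetCond_Uc hj hc (NeZero.ne p) hM) ψ
  rw [heckeOp_Uc' hj hc hcp hpN hpM he', heckeOp_Uc hcp hpN] at h
  exact h

end General

/-! ### RELU -/

section Main

variable {N q r : ℕ}

/-- The arithmetic of the coset condition at the level `N q²`. -/
theorem hM_aux (hq : q.Prime) (hqN : ¬ q ∣ N) (hr : r.Prime) (hrN : r ∣ N) (c : ℕ) (z : ℤ)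
    (hz : (N : ℤ) ∣ z)
    (h : ((N * q ^ 2 : ℕ) : ℤ) ∣ (r : ℤ) * ((c : ℤ) * z)) :
    ((N * q ^ 2 : ℕ) : ℤ) ∣ (c : ℤ) * z := by
  have hrq : r ≠ q := fun e => hqN (e ▸ hrN)
  have hcop1 : IsCoprime ((q : ℤ) ^ 2) (r : ℤ) := by
    apply IsCoprime.pow_left
    exact Nat.isCoprime_iff_coprime.mpr ((Nat.coprime_primes hq hr).mpr (Ne.symm hrq))
  have hcop2 : IsCoprime (N : ℤ) ((q : ℤ) ^ 2) := by
    apply IsCoprime.pow_right
    exact Nat.isCoprime_iff_coprime.mpr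
      (Nat.Coprime.symm ((Nat.Prime.coprime_iff_not_dvd hq).mpr hqN))
  have h1 : ((q : ℤ) ^ 2) ∣ (r : ℤ) * ((c : ℤ) * z) := by
    refine Dvd.dvd.trans ?_ h
    exact ⟨(N : ℤ), by push_cast; ring⟩
  have h2 : ((q : ℤ) ^ 2) ∣ (c : ℤ) * z := hcop1.dvd_of_dvd_mul_left h1
  have h3 : (N : ℤ) ∣ (c : ℤ) * z := Dvd.dvd.mul_left hz _
  have := hcop2.mul_dvd h3 h2
  push_cast
  exact this

theorem coprime_aux (hq : q.Prime) (hqN : ¬ q ∣ N) (hr : r.Prime) (hrN : r ∣ N) :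
    Nat.Coprime q r :=
  (Nat.coprime_primes hq hr).mpr (fun e => hqN (e ▸ hrN))

/-- **RELU**. -/
theorem stmt_RELU : Stmt_RELU := by
  intro N q _ _ hq hqN r hr hrN hrN' A _
  have hc1 : Nat.Coprime 1 r := Nat.coprime_one_left r
  have hcq : Nat.Coprime q r := coprime_aux hq hqN hr hrN
  have hcq2 : Nat.Coprime (q ^ 2) r := Nat.Coprime.pow_left 2 hcq
  have hq0 : q ≠ 0 := hq.ne_zero
  have hq20 : q ^ 2 ≠ 0 := pow_ne_zero 2 hq0
  refine ⟨fun φ => ⟨?_, ?_, ?_⟩, fun ψ => ⟨?_, ?_, ?_⟩⟩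
  · exact UB_resAlong (isDeg_j1 N q) one_ne_zero hc1 hrN hrN' φ
  · exact UB_resAlong (isDeg_j2 N q) hq0 hcq hrN hrN' φ
  · exact UB_resAlong (isDeg_j3 N hq0) hq20 hcq2 hrN hrN' φ
  · exact corAlong_UB (isDeg_j1 N q) one_ne_zero hc1 hrN hrN'
      (fun z hz h => hM_aux hq hqN hr hrN 1 z hz h) ψ
  · exact corAlong_UB (isDeg_j2 N q) hq0 hcq hrN hrN'
      (fun z hz h => hM_aux hq hqN hr hrN q z hz h) ψ
  · exact corAlong_UB (isDeg_j3 N hq0) hq20 hcq2 hrN hrN'
      (fun z hz h => hM_aux hq hqN hr hrN (q ^ 2) z hz h) ψ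

end Main

end Fermat.Agent.S59.NonMin.Geom.H12
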