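import Fermat.Agent.S59.NonMin.Geom.Defs

/-!
# S59 / NMGEOM, leaf DUAL: interface of the split (helper94, helper72)

`Stmt_DUAL` is split into

* `Stmt_DUALk` (helper72): the statement over the residue field `k`: `α' = C₁ - T_q C₂ + q C₃`
  maps the `θ`-part of the cuspidal `k`-valued classes of level `N q²` killed by the `U_r`
  (`r ∈ Sig`) ONTO the same part of level `N`;
* `Stmt_LIFTB` (helper94): every class of the `k`-level lattice part (`InBettik`) of ANY level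
  `M` is the reduction of a class of the `𝒪`-lattice (`InBetti`);
* `Stmt_KERU` (input of both; a by-product of the proof of `Stmt_RELSPLIT`): at a level
  `N r²`, `r ∤ N`, with coefficients in a field in which `r` is invertible, `U_r (U_r ψ) = 0`
  implies `U_r ψ = 0`;
* the assembly `H94.dual_of : Stmt_DUALk → Stmt_LIFTB → Stmt_DUAL` (file `H94_DualAsm.lean`).

Definitions only; no `sorry`.
-/

set_option autoImplicit false

open CuspForm CongruenceSubgroup IsLocalRing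
open scoped MatrixGroups

namespace Fermat.Agent.S59.NonMin.Geom

open Fermat.Agent.S41 Fermat.Agent.Betti Fermat.Agent.S59 Fermat.Agent.S59.Asm
open ModularCurve.Period

/-- Reduction of the coefficients modulo the maximal ideal. -/
noncomputable def redB (𝒪 : Type) [CommRing 𝒪] [IsLocalRing 𝒪] {G : Type} [AddZeroClass G]
    (φ : G →+ 𝒪) :
    G →+ ResidueField 𝒪 :=
  (residue 𝒪).toAddMonoidHom.comp φ

@[simp] theorem redB_apply (𝒪 : Type) [CommRing 𝒪] [IsLocalRing 𝒪] {G : Type} [AddZeroClass G]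
    (φ : G →+ 𝒪) (γ : G) : redB 𝒪 φ γ = residue 𝒪 (φ γ) := rfl

/-- The `k`-level analogue of `InBetti`: `φ : Γ₀(N) → k` is cuspidal (kills the parabolic and the
elliptic elements), killed by `U_r` for `r ∈ Sig`, and every `T_ℓ - θ(T_ℓ)` is nilpotent on it. -/
def InBettik (k : Type) [Field k] (N : ℕ) [NeZero N] (S : Set ℕ)
    (θ : CuspForm.heckeAlgebra N 2 S →+* k) (Sig : Finset ℕ)
    (φ : Additive (Gamma0 N) →+ k) : Prop :=
  IsCuspidalHom (Gamma0 N) φ ∧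
  (∀ r ∈ Sig, ∀ hr : r ∣ N, UB N k hr φ = 0) ∧
  ∀ (ℓ : ℕ) (hℓ : ℓ.Prime) (hℓN : ¬ ℓ ∣ N) (hℓS : ℓ ∉ S),
    ∃ n : ℕ, (fun χ : Additive (Gamma0 N) →+ k =>
      TB N k hℓ hℓN χ - θ (CuspForm.heckeAlgebra.T hℓ hℓN hℓS) • χ)^[n] φ = 0

/-- **DUAL-k** (helper72): dual Ihara over the residue field.  Same hypotheses as `Stmt_DUAL`. -/
def Stmt_DUALk : Prop :=
  ∀ (𝒪 : Type) [CommRing 𝒪] [IsDomain 𝒪] [IsDiscreteValuationRing 𝒪]
    [IsAdicComplete (maximalIdeal 𝒪) 𝒪] [Finite (ResidueField 𝒪)] [CharZero 𝒪]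
    (p : ℕ) [Fact p.Prime], p ≠ 2 → (p : 𝒪) ∈ maximalIdeal 𝒪 →
    ∀ (ρbar : ResidualGaloisRep (ResidueField 𝒪)) (Smin : Finset ℕ), ResHyp p ρbar Smin →
    ∀ (N₀ : ℕ) (Sig : Finset ℕ) (N : ℕ) [NeZero N] (S : Finset ℕ), GeomHyp p Smin N₀ Sig N S →
    ∀ (θ : CuspForm.heckeAlgebra N 2 (↑S : Set ℕ) →+* ResidueField 𝒪),
    Fermat.Agent.S59.Datum.FrobHyp ρbar N S θ →
    ∀ (q : ℕ) (hq : q.Prime), q ≠ p → ∀ (hqN : ¬ q ∣ N), q ∉ (↑S : Set ℕ) →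
    ∀ [NeZero (N * q ^ 2)]
      (rest : CuspForm.heckeAlgebra (N * q ^ 2) 2 (↑(insert q S) : Set ℕ) →+*
        CuspForm.heckeAlgebra N 2 (↑S : Set ℕ)),
    (∀ (ℓ : ℕ) (hℓ : ℓ.Prime) (hℓN' : ¬ ℓ ∣ N * q ^ 2)
      (hℓS' : ℓ ∉ (↑(insert q S) : Set ℕ)) (hℓN : ¬ ℓ ∣ N) (hℓS : ℓ ∉ (↑S : Set ℕ)),
      rest (CuspForm.heckeAlgebra.T hℓ hℓN' hℓS') = CuspForm.heckeAlgebra.T hℓ hℓN hℓS) →
    ∀ φ : Additive (Gamma0 N) →+ ResidueField 𝒪,
      InBettik (ResidueField 𝒪) N (↑S : Set ℕ) θ Sig φ →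
      ∃ ψ : Additive (Gamma0 (N * q ^ 2)) →+ ResidueField 𝒪,
        InBettik (ResidueField 𝒪) (N * q ^ 2) (↑(insert q S) : Set ℕ) (θ.comp rest) Sig ψ ∧
        alphaB' N (ResidueField 𝒪) hq hqN ψ = φ

/-- **LIFT-B** (helper94): at any level `M`, every class of the `k`-level lattice part is the
reduction of a class of the Betti lattice.  The primes of `Sig` are invertible in `𝒪` and divide
`M` exactly twice.
[`Betti` TORSLIFT (a cuspidal class lifts to a parabolic class); the `θ`-primary decomposition of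
the finite modules `Hom_par(Γ₀(M), 𝒪 / 𝔪^m)` and a limit; the projectors `e_r` of
`Stmt_RELSPLIT` with `Stmt_KERU`.] -/
def Stmt_LIFTB : Prop :=
  ∀ (𝒪 : Type) [CommRing 𝒪] [IsDomain 𝒪] [IsDiscreteValuationRing 𝒪]
    [IsAdicComplete (maximalIdeal 𝒪) 𝒪] [Finite (ResidueField 𝒪)] [CharZero 𝒪]
    (p : ℕ) [Fact p.Prime], (p : 𝒪) ∈ maximalIdeal 𝒪 →
    ∀ (M : ℕ) [NeZero M] (S : Set ℕ) (θ : CuspForm.heckeAlgebra M 2 S →+* ResidueField 𝒪)
      (Sig : Finset ℕ),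
    (∀ r ∈ Sig, r.Prime ∧ r ≠ p ∧ ∃ M₀ : ℕ, M = M₀ * r ^ 2 ∧ ¬ r ∣ M₀) →
    ∀ ψb : Additive (Gamma0 M) →+ ResidueField 𝒪, InBettik (ResidueField 𝒪) M S θ Sig ψb →
      ∃ ψ : Additive (Gamma0 M) →+ 𝒪, InBetti 𝒪 M S θ Sig ψ ∧ redB 𝒪 ψ = ψb

/-- **KERU**: at a level `N r²` (`r ∤ N` prime) and with coefficients in a field in which `r` is
invertible, `U_r` has no nilpotent part: `U_r (U_r ψ) = 0 → U_r ψ = 0`.
[`U_r = res1 ∘ cor2` through the level `N r`, `U' = cor2 ∘ res1` is injective on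
`Hom(Γ₀(N r), k)` and so is `res1` (`cor1 ∘ res1 = r`): `U² ψ = res1 (U' (cor2 ψ))`.] -/
def Stmt_KERU : Prop :=
  ∀ (k : Type) [Field k] (N r : ℕ) [NeZero (N * r ^ 2)], r.Prime → ¬ r ∣ N → (r : k) ≠ 0 →
    ∀ (hd : r ∣ N * r ^ 2) (ψ : Additive (Gamma0 (N * r ^ 2)) →+ k),
      UB (N * r ^ 2) k hd (UB (N * r ^ 2) k hd ψ) = 0 → UB (N * r ^ 2) k hd ψ = 0

end Fermat.Agent.S59.NonMin.Geom
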