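import Fermat.Agent.S59.NonMin.Geom.H98_KerU
import Fermat.Agent.S59.NonMin.Geom.H94_DualDefs

/-!
# S59 / NMGEOM (helper98): `Stmt_KERU`

`stmt_KERU : Stmt_KERU` (interface of helper94's `H94_DualDefs.lean`), from `H98.keru_of_isUnit`.
-/

set_option autoImplicit false

namespace Fermat.Agent.S59.NonMin.Geom.H98

open Fermat.Agent.S59.NonMin.Geom

/-- **KERU**. -/
theorem stmt_KERU : Stmt_KERU := by
  intro k _ N r _ hr hrN hrk hd ψ h
  have hN : 0 < N :=
    Nat.pos_of_ne_zero fun h0 => NeZero.ne (N * r ^ 2) (by rw [h0, zero_mul])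
  exact keru_of_isUnit (R := k) hN hr hrN hd (IsUnit.mk0 _ hrk) ψ h

end Fermat.Agent.S59.NonMin.Geom.H98
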