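import Fermat.Agent.S59.NonMin.Geom.H13_RelTAbs
import Fermat.Agent.S59.NonMin.Geom.Defs
import Fermat.Agent.S41.H19_RelDeg
import Fermat.Agent.S41.H20_Bridge

/-!
# S59, NMGEOM, leaf REL-T (helper13)

`stmt_RELT : Stmt_RELT`: the three restrictions `A₁, A₂, A₃` and the three transfers
`C₁, C₂, C₃` between the levels `N` and `N q²` commute with `T_ℓ`, `ℓ ∤ N q`.

Route: `T_ℓ = Tcoh = cor₁ ∘ res₂` through the level `N ℓ` (`S41.H20.Tcoh_eq_TB`); one step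
`M ↦ M q` at a time: helper19's `Tcoh_res1`, `Tcoh_res2` for the restrictions, the Mackey square
`cor_hecke_comm` for the transfers.
-/

set_option autoImplicit false
set_option linter.style.haveILetI false
set_option linter.unusedSectionVars false

open scoped MatrixGroups
open CongruenceSubgroup Matrix

namespace Fermat.Agent.S59.NonMin.Geom.H13

open Fermat.Agent.S41 Fermat.Agent.S41.H19 Fermat.Agent.S41.H77 Fermat.Agent.Betti

/-! ## One step: the transfers -/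

section Step

variable {M q ℓ : ℕ} {A : Type*} [AddCommGroup A]

theorem not_dvd_of_not_dvd_mul {M q ℓ : ℕ} (h : ¬ ℓ ∣ M * q) : ¬ ℓ ∣ M :=
  fun h' => h (dvd_mul_of_dvd_left h' _)

theorem ne_of_not_dvd_mul {M q ℓ : ℕ} (h : ¬ ℓ ∣ M * q) : ℓ ≠ q :=
  fun h' => h (h' ▸ dvd_mul_left _ _)

/-- `cor₁` of one step commutes with `T_ℓ`. -/
theorem cor1_Tcoh (hM : 0 < M) (hq : q.Prime) (hℓ : ℓ.Prime) (hℓMq : ¬ ℓ ∣ M * q)
    [hfin : (inclG M q).range.FiniteIndex] (ψ : Additive (Gamma0 (M * q)) →+ A) :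
    cor1 M q A (Tcoh (M * q) A ℓ ψ) = Tcoh M A ℓ (cor1 M q A ψ) := by
  have hℓM : ¬ ℓ ∣ M := not_dvd_of_not_dvd_mul hℓMq
  have hMq : 0 < M * q := Nat.mul_pos hM hq.pos
  haveI := finiteIndex_inclG hM hℓ hℓM
  haveI := finiteIndex_inclG hMq hℓ hℓMq
  have hℓ' : (ℓ : ℤ) ≠ 0 := by exact_mod_cast hℓ.ne_zero
  unfold Tcoh cor1 res2
  refine cor_hecke_comm (inclG M q) (inclG M ℓ) (conjG M ℓ) (inclG (M * q) ℓ) (conjG (M * q) ℓ)
    (inclAux M q ℓ) (inclG_injective M q) (inclG_injective M ℓ) (inclG_injective (M * q) ℓ)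
    (Subgroup.inclusion_injective _) ?_ (fun p => rfl) (fun p => rfl) ?_ ψ
  · rw [index_inclG hM hℓ hℓM, index_inclG hMq hℓ hℓMq]
  · intro k h hkh
    have e : conjMat ℓ (mat k) = mat h := congrArg mat hkh
    obtain ⟨c₁, hc₁⟩ := q_dvd_of_mem_gamma0_mul k.2
    have hc₁' : mat k 1 0 = (ℓ : ℤ) * c₁ := hc₁
    obtain ⟨c₂, hc₂⟩ := mat_dvd h
    have e10 : mat k 1 0 / (ℓ : ℤ) = mat h 1 0 := congrFun (congrFun e 1) 0
    rw [hc₁', Int.mul_ediv_cancel_left _ hℓ', hc₂] at e10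
    refine ⟨⟨(k : SL(2, ℤ)), ?_⟩, rfl⟩
    rw [Gamma0_mem, ZMod.intCast_zmod_eq_zero_iff_dvd]
    refine ⟨c₂, ?_⟩
    change mat k 1 0 = _
    rw [hc₁', e10]
    push_cast
    ring

/-- `cor₂` of one step commutes with `T_ℓ`. -/
theorem cor2_Tcoh (hM : 0 < M) (hq : q.Prime) (hℓ : ℓ.Prime) (hℓMq : ¬ ℓ ∣ M * q)
    [hfin : (conjG M q).range.FiniteIndex] (ψ : Additive (Gamma0 (M * q)) →+ A) :
    cor2 M q A (Tcoh (M * q) A ℓ ψ) = Tcoh M A ℓ (cor2 M q A ψ) := by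
  have hℓM : ¬ ℓ ∣ M := not_dvd_of_not_dvd_mul hℓMq
  have hℓq : ℓ ≠ q := ne_of_not_dvd_mul hℓMq
  have hMq : 0 < M * q := Nat.mul_pos hM hq.pos
  haveI := finiteIndex_inclG hM hℓ hℓM
  haveI := finiteIndex_inclG hMq hℓ hℓMq
  have hℓ' : (ℓ : ℤ) ≠ 0 := by exact_mod_cast hℓ.ne_zero
  have hcop : IsCoprime (q : ℤ) (ℓ : ℤ) :=
    Nat.isCoprime_iff_coprime.mpr ((Nat.coprime_primes hq hℓ).mpr hℓq.symm)
  have hinj' : Function.Injective (conjAux M q ℓ) := by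
    intro x y hxy
    have h1 : conjG (M * ℓ) q (Subgroup.inclusion (le_of_eq (by rw [mul_right_comm])) x)
        = conjG (M * ℓ) q (Subgroup.inclusion (le_of_eq (by rw [mul_right_comm])) y) := hxy
    exact Subgroup.inclusion_injective _ (conjG_injective (M * ℓ) q hq.ne_zero h1)
  unfold Tcoh cor1 cor2 res2
  refine cor_hecke_comm (conjG M q) (inclG M ℓ) (conjG M ℓ) (inclG (M * q) ℓ) (conjG (M * q) ℓ)
    (conjAux M q ℓ) (conjG_injective M q hq.ne_zero) (inclG_injective M ℓ)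
    (inclG_injective (M * q) ℓ) hinj' ?_ (fun p => rfl) ?_ ?_ ψ
  · rw [index_inclG hM hℓ hℓM, index_inclG hMq hℓ hℓMq]
  · intro p
    apply mat_injective
    rw [mat_conjG, mat_conjG, mat_conjG, mat_conjAux, conjMat_comm]
  · intro k h hkh
    have e : conjMat ℓ (mat k) = conjMat q (mat h) := congrArg mat hkh
    have e01 : (ℓ : ℤ) * mat k 0 1 = (q : ℤ) * mat h 0 1 := congrFun (congrFun e 0) 1
    have hqk : (q : ℤ) ∣ mat k 0 1 := hcop.dvd_of_dvd_mul_left ⟨mat h 0 1, e01⟩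
    obtain ⟨h', hh'⟩ := exists_conjG_eq hq.ne_zero k hqk
    exact ⟨Subgroup.inclusion (le_of_eq (by rw [mul_right_comm])) h', hh'⟩

end Step

/-! ## Change of the name of the level -/

section Cast

variable {A : Type*} [AddCommGroup A]

/-- `Γ₀(M) = Γ₀(M')` for `M = M'`. -/
def castE {M M' : ℕ} (h : M = M') : Gamma0 M →* Gamma0 M' :=
  Subgroup.inclusion (le_of_eq (congrArg (fun M => Gamma0 M) h))

theorem castE_rfl (M : ℕ) : castE (rfl : M = M) = MonoidHom.id (Gamma0 M) := by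
  ext x
  rfl

theorem castE_injective {M M' : ℕ} (h : M = M') : Function.Injective (castE h) :=
  Subgroup.inclusion_injective _

theorem resAlong_id {G : Type*} [Group G] (φ : Additive G →+ A) :
    resAlong A (MonoidHom.id G) φ = φ := rfl

theorem Tcoh_castE_res {M M' : ℕ} (h : M = M') (ℓ : ℕ) (φ : Additive (Gamma0 M') →+ A) :
    Tcoh M A ℓ (resAlong A (castE h) φ) = resAlong A (castE h) (Tcoh M' A ℓ φ) := by
  subst h
  rw [castE_rfl, resAlong_id, resAlong_id]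

theorem Tcoh_castE_cor {M M' : ℕ} (h : M = M') (ℓ : ℕ) (ψ : Additive (Gamma0 M) →+ A) :
    corAlong A (castE h) (Tcoh M A ℓ ψ) = Tcoh M' A ℓ (corAlong A (castE h) ψ) := by
  subst h
  rw [castE_rfl, corAlong_id, corAlong_id]

theorem castG_eq (N q : ℕ) : castG N q = castE (by ring : N * q ^ 2 = N * q * q) := rfl

end Cast

/-! ## REL-T -/

section RelT

variable {A : Type*} [AddCommGroup A]

/-- Two steps of restriction. -/
theorem Tcoh_res_two {N q ℓ : ℕ} (ι₁ : Gamma0 (N * q) →* Gamma0 N)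
    (ι₂ : Gamma0 (N * q * q) →* Gamma0 (N * q))
    (h₁ : ∀ φ : Additive (Gamma0 N) →+ A,
      Tcoh (N * q) A ℓ (resAlong A ι₁ φ) = resAlong A ι₁ (Tcoh N A ℓ φ))
    (h₂ : ∀ φ : Additive (Gamma0 (N * q)) →+ A,
      Tcoh (N * q * q) A ℓ (resAlong A ι₂ φ) = resAlong A ι₂ (Tcoh (N * q) A ℓ φ))
    (φ : Additive (Gamma0 N) →+ A) :
    Tcoh (N * q ^ 2) A ℓ (resAlong A (ι₁.comp (ι₂.comp (castG N q))) φ)
      = resAlong A (ι₁.comp (ι₂.comp (castG N q))) (Tcoh N A ℓ φ) := by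
  have e : ∀ χ : Additive (Gamma0 N) →+ A, resAlong A (ι₁.comp (ι₂.comp (castG N q))) χ
      = resAlong A (castE (by ring : N * q ^ 2 = N * q * q)) (resAlong A ι₂ (resAlong A ι₁ χ)) :=
    fun χ => rfl
  rw [e, e, Tcoh_castE_res, h₂, h₁]

/-- Two steps of transfer. -/
theorem Tcoh_cor_two {N q ℓ : ℕ} (ι₁ : Gamma0 (N * q) →* Gamma0 N)
    (ι₂ : Gamma0 (N * q * q) →* Gamma0 (N * q))
    (hι₁ : Function.Injective ι₁) (hι₂ : Function.Injective ι₂)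
    (h₁ : ι₁.range.FiniteIndex → ∀ ψ : Additive (Gamma0 (N * q)) →+ A,
      corAlong A ι₁ (Tcoh (N * q) A ℓ ψ) = Tcoh N A ℓ (corAlong A ι₁ ψ))
    (h₂ : ι₂.range.FiniteIndex → ∀ ψ : Additive (Gamma0 (N * q * q)) →+ A,
      corAlong A ι₂ (Tcoh (N * q * q) A ℓ ψ) = Tcoh (N * q) A ℓ (corAlong A ι₂ ψ))
    (hT0 : Tcoh N A ℓ (0 : Additive (Gamma0 N) →+ A) = 0)
    (ψ : Additive (Gamma0 (N * q ^ 2)) →+ A) :
    corAlong A (ι₁.comp (ι₂.comp (castG N q))) (Tcoh (N * q ^ 2) A ℓ ψ)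
      = Tcoh N A ℓ (corAlong A (ι₁.comp (ι₂.comp (castG N q))) ψ) := by
  by_cases hfin : (ι₁.comp (ι₂.comp (castG N q))).range.FiniteIndex
  swap
  · have hn : ¬ (Function.Injective (ι₁.comp (ι₂.comp (castG N q))) ∧
        (ι₁.comp (ι₂.comp (castG N q))).range.FiniteIndex) := fun h => hfin h.2
    rw [corAlong_of_not hn, corAlong_of_not hn, hT0]
  obtain ⟨hf₂c, hf₁⟩ := finiteIndex_of_comp (ι₂.comp (castG N q)) ι₁ hι₁ hfin
  obtain ⟨hfc, hf₂⟩ := finiteIndex_of_comp (castG N q) ι₂ hι₂ hf₂c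
  have hcinj : Function.Injective (castG N q) := Subgroup.inclusion_injective _
  have e : ∀ χ : Additive (Gamma0 (N * q ^ 2)) →+ A,
      corAlong A (ι₁.comp (ι₂.comp (castG N q))) χ
        = corAlong A ι₁ (corAlong A ι₂
            (corAlong A (castE (by ring : N * q ^ 2 = N * q * q)) χ)) := by
    intro χ
    rw [corAlong_comp (ι₂.comp (castG N q)) ι₁ (hι₂.comp hcinj) hι₁,
      corAlong_comp (castG N q) ι₂ hcinj hι₂]
    rfl
  rw [e, e, Tcoh_castE_cor, h₂ hf₂, h₁ hf₁]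

theorem TB_zero' {N ℓ : ℕ} (hℓ : ℓ.Prime) (hℓN : ¬ ℓ ∣ N) :
    TB N A hℓ hℓN (0 : Additive (Gamma0 N) →+ A) = 0 := map_zero _

/-- One step `M ↦ M q`, restrictions, for the Betti operator `TB`. -/
theorem TB_res1 {M q ℓ : ℕ} (hM : 0 < M) (hq : q.Prime) (hℓ : ℓ.Prime) (hℓM : ¬ ℓ ∣ M)
    (hℓMq : ¬ ℓ ∣ M * q) (φ : Additive (Gamma0 M) →+ A) :
    TB (M * q) A hℓ hℓMq (res1 M q A φ) = res1 M q A (TB M A hℓ hℓM φ) := by
  rw [← H20.Tcoh_eq_TB (Nat.mul_pos hM hq.pos) hℓ hℓMq, ← H20.Tcoh_eq_TB hM hℓ hℓM]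
  exact Tcoh_res1 hM hq hℓ hℓM (ne_of_not_dvd_mul hℓMq) φ

theorem TB_res2 {M q ℓ : ℕ} (hM : 0 < M) (hq : q.Prime) (hℓ : ℓ.Prime) (hℓM : ¬ ℓ ∣ M)
    (hℓMq : ¬ ℓ ∣ M * q) (φ : Additive (Gamma0 M) →+ A) :
    TB (M * q) A hℓ hℓMq (res2 M q A φ) = res2 M q A (TB M A hℓ hℓM φ) := by
  rw [← H20.Tcoh_eq_TB (Nat.mul_pos hM hq.pos) hℓ hℓMq, ← H20.Tcoh_eq_TB hM hℓ hℓM]
  exact Tcoh_res2 hM hq hℓ hℓM (ne_of_not_dvd_mul hℓMq) φ

/-- One step `M ↦ M q`, transfers, for the Betti operator `TB` (every prime `q`, also `q ∣ M`). -/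
theorem cor1_TB {M q ℓ : ℕ} (hM : 0 < M) (hq : q.Prime) (hℓ : ℓ.Prime) (hℓM : ¬ ℓ ∣ M)
    (hℓMq : ¬ ℓ ∣ M * q) (ψ : Additive (Gamma0 (M * q)) →+ A) :
    cor1 M q A (TB (M * q) A hℓ hℓMq ψ) = TB M A hℓ hℓM (cor1 M q A ψ) := by
  by_cases hfin : (inclG M q).range.FiniteIndex
  · rw [← H20.Tcoh_eq_TB (Nat.mul_pos hM hq.pos) hℓ hℓMq, ← H20.Tcoh_eq_TB hM hℓ hℓM]
    exact cor1_Tcoh hM hq hℓ hℓMq ψ
  · have hn : ¬ (Function.Injective (inclG M q) ∧ (inclG M q).range.FiniteIndex) :=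
      fun h => hfin h.2
    unfold cor1
    rw [corAlong_of_not hn, corAlong_of_not hn, TB_zero']

theorem cor2_TB {M q ℓ : ℕ} (hM : 0 < M) (hq : q.Prime) (hℓ : ℓ.Prime) (hℓM : ¬ ℓ ∣ M)
    (hℓMq : ¬ ℓ ∣ M * q) (ψ : Additive (Gamma0 (M * q)) →+ A) :
    cor2 M q A (TB (M * q) A hℓ hℓMq ψ) = TB M A hℓ hℓM (cor2 M q A ψ) := by
  by_cases hfin : (conjG M q).range.FiniteIndex
  · rw [← H20.Tcoh_eq_TB (Nat.mul_pos hM hq.pos) hℓ hℓMq, ← H20.Tcoh_eq_TB hM hℓ hℓM]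
    exact cor2_Tcoh hM hq hℓ hℓMq ψ
  · have hn : ¬ (Function.Injective (conjG M q) ∧ (conjG M q).range.FiniteIndex) :=
      fun h => hfin h.2
    unfold cor2
    rw [corAlong_of_not hn, corAlong_of_not hn, TB_zero']

/-- **REL-T**: the `A_a`, `C_a` commute with `T_ℓ`, `ℓ ∤ N q`. -/
theorem stmt_RELT : Stmt_RELT := by
  intro N q _ hq hqN ℓ hℓ hℓN hℓN' A _
  have hN : 0 < N := Nat.pos_of_ne_zero (NeZero.ne N)
  have hNq : 0 < N * q := Nat.mul_pos hN hq.pos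
  have hN' : 0 < N * q ^ 2 := Nat.mul_pos hN (pow_pos hq.pos 2)
  have hℓNq : ¬ ℓ ∣ N * q := fun h => hℓN' (by
    rw [pow_two, ← mul_assoc]
    exact dvd_mul_of_dvd_left h q)
  have hℓNqq : ¬ ℓ ∣ N * q * q := fun h => hℓN' (by rwa [pow_two, ← mul_assoc])
  have hℓq : ℓ ≠ q := ne_of_not_dvd_mul hℓNq
  have hT : ∀ χ : Additive (Gamma0 N) →+ A, TB N A hℓ hℓN χ = Tcoh N A ℓ χ :=
    fun χ => (H20.Tcoh_eq_TB hN hℓ hℓN χ).symm
  have hT' : ∀ χ : Additive (Gamma0 (N * q ^ 2)) →+ A,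
      TB (N * q ^ 2) A hℓ hℓN' χ = Tcoh (N * q ^ 2) A ℓ χ :=
    fun χ => (H20.Tcoh_eq_TB hN' hℓ hℓN' χ).symm
  have hT0 : Tcoh N A ℓ (0 : Additive (Gamma0 N) →+ A) = 0 := by
    rw [← hT, TB_zero']
  -- the one-step relations
  have r1 : ∀ φ : Additive (Gamma0 N) →+ A,
      Tcoh (N * q) A ℓ (resAlong A (inclG N q) φ) = resAlong A (inclG N q) (Tcoh N A ℓ φ) :=
    fun φ => Tcoh_res1 hN hq hℓ hℓN hℓq φ
  have r2 : ∀ φ : Additive (Gamma0 N) →+ A,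
      Tcoh (N * q) A ℓ (resAlong A (conjG N q) φ) = resAlong A (conjG N q) (Tcoh N A ℓ φ) :=
    fun φ => Tcoh_res2 hN hq hℓ hℓN hℓq φ
  have r1' : ∀ φ : Additive (Gamma0 (N * q)) →+ A,
      Tcoh (N * q * q) A ℓ (resAlong A (inclG (N * q) q) φ)
        = resAlong A (inclG (N * q) q) (Tcoh (N * q) A ℓ φ) :=
    fun φ => Tcoh_res1 hNq hq hℓ hℓNq hℓq φ
  have r2' : ∀ φ : Additive (Gamma0 (N * q)) →+ A,
      Tcoh (N * q * q) A ℓ (resAlong A (conjG (N * q) q) φ)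
        = resAlong A (conjG (N * q) q) (Tcoh (N * q) A ℓ φ) :=
    fun φ => Tcoh_res2 hNq hq hℓ hℓNq hℓq φ
  have c1 : (inclG N q).range.FiniteIndex → ∀ ψ : Additive (Gamma0 (N * q)) →+ A,
      corAlong A (inclG N q) (Tcoh (N * q) A ℓ ψ) = Tcoh N A ℓ (corAlong A (inclG N q) ψ) :=
    fun hf ψ => by haveI := hf; exact cor1_Tcoh hN hq hℓ hℓNq ψ
  have c2 : (conjG N q).range.FiniteIndex → ∀ ψ : Additive (Gamma0 (N * q)) →+ A,
      corAlong A (conjG N q) (Tcoh (N * q) A ℓ ψ) = Tcoh N A ℓ (corAlong A (conjG N q) ψ) :=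
    fun hf ψ => by haveI := hf; exact cor2_Tcoh hN hq hℓ hℓNq ψ
  have c1' : (inclG (N * q) q).range.FiniteIndex → ∀ ψ : Additive (Gamma0 (N * q * q)) →+ A,
      corAlong A (inclG (N * q) q) (Tcoh (N * q * q) A ℓ ψ)
        = Tcoh (N * q) A ℓ (corAlong A (inclG (N * q) q) ψ) :=
    fun hf ψ => by haveI := hf; exact cor1_Tcoh hNq hq hℓ hℓNqq ψ
  have c2' : (conjG (N * q) q).range.FiniteIndex → ∀ ψ : Additive (Gamma0 (N * q * q)) →+ A,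
      corAlong A (conjG (N * q) q) (Tcoh (N * q * q) A ℓ ψ)
        = Tcoh (N * q) A ℓ (corAlong A (conjG (N * q) q) ψ) :=
    fun hf ψ => by haveI := hf; exact cor2_Tcoh hNq hq hℓ hℓNqq ψ
  have i1 := inclG_injective N q
  have i2 := conjG_injective N q hq.ne_zero
  have i1' := inclG_injective (N * q) q
  have i2' := conjG_injective (N * q) q hq.ne_zero
  refine ⟨fun φ => ⟨?_, ?_, ?_⟩, fun ψ => ⟨?_, ?_, ?_⟩⟩
  · rw [hT', hT]
    exact Tcoh_res_two (inclG N q) (inclG (N * q) q) r1 r1' φ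
  · rw [hT', hT]
    exact Tcoh_res_two (conjG N q) (inclG (N * q) q) r2 r1' φ
  · rw [hT', hT]
    exact Tcoh_res_two (conjG N q) (conjG (N * q) q) r2 r2' φ
  · rw [hT', hT]
    exact Tcoh_cor_two (inclG N q) (inclG (N * q) q) i1 i1' c1 c1' hT0 ψ
  · rw [hT', hT]
    exact Tcoh_cor_two (conjG N q) (inclG (N * q) q) i2 i1' c2 c1' hT0 ψ
  · rw [hT', hT]
    exact Tcoh_cor_two (conjG N q) (conjG (N * q) q) i2 i2' c2 c2' hT0 ψ

end RelT

end Fermat.Agent.S59.NonMin.Geom.H13
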