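import Fermat.Agent.S59.NonMin.Geom.H98_RelSplitFinal
import Fermat.Agent.S59.NonMin.Geom.H13_RelT

/-!
# S59 / NMGEOM leaf RELSPLIT (helper98): the statement

`stmt_RELSPLIT : Stmt_RELSPLIT`, from `H98.relsplit_of` and the landed relations
(`Stmt_REL1`, `Stmt_RELU`: helper12; `Stmt_RELT`: helper13; `Stmt_RELPAR`: helper94).
-/

set_option autoImplicit false

namespace Fermat.Agent.S59.NonMin.Geom.H98

open Fermat.Agent.S59.NonMin.Geom

/-- **RELSPLIT**. -/
theorem stmt_RELSPLIT : Stmt_RELSPLIT :=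
  relsplit_of_RELT Fermat.Agent.S59.NonMin.Geom.H13.stmt_RELT

end Fermat.Agent.S59.NonMin.Geom.H98
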