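import Fermat.Agent.S59.NonMin.Geom.H94_Lift
import Fermat.Agent.S59.NonMin.Geom.H98_RelSplitStmt
import Fermat.Agent.S59.NonMin.Geom.H98_KerUStmt

/-!
# S59 / NMGEOM, leaf DUAL, part LIFT-B (helper94): the `U_r`-adjustment and LIFT-B

* `uadj_step` : one prime `r`, by the projector `e` of `Stmt_RELSPLIT` and `Stmt_KERU`;
* `stmt_UADJ : Stmt_UADJ` (induction on `Sig`);
* `stmt_LIFTB : Stmt_LIFTB`.

No `sorry`.
-/

set_option autoImplicit false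
set_option linter.unusedSectionVars false
set_option linter.style.haveILetI false

open CuspForm CongruenceSubgroup IsLocalRing
open scoped MatrixGroups

namespace Fermat.Agent.S59.NonMin.Geom.H94

open Fermat.Agent.S41 Fermat.Agent.Betti Fermat.Agent.S59.NonMin.Geom
open ModularCurve.Period

variable {𝒪 : Type} [CommRing 𝒪] [IsDomain 𝒪] [IsDiscreteValuationRing 𝒪] [CharZero 𝒪]

/-- An additive operator commuting with `T` and the scalars commutes with the iterates of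
`T - a`. -/
theorem iterate_comm {N : ℕ}
    (e T : (Additive (Gamma0 N) →+ 𝒪) →+ (Additive (Gamma0 N) →+ 𝒪))
    (he : ∀ (c : 𝒪) ψ, e (c • ψ) = c • e ψ) (hT : ∀ ψ, e (T ψ) = T (e ψ)) (a : 𝒪) (n : ℕ)
    (ψ : Additive (Gamma0 N) →+ 𝒪) :
    (fun χ : Additive (Gamma0 N) →+ 𝒪 => T χ - a • χ)^[n] (e ψ)
      = e ((fun χ : Additive (Gamma0 N) →+ 𝒪 => T χ - a • χ)^[n] ψ) := by
  induction n with
  | zero => rfl
  | succ n ih =>
    rw [Function.iterate_succ_apply', ih, Function.iterate_succ_apply', map_sub, he, hT]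

/-- An additive operator commuting with the scalars preserves the homomorphisms with values in
`𝔪^m`. -/
theorem mem_pow_of_linear {N : ℕ}
    (e : (Additive (Gamma0 N) →+ 𝒪) →+ (Additive (Gamma0 N) →+ 𝒪))
    (he : ∀ (c : 𝒪) ψ, e (c • ψ) = c • e ψ) (m : ℕ) (χ : Additive (Gamma0 N) →+ 𝒪)
    (h : ∀ γ, χ γ ∈ maximalIdeal 𝒪 ^ m) (γ : Additive (Gamma0 N)) :
    e χ γ ∈ maximalIdeal 𝒪 ^ m := by
  obtain ⟨ϖ, hϖ⟩ := IsDiscreteValuationRing.exists_irreducible 𝒪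
  obtain ⟨χ', rfl⟩ := H61.hom_div hϖ m χ h
  rw [he]
  show ϖ ^ m • (e χ' γ) ∈ _
  rw [smul_eq_mul]
  exact Ideal.mul_mem_right _ _ (Ideal.pow_mem_pow (hϖ.maximalIdeal_eq ▸
    Ideal.mem_span_singleton_self ϖ) m)

/-- The adjustment at one prime. -/
theorem uadj_step (M₀ r : ℕ) [NeZero (M₀ * r ^ 2)] (hr : r.Prime) (hrM₀ : ¬ r ∣ M₀)
    (hru : IsUnit (r : 𝒪)) (S : Set ℕ)
    (θ : CuspForm.heckeAlgebra (M₀ * r ^ 2) 2 S →+* ResidueField 𝒪) (Sig' : Finset ℕ)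
    (hSig' : ∀ r' ∈ Sig', r'.Prime) (hr' : r ∉ Sig')
    (ψ : Additive (Gamma0 (M₀ * r ^ 2)) →+ 𝒪) (hψ : InBetti 𝒪 (M₀ * r ^ 2) S θ Sig' ψ)
    (hU : ∀ hd : r ∣ M₀ * r ^ 2, UB (M₀ * r ^ 2) (ResidueField 𝒪) hd (redB 𝒪 ψ) = 0) :
    ∃ ψ' : Additive (Gamma0 (M₀ * r ^ 2)) →+ 𝒪,
      InBetti 𝒪 (M₀ * r ^ 2) S θ (insert r Sig') ψ' ∧ redB 𝒪 ψ' = redB 𝒪 ψ := by
  have hM₀ : M₀ ≠ 0 := fun h0 => NeZero.ne (M₀ * r ^ 2) (by rw [h0, zero_mul])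
  haveI : NeZero M₀ := ⟨hM₀⟩
  have hd : r ∣ M₀ * r ^ 2 := Dvd.intro_left (M₀ * r) (by ring)
  obtain ⟨e, g, hlin, hUe, hsplit, hpar, hTB, hUB⟩ :=
    H98.stmt_RELSPLIT 𝒪 M₀ r hr hrM₀ hru hd
  obtain ⟨hψpar, hψU, hψloc⟩ := hψ
  refine ⟨e ψ, ⟨(hpar ψ hψpar).1, ?_, ?_⟩, ?_⟩
  · intro r'' hr'' hr''M
    rcases Finset.mem_insert.mp hr'' with h | h
    · subst h
      exact hUe ψ
    · have hne : r'' ≠ r := fun h' => hr' (h' ▸ h)
      rw [← (hUB r'' hr''M (hSig' r'' h) hne ψ).1, hψU r'' h hr''M, map_zero]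
  · intro ℓ hℓ hℓN hℓS a ha m
    obtain ⟨n, hn⟩ := hψloc ℓ hℓ hℓN hℓS a ha m
    refine ⟨n, fun γ => ?_⟩
    rw [iterate_comm e (TB (M₀ * r ^ 2) 𝒪 hℓ hℓN) (fun c ψ => (hlin c ψ).1)
      (fun ψ => (hTB ℓ hℓ hℓN ψ).1) a n ψ]
    exact mem_pow_of_linear e (fun c ψ => (hlin c ψ).1) m _ hn γ
  · -- the reduction
    have hrk : ((r : ℕ) : ResidueField 𝒪) ≠ 0 := by
      have h1 : residue 𝒪 (r : 𝒪) ≠ 0 := by
        intro h0
        exact ((mem_maximalIdeal _).mp ((residue_eq_zero_iff _).mp h0)) hru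
      rwa [map_natCast] at h1
    have h3 : redB 𝒪 ψ = redB 𝒪 (e ψ)
        + UB (M₀ * r ^ 2) (ResidueField 𝒪) hd (redB 𝒪 (g ψ)) := by
      rw [UB_redB, ← redB_add, ← hsplit ψ]
    have h4 : UB (M₀ * r ^ 2) (ResidueField 𝒪) hd
        (UB (M₀ * r ^ 2) (ResidueField 𝒪) hd (redB 𝒪 (g ψ))) = 0 := by
      have h5 := congrArg (UB (M₀ * r ^ 2) (ResidueField 𝒪) hd) h3
      rw [hU hd, map_add, UB_redB hd (e ψ), hUe ψ, redB_zero, zero_add] at h5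
      exact h5.symm
    have h6 := H98.stmt_KERU (ResidueField 𝒪) M₀ r hr hrM₀ hrk hd _ h4
    rw [h3, h6, add_zero]

/-- **U-ADJ**. -/
theorem stmt_UADJ : Stmt_UADJ := by
  intro 𝒪 _ _ _ _ M _ S θ Sig hSig ψ₁ h₁ hU
  induction Sig using Finset.induction_on with
  | empty => exact ⟨ψ₁, h₁, rfl⟩
  | insert r Sig' hr ih =>
    obtain ⟨ψ, hψ, hred⟩ := ih (fun r' hr' => hSig r' (Finset.mem_insert_of_mem hr'))
      (fun r' hr' => hU r' (Finset.mem_insert_of_mem hr'))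
    obtain ⟨hrp, hru, M₀, hM, hrM₀⟩ := hSig r (Finset.mem_insert_self r Sig')
    subst hM
    obtain ⟨ψ', hψ', hred'⟩ := uadj_step M₀ r hrp hrM₀ hru S θ Sig'
      (fun r' hr' => (hSig r' (Finset.mem_insert_of_mem hr')).1) hr ψ hψ
      (fun hd => by rw [hred]; exact hU r (Finset.mem_insert_self r Sig') hd)
    exact ⟨ψ', hψ', hred'.trans hred⟩

/-- **LIFT-B**. -/
theorem stmt_LIFTB : Stmt_LIFTB := liftB_of stmt_UADJ

end Fermat.Agent.S59.NonMin.Geom.H94
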