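import Mathlib

/-!
# S59, NMGEOM / PGEOM: the abstract core of "dual Ihara on the `θ`-part"
(pure linear algebra over a field, Mathlib only; helper85)

`V`, `V'` finite dimensional with nondegenerate forms `B`, `B'`; `c : V' → V` with adjoint
`r : V → V'`; a commuting family `T i` on `V`, self-adjoint for `B`, with `c ∘ T' i = T i ∘ c`.
If (Ihara) `r` is injective on the joint kernel of the `T i`, then every `x : V` on which all `T i`
are locally nilpotent is `c y`; moreover, if `(N j, N' j)` is any family of operators intertwined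
by `c`, the `N' j` commuting, locally nilpotent at `x`, then `y` can be chosen with all `N' j`
locally nilpotent at `y`.

* `exists_joint_kernel` : a nonzero stable subspace on which commuting operators are locally
  nilpotent contains a nonzero joint kernel vector;
* `fitting_sub` : Fitting's lemma for an operator on a stable subspace;
* `le_nil_sup` : if `(N i)^(n i) K ⊆ K₁` then every `z ∈ K` is `a + z₁`, `a ∈ K` with all `N i`
  locally nilpotent at `a`, `z₁ ∈ K₁`;
* `theta_surj` : the theorem.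

No projectors, no primary decomposition.
-/

set_option autoImplicit false

namespace Fermat.Agent.S59.NonMin.Geom.H85

section Abs

variable {k : Type*} [Field k] {V : Type*} [AddCommGroup V] [Module k V]

/-- a power of an operator commutes with an operator commuting with it -/
theorem pow_apply_comm {f g : Module.End k V} (h : Commute f g) (n : ℕ) (x : V) :
    (f ^ n) (g x) = g ((f ^ n) x) :=
  congrArg (fun e : Module.End k V => e x) (h.pow_left n).eq

/-- the vectors at which `f` is locally nilpotent -/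
def locNil (f : Module.End k V) : Submodule k V where
  carrier := {x | ∃ n : ℕ, (f ^ n) x = 0}
  zero_mem' := ⟨0, by simp⟩
  add_mem' := by
    rintro x y ⟨n, hn⟩ ⟨m, hm⟩
    refine ⟨n + m, ?_⟩
    have h1 : (f ^ (n + m)) y = 0 := by
      rw [pow_add, Module.End.mul_apply, hm, map_zero]
    have h2 : (f ^ (n + m)) x = 0 := by
      rw [add_comm, pow_add, Module.End.mul_apply, hn, map_zero]
    rw [map_add, h1, h2, add_zero]
  smul_mem' := by
    rintro c x ⟨n, hn⟩
    exact ⟨n, by rw [map_smul, hn, smul_zero]⟩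

theorem mem_locNil {f : Module.End k V} {x : V} : x ∈ locNil f ↔ ∃ n : ℕ, (f ^ n) x = 0 :=
  Iff.rfl

/-- **L1**: a nonzero stable subspace on which the commuting operators `N i` are locally nilpotent
contains a nonzero vector killed by all `N i`. -/
theorem exists_joint_kernel_aux [FiniteDimensional k V] {I : Type*} (N : I → Module.End k V)
    (hc : ∀ i j, Commute (N i) (N j)) :
    ∀ (d : ℕ) (Q : Submodule k V), Module.finrank k Q = d → Q ≠ ⊥ →
      (∀ i, ∀ x ∈ Q, N i x ∈ Q) → (∀ i, ∀ x ∈ Q, ∃ n : ℕ, (N i ^ n) x = 0) →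
      ∃ z ∈ Q, z ≠ 0 ∧ ∀ i, N i z = 0 := by
  intro d
  induction d using Nat.strong_induction_on with
  | _ d IH =>
    intro Q hd hQ hst hnil
    by_cases hall : ∀ i, ∀ x ∈ Q, N i x = 0
    · obtain ⟨z, hz, hz0⟩ := Submodule.exists_mem_ne_zero_of_ne_bot hQ
      exact ⟨z, hz, hz0, fun i => hall i z hz⟩
    · push Not at hall
      obtain ⟨i, x, hx, hx0⟩ := hall
      have hlt : Q ⊓ LinearMap.ker (N i) < Q := by
        refine lt_of_le_of_ne inf_le_left ?_
        intro h
        have hxm : x ∈ Q ⊓ LinearMap.ker (N i) := by rw [h]; exact hx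
        exact hx0 (LinearMap.mem_ker.mp (Submodule.mem_inf.mp hxm).2)
      have hne : Q ⊓ LinearMap.ker (N i) ≠ ⊥ := by
        classical
        have hex : ∃ n, (N i ^ n) x = 0 := hnil i x hx
        have hm0 : (N i ^ Nat.find hex) x = 0 := Nat.find_spec hex
        have hmpos : Nat.find hex ≠ 0 := by
          intro h0
          rw [h0, pow_zero] at hm0
          apply hx0
          have hx' : x = 0 := hm0
          rw [hx', map_zero]
        obtain ⟨m', hm'⟩ := Nat.exists_eq_succ_of_ne_zero hmpos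
        have hm'ne : (N i ^ m') x ≠ 0 := Nat.find_min hex (by omega)
        intro hbot
        apply hm'ne
        have hmem : (N i ^ m') x ∈ Q ⊓ LinearMap.ker (N i) := by
          refine Submodule.mem_inf.mpr ⟨Module.End.pow_apply_mem_of_forall_mem m' (hst i) x hx, ?_⟩
          rw [LinearMap.mem_ker, ← Module.End.mul_apply, ← pow_succ', ← Nat.succ_eq_add_one,
            ← hm']
          exact hm0
        rw [hbot] at hmem
        exact (Submodule.mem_bot k).mp hmem
      have hst' : ∀ j, ∀ y ∈ Q ⊓ LinearMap.ker (N i), N j y ∈ Q ⊓ LinearMap.ker (N i) := by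
        intro j y hy
        have hy' := Submodule.mem_inf.mp hy
        refine Submodule.mem_inf.mpr ⟨hst j y hy'.1, ?_⟩
        rw [LinearMap.mem_ker]
        have e : N i (N j y) = N j (N i y) :=
          congrArg (fun e : Module.End k V => e y) (hc i j).eq
        rw [e, LinearMap.mem_ker.mp hy'.2, map_zero]
      have hnil' : ∀ j, ∀ y ∈ Q ⊓ LinearMap.ker (N i), ∃ n : ℕ, (N j ^ n) y = 0 :=
        fun j y hy => hnil j y (Submodule.mem_inf.mp hy).1
      obtain ⟨z, hz, hz0, hzk⟩ := IH (Module.finrank k ↥(Q ⊓ LinearMap.ker (N i)))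
        (hd ▸ Submodule.finrank_lt_finrank_of_lt hlt) (Q ⊓ LinearMap.ker (N i)) rfl hne hst'
        hnil'
      exact ⟨z, (Submodule.mem_inf.mp hz).1, hz0, hzk⟩

/-- **L1**: a nonzero stable subspace on which the commuting operators `N i` are locally nilpotent
contains a nonzero vector killed by all `N i`. -/
theorem exists_joint_kernel [FiniteDimensional k V] {I : Type*} (N : I → Module.End k V)
    (hc : ∀ i j, Commute (N i) (N j)) (Q : Submodule k V) (hQ : Q ≠ ⊥)
    (hst : ∀ i, ∀ x ∈ Q, N i x ∈ Q) (hnil : ∀ i, ∀ x ∈ Q, ∃ n : ℕ, (N i ^ n) x = 0) :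
    ∃ z ∈ Q, z ≠ 0 ∧ ∀ i, N i z = 0 :=
  exists_joint_kernel_aux N hc _ Q rfl hQ hst hnil

/-- **Fitting's lemma** for an operator `f` on a stable subspace `K`: every `z ∈ K` is `a + b`
with `f` locally nilpotent at `a ∈ K` and `b ∈ ⋂ fⁿ K`. -/
theorem fitting_sub [FiniteDimensional k V] (f : Module.End k V) (K : Submodule k V)
    (hK : ∀ x ∈ K, f x ∈ K) (z : V) (hz : z ∈ K) :
    ∃ a ∈ K, (∃ n : ℕ, (f ^ n) a = 0) ∧ ∀ n : ℕ, ∃ b ∈ K, (f ^ n) b = z - a := by
  have hcompl := LinearMap.isCompl_iSup_ker_pow_iInf_range_pow (f.restrict hK)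
  have htop : (⟨z, hz⟩ : K) ∈ (⨆ n, LinearMap.ker ((f.restrict hK) ^ n)) ⊔
      (⨅ n, LinearMap.range ((f.restrict hK) ^ n)) := by
    rw [hcompl.sup_eq_top]
    trivial
  obtain ⟨a, ha, b, hb, hab⟩ := Submodule.mem_sup.mp htop
  obtain ⟨n, hn⟩ := (LinearMap.eventually_iSup_ker_pow_eq (f.restrict hK)).exists
  rw [hn] at ha
  have hpow : ∀ (m : ℕ) (w : K), (((f.restrict hK) ^ m) w : V) = (f ^ m) w.1 := by
    intro m w
    rw [Module.End.pow_restrict m hK]
    rfl
  refine ⟨a.1, a.2, ⟨n, ?_⟩, ?_⟩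
  · rw [← hpow, LinearMap.mem_ker.mp ha]
    rfl
  · intro m
    obtain ⟨b', hb'⟩ := (Submodule.mem_iInf _).mp hb m
    refine ⟨b'.1, b'.2, ?_⟩
    rw [← hpow, hb']
    have h1 : (a : V) + (b : V) = z := congrArg Subtype.val hab
    rw [← h1]
    abel

/-- **L2**: `K` stable under the commuting operators `N i`, and for every `i` some power of `N i`
maps `K` into `K₁`.  Then every `z ∈ K` is `a + z₁` with `a ∈ K`, all `N i` locally nilpotent at
`a`, and `z₁ ∈ K₁`. -/
theorem le_nil_sup_aux [FiniteDimensional k V] {I : Type*} (N : I → Module.End k V)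
    (hc : ∀ i j, Commute (N i) (N j)) (K₁ : Submodule k V) :
    ∀ (d : ℕ) (K : Submodule k V), Module.finrank k K = d → (∀ i, ∀ x ∈ K, N i x ∈ K) →
      (∀ i, ∃ n : ℕ, ∀ x ∈ K, (N i ^ n) x ∈ K₁) →
      ∀ z ∈ K, ∃ a ∈ K, (∀ i, ∃ n : ℕ, (N i ^ n) a = 0) ∧ z - a ∈ K₁ := by
  intro d
  induction d using Nat.strong_induction_on with
  | _ d IH =>
    intro K hd hst hK₁ z hz
    by_cases hall : ∀ i, ∀ x ∈ K, ∃ n : ℕ, (N i ^ n) x = 0
    · exact ⟨z, hz, fun i => hall i z hz, by rw [sub_self]; exact K₁.zero_mem⟩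
    · push Not at hall
      obtain ⟨i, x, hx, hxn⟩ := hall
      have hlt : K ⊓ locNil (N i) < K := by
        refine lt_of_le_of_ne inf_le_left ?_
        intro h
        have hxm : x ∈ K ⊓ locNil (N i) := by rw [h]; exact hx
        obtain ⟨n, hn⟩ := (Submodule.mem_inf.mp hxm).2
        exact hxn n hn
      have hst' : ∀ j, ∀ y ∈ K ⊓ locNil (N i), N j y ∈ K ⊓ locNil (N i) := by
        intro j y hy
        have hy' := Submodule.mem_inf.mp hy
        refine Submodule.mem_inf.mpr ⟨hst j y hy'.1, ?_⟩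
        obtain ⟨n, hn⟩ := hy'.2
        exact ⟨n, by rw [pow_apply_comm (hc i j), hn, map_zero]⟩
      have hK₁' : ∀ j, ∃ n : ℕ, ∀ y ∈ K ⊓ locNil (N i), (N j ^ n) y ∈ K₁ := by
        intro j
        obtain ⟨n, hn⟩ := hK₁ j
        exact ⟨n, fun y hy => hn y (Submodule.mem_inf.mp hy).1⟩
      obtain ⟨a₀, ha₀, ha₀n, ha₀r⟩ := fitting_sub (N i) K (hst i) z hz
      obtain ⟨n, hn⟩ := hK₁ i
      obtain ⟨b, hb, hbz⟩ := ha₀r n
      have hza₀ : z - a₀ ∈ K₁ := by
        rw [← hbz]
        exact hn b hb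
      obtain ⟨a, ha, han, haa⟩ := IH (Module.finrank k ↥(K ⊓ locNil (N i)))
        (hd ▸ Submodule.finrank_lt_finrank_of_lt hlt) (K ⊓ locNil (N i)) rfl hst' hK₁' a₀
        (Submodule.mem_inf.mpr ⟨ha₀, ha₀n⟩)
      refine ⟨a, (Submodule.mem_inf.mp ha).1, han, ?_⟩
      have e : z - a = (z - a₀) + (a₀ - a) := by abel
      rw [e]
      exact K₁.add_mem hza₀ haa

/-- **L2**: `K` stable under the commuting operators `N i`, and for every `i` some power of `N i`
maps `K` into `K₁`.  Then every `z ∈ K` is `a + z₁` with `a ∈ K`, all `N i` locally nilpotent at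
`a`, and `z₁ ∈ K₁`. -/
theorem le_nil_sup [FiniteDimensional k V] {I : Type*} (N : I → Module.End k V)
    (hc : ∀ i j, Commute (N i) (N j)) (K K₁ : Submodule k V)
    (hst : ∀ i, ∀ x ∈ K, N i x ∈ K) (hK₁ : ∀ i, ∃ n : ℕ, ∀ x ∈ K, (N i ^ n) x ∈ K₁)
    (z : V) (hz : z ∈ K) :
    ∃ a ∈ K, (∀ i, ∃ n : ℕ, (N i ^ n) a = 0) ∧ z - a ∈ K₁ :=
  le_nil_sup_aux N hc K₁ _ K rfl hst hK₁ z hz

/-- a bilinear form with trivial left kernel on a finite dimensional space represents every
functional -/
theorem exists_repr_of_left_nondeg [FiniteDimensional k V] (B : V →ₗ[k] V →ₗ[k] k)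
    (hB : ∀ x, (∀ y, B x y = 0) → x = 0) (f : V →ₗ[k] k) : ∃ x, B x = f := by
  have hinj : Function.Injective B := by
    rw [← LinearMap.ker_eq_bot, LinearMap.ker_eq_bot']
    intro x hx
    exact hB x (fun y => by rw [hx]; rfl)
  exact ((LinearMap.injective_iff_surjective_of_finrank_eq_finrank
    (Subspace.dual_finrank_eq (K := k) (V := V)).symm).mp hinj) f

variable {V' : Type*} [AddCommGroup V'] [Module k V']

/-- **Dual Ihara on the `θ`-part, abstract form.**
`B`, `B'` nondegenerate; `r` is the adjoint of `c`; the `T i` commute, are self-adjoint, and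
`c ∘ T' i = T i ∘ c`; Ihara: `r` is injective on the joint kernel of the `T i`.
`(N j, N' j)`: any family intertwined by `c`, the `N' j` commuting.
Then every `x` at which all `T i` and all `N j` are locally nilpotent is `c y` with all `N' j`
locally nilpotent at `y`. -/
theorem theta_surj [FiniteDimensional k V] [FiniteDimensional k V'] {I J : Type*}
    (B : V →ₗ[k] V →ₗ[k] k) (B' : V' →ₗ[k] V' →ₗ[k] k)
    (hB : ∀ x, (∀ y, B x y = 0) → x = 0) (hB' : ∀ z, (∀ y, B' z y = 0) → z = 0)
    (r : V →ₗ[k] V') (c : V' →ₗ[k] V) (adj : ∀ x y, B' (r x) y = B x (c y))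
    (T : I → Module.End k V) (hTc : ∀ i j, Commute (T i) (T j))
    (hT : ∀ i x y, B x (T i y) = B (T i x) y)
    (T' : I → Module.End k V') (cT : ∀ i y, c (T' i y) = T i (c y))
    (ih : ∀ z, (∀ i, T i z = 0) → r z = 0 → z = 0)
    (N : J → Module.End k V) (N' : J → Module.End k V')
    (hN' : ∀ i j, Commute (N' i) (N' j)) (cN : ∀ j y, c (N' j y) = N j (c y))
    (x : V) (hxT : ∀ i, ∃ n : ℕ, (T i ^ n) x = 0) (hxN : ∀ j, ∃ n : ℕ, (N j ^ n) x = 0) :
    ∃ y : V', c y = x ∧ ∀ j, ∃ n : ℕ, (N' j ^ n) y = 0 := by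
  classical
  -- powers
  have hTpow : ∀ (i : I) (n : ℕ) (w v : V), B ((T i ^ n) w) v = B w ((T i ^ n) v) := by
    intro i n
    induction n with
    | zero => intro w v; simp
    | succ n IHn =>
      intro w v
      have e : (T i ^ n) (T i v) = T i ((T i ^ n) v) := by
        rw [← Module.End.mul_apply, ← Module.End.mul_apply, ← pow_succ, ← pow_succ']
      rw [pow_succ, Module.End.mul_apply, Module.End.mul_apply, IHn, e, hT]
  have hNpow : ∀ (j : J) (n : ℕ) (y : V'), c ((N' j ^ n) y) = (N j ^ n) (c y) := by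
    intro j n
    induction n with
    | zero => intro y; simp
    | succ n IHn =>
      intro y
      rw [pow_succ, Module.End.mul_apply, IHn, cN, pow_succ, Module.End.mul_apply]
  -- the kernel of `r` is stable under the `T i`
  have hker : ∀ i, ∀ w ∈ LinearMap.ker r, T i w ∈ LinearMap.ker r := by
    intro i w hw
    rw [LinearMap.mem_ker] at hw ⊢
    apply hB'
    intro y
    rw [adj, ← hT i w (c y), ← cT, ← adj, hw]
    simp
  -- (2) `x` is in the range of `c`
  have hrange : x ∈ LinearMap.range c := by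
    by_contra hnot
    obtain ⟨f, hfx, hf⟩ := Submodule.exists_dual_map_eq_bot_of_notMem hnot inferInstance
    obtain ⟨z, hz⟩ := exists_repr_of_left_nondeg B hB f
    have hf0 : ∀ y, B z (c y) = 0 := by
      intro y
      have h1 : f (c y) ∈ (LinearMap.range c).map f :=
        Submodule.mem_map_of_mem (LinearMap.mem_range_self c y)
      rw [hf] at h1
      rw [hz]
      exact (Submodule.mem_bot k).mp h1
    have hrz : z ∈ LinearMap.ker r := by
      rw [LinearMap.mem_ker]
      apply hB'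
      intro y
      rw [adj]
      exact hf0 y
    have hzx : B z x ≠ 0 := by
      rw [hz]
      exact hfx
    -- the decomposition of `z`
    obtain ⟨a, ha, han, haz⟩ := le_nil_sup T hTc (LinearMap.ker r) (LinearMap.ker (B.flip x))
      hker (fun i => by
        obtain ⟨n, hn⟩ := hxT i
        refine ⟨n, fun w _ => ?_⟩
        rw [LinearMap.mem_ker, LinearMap.flip_apply, hTpow, hn, map_zero]) z hrz
    -- `a = 0` by Ihara
    have ha0 : a = 0 := by
      by_contra hane
      have hQ : (LinearMap.ker r ⊓ ⨅ i, locNil (T i)) ≠ ⊥ := by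
        intro hbot
        apply hane
        have : a ∈ LinearMap.ker r ⊓ ⨅ i, locNil (T i) :=
          Submodule.mem_inf.mpr ⟨ha, (Submodule.mem_iInf _).mpr han⟩
        rw [hbot] at this
        exact (Submodule.mem_bot k).mp this
      obtain ⟨z', hz', hz'0, hz'k⟩ := exists_joint_kernel T hTc _ hQ
        (fun i w hw => Submodule.mem_inf.mpr ⟨hker i w (Submodule.mem_inf.mp hw).1,
          (Submodule.mem_iInf _).mpr fun j => by
            obtain ⟨n, hn⟩ := (Submodule.mem_iInf _).mp (Submodule.mem_inf.mp hw).2 j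
            exact ⟨n, by rw [pow_apply_comm (hTc j i), hn, map_zero]⟩⟩)
        (fun i w hw => (Submodule.mem_iInf _).mp (Submodule.mem_inf.mp hw).2 i)
      exact hz'0 (ih z' hz'k (LinearMap.mem_ker.mp (Submodule.mem_inf.mp hz').1))
    rw [ha0, sub_zero, LinearMap.mem_ker, LinearMap.flip_apply] at haz
    exact hzx haz
  obtain ⟨y₀, hy₀⟩ := hrange
  -- (3) the adjustment
  choose m hm using hxN
  have hKst : ∀ i, ∀ y ∈ (⨅ j, LinearMap.ker (c ∘ₗ (N' j ^ m j)) : Submodule k V'),
      N' i y ∈ (⨅ j, LinearMap.ker (c ∘ₗ (N' j ^ m j)) : Submodule k V') := by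
    intro i y hy
    refine (Submodule.mem_iInf _).mpr fun j => ?_
    have hyj := (Submodule.mem_iInf _).mp hy j
    rw [LinearMap.mem_ker, LinearMap.comp_apply] at hyj ⊢
    rw [pow_apply_comm (hN' j i), cN, hyj, map_zero]
  have hy₀K : y₀ ∈ (⨅ j, LinearMap.ker (c ∘ₗ (N' j ^ m j)) : Submodule k V') := by
    refine (Submodule.mem_iInf _).mpr fun j => ?_
    rw [LinearMap.mem_ker, LinearMap.comp_apply, hNpow, hy₀, hm]
  obtain ⟨y, _, hyn, hyy⟩ := le_nil_sup N' hN' _ (LinearMap.ker c) hKst
    (fun j => ⟨m j, fun w hw => by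
      have := (Submodule.mem_iInf _).mp hw j
      rw [LinearMap.mem_ker, LinearMap.comp_apply] at this
      exact LinearMap.mem_ker.mpr this⟩) y₀ hy₀K
  refine ⟨y, ?_, hyn⟩
  rw [LinearMap.mem_ker, map_sub, sub_eq_zero] at hyy
  rw [← hyy, hy₀]

end Abs

end Fermat.Agent.S59.NonMin.Geom.H85
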