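import Fermat.Agent.S59.NonMin.Geom.H98_Comm

/-!
# S59 / NMGEOM (helper98): `T_ℓ T_ℓ' = T_ℓ' T_ℓ` on `Hom(Γ₀(M), A)`, any coefficient group

`TB_comm_TB` : for primes `ℓ, ℓ' ∤ M`, `TB ℓ (TB ℓ' φ) = TB ℓ' (TB ℓ φ)`.
Together with `H98.UB_comm_UB`, `H98.UB_comm_TB` all the Betti Hecke operators of a level commute.
-/

set_option autoImplicit false
set_option linter.style.haveILetI false
set_option linter.unusedSectionVars false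

open scoped MatrixGroups
open CongruenceSubgroup Matrix ModularForm

namespace Fermat.Agent.S59.NonMin.Geom.H98

open Fermat.Agent.S41 Fermat.Agent.S41.H19 Fermat.Agent.S41.H39 Fermat.Agent.S41.H20
open Fermat.Agent.Betti

section Mat

theorem Dq_mul_Dq (ℓ ℓ' : ℕ) : Dq ℓ * Dq ℓ' = !![(ℓ : ℤ) * ℓ', 0; 0, 1] := by
  ext i k
  fin_cases i <;> fin_cases k <;> simp [Dq, Matrix.mul_apply, Fin.sum_univ_two]

theorem Bmat_Dq_swap (q ℓ : ℕ) {x x' m : ℤ} (h : ℓ * x' + q * m = x) :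
    Bmat q x * Dq ℓ = !![1, m; 0, 1] * (Dq ℓ * Bmat q x') := by
  rw [Dq_mul_Bmat, Bmat_mul_Dq]
  ext i k
  fin_cases i <;> fin_cases k <;> simp [Matrix.mul_apply, Fin.sum_univ_two]
  linarith

end Mat

section TT

variable {M : ℕ} [NeZero M] {A : Type*} [AddCommGroup A]

/-- the bijection of the index sets -/
noncomputable def piTT (ℓ ℓ' : ℕ) (a : OnePoint (ZMod ℓ') × OnePoint (ZMod ℓ)) :
    OnePoint (ZMod ℓ) × OnePoint (ZMod ℓ') :=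
  match a.1, a.2 with
  | none, none => ((OnePoint.infty : OnePoint (ZMod ℓ)), (OnePoint.infty : OnePoint (ZMod ℓ')))
  | none, some j =>
      ((((ℓ' * j.val : ℕ) : ZMod ℓ) : OnePoint (ZMod ℓ)), (OnePoint.infty : OnePoint (ZMod ℓ')))
  | some j', none =>
      ((OnePoint.infty : OnePoint (ZMod ℓ)), ((((ℓ : ZMod ℓ')⁻¹ * j' : ZMod ℓ')) : OnePoint (ZMod ℓ')))
  | some j', some j =>
      ((((swapFun ℓ ℓ' (j', j)).1 : ZMod ℓ) : OnePoint (ZMod ℓ)),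
        (((swapFun ℓ ℓ' (j', j)).2 : ZMod ℓ') : OnePoint (ZMod ℓ')))

/-- the unipotent corrections -/
noncomputable def epsTT (M ℓ ℓ' : ℕ) (a : OnePoint (ZMod ℓ') × OnePoint (ZMod ℓ)) : Gamma0 M :=
  match a.1, a.2 with
  | none, none => 1
  | none, some j => tUp M ((ℓ' * j.val / ℓ : ℕ) : ℤ)
  | some j', none =>
      tUp M (((j'.val : ℤ) - (ℓ : ℤ) * ((((ℓ : ZMod ℓ')⁻¹ * j' : ZMod ℓ')).val : ℤ)) / (ℓ' : ℤ))
  | some _, some _ => 1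

theorem piTT_injective {ℓ ℓ' : ℕ} [NeZero ℓ] [NeZero ℓ'] (hcop : Nat.Coprime ℓ ℓ') :
    Function.Injective (piTT ℓ ℓ') := by
  have hu : IsUnit ((ℓ' : ℕ) : ZMod ℓ) := (ZMod.isUnit_iff_coprime ℓ' ℓ).mpr hcop.symm
  have hu' : IsUnit ((ℓ : ℕ) : ZMod ℓ') := (ZMod.isUnit_iff_coprime ℓ ℓ').mpr hcop
  rintro ⟨y', y⟩ ⟨z', z⟩ h
  have g1 : (piTT ℓ ℓ' (y', y)).1 = (piTT ℓ ℓ' (z', z)).1 := congrArg Prod.fst h
  have g2 : (piTT ℓ ℓ' (y', y)).2 = (piTT ℓ ℓ' (z', z)).2 := congrArg Prod.snd h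
  rcases y' with _ | j' <;> rcases y with _ | j <;> rcases z' with _ | k' <;> rcases z with _ | k
  all_goals first
    | rfl
    | exact absurd g1 (OnePoint.infty_ne_coe _)
    | exact absurd g1 (OnePoint.coe_ne_infty _)
    | exact absurd g2 (OnePoint.infty_ne_coe _)
    | exact absurd g2 (OnePoint.coe_ne_infty _)
    | skip
  · -- (∞, j), (∞, k)
    have h1 : ((((ℓ' * j.val : ℕ) : ZMod ℓ) : OnePoint (ZMod ℓ)))
        = (((ℓ' * k.val : ℕ) : ZMod ℓ) : OnePoint (ZMod ℓ)) := by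
      have := congrArg Prod.fst h
      exact this
    have h2 := OnePoint.coe_injective h1
    push_cast at h2
    rw [ZMod.natCast_zmod_val, ZMod.natCast_zmod_val, hu.mul_right_inj] at h2
    rw [h2]
  · -- (j', ∞), (k', ∞)
    have h1 : ((((ℓ : ZMod ℓ')⁻¹ * j' : ZMod ℓ')) : OnePoint (ZMod ℓ'))
        = ((((ℓ : ZMod ℓ')⁻¹ * k' : ZMod ℓ')) : OnePoint (ZMod ℓ')) := by
      have := congrArg Prod.snd h
      exact this
    have h2 := OnePoint.coe_injective h1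
    have h3 : IsUnit ((ℓ : ZMod ℓ')⁻¹) := by
      have := ZMod.coe_mul_inv_eq_one ℓ hcop
      exact IsUnit.of_mul_eq_one_right _ this
    rw [h3.mul_right_inj] at h2
    rw [h2]
  · -- (j', j), (k', k)
    have h1 : (((swapFun ℓ ℓ' (j', j)).1 : ZMod ℓ) : OnePoint (ZMod ℓ))
        = (((swapFun ℓ ℓ' (k', k)).1 : ZMod ℓ) : OnePoint (ZMod ℓ)) := by
      have := congrArg Prod.fst h
      exact this
    have h2 : (((swapFun ℓ ℓ' (j', j)).2 : ZMod ℓ') : OnePoint (ZMod ℓ'))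
        = (((swapFun ℓ ℓ' (k', k)).2 : ZMod ℓ') : OnePoint (ZMod ℓ')) := by
      have := congrArg Prod.snd h
      exact this
    have h3 := swapFun_injective
      (Prod.ext (OnePoint.coe_injective h1) (OnePoint.coe_injective h2))
    rw [Prod.mk.injEq] at h3
    rw [h3.1, h3.2]

/-- The bijection of the index sets. -/
noncomputable def piTTEquiv (ℓ ℓ' : ℕ) [NeZero ℓ] [NeZero ℓ'] (hcop : Nat.Coprime ℓ ℓ') :
    OnePoint (ZMod ℓ') × OnePoint (ZMod ℓ) ≃ OnePoint (ZMod ℓ) × OnePoint (ZMod ℓ') :=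
  Equiv.ofBijective (piTT ℓ ℓ')
    ((Fintype.bijective_iff_injective_and_card _).mpr
      ⟨piTT_injective hcop, by rw [Fintype.card_prod, Fintype.card_prod, mul_comm]⟩)

/-- the upper triangular matrix of a product `rep_ℓ y * rep_ℓ' y'` -/
def abd (ℓ ℓ' : ℕ) (a : OnePoint (ZMod ℓ) × OnePoint (ZMod ℓ')) : ℤ × ℤ × ℤ :=
  match a.1, a.2 with
  | none, none => ((ℓ : ℤ) * ℓ', 0, 1)
  | none, some j' => ((ℓ : ℤ), (ℓ : ℤ) * (j'.val : ℤ), (ℓ' : ℤ))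
  | some j, none => ((ℓ' : ℤ), (j.val : ℤ), (ℓ : ℤ))
  | some j, some j' => (1, (j'.val : ℤ) + (j.val : ℤ) * ℓ', (ℓ : ℤ) * ℓ')

theorem isInt_prod {ℓ ℓ' : ℕ} (hℓ : ℓ ≠ 0) (hℓ' : ℓ' ≠ 0)
    (a : OnePoint (ZMod ℓ) × OnePoint (ZMod ℓ')) :
    IsInt (repT ℓ a.1 * repT ℓ' a.2)
      !![(abd ℓ ℓ' a).1, (abd ℓ ℓ' a).2.1; 0, (abd ℓ ℓ' a).2.2] := by
  obtain ⟨y, y'⟩ := a
  rcases y with _ | j <;> rcases y' with _ | j'
  · have := (isInt_repT_infty hℓ).mul (isInt_repT_infty hℓ')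
    rwa [Dq_mul_Dq] at this
  · have := (isInt_repT_infty hℓ).mul (isInt_repT_coe hℓ' j')
    rwa [Dq_mul_Bmat] at this
  · have := (isInt_repT_coe hℓ j).mul (isInt_repT_infty hℓ')
    rwa [Bmat_mul_Dq] at this
  · have := (isInt_repT_coe hℓ j).mul (isInt_repT_coe hℓ' j')
    rwa [Bmat_mul_Bmat] at this

theorem abd_pos {ℓ ℓ' : ℕ} (hℓ : 0 < ℓ) (hℓ' : 0 < ℓ')
    (a : OnePoint (ZMod ℓ) × OnePoint (ZMod ℓ')) : 0 < (abd ℓ ℓ' a).1 := by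
  have h1 : (0 : ℤ) < ℓ := by exact_mod_cast hℓ
  have h2 : (0 : ℤ) < ℓ' := by exact_mod_cast hℓ'
  obtain ⟨y, y'⟩ := a
  rcases y with _ | j <;> rcases y' with _ | j'
  · exact mul_pos h1 h2
  · exact h1
  · exact h2
  · exact one_pos

theorem zmod_eq_of_dvd {n : ℕ} [NeZero n] {i j : ZMod n} (h : (n : ℤ) ∣ (i.val : ℤ) - (j.val : ℤ)) :
    i = j := by
  have h4 := (ZMod.intCast_zmod_eq_zero_iff_dvd _ n).mpr h
  push_cast at h4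
  rw [ZMod.natCast_zmod_val, ZMod.natCast_zmod_val] at h4
  exact sub_eq_zero.mp h4

theorem abd_inj {ℓ ℓ' : ℕ} (hℓ : ℓ.Prime) (hℓ' : ℓ'.Prime) (hne : ℓ ≠ ℓ')
    (a b : OnePoint (ZMod ℓ) × OnePoint (ZMod ℓ'))
    (h1 : (abd ℓ ℓ' a).1 = (abd ℓ ℓ' b).1)
    (h2 : (abd ℓ ℓ' a).2.2 ∣ (abd ℓ ℓ' a).2.1 - (abd ℓ ℓ' b).2.1) : a = b := by
  haveI : NeZero ℓ := ⟨hℓ.ne_zero⟩
  haveI : NeZero ℓ' := ⟨hℓ'.ne_zero⟩
  have t1 := hℓ.two_le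
  have t2 := hℓ'.two_le
  have hcop : IsCoprime (ℓ' : ℤ) (ℓ : ℤ) :=
    Nat.isCoprime_iff_coprime.mpr ((Nat.coprime_primes hℓ' hℓ).mpr hne.symm)
  have P1 : (ℓ : ℤ) * ℓ' ≠ ℓ := by
    intro h
    have h3 : ℓ * ℓ' = ℓ := by exact_mod_cast h
    nlinarith
  have P2 : (ℓ : ℤ) * ℓ' ≠ ℓ' := by
    intro h
    have h3 : ℓ * ℓ' = ℓ' := by exact_mod_cast h
    nlinarith
  have P3 : (ℓ : ℤ) * ℓ' ≠ 1 := by
    intro h
    have h3 : ℓ * ℓ' = 1 := by exact_mod_cast h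
    nlinarith
  have P4 : (ℓ : ℤ) ≠ ℓ' := by
    intro h
    exact hne (by exact_mod_cast h)
  have P5 : (ℓ : ℤ) ≠ 1 := by
    intro h
    have h3 : ℓ = 1 := by exact_mod_cast h
    omega
  have P6 : (ℓ' : ℤ) ≠ 1 := by
    intro h
    have h3 : ℓ' = 1 := by exact_mod_cast h
    omega
  obtain ⟨y, y'⟩ := a
  obtain ⟨z, z'⟩ := b
  rcases y with _ | j <;> rcases y' with _ | j' <;> rcases z with _ | k <;> rcases z' with _ | k'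
  all_goals first
    | rfl
    | exact absurd h1 P1
    | exact absurd h1.symm P1
    | exact absurd h1 P2
    | exact absurd h1.symm P2
    | exact absurd h1 P3
    | exact absurd h1.symm P3
    | exact absurd h1 P4
    | exact absurd h1.symm P4
    | exact absurd h1 P5
    | exact absurd h1.symm P5
    | exact absurd h1 P6
    | exact absurd h1.symm P6
    | skip
  · -- (∞, j'), (∞, k')
    have h3 : (ℓ' : ℤ) ∣ (ℓ : ℤ) * ((j'.val : ℤ) - (k'.val : ℤ)) := by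
      have : (ℓ' : ℤ) ∣ (ℓ : ℤ) * (j'.val : ℤ) - (ℓ : ℤ) * (k'.val : ℤ) := h2
      rwa [← mul_sub] at this
    rw [zmod_eq_of_dvd (hcop.dvd_of_dvd_mul_left h3)]
  · -- (j, ∞), (k, ∞)
    have h3 : (ℓ : ℤ) ∣ (j.val : ℤ) - (k.val : ℤ) := h2
    rw [zmod_eq_of_dvd h3]
  · -- (j, j'), (k, k')
    have h3 : ((ℓ : ℤ) * ℓ') ∣ ((j'.val : ℤ) + (j.val : ℤ) * ℓ') - ((k'.val : ℤ) + (k.val : ℤ) * ℓ') :=
      h2
    have h4 := digits_eq_of_dvd (ZMod.val_lt j) (ZMod.val_lt k) (ZMod.val_lt j')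
      (ZMod.val_lt k') h3
    rw [ZMod.val_injective ℓ h4.1, ZMod.val_injective ℓ' h4.2]

theorem TB_comm_TB_of_ne {ℓ ℓ' : ℕ} (hℓ : ℓ.Prime) (hℓM : ¬ ℓ ∣ M) (hℓ' : ℓ'.Prime)
    (hℓ'M : ¬ ℓ' ∣ M) (hne : ℓ ≠ ℓ') (φ : Additive (Gamma0 M) →+ A) :
    TB M A hℓ hℓM (TB M A hℓ' hℓ'M φ) = TB M A hℓ' hℓ'M (TB M A hℓ hℓM φ) := by
  haveI : Fact ℓ.Prime := ⟨hℓ⟩
  haveI : Fact ℓ'.Prime := ⟨hℓ'⟩
  haveI : NeZero ℓ := ⟨hℓ.ne_zero⟩
  haveI : NeZero ℓ' := ⟨hℓ'.ne_zero⟩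
  have hℓ0 := hℓ.ne_zero
  have hℓ'0 := hℓ'.ne_zero
  have hcop : Nat.Coprime ℓ ℓ' := (Nat.coprime_primes hℓ hℓ').mpr hne
  refine heckeOp_comm (incl_injective M) (isHeckeFamily_T M hℓ'M) (isHeckeFamily_T M hℓM) ?_
    (piTTEquiv ℓ ℓ' hcop) (epsTT M ℓ ℓ') ?_ φ
  · intro a b ε h
    have h1 := (isInt_prod hℓ0 hℓ'0 a).eq_of_eq'
      ((isInt_incl M ε).mul (isInt_prod hℓ0 hℓ'0 b)) h
    have h2 := ut_of_eq (abd_pos hℓ.pos hℓ'.pos a) (abd_pos hℓ.pos hℓ'.pos b) (mat_det ε) h1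
    exact abd_inj hℓ hℓ' hne a b h2.1 h2.2.2
  · rintro ⟨y', y⟩
    rcases y' with _ | j' <;> rcases y with _ | j
    · show repT ℓ' (OnePoint.infty : OnePoint (ZMod ℓ')) * repT ℓ (OnePoint.infty : OnePoint (ZMod ℓ))
        = incl M 1 * (repT ℓ (OnePoint.infty : OnePoint (ZMod ℓ))
          * repT ℓ' (OnePoint.infty : OnePoint (ZMod ℓ')))
      rw [map_one, one_mul]
      apply ((isInt_repT_infty hℓ'0).mul (isInt_repT_infty hℓ0)).eq_of_eq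
        ((isInt_repT_infty hℓ0).mul (isInt_repT_infty hℓ'0))
      rw [Dq_mul_Dq, Dq_mul_Dq, mul_comm]
    · show repT ℓ' (OnePoint.infty : OnePoint (ZMod ℓ')) * repT ℓ ((j : ZMod ℓ) : OnePoint (ZMod ℓ))
        = incl M (tUp M ((ℓ' * j.val / ℓ : ℕ) : ℤ))
          * (repT ℓ ((((ℓ' * j.val : ℕ) : ZMod ℓ)) : OnePoint (ZMod ℓ))
            * repT ℓ' (OnePoint.infty : OnePoint (ZMod ℓ')))
      apply ((isInt_repT_infty hℓ'0).mul (isInt_repT_coe hℓ0 j)).eq_of_eq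
        ((isInt_incl M _).mul ((isInt_repT_coe hℓ0 _).mul (isInt_repT_infty hℓ'0)))
      rw [mat_tUp, ZMod.val_natCast]
      have h := Nat.mod_add_div (ℓ' * j.val) ℓ
      have h' : (((ℓ' * j.val) % ℓ : ℕ) : ℤ) + (ℓ : ℤ) * ((ℓ' * j.val / ℓ : ℕ) : ℤ)
          = (ℓ' : ℤ) * ((j.val : ℕ) : ℤ) := by exact_mod_cast h
      exact Dq_Bmat_swap ℓ ℓ' h'
    · show repT ℓ' ((j' : ZMod ℓ') : OnePoint (ZMod ℓ')) * repT ℓ (OnePoint.infty : OnePoint (ZMod ℓ))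
        = incl M (tUp M (((j'.val : ℤ)
            - (ℓ : ℤ) * ((((ℓ : ZMod ℓ')⁻¹ * j' : ZMod ℓ')).val : ℤ)) / (ℓ' : ℤ)))
          * (repT ℓ (OnePoint.infty : OnePoint (ZMod ℓ))
            * repT ℓ' (((((ℓ : ZMod ℓ')⁻¹ * j' : ZMod ℓ'))) : OnePoint (ZMod ℓ')))
      apply ((isInt_repT_coe hℓ'0 j').mul (isInt_repT_infty hℓ0)).eq_of_eq
        ((isInt_incl M _).mul ((isInt_repT_infty hℓ0).mul (isInt_repT_coe hℓ'0 _)))
      rw [mat_tUp]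
      have hd : (ℓ' : ℤ) ∣ (j'.val : ℤ)
          - (ℓ : ℤ) * ((((ℓ : ZMod ℓ')⁻¹ * j' : ZMod ℓ')).val : ℤ) := by
        rw [← ZMod.intCast_zmod_eq_zero_iff_dvd]
        push_cast
        rw [ZMod.natCast_zmod_val, ZMod.natCast_zmod_val, ← mul_assoc,
          ZMod.coe_mul_inv_eq_one ℓ hcop, one_mul, sub_self]
      have h' : (ℓ : ℤ) * ((((ℓ : ZMod ℓ')⁻¹ * j' : ZMod ℓ')).val : ℤ)
          + (ℓ' : ℤ) * (((j'.val : ℤ)
            - (ℓ : ℤ) * ((((ℓ : ZMod ℓ')⁻¹ * j' : ZMod ℓ')).val : ℤ)) / (ℓ' : ℤ))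
          = (j'.val : ℤ) := by
        rw [Int.mul_ediv_cancel' hd]
        ring
      exact Bmat_Dq_swap ℓ' ℓ h'
    · show repT ℓ' ((j' : ZMod ℓ') : OnePoint (ZMod ℓ')) * repT ℓ ((j : ZMod ℓ) : OnePoint (ZMod ℓ))
        = incl M 1 * (repT ℓ (((swapFun ℓ ℓ' (j', j)).1 : ZMod ℓ) : OnePoint (ZMod ℓ))
          * repT ℓ' (((swapFun ℓ ℓ' (j', j)).2 : ZMod ℓ') : OnePoint (ZMod ℓ')))
      rw [map_one, one_mul]
      apply ((isInt_repT_coe hℓ'0 j').mul (isInt_repT_coe hℓ0 j)).eq_of_eq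
        ((isInt_repT_coe hℓ0 _).mul (isInt_repT_coe hℓ'0 _))
      rw [Bmat_mul_Bmat, Bmat_mul_Bmat]
      have h := swapFun_val (q := ℓ) (r := ℓ') (j', j)
      have h' : (((swapFun ℓ ℓ' (j', j)).2.val : ℕ) : ℤ)
            + ((swapFun ℓ ℓ' (j', j)).1.val : ℕ) * (ℓ' : ℤ)
          = ((j.val : ℕ) : ℤ) + ((j'.val : ℕ) : ℤ) * (ℓ : ℤ) := by exact_mod_cast h
      rw [h', mul_comm (ℓ : ℤ) (ℓ' : ℤ)]

/-- **`T_ℓ T_ℓ' = T_ℓ' T_ℓ`** on `Hom(Γ₀(M), A)`. -/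
theorem TB_comm_TB {ℓ ℓ' : ℕ} (hℓ : ℓ.Prime) (hℓM : ¬ ℓ ∣ M) (hℓ' : ℓ'.Prime)
    (hℓ'M : ¬ ℓ' ∣ M) (φ : Additive (Gamma0 M) →+ A) :
    TB M A hℓ hℓM (TB M A hℓ' hℓ'M φ) = TB M A hℓ' hℓ'M (TB M A hℓ hℓM φ) := by
  by_cases hne : ℓ = ℓ'
  · subst hne
    rfl
  · exact TB_comm_TB_of_ne hℓ hℓM hℓ' hℓ'M hne φ

end TT

end Fermat.Agent.S59.NonMin.Geom.H98
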