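import Fermat.Agent.S59.NonMin.Geom.H98_Rel4

/-!
# S59 / NMGEOM (helper98): `ker U² = ker U` at the level `N q²`

For a prime `q ∤ N` and an abelian group `A` without `q`-torsion:

* `cor1_UB'` : `c₁ U = q c₂` at the level `N q` (any `A`);
* `UB_injective_of_torsionFree` : `U_q` of level `N q` is injective on `Hom(Γ₀(N q), A)`;
* `keru` : **KERU**, `U (U ψ) = 0 → U ψ = 0` for `ψ : Γ₀(N q²) → A`, `U = U_q` of level `N q²`.
-/

set_option autoImplicit false
set_option linter.style.haveILetI false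
set_option linter.unusedSectionVars false

open scoped MatrixGroups
open CongruenceSubgroup Matrix ModularForm

namespace Fermat.Agent.S59.NonMin.Geom.H98

open Fermat.Agent.S41 Fermat.Agent.S41.H19 Fermat.Agent.S41.H77 Fermat.Agent.S41.H39
open Fermat.Agent.S41.H20 Fermat.Agent.Betti Fermat.Agent.S59.NonMin.Geom
open Fermat.Agent.S59.NonMin.Geom.H72R

section KerU

variable {N q : ℕ} {A : Type*} [AddCommGroup A]

theorem corAlong_zero' {H G : Type*} [Group H] [Group G] (ι : H →* G) :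
    corAlong A ι (0 : Additive H →+ A) = 0 := by
  have h := corAlong_sub (A := A) ι 0 0
  rwa [sub_self, sub_self] at h

theorem hom_torsionFree {G : Type*} [AddGroup G] (hA : ∀ a : A, q • a = 0 → a = 0)
    (φ : G →+ A) (h : q • φ = 0) : φ = 0 := by
  refine AddMonoidHom.ext fun x => hA _ ?_
  have := congrArg (fun f : G →+ A => f x) h
  simpa using this

/-- `c₁ U = q c₂` at the level `N q`. -/
theorem cor1_UB' [NeZero (N * q)] (hN : 0 < N) (hq : q.Prime) (hqN : ¬ q ∣ N)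
    (ψ : Additive (Gamma0 (N * q)) →+ A) :
    cor1 N q A (UB (N * q) A (dvd_mul_left q N) ψ) = q • cor2 N q A ψ := by
  obtain ⟨u, v, huv⟩ := exists_bezout hq hqN
  rw [UB_eq_sub huv hN hq hqN ψ]
  have e1 : cor1 N q A (res1 N q A (cor2 N q A ψ) - resAlong A (alG huv hq.ne_zero) ψ)
      = cor1 N q A (res1 N q A (cor2 N q A ψ))
        - cor1 N q A (resAlong A (alG huv hq.ne_zero) ψ) := corAlong_sub _ _ _
  rw [e1, cor1_res1 hN hq hqN, ← cor2_eq_cor1_alG huv hN hq hqN ψ, add_smul, one_smul]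
  abel

/-- `U_q` of level `N q` is injective on `Hom(Γ₀(N q), A)` when `A` has no `q`-torsion. -/
theorem UB_injective_of_torsionFree [NeZero (N * q)] (hN : 0 < N) (hq : q.Prime)
    (hqN : ¬ q ∣ N) (hA : ∀ a : A, q • a = 0 → a = 0) (ψ : Additive (Gamma0 (N * q)) →+ A)
    (h : UB (N * q) A (dvd_mul_left q N) ψ = 0) : ψ = 0 := by
  have h2 : cor2 N q A ψ = 0 := by
    apply hom_torsionFree hA
    rw [← cor1_UB' hN hq hqN ψ, h]
    exact corAlong_zero' _
  have h3 := UB_UB hN hq hqN ψ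
  rw [h, map_zero, h2, map_zero] at h3
  have z1 : res1 N q A (0 : Additive (Gamma0 N) →+ A) = 0 := rfl
  have z2 : res2 N q A (0 : Additive (Gamma0 N) →+ A) = 0 := rfl
  rw [z1, z2, add_zero, sub_zero] at h3
  have h4 : ψ = res1 N q A (cor1 N q A ψ) := (sub_eq_zero.mp h3.symm)
  have h5 : cor1 N q A ψ = (q + 1) • cor1 N q A ψ := by
    conv_lhs => rw [h4]
    exact cor1_res1 hN hq hqN _
  have h6 : q • cor1 N q A ψ = 0 := by
    rw [add_smul, one_smul] at h5
    have := congrArg (fun t => t - cor1 N q A ψ) h5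
    simpa using this.symm
  have h7 : cor1 N q A ψ = 0 := hom_torsionFree hA _ h6
  rw [h4, h7]
  rfl

/-- **KERU**: `ker U² = ker U` at the level `N q²`. -/
theorem keru [NeZero (N * q ^ 2)] (hN : 0 < N) (hq : q.Prime) (hqN : ¬ q ∣ N)
    (hd : q ∣ N * q ^ 2) (hA : ∀ a : A, q • a = 0 → a = 0)
    (ψ : Additive (Gamma0 (N * q ^ 2)) →+ A)
    (h : UB (N * q ^ 2) A hd (UB (N * q ^ 2) A hd ψ) = 0) : UB (N * q ^ 2) A hd ψ = 0 := by
  haveI : NeZero (N * q) := ⟨Nat.mul_ne_zero hN.ne' hq.ne_zero⟩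
  have hd' : q ∣ N * q := dvd_mul_left q N
  set χ := corAlong A (kap2 N q) ψ with hχ
  have e1 : UB (N * q ^ 2) A hd ψ = resAlong A (kap1 N q) χ := UB_eq_res_cor hq hd ψ
  have e2 : UB (N * q ^ 2) A hd (resAlong A (kap1 N q) χ)
      = resAlong A (kap1 N q) (UB (N * q) A hd' χ) := by
    rw [UB_eq_res_cor hq hd, ← UB_eq_cor_res hq hd']
  rw [e1, e2] at h
  have h2 : q • UB (N * q) A hd' χ = 0 := by
    rw [← cor_kap1_res_kap1 hN hq.pos (UB (N * q) A hd' χ), h]
    exact corAlong_zero' _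
  have h3 : UB (N * q) A hd' χ = 0 := hom_torsionFree hA _ h2
  have h4 : χ = 0 := UB_injective_of_torsionFree hN hq hqN hA χ h3
  rw [e1, h4]
  rfl

/-- **KERU** for a module over a ring in which `q` is invertible. -/
theorem keru_of_isUnit {R : Type*} [CommRing R] [Module R A] [NeZero (N * q ^ 2)] (hN : 0 < N)
    (hq : q.Prime) (hqN : ¬ q ∣ N) (hd : q ∣ N * q ^ 2) (hu : IsUnit (q : R))
    (ψ : Additive (Gamma0 (N * q ^ 2)) →+ A)
    (h : UB (N * q ^ 2) A hd (UB (N * q ^ 2) A hd ψ) = 0) : UB (N * q ^ 2) A hd ψ = 0 := by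
  refine keru hN hq hqN hd ?_ ψ h
  intro a ha
  have h1 : (q : R) • a = 0 := by rw [Nat.cast_smul_eq_nsmul]; exact ha
  have h2 := congrArg (fun t => ((hu.unit⁻¹ : Rˣ) : R) • t) h1
  simp only [smul_smul, IsUnit.val_inv_mul, one_smul, smul_zero] at h2
  exact h2

end KerU

end Fermat.Agent.S59.NonMin.Geom.H98
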