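import Fermat.Agent.S41.H77_CorComp
import Fermat.Agent.S41.H39_AL
import Fermat.Agent.S41.H20_Bridge

/-!
# S59 / NMGEOM: base lemmas for the relations REL1..3 (helper72)

Reusable facts about the tower `Γ₀(M q) ⊆ Γ₀(M)` when `q ∣ M` (index `q`) and about the
degeneracy maps through the middle level.

* `tLow M q j = [[1,0],[M j,1]]`, `j < q`: representatives of `Γ₀(M) / Γ₀(M q)` when `q ∣ M`
  (`isReps_tLow`), hence `index_inclG_of_dvd`, `finiteIndex_inclG_of_dvd`,
  `cor1_res1_of_dvd : cor1 ∘ res1 = q`;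
* `tHigh huv` : `none ↦ g0`, `some j ↦ tLow N q j`: representatives of `Γ₀(N) / Γ₀(N q)`, `q ∤ N`
  (`isReps_tHigh`);
* `isReps_of_range_eq`, `index_of_isReps`;
* `Tdag_res2` : `c₁'' r₂'' r₂ = r₂ T - r₁`  (`c₁'' r₂''` is the adjoint `U†` of `U_q` at level `N q`).
-/

set_option autoImplicit false

open scoped MatrixGroups
open CongruenceSubgroup Matrix

namespace Fermat.Agent.S59.NonMin.Geom.H72R

open Fermat.Agent.S41 Fermat.Agent.S41.H19 Fermat.Agent.S41.H77 Fermat.Agent.S41.H39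

/-! ### Generalities on representatives -/

section Gen

variable {H H' G : Type*} [Group H] [Group H'] [Group G]

theorem isReps_of_range_eq {ι : H →* G} {ι' : H' →* G} (h : ι.range = ι'.range) {I : Type*}
    {t : I → G} (ht : IsReps ι t) : IsReps ι' t :=
  ⟨fun i j hij => ht.inj i j (h ▸ hij), fun g => by
    obtain ⟨i, hi⟩ := ht.surj g
    exact ⟨i, h ▸ hi⟩⟩

theorem index_of_isReps {ι : H →* G} {I : Type*} [Fintype I] {t : I → G} (ht : IsReps ι t) :
    ι.range.index = Fintype.card I := by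
  rw [Subgroup.index_eq_card, ← Nat.card_eq_fintype_card]
  exact (Nat.card_eq_of_bijective _ ht.bijective).symm

end Gen

/-! ### The representatives `[[1,0],[M j,1]]` -/

section Low

variable {M q : ℕ}

/-- `[[1,0],[M j,1]] ∈ Γ₀(M)`. -/
def tLow (M q : ℕ) (j : Fin q) : Gamma0 M :=
  mkG0 M 1 0 ((M : ℤ) * ((j : ℕ) : ℤ)) 1 (by ring) (dvd_mul_right _ _)

lemma mat_tLow (j : Fin q) : mat (tLow M q j) = !![1, 0; (M : ℤ) * ((j : ℕ) : ℤ), 1] := rfl

lemma fin_eq_of_dvd_sub {i j : Fin q} (h : (q : ℤ) ∣ ((j : ℕ) : ℤ) - ((i : ℕ) : ℤ)) : i = j := by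
  have hi := i.2
  have hj := j.2
  apply Fin.ext
  have h1 : ((j : ℕ) : ℤ) % (q : ℤ) = ((i : ℕ) : ℤ) % (q : ℤ) :=
    Int.emod_eq_emod_iff_emod_sub_eq_zero.mpr (Int.emod_eq_zero_of_dvd h)
  rw [Int.emod_eq_of_lt (by positivity) (by exact_mod_cast hj),
    Int.emod_eq_of_lt (by positivity) (by exact_mod_cast hi)] at h1
  exact_mod_cast h1.symm

lemma dvd_of_mul_dvd_mul (hM : 0 < M) {x : ℤ} (h : ((M * q : ℕ) : ℤ) ∣ (M : ℤ) * x) :
    (q : ℤ) ∣ x := by
  have hM' : (M : ℤ) ≠ 0 := by exact_mod_cast hM.ne'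
  obtain ⟨c, hc⟩ := h
  refine ⟨c, ?_⟩
  have : (M : ℤ) * x = (M : ℤ) * ((q : ℤ) * c) := by push_cast at hc; linear_combination hc
  exact mul_left_cancel₀ hM' this

lemma mat10_tLow_inv_mul (i : Fin q) (g : Gamma0 M) :
    mat ((tLow M q i)⁻¹ * g) 1 0 = mat g 1 0 - (M : ℤ) * ((i : ℕ) : ℤ) * mat g 0 0 := by
  rw [mat_mul, H39.mat_inv, mat_tLow]
  simp only [Matrix.mul_apply, Fin.sum_univ_two, Matrix.of_apply, Matrix.cons_val',
    Matrix.cons_val_zero, Matrix.cons_val_one, Matrix.empty_val', Matrix.cons_val_fin_one]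
  ring

lemma tLow_inj (hM : 0 < M) (i j : Fin q)
    (h : (tLow M q i)⁻¹ * tLow M q j ∈ (inclG M q).range) : i = j := by
  rw [mem_range_inclG_iff, mat10_tLow_inv_mul, mat_tLow] at h
  simp only [Matrix.of_apply, Matrix.cons_val', Matrix.cons_val_zero, Matrix.cons_val_one,
    Matrix.empty_val', Matrix.cons_val_fin_one] at h
  apply fin_eq_of_dvd_sub
  apply dvd_of_mul_dvd_mul hM
  convert h using 1
  ring

lemma tLow_surj (hq : 0 < q) (hqM : q ∣ M) (g : Gamma0 M) :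
    ∃ i : Fin q, (tLow M q i)⁻¹ * g ∈ (inclG M q).range := by
  have hq' : (0 : ℤ) < (q : ℤ) := by exact_mod_cast hq
  obtain ⟨c', hc'⟩ := mat_dvd g
  have hdet := mat_det' g
  set j0 : ℤ := (c' * mat g 1 1) % (q : ℤ) with hj0
  have h0 : 0 ≤ j0 := Int.emod_nonneg _ hq'.ne'
  have h1 : j0 < (q : ℤ) := Int.emod_lt_of_pos _ hq'
  have hlt : j0.toNat < q := by
    have : (j0.toNat : ℤ) < (q : ℤ) := by rw [Int.toNat_of_nonneg h0]; exact h1
    exact_mod_cast this
  refine ⟨⟨j0.toNat, hlt⟩, ?_⟩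
  rw [mem_range_inclG_iff, mat10_tLow_inv_mul]
  simp only [Int.toNat_of_nonneg h0]
  obtain ⟨m, hm⟩ := hqM
  have hj : j0 = c' * mat g 1 1 - (q : ℤ) * ((c' * mat g 1 1) / (q : ℤ)) := by
    rw [hj0, Int.emod_def]
  refine ⟨(c' * mat g 1 1) / (q : ℤ) * mat g 0 0 - c' * c' * (m : ℤ) * mat g 0 1, ?_⟩
  have hMq : (M : ℤ) = (q : ℤ) * (m : ℤ) := by exact_mod_cast hm
  rw [hj]
  push_cast
  have e : mat g 1 0 = (M : ℤ) * c' := hc'
  rw [e] at hdet ⊢
  linear_combination (-(M : ℤ) * c') * hdet - ((M : ℤ) * c' * c' * mat g 0 1) * hMq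

theorem isReps_tLow (hM : 0 < M) (hq : 0 < q) (hqM : q ∣ M) : IsReps (inclG M q) (tLow M q) :=
  ⟨tLow_inj hM, tLow_surj hq hqM⟩

/-- `[Γ₀(M) : Γ₀(M q)] = q` when `q ∣ M`. -/
theorem index_inclG_of_dvd (hM : 0 < M) (hq : 0 < q) (hqM : q ∣ M) :
    (inclG M q).range.index = q := by
  rw [index_of_isReps (isReps_tLow hM hq hqM), Fintype.card_fin]

theorem finiteIndex_inclG_of_dvd (hM : 0 < M) (hq : 0 < q) (hqM : q ∣ M) :
    (inclG M q).range.FiniteIndex :=
  ⟨by rw [index_inclG_of_dvd hM hq hqM]; exact hq.ne'⟩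

/-- `c₁ r₁ = q` at a level `M` divisible by `q`. -/
theorem cor1_res1_of_dvd (hM : 0 < M) (hq : 0 < q) (hqM : q ∣ M) {A : Type*} [AddCommGroup A]
    (φ : Additive (Gamma0 M) →+ A) : cor1 M q A (res1 M q A φ) = q • φ := by
  have := finiteIndex_inclG_of_dvd hM hq hqM
  unfold cor1 res1
  rw [corAlong_resAlong _ (inclG_injective M q), index_inclG_of_dvd hM hq hqM]

end Low

/-! ### Representatives of `Γ₀(N) / Γ₀(N q)`, `q ∤ N`, adapted to `conjG` -/

section High

variable {N q : ℕ} {u v : ℤ} (huv : (q : ℤ) * u + (N : ℤ) * v = 1)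

/-- `none ↦ g0 = [[q,v],[-N,u]]`, `some j ↦ [[1,0],[N j,1]]`. -/
def tHigh : Option (Fin q) → Gamma0 N
  | none => g0 huv
  | some j => tLow N q j

lemma tHigh_inj (hN : 0 < N) (hq : q.Prime) (i j : Option (Fin q))
    (h : (tHigh huv i)⁻¹ * tHigh huv j ∈ (inclG N q).range) : i = j := by
  have hq1 : ¬ (q : ℤ) ∣ 1 := by
    intro hd
    have := Int.natAbs_dvd_natAbs.mpr hd
    simp at this
    exact hq.one_lt.ne' this
  rcases i with _ | i <;> rcases j with _ | j
  · rfl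
  · exfalso
    rw [mem_range_inclG_iff] at h
    simp only [tHigh] at h
    rw [mat_mul, H39.mat_inv, mat_g0, mat_tLow] at h
    simp only [Matrix.mul_apply, Fin.sum_univ_two, Matrix.of_apply, Matrix.cons_val',
      Matrix.cons_val_zero, Matrix.cons_val_one, Matrix.empty_val', Matrix.cons_val_fin_one] at h
    have h2 : (q : ℤ) ∣ 1 + (q : ℤ) * ((j : ℕ) : ℤ) :=
      dvd_of_mul_dvd_mul hN (by convert h using 1; ring)
    exact hq1 ((dvd_add_left (dvd_mul_right _ _)).mp h2)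
  · exfalso
    rw [mem_range_inclG_iff] at h
    simp only [tHigh] at h
    rw [mat10_tLow_inv_mul, mat_g0] at h
    simp only [Matrix.of_apply, Matrix.cons_val', Matrix.cons_val_zero, Matrix.cons_val_one,
      Matrix.empty_val', Matrix.cons_val_fin_one] at h
    have h2 : (q : ℤ) ∣ -(1 + (q : ℤ) * ((i : ℕ) : ℤ)) :=
      dvd_of_mul_dvd_mul hN (by convert h using 1; ring)
    exact hq1 ((dvd_add_left (dvd_mul_right _ _)).mp (dvd_neg.mp h2))
  · congr 1
    exact tLow_inj hN i j h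

theorem isReps_tHigh (hN : 0 < N) (hq : q.Prime) (hqN : ¬ q ∣ N) :
    IsReps (inclG N q) (tHigh huv) := by
  have := finiteIndex_inclG hN hq hqN
  have hinj : Function.Injective
      (fun i : Option (Fin q) => (tHigh huv i : Gamma0 N ⧸ (inclG N q).range)) := by
    intro i j hij
    exact tHigh_inj huv hN hq i j (QuotientGroup.eq.mp hij)
  have hcard : Nat.card (Gamma0 N ⧸ (inclG N q).range) ≤ Nat.card (Option (Fin q)) := by
    rw [← Subgroup.index_eq_card, index_inclG hN hq hqN, Nat.card_eq_fintype_card,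
      Fintype.card_option, Fintype.card_fin]
  have hbij := hinj.bijective_of_nat_card_le hcard
  refine ⟨tHigh_inj huv hN hq, fun g => ?_⟩
  obtain ⟨i, hi⟩ := hbij.2 (g : Gamma0 N ⧸ (inclG N q).range)
  exact ⟨i, QuotientGroup.eq.mp hi⟩

end High

/-! ### The relation `U† r₂ = r₂ T - r₁` -/

section Dag

variable {N q : ℕ}

theorem conjG_tLow (hq : q ≠ 0) (j : Fin q) : conjG N q (tLow (N * q) q j) = tLow N q j := by
  have hq' : (q : ℤ) ≠ 0 := by exact_mod_cast hq
  apply mat_injective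
  rw [mat_conjG, mat_tLow, mat_tLow]
  have e : (N : ℤ) * (q : ℤ) * ((j : ℕ) : ℤ) / (q : ℤ) = (N : ℤ) * ((j : ℕ) : ℤ) := by
    rw [show (N : ℤ) * (q : ℤ) * ((j : ℕ) : ℤ) = (q : ℤ) * ((N : ℤ) * ((j : ℕ) : ℤ)) by
      ring, Int.mul_ediv_cancel_left _ hq']
  ext a b
  fin_cases a <;> fin_cases b <;> simp [conjMat, e]

theorem conjG_inclG_comm (x : Gamma0 (N * q * q)) :
    conjG N q (inclG (N * q) q x) = inclG N q (conjG (N * q) q x) := rfl

/-- **`U† r₂ = r₂ T - r₁`** (`U† = c₁'' r₂''` at level `N q`): the non-transitive Mackey formula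
for `r₂ c₁` (two double cosets), applied to `r₂ φ`. -/
theorem Tdag_res2 (hN : 0 < N) (hq : q.Prime) (hqN : ¬ q ∣ N) {A : Type*} [AddCommGroup A]
    (φ : Additive (Gamma0 N) →+ A) :
    cor1 (N * q) q A (res2 (N * q) q A (res2 N q A φ))
      = res2 N q A (Tcoh N A q φ) - res1 N q A φ := by
  obtain ⟨u, v, huv⟩ := exists_bezout hq hqN
  have hNq : 0 < N * q := Nat.mul_pos hN hq.pos
  have htL := isReps_tLow hNq hq.pos (dvd_mul_left q N)
  have htH := isReps_tHigh huv hN hq hqN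
  refine AddMonoidHom.ext fun x => ?_
  obtain ⟨k, rfl⟩ : ∃ k : Gamma0 (N * q), Additive.ofMul k = x := ⟨Additive.toMul x, rfl⟩
  obtain ⟨σ', h', hh'⟩ := htL.exists_sol k
  obtain ⟨h₀, hh₀⟩ := AL_sub huv k
  have hsw := AL_swap huv hq.ne_zero h₀ k hh₀
  have e1 : cor1 (N * q) q A (res2 (N * q) q A (res2 N q A φ)) (Additive.ofMul k)
      = ∑ j, φ (Additive.ofMul (conjG N q (conjG (N * q) q (h' j)))) := by
    unfold cor1
    rw [corAlong_eq_sum (inclG (N * q) q) (inclG_injective _ _) _ htL _ k σ' h' hh']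
    rfl
  have e2 : Tcoh N A q φ (Additive.ofMul (conjG N q k))
      = φ (Additive.ofMul (conjG N q h₀))
        + ∑ j, φ (Additive.ofMul (conjG N q (conjG (N * q) q (h' j)))) := by
    unfold Tcoh cor1
    rw [corAlong_eq_sum (inclG N q) (inclG_injective _ _) (tHigh huv) htH _ (conjG N q k)
      (fun o => o.map σ')
      (fun o => match o with
        | none => h₀
        | some j => conjG (N * q) q (h' j)) ?_,
      Fintype.sum_option]
    · rfl
    · intro o
      rcases o with _ | j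
      · show conjG N q k * g0 huv = g0 huv * inclG N q h₀
        rw [hh₀]; group
      · show conjG N q k * tLow N q j = tLow N q (σ' j) * inclG N q (conjG (N * q) q (h' j))
        rw [← conjG_tLow (N := N) hq.ne_zero j, ← conjG_tLow (N := N) hq.ne_zero (σ' j), ← map_mul,
          hh' j, map_mul]
        rfl
  show _ = (Tcoh N A q φ) (Additive.ofMul (conjG N q k)) - φ (Additive.ofMul (inclG N q k))
  rw [e1, e2, hsw, hom_conj]
  abel

end Dag

end Fermat.Agent.S59.NonMin.Geom.H72R
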