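/-
S59, package RT-NONMIN, sub-package NMGEOM (helper92): base lemmas for the relations
between `U_q` and the trace maps.

* `isReps_tInv` : for `q ∣ M` the unipotent elements `[[1, j], [0, 1]]⁻¹`, `j ∈ ZMod q`, represent
  `Γ₀(M) / conjG(Γ₀(M q))`;
* `UB_eq_res_cor` : `U_q` of level `M q` (`q ∣ M`) is `res ∘ cor` through the level `M`
  (`cor` along the conjugation, `res` along the inclusion);
* `cor_res_eq_UB` : `U_q` of level `M` (`q ∣ M`) is `cor ∘ res` through the level `M q`;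
* `cor2_UB` : `c₂ U_q = T_q c₂ - c₁` (levels `N`, `N q`, `q ∤ N`);
* `cor1_UB` : `c₁ U_q = q c₂`.
-/
import Fermat.Agent.S59.NonMin.Geom.H72_RelBase

set_option autoImplicit false
set_option linter.style.haveILetI false
set_option linter.unusedSectionVars false

open scoped MatrixGroups
open CongruenceSubgroup Matrix ModularForm

namespace Fermat.Agent.S59.NonMin.Geom.H92

open Fermat.Agent.S41 Fermat.Agent.S41.H19 Fermat.Agent.S41.H77 Fermat.Agent.S41.H39
open Fermat.Agent.S41.H20 Fermat.Agent.Betti Fermat.Agent.S59.NonMin.Geom.H72R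

/-! ### Matrices -/

section Mat

/-- The unipotent matrix `[[1, j], [0, 1]]`. -/
def Um (j : ℤ) : Matrix (Fin 2) (Fin 2) ℤ := !![1, j; 0, 1]

/-- The unipotent element `[[1, j], [0, 1]]` of `Γ₀(M)`. -/
def uG (M : ℕ) (j : ℤ) : Gamma0 M := mkG0 M 1 j 0 1 (by ring) (dvd_zero _)

theorem mat_uG (M : ℕ) (j : ℤ) : mat (uG M j) = Um j := rfl

theorem Dq_Bmat_eq (q : ℕ) (j : ℤ) : Dq q * Bmat q j = (q : ℤ) • Um j := by
  ext i k
  fin_cases i <;> fin_cases k <;>
    simp [Dq, Bmat, Um, Matrix.mul_apply, Fin.sum_univ_two]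

/-- The lower left entry of `K` when `B_x G = K B_x'`. -/
theorem entry_of_rel {q : ℕ} {G K : Matrix (Fin 2) (Fin 2) ℤ} {x x' : ℤ}
    (h : Bmat q x * G = K * Bmat q x') : K 1 0 = (q : ℤ) * G 1 0 := by
  have h10 := congrFun (congrFun h 1) 0
  simp only [Bmat, Matrix.mul_apply, Fin.sum_univ_two, Matrix.of_apply, Matrix.cons_val',
    Matrix.cons_val_zero, Matrix.cons_val_one, Matrix.empty_val', Matrix.cons_val_fin_one,
    zero_mul, zero_add, mul_one, mul_zero, add_zero] at h10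
  exact h10.symm

/-- `conj(K) t_x' = t_x G` when `B_x G = K B_x'`. -/
theorem conj_rel_mat {q : ℕ} (hq : q ≠ 0) {G K : Matrix (Fin 2) (Fin 2) ℤ} {x x' : ℤ}
    (h : Bmat q x * G = K * Bmat q x') :
    conjMat q K * Um x' = Um x * G := by
  have hK : (q : ℤ) ∣ K 1 0 := ⟨G 1 0, entry_of_rel h⟩
  apply smul_mat_cancel hq
  calc (q : ℤ) • (conjMat q K * Um x')
      = conjMat q K * (Dq q * Bmat q x') := by rw [Dq_Bmat_eq, Matrix.mul_smul]
    _ = (conjMat q K * Dq q) * Bmat q x' := by rw [Matrix.mul_assoc]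
    _ = Dq q * (K * Bmat q x') := by rw [conjMat_Dq hK, Matrix.mul_assoc]
    _ = Dq q * (Bmat q x * G) := by rw [h]
    _ = (Dq q * Bmat q x) * G := by rw [Matrix.mul_assoc]
    _ = (q : ℤ) • (Um x * G) := by rw [Dq_Bmat_eq, Matrix.smul_mul]

end Mat

/-! ### Representatives of `Γ₀(M) / conjG(Γ₀(M q))`, `q ∣ M` -/

section Reps

variable {M q : ℕ}

/-- The representatives `[[1, j], [0, 1]]⁻¹`. -/
def tInv (M q : ℕ) (j : ZMod q) : Gamma0 M := (uG M (j.val : ℤ))⁻¹

theorem mem_range_conjG_iff (hq : q ≠ 0) (g : Gamma0 M) :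
    g ∈ (conjG M q).range ↔ (q : ℤ) ∣ mat g 0 1 := by
  constructor
  · rintro ⟨h, rfl⟩
    rw [mat_conjG]
    simp only [conjMat, Matrix.of_apply, Matrix.cons_val', Matrix.cons_val_zero,
      Matrix.cons_val_one, Matrix.empty_val', Matrix.cons_val_fin_one]
    exact dvd_mul_right _ _
  · intro hd
    exact exists_conjG_eq hq g hd

theorem mat_uG_mul (j : ℤ) (g : Gamma0 M) :
    mat (uG M j * g) 0 1 = mat g 0 1 + j * mat g 1 1 := by
  rw [mat_mul, mat_uG]
  simp [Um, Matrix.mul_apply, Fin.sum_univ_two]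

theorem isReps_tInv [NeZero q] (hqM : q ∣ M) : IsReps (conjG M q) (tInv M q) := by
  have hq : q ≠ 0 := NeZero.ne q
  constructor
  · intro i j h
    rw [mem_range_conjG_iff hq] at h
    have e : mat ((tInv M q i)⁻¹ * tInv M q j) 0 1 = (i.val : ℤ) - (j.val : ℤ) := by
      simp only [tInv, inv_inv]
      rw [mat_uG_mul, H39.mat_inv, mat_uG]
      simp [Um]
      ring
    rw [e] at h
    exact zmod_eq_of_dvd_val_sub h
  · intro g
    refine ⟨((-(mat g 0 1 * mat g 0 0) : ℤ) : ZMod q), ?_⟩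
    rw [mem_range_conjG_iff hq]
    simp only [tInv, inv_inv]
    rw [mat_uG_mul, ← ZMod.intCast_zmod_eq_zero_iff_dvd]
    have hdet := mat_det' g
    have h10 : ((mat g 1 0 : ℤ) : ZMod q) = 0 :=
      (ZMod.intCast_zmod_eq_zero_iff_dvd _ _).mpr
        ((Int.natCast_dvd_natCast.mpr hqM).trans (mat_dvd g))
    have hdet' : ((mat g 0 0 : ℤ) : ZMod q) * ((mat g 1 1 : ℤ) : ZMod q) = 1 := by
      have := congrArg (Int.cast : ℤ → ZMod q) hdet
      push_cast at this
      rw [h10, mul_zero, sub_zero] at this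
      exact this
    push_cast
    rw [ZMod.natCast_zmod_val]
    linear_combination (-((mat g 0 1 : ℤ) : ZMod q)) * hdet'

end Reps

/-! ### `U_q` as `res ∘ cor` and as `cor ∘ res` -/

section UB

variable {M q M' : ℕ} {A : Type*} [AddCommGroup A]

/-- **`U_q = res ∘ cor`** through the lower level: `a` is "the inclusion" and `b` is "the
conjugation by `diag(q, 1)`" from `Γ₀(M')` to `Γ₀(M)`, `q ∣ M`. -/
theorem UB_eq_res_cor [NeZero M'] [NeZero q] (hqM : q ∣ M) (hd : q ∣ M')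
    (a b : Gamma0 M' →* Gamma0 M) (ha : ∀ γ, mat (a γ) = mat γ)
    (hb : ∀ γ, mat (b γ) = conjMat q (mat γ)) (hbinj : Function.Injective b)
    (hrange : b.range = (conjG M q).range) (ψ : Additive (Gamma0 M') →+ A) :
    UB M' A hd ψ = resAlong A a (corAlong A b ψ) := by
  have hq : q ≠ 0 := NeZero.ne q
  have ht : IsReps b (tInv M q) := isReps_of_range_eq hrange.symm (isReps_tInv hqM)
  refine AddMonoidHom.ext fun γ' => ?_
  obtain ⟨γ, rfl⟩ : ∃ g : Gamma0 M', Additive.ofMul g = γ' := ⟨Additive.toMul γ', rfl⟩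
  set H := isHeckeFamily_U M' hd with hH
  have hrel : ∀ x : ZMod q,
      b (H.kap γ x) * uG M ((H.perm γ x).val : ℤ) = uG M (x.val : ℤ) * a γ := by
    intro x
    apply mat_injective
    rw [mat_mul, mat_mul, hb, ha, mat_uG, mat_uG]
    exact conj_rel_mat hq (Bmat_rel hq (H.rep_mul γ x))
  have key := corAlong_eq_sum (A := A) b hbinj (tInv M q) ht ψ ((a γ)⁻¹) (H.perm γ)
    (fun x => (H.kap γ x)⁻¹) (by
      intro x
      have h2 := congrArg (fun z => z⁻¹) (hrel x)
      simp only [_root_.mul_inv_rev] at h2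
      rw [map_inv]
      exact h2.symm)
  show _ = corAlong A b ψ (Additive.ofMul (a γ))
  have e1 : corAlong A b ψ (Additive.ofMul (a γ))
      = - corAlong A b ψ (Additive.ofMul (a γ)⁻¹) := by
    rw [ofMul_inv, map_neg, neg_neg]
  rw [e1, key, UB_apply_apply]
  simp only [ofMul_inv, map_neg, Finset.sum_neg_distrib, neg_neg]

/-- **`U_q = cor ∘ res`** through the higher level `M' = M q`, `q ∣ M`. -/
theorem cor_res_eq_UB [NeZero M] [NeZero q] (hqM : q ∣ M) (hM' : M' = M * q)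
    (a b : Gamma0 M' →* Gamma0 M) (ha : ∀ γ, mat (a γ) = mat γ)
    (hb : ∀ γ, mat (b γ) = conjMat q (mat γ)) (hbinj : Function.Injective b)
    (hrange : b.range = (conjG M q).range)
    (hasurj : ∀ κ : Gamma0 M, ((M' : ℕ) : ℤ) ∣ mat κ 1 0 → ∃ κ' : Gamma0 M', a κ' = κ)
    (χ : Additive (Gamma0 M) →+ A) :
    corAlong A b (resAlong A a χ) = UB M A hqM χ := by
  have hq : q ≠ 0 := NeZero.ne q
  have ht : IsReps b (tInv M q) := isReps_of_range_eq hrange.symm (isReps_tInv hqM)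
  refine AddMonoidHom.ext fun g' => ?_
  obtain ⟨g, rfl⟩ : ∃ g : Gamma0 M, Additive.ofMul g = g' := ⟨Additive.toMul g', rfl⟩
  set H := isHeckeFamily_U M hqM with hH
  have hex : ∀ x : ZMod q, ∃ κ' : Gamma0 M', a κ' = H.kap g x := by
    intro x
    apply hasurj
    rw [entry_of_rel (Bmat_rel hq (H.rep_mul g x)), hM']
    obtain ⟨c, hc⟩ := mat_dvd g
    exact ⟨c, by rw [hc]; push_cast; ring⟩
  choose κ' hκ' using hex
  have hrel : ∀ x : ZMod q,
      b (κ' x) * uG M ((H.perm g x).val : ℤ) = uG M (x.val : ℤ) * g := by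
    intro x
    apply mat_injective
    have hmat : mat (κ' x) = mat (H.kap g x) := by rw [← ha, hκ']
    rw [mat_mul, mat_mul, hb, hmat, mat_uG, mat_uG]
    exact conj_rel_mat hq (Bmat_rel hq (H.rep_mul g x))
  have key := corAlong_eq_sum (A := A) b hbinj (tInv M q) ht (resAlong A a χ) (g⁻¹) (H.perm g)
    (fun x => (κ' x)⁻¹) (by
      intro x
      have h2 := congrArg (fun z => z⁻¹) (hrel x)
      simp only [_root_.mul_inv_rev] at h2
      rw [map_inv]
      exact h2.symm)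
  have e1 : corAlong A b (resAlong A a χ) (Additive.ofMul g)
      = - corAlong A b (resAlong A a χ) (Additive.ofMul g⁻¹) := by
    rw [ofMul_inv, map_neg, neg_neg]
  rw [e1, key, UB_apply_apply]
  simp only [ofMul_inv, map_neg, Finset.sum_neg_distrib, neg_neg, resAlong_apply]
  exact Finset.sum_congr rfl fun x _ => by rw [hκ']

end UB

/-! ### The levels `N`, `N q` with `q ∤ N` -/

section Level

variable {N q : ℕ} {A : Type*} [AddCommGroup A]

theorem finiteIndex_conjG (hN : 0 < N) (hq : q.Prime) (hqN : ¬ q ∣ N) :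
    (conjG N q).range.FiniteIndex := by
  obtain ⟨u, v, huv⟩ := exists_bezout hq hqN
  have hfin := finiteIndex_inclG hN hq hqN
  have h : (conjG N q).range
      = (inclG N q).range.map ((MulAut.conj (g0 huv) : Gamma0 N ≃* Gamma0 N) :
          Gamma0 N →* Gamma0 N) := by
    ext x
    constructor
    · rintro ⟨h', rfl⟩
      obtain ⟨h, hh⟩ := AL_sub huv h'
      exact ⟨inclG N q h, ⟨h, rfl⟩, by rw [hh]; rfl⟩
    · rintro ⟨y, ⟨h, rfl⟩, rfl⟩
      obtain ⟨h', hh'⟩ := AL_surj huv hq.ne_zero h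
      exact ⟨h', by rw [hh']; rfl⟩
  rw [h]
  exact ⟨by rw [Subgroup.index_map_equiv]; exact hfin.index_ne_zero⟩

/-- `c₂ U_q = T_q c₂ - c₁` (levels `N`, `N q`). -/
theorem cor2_UB [NeZero (N * q)] (hN : 0 < N) (hq : q.Prime) (hqN : ¬ q ∣ N) (hd : q ∣ N * q)
    (χ : Additive (Gamma0 (N * q)) →+ A) :
    cor2 N q A (UB (N * q) A hd χ) = TB N A hq hqN (cor2 N q A χ) - cor1 N q A χ := by
  obtain ⟨u, v, huv⟩ := exists_bezout hq hqN
  have hw2 : ∀ φ : Additive (Gamma0 (N * q)) →+ A,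
      resAlong A (alG huv hq.ne_zero) (resAlong A (alG huv hq.ne_zero) φ) = φ :=
    res_alG_alG huv hq.ne_zero
  have hc2 : ∀ φ : Additive (Gamma0 (N * q)) →+ A,
      cor2 N q A φ = cor1 N q A (resAlong A (alG huv hq.ne_zero) φ) :=
    cor2_eq_cor1_alG huv hN hq hqN
  have hr1c1 : ∀ ψ : Additive (Gamma0 (N * q)) →+ A,
      res1 N q A (cor1 N q A ψ)
        = ψ + UB (N * q) A hd (resAlong A (alG huv hq.ne_zero) ψ) := by
    intro ψ
    refine AddMonoidHom.ext fun x => ?_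
    exact cor1_incl huv hN hq hqN ψ (Additive.toMul x)
  have hwr2 : ∀ Φ : Additive (Gamma0 N) →+ A,
      resAlong A (alG huv hq.ne_zero) (res2 N q A Φ) = res1 N q A Φ := by
    intro Φ
    refine AddMonoidHom.ext fun x => ?_
    show Φ (Additive.ofMul (conjG N q (alG huv hq.ne_zero (Additive.toMul x))))
      = Φ (Additive.ofMul (inclG N q (Additive.toMul x)))
    rw [conjG_alG, hom_conj]
  have hr2 : ∀ Φ : Additive (Gamma0 N) →+ A,
      res2 N q A Φ = resAlong A (alG huv hq.ne_zero) (res1 N q A Φ) := by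
    intro Φ
    rw [← hwr2, hw2]
  have hwadd : ∀ φ ψ : Additive (Gamma0 (N * q)) →+ A,
      resAlong A (alG huv hq.ne_zero) (φ + ψ)
        = resAlong A (alG huv hq.ne_zero) φ + resAlong A (alG huv hq.ne_zero) ψ :=
    fun φ ψ => rfl
  have hT : TB N A hq hqN (cor2 N q A χ) = cor1 N q A χ + cor2 N q A (UB (N * q) A hd χ) := by
    rw [← Tcoh_eq_TB hN hq hqN]
    show cor1 N q A (res2 N q A (cor2 N q A χ)) = _
    rw [hr2, hc2 χ, hr1c1, hw2, hwadd, hw2, hc2 (UB (N * q) A hd χ)]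
    unfold cor1
    rw [corAlong_add]
  rw [hT]
  abel

/-- `c₁ U_q = q c₂` (levels `N`, `N q`). -/
theorem cor1_UB [NeZero (N * q)] (hN : 0 < N) (hq : q.Prime) (hqN : ¬ q ∣ N) (hd : q ∣ N * q)
    (χ : Additive (Gamma0 (N * q)) →+ A) :
    cor1 N q A (UB (N * q) A hd χ) = q • cor2 N q A χ := by
  haveI : NeZero q := ⟨hq.ne_zero⟩
  have hNq : 0 < N * q := Nat.mul_pos hN hq.pos
  have hqNq : q ∣ N * q := dvd_mul_left q N
  have hreps : IsReps (conjG (N * q) q) (tInv (N * q) q) := isReps_tInv hqNq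
  haveI hf1 : (conjG (N * q) q).range.FiniteIndex := hreps.finiteIndex
  haveI hf2 : (inclG N q).range.FiniteIndex := finiteIndex_inclG hN hq hqN
  haveI hf3 : (inclG (N * q) q).range.FiniteIndex := finiteIndex_inclG_of_dvd hNq hq.pos hqNq
  haveI hf4 : (conjG N q).range.FiniteIndex := finiteIndex_conjG hN hq hqN
  have hU : UB (N * q) A hd χ = cor2 (N * q) q A (res1 (N * q) q A χ) := by
    refine (cor_res_eq_UB hqNq rfl (inclG (N * q) q) (conjG (N * q) q) (fun _ => rfl)
      (fun _ => rfl) (conjG_injective _ _ hq.ne_zero) rfl ?_ χ).symm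
    intro κ hκ
    exact (mem_range_inclG_iff κ).mpr hκ
  have hcomm : (inclG N q).comp (conjG (N * q) q) = (conjG N q).comp (inclG (N * q) q) :=
    MonoidHom.ext fun x => (conjG_inclG_comm x).symm
  rw [hU]
  unfold cor1 cor2
  rw [← corAlong_comp (conjG (N * q) q) (inclG N q) (conjG_injective _ _ hq.ne_zero)
    (inclG_injective N q), hcomm,
    corAlong_comp (inclG (N * q) q) (conjG N q) (inclG_injective _ _)
      (conjG_injective _ _ hq.ne_zero)]
  have h1 : corAlong A (inclG (N * q) q) (res1 (N * q) q A χ) = q • χ :=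
    cor1_res1_of_dvd hNq hq.pos hqNq χ
  rw [h1, corAlong_smul]

end Level

end Fermat.Agent.S59.NonMin.Geom.H92
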