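/-
S59, package RT-NONMIN, sub-package NMGEOM, leaf B0, slice (2) (helper12):
`stmt_B0COORD : H92B.Stmt_B0COORD`.

`J₀(N)[p^∞]` has a compatible coordinate system `e k i ∈ J₀(N)[p^k]` in which the operators
`T_ℓ` have the matrices of the Betti operators `TB` in a given parabolic basis `b`:
`e k i := (θ k)⁻¹ (δ_i)` for the coordinates `θ k` of G-TOR (`GTor.H81.theta`);
compatibility in `k` is `theta_mulTor`, the matrices are `theta_heckeTor`.
-/
import Fermat.Agent.S59.NonMin.Geom.H92_B0Defs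
import Fermat.Agent.NEB.Geom.H26_WMD1

set_option autoImplicit false
set_option linter.unusedSectionVars false
set_option linter.style.haveILetI false
set_option linter.unusedVariables false

noncomputable section

open ModularCurve AlgebraicCurve CongruenceSubgroup

namespace Fermat.Agent.S59.NonMin.Geom.H12C

open Fermat.Agent.NEB Fermat.Agent.NEB.JH Fermat.Agent.GTor Fermat.Agent.GTor.H81
  Fermat.Agent.Betti Fermat.Agent.NEB.Geom Fermat.Agent.NEB.Geom.H26
  Fermat.Agent.S59.NonMin.Geom.H92B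

/-- The standard basis vector of `(ℤ/n)^r`. -/
def stdVec {r : ℕ} (n : ℕ) (i : Fin r) : Fin r → ZMod n := Pi.single i 1

theorem sum_zsmul_stdVec {r : ℕ} (n : ℕ) (c : Fin r → ℤ) :
    ∑ i, c i • stdVec n i = fun j => ((c j : ℤ) : ZMod n) := by
  funext j
  rw [Finset.sum_apply]
  rw [Finset.sum_eq_single j]
  · rw [Pi.smul_apply, stdVec, Pi.single_eq_same, zsmul_eq_mul, mul_one]
  · intro i _ hij
    rw [Pi.smul_apply, stdVec, Pi.single_eq_of_ne (Ne.symm hij), smul_zero]
  · intro h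
    exact absurd (Finset.mem_univ j) h

/-- Expansion of the inverse image of a vector with integral representatives. -/
theorem symm_eq_sum {X : Type*} [AddCommGroup X] {r n : ℕ} (θ : X ≃+ (Fin r → ZMod n))
    (v : Fin r → ZMod n) (c : Fin r → ℤ) (hc : ∀ j, v j = ((c j : ℤ) : ZMod n)) :
    θ.symm v = ∑ i, c i • θ.symm (stdVec n i) := by
  apply θ.injective
  rw [AddEquiv.apply_symm_apply, map_sum]
  simp only [map_zsmul, AddEquiv.apply_symm_apply]
  rw [sum_zsmul_stdVec]
  funext j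
  exact hc j

/-- A vanishing combination has coefficients divisible by `n`. -/
theorem dvd_of_sum_eq_zero {X : Type*} [AddCommGroup X] {r n : ℕ} (θ : X ≃+ (Fin r → ZMod n))
    (c : Fin r → ℤ) (h : ∑ i, c i • θ.symm (stdVec n i) = 0) (j : Fin r) : (n : ℤ) ∣ c j := by
  have h1 := congrArg θ h
  rw [map_sum, map_zero] at h1
  simp only [map_zsmul, AddEquiv.apply_symm_apply] at h1
  rw [sum_zsmul_stdVec] at h1
  have h2 := congrFun h1 j
  exact (ZMod.intCast_zmod_eq_zero_iff_dvd (c j) n).mp h2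

/-- **B0-COORD**. -/
theorem stmt_B0COORD : Stmt_B0COORD := by
  intro N p _ S hp r b hb Mat hMat
  have hTOR : ∀ k : ℕ, Stmt_TORc N (p ^ k) :=
    fun k => stmt_TORc_uncond N (p ^ k) (pow_ne_zero k hp.ne_zero)
  have hHK : ∀ k : ℕ, Stmt_HK N (p ^ k) := fun k => H44.stmt_HK N (p ^ k)
  have hLift : Stmt_torsLift N := H77.stmt_torsLift N
  have halg : Algebra.IsAlgebraic ℚ (AlgebraicClosure ℚ) := AlgebraicClosure.isAlgebraic ℚ
  obtain ⟨ι⟩ : Nonempty (AlgebraicClosure ℚ →+* ℂ) :=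
    ⟨((IsAlgClosed.lift : AlgebraicClosure ℚ →ₐ[ℚ] ℂ) : AlgebraicClosure ℚ →+* ℂ)⟩
  have hE : ∀ k : ℕ, Nonempty (TorIso N (p ^ k) ι) := fun k => nonempty_torIso (hTOR k) ι
  have hn : ∀ k : ℕ, p ^ k ≠ 0 := fun k => pow_ne_zero k hp.ne_zero
  let E : ∀ k : ℕ, TorIso N (p ^ k) ι := fun k => Classical.choice (hE k)
  let θ : ∀ k : ℕ, Jtor N (p ^ k) ≃+ (Fin r → ZMod (p ^ k)) :=
    fun k => theta hb hLift (hn k) (E k)
  let e : ℕ → Fin r → A0 N p := fun k i => incK N p k ((θ k).symm (stdVec (p ^ k) i))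
  have hsurj : ∀ (k : ℕ) (v : Fin r → ZMod (p ^ k)),
      ∃ c : Fin r → ℤ, ∀ j, v j = ((c j : ℤ) : ZMod (p ^ k)) := by
    intro k v
    haveI : NeZero (p ^ k) := ⟨hn k⟩
    exact ⟨fun j => ((v j).val : ℤ), fun j => by
      rw [Int.cast_natCast, ZMod.natCast_zmod_val]⟩
  refine ⟨e, ⟨?_, ?_, ?_, ?_⟩, ?_⟩
  · -- zero
    intro i
    apply Subtype.ext
    have h := pow_nsmul_coe ((θ 0).symm (stdVec (p ^ 0) i))
    have h2 : ∀ (m : ℕ) (y : JZero N), m = 1 → m • y = y := fun m y hm => by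
      rw [hm, one_smul]
    exact (h2 _ _ (pow_zero p)).symm.trans h
  · -- succ
    intro k i
    have h := theta_mulTor hb hLift (hn (k + 1)) (hn k) (pow_dvd_pow p (Nat.le_succ k))
      (E (k + 1)) (E k) ((θ (k + 1)).symm (stdVec (p ^ (k + 1)) i))
    have h1 : (fun j => ZMod.castHom (pow_dvd_pow p (Nat.le_succ k)) (ZMod (p ^ k))
        (theta hb hLift (hn (k + 1)) (E (k + 1))
          ((θ (k + 1)).symm (stdVec (p ^ (k + 1)) i)) j)) = stdVec (p ^ k) i := by
      have h2 : theta hb hLift (hn (k + 1)) (E (k + 1))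
          ((θ (k + 1)).symm (stdVec (p ^ (k + 1)) i)) = stdVec (p ^ (k + 1)) i :=
        (θ (k + 1)).apply_symm_apply _
      rw [h2]
      funext j
      by_cases hij : j = i
      · subst hij
        rw [stdVec, stdVec, Pi.single_eq_same, Pi.single_eq_same, map_one]
      · rw [stdVec, stdVec, Pi.single_eq_of_ne hij, Pi.single_eq_of_ne hij, map_zero]
    rw [h1] at h
    have h3 : mulTor (pow_dvd_pow p (Nat.le_succ k)) ((θ (k + 1)).symm (stdVec (p ^ (k + 1)) i))
        = (θ k).symm (stdVec (p ^ k) i) := by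
      apply (θ k).injective
      rw [AddEquiv.apply_symm_apply]
      exact h
    apply Subtype.ext
    have h4 := congrArg (fun u : Jtor N (p ^ k) => (u : JZero N)) h3
    simp only [coe_mulTor] at h4
    have h5 : p ^ (k + 1) / p ^ k = p := by
      rw [pow_succ, Nat.mul_div_cancel_left _ (pow_pos hp.pos k)]
    rw [h5] at h4
    exact h4
  · -- span
    intro k x hx
    have hx' : p ^ k • (x : JZero N) = 0 := congrArg (fun u : A0 N p => (u : JZero N)) hx
    set y : Jtor N (p ^ k) := ⟨(x : JZero N), mem_Jtor_of_pow_smul N p hx'⟩ with hy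
    obtain ⟨c, hc⟩ := hsurj k (θ k y)
    refine ⟨c, ?_⟩
    have h1 : y = ∑ i, c i • (θ k).symm (stdVec (p ^ k) i) := by
      rw [← symm_eq_sum (θ k) (θ k y) c hc, AddEquiv.symm_apply_apply]
    have h2 : incK N p k y = x := Subtype.ext rfl
    rw [← h2, h1, map_sum]
    simp only [map_zsmul]
    rfl
  · -- indep
    intro k c h j
    have h1 : incK N p k (∑ i, c i • (θ k).symm (stdVec (p ^ k) i)) = 0 := by
      rw [map_sum]
      simp only [map_zsmul]
      exact h
    have h2 : ∑ i, c i • (θ k).symm (stdVec (p ^ k) i) = 0 :=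
      incK_injective N p k (h1.trans (map_zero _).symm)
    have h3 := dvd_of_sum_eq_zero (θ k) c h2 j
    have h4 : ((p ^ k : ℕ) : ℤ) = (p : ℤ) ^ k := Nat.cast_pow p k
    rw [h4] at h3
    exact h3
  · -- Hecke matrices
    intro ℓ hℓ hℓN hℓS k j
    haveI : NeZero ℓ := ⟨hℓ.ne_zero⟩
    have h := theta_heckeTor hb hLift (hn k) (E k) hℓ hℓN (hHK k)
      (Mat (CuspForm.heckeAlgebra.T hℓ hℓN hℓS)) (hMat ℓ hℓ hℓN hℓS)
      ((θ k).symm (stdVec (p ^ k) j))
    have h0 : theta hb hLift (hn k) (E k) ((θ k).symm (stdVec (p ^ k) j)) = stdVec (p ^ k) j :=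
      (θ k).apply_symm_apply _
    rw [h0] at h
    have h1 : heckeTor (p ^ k) (⟨ℓ, hℓ⟩ : Nat.Primes) ((θ k).symm (stdVec (p ^ k) j))
        = ∑ i, Mat (CuspForm.heckeAlgebra.T hℓ hℓN hℓS) i j • (θ k).symm (stdVec (p ^ k) i) := by
      rw [← symm_eq_sum (θ k)
        (((Mat (CuspForm.heckeAlgebra.T hℓ hℓN hℓS)).map (Int.cast : ℤ → ZMod (p ^ k))).mulVec
          (stdVec (p ^ k) j))
        (fun i => Mat (CuspForm.heckeAlgebra.T hℓ hℓN hℓS) i j)]
      · apply (θ k).injective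
        rw [AddEquiv.apply_symm_apply]
        exact h
      · intro i
        rw [stdVec, Matrix.mulVec_single_one]
        rfl
    have h2 : Tz0 N p ℓ (incK N p k ((θ k).symm (stdVec (p ^ k) j)))
        = incK N p k (heckeTor (p ^ k) (⟨ℓ, hℓ⟩ : Nat.Primes)
            ((θ k).symm (stdVec (p ^ k) j))) := by
      apply Subtype.ext
      rw [Tz0_apply, coe_incK, ← T0_eq]
      exact (heckeOperatorBar_apply N (⟨ℓ, hℓ⟩ : Nat.Primes) _).symm
    show Tz0 N p ℓ (incK N p k ((θ k).symm (stdVec (p ^ k) j))) = _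
    rw [h2, h1, map_sum]
    simp only [map_zsmul]
    rfl

end Fermat.Agent.S59.NonMin.Geom.H12C
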