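/-
S59, package RT-NONMIN, sub-package NMGEOM, leaf B0 (helper92): coordinate systems of a
`p`-divisible group (definition; Mathlib only).
-/
import Mathlib

set_option autoImplicit false

namespace Fermat.Agent.S59.NonMin.Geom.H92B

/-- A compatible system of coordinates on the `p`-power torsion of `A`: `e 0 i = 0`,
`p • e (k+1) i = e k i`, and the `e k i` are a basis of `A[p^k]` over `ℤ/p^k`. -/
structure IsCoordSys {A : Type} [AddCommGroup A] {r : ℕ} (p : ℕ) (e : ℕ → Fin r → A) : Prop where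
  zero : ∀ i, e 0 i = 0
  succ : ∀ k i, p • e (k + 1) i = e k i
  span : ∀ (k : ℕ) (x : A), p ^ k • x = 0 → ∃ n : Fin r → ℤ, x = ∑ i, n i • e k i
  indep : ∀ (k : ℕ) (n : Fin r → ℤ), ∑ i, n i • e k i = 0 → ∀ i, ((p : ℤ) ^ k) ∣ n i

theorem IsCoordSys.pow_smul {A : Type} [AddCommGroup A] {r : ℕ} {p : ℕ} {e : ℕ → Fin r → A}
    (he : IsCoordSys p e) (k : ℕ) (i : Fin r) : p ^ k • e k i = 0 := by
  induction k with
  | zero => rw [pow_zero, one_smul, he.zero]
  | succ k ih => rw [pow_succ, mul_smul, he.succ, ih]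

end Fermat.Agent.S59.NonMin.Geom.H92B
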