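/-
S59, package RT-NONMIN, sub-package NMGEOM, leaf B0 = `Geom.Stmt_TWGEOMB` (helper92):
the interface statements of the leaf.

B0 is proved with `M := Dm.MD.toHMod hϖ`, the Tate module of the `θ`-part of `𝒪 ⊗ J₀(N)[p^∞]`
(`Dm : NEB.Geom.MinSetup`).  `TWGeom` for this `M` is `Lim.twGeom_of_twDiv`; what is new is
`IsBetti` for this `M`:

* `IsCoordSys p e`  : (file `H92_B0Coord.lean`) a compatible system of coordinates
                      `e k i ∈ A[p^k]` of a `p`-divisible group;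
* `Stmt_B0COORD`    : `J₀(N)[p^∞]` has a coordinate system in which the operators `T_ℓ` have the
                      matrices of the Betti operators `TB` in a given parabolic basis `b`
                      (G-TOR: `theta`, `theta_mulTor`, `theta_heckeTor`);
* `Stmt_B0BETTI`    : `IsBetti ⟨N, S, θ, Dm.MD.toHMod hϖ⟩ ∅`;
* `Stmt_B0TOP`      : the leaves of NEB-GEOM and `Stmt_B0BETTI` give `Stmt_TWGEOMB`.
-/
import Fermat.Agent.S59.NonMin.Geom.Defs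
import Fermat.Agent.S59.NonMin.Geom.H92_B0Coord
import Fermat.Agent.NEB.Geom.AsmTop
import Fermat.Agent.S59.Lim.H94_Asm

set_option autoImplicit false
set_option linter.unusedSectionVars false
set_option linter.style.haveILetI false

noncomputable section

open IsLocalRing TensorProduct CongruenceSubgroup

namespace Fermat.Agent.S59.NonMin.Geom.H92B

open Fermat.Agent.S59.Lim Fermat.Agent.Betti Fermat.Agent.S59.Asm Fermat.Agent.NEB.Geom
  Fermat.Agent.S59.NonMin.Geom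

/-- **B0-COORD**: coordinates of `J₀(N)[p^∞]` in which `T_ℓ` has the matrix of the Betti
operator. -/
def Stmt_B0COORD : Prop :=
  ∀ (N p : ℕ) [NeZero N] (S : Set ℕ), p.Prime →
    ∀ (r : ℕ) (b : Fin r → (Additive (Gamma0 N) →+ ℤ)), IsParBasis N b →
    ∀ Mat : CuspForm.heckeAlgebra N 2 S →+* Matrix (Fin r) (Fin r) ℤ,
      (∀ (ℓ : ℕ) (hℓ : ℓ.Prime) (hℓN : ¬ ℓ ∣ N) (hℓS : ℓ ∉ S) (j : Fin r),
        TB N ℤ hℓ hℓN (b j) = ∑ i, Mat (CuspForm.heckeAlgebra.T hℓ hℓN hℓS) i j • b i) →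
      ∃ e : ℕ → Fin r → A0 N p, IsCoordSys p e ∧
        ∀ (ℓ : ℕ) (hℓ : ℓ.Prime) (hℓN : ¬ ℓ ∣ N) (hℓS : ℓ ∉ S) (k : ℕ) (j : Fin r),
          Tz0 N p ℓ (e k j) = ∑ i, Mat (CuspForm.heckeAlgebra.T hℓ hℓN hℓS) i j • e k i

/-- **B0-BETTI**: the Tate module of the `θ`-part of `𝒪 ⊗ J₀(N)[p^∞]` is the Betti lattice. -/
def Stmt_B0BETTI : Prop :=
  ∀ (𝒪 : Type) [CommRing 𝒪] [IsDomain 𝒪] [IsDiscreteValuationRing 𝒪]
    [IsAdicComplete (maximalIdeal 𝒪) 𝒪] [Finite (ResidueField 𝒪)] [CharZero 𝒪]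
    (ϖ : 𝒪) (hϖ : Irreducible ϖ) (p : ℕ) [Fact p.Prime], (p : 𝒪) ∈ maximalIdeal 𝒪 →
    ∀ (N : ℕ) [NeZero N] (S : Finset ℕ), (∀ q : ℕ, q.Prime → q ∣ N → q ∈ S) →
    ∀ (θ : CuspForm.heckeAlgebra N 2 (↑S : Set ℕ) →+* ResidueField 𝒪)
      (Dm : MinSetup 𝒪 ϖ p N S θ),
      IsBetti (⟨N, S, θ, Dm.MD.toHMod hϖ⟩ : NMState 𝒪) ∅

/-- **B0-TOP**: the leaves of NEB-GEOM and `Stmt_B0BETTI` give B0. -/
def Stmt_B0TOP : Prop :=
  Stmt_A_MIN → Stmt_A_SETUP → Stmt_A_R0 → Stmt_A_GAL → Stmt_A_ES → Stmt_A_HSTEP → Stmt_A_PI →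
    Stmt_A_FROBNIL → Stmt_A_LG → Stmt_B0BETTI → Stmt_TWGEOMB

end Fermat.Agent.S59.NonMin.Geom.H92B
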