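/-
S59, package RT-NONMIN, sub-package NMGEOM, leaf B0 (helper92), part C:
`Stmt_B0COORD → Stmt_B0BETTI`.

The Tate module `T_ϖ((𝒪 ⊗ J₀(N)[p^∞])_θ)` (the module of `Dm.MD.toHMod hϖ`) is the Betti lattice:
`ι := bmPhi ∘ J`, `J` of `H92_B0Alg.exists_J` in the coordinates of `Stmt_B0COORD`, and the range
is identified by helper61's `bmV_iff`.
-/
import Fermat.Agent.S59.NonMin.Geom.H92_B0Defs
import Fermat.Agent.S59.NonMin.Geom.H92_B0Alg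
import Fermat.Agent.S59.NonMin.Geom.H61_BM
import Fermat.Agent.S59.Lim.H2_Tens

set_option autoImplicit false
set_option linter.unusedSectionVars false
set_option linter.style.haveILetI false
set_option linter.unusedVariables false

noncomputable section

open IsLocalRing TensorProduct CongruenceSubgroup

namespace Fermat.Agent.S59.NonMin.Geom.H92B

open Fermat.Agent.S59.Lim Fermat.Agent.Betti Fermat.Agent.S59.Asm Fermat.Agent.NEB.Geom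
  Fermat.Agent.S59.NonMin.Geom Fermat.Agent.S59.NonMin.Geom.H61

/-- **B0-BETTI** from the coordinates. -/
theorem stmt_B0BETTI_of (hC : Stmt_B0COORD) : Stmt_B0BETTI := by
  intro 𝒪 _ _ _ _ _ _ ϖ hϖ p _ hpm N _ S hNS θ Dm
  classical
  have hpp : p.Prime := Fact.out
  obtain ⟨r, b, hb⟩ := stmt_basis N
  obtain ⟨Mat, -, hT, -⟩ := Fermat.Agent.Betti.H76.stmt_matrixRep N (↑S : Set ℕ) r b hb
  obtain ⟨e, he, hTe⟩ := hC N p (↑S : Set ℕ) hpp r b hb Mat hT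
  haveI : Module.Flat ℤ 𝒪 := H2.flat_int
  have hp0 : (p : 𝒪) ≠ 0 := Nat.cast_ne_zero.mpr hpp.ne_zero
  obtain ⟨π', hπ'⟩ : ∃ π' : 𝒪, (p : 𝒪) = π' * ϖ := by
    have := hpm
    rw [hϖ.maximalIdeal_eq, Ideal.mem_span_singleton'] at this
    obtain ⟨a, ha⟩ := this
    exact ⟨a, ha.symm⟩
  have hG := adjoin_bmG (N := N) (↑S : Set ℕ) hNS
  have hMat : ∀ g ∈ bmG N (↑S : Set ℕ), ∀ k j,
      Dm.ηC g (e k j) = ∑ i, Mat g i j • e k i := by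
    rintro g ⟨ℓ, hℓ, hℓN, hℓS, rfl⟩ k j
    rw [Dm.ηC_T ℓ hℓ hℓN hℓS]
    exact hTe ℓ hℓ hℓN hℓS k j
  obtain ⟨J, hJinj, hJrange, hJeta⟩ := exists_J Dm.ηC Mat θ hϖ hπ' hp0 he hG hMat
  refine ⟨(bmPhi 𝒪 b).comp J, (bmPhi_injective hb).comp hJinj, ?_, ?_⟩
  · intro φ
    rw [← bmV_iff (𝒪 := 𝒪) hb hT θ ∅ φ]
    constructor
    · rintro ⟨x, rfl⟩
      have h1 := (hJrange (J x)).mp ⟨x, rfl⟩
      exact ⟨⟨J x, ⟨fun q hq => absurd hq (Finset.notMem_empty q), h1.2⟩⟩, rfl⟩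
    · rintro ⟨⟨v, hv⟩, rfl⟩
      obtain ⟨x, hx⟩ := (hJrange v).mpr ⟨Submodule.mem_top, hv.2⟩
      refine ⟨x, ?_⟩
      show bmPhi 𝒪 b (J x) = _
      rw [hx]
  · intro ℓ hℓ hℓN hℓS v
    have h1 := hJeta (CuspForm.heckeAlgebra.T hℓ hℓN hℓS) v
    have h2 := bm_TB (𝒪 := 𝒪) hT ℓ hℓ hℓN hℓS (J v)
    exact (congrArg (bmPhi 𝒪 b) h1).trans h2.symm

end Fermat.Agent.S59.NonMin.Geom.H92B
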