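/-
S59, package RT-NONMIN, sub-package NMGEOM, leaf B0 (helper92): the final wiring.

`stmt_TWGEOMB_of_coord : Stmt_B0COORD → Geom.Stmt_TWGEOMB`:
* the leaves of NEB-GEOM are unconditional (`NEB/Geom/H84_Final.lean`, helper84 + 13 hands);
* `H30B.stmt_B0TOP` (helper30) : leaves + `Stmt_B0BETTI` ⟹ `Stmt_TWGEOMB`;
* `H92B.stmt_B0BETTI_of` : `Stmt_B0COORD → Stmt_B0BETTI`.
-/
import Fermat.Agent.NEB.Geom.H84_Final
import Fermat.Agent.S59.NonMin.Geom.H30_B0Top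
import Fermat.Agent.S59.NonMin.Geom.H92_B0Betti

set_option autoImplicit false

namespace Fermat.Agent.S59.NonMin.Geom.H92B

open Fermat.Agent.NEB.Geom

/-- **B0** from the coordinates of `J₀(N)[p^∞]`. -/
theorem stmt_TWGEOMB_of_coord (hC : Stmt_B0COORD) : Fermat.Agent.S59.NonMin.Geom.Stmt_TWGEOMB :=
  Fermat.Agent.S59.NonMin.Geom.H30B.stmt_B0TOP stmt_A_MIN stmt_A_SETUP H84.stmt_A_R0
    Fermat.Agent.NEB.Geom.H9.stmt_A_GAL Fermat.Agent.NEB.Geom.H29.stmt_A_ES stmt_A_HSTEP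
    stmt_A_PI stmt_A_FROBNIL stmt_A_LG (stmt_B0BETTI_of hC)

end Fermat.Agent.S59.NonMin.Geom.H92B
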