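/-
S59, package RT-NONMIN, sub-package NMGEOM, leaf ALG (helper72): `stmt_ALG : Stmt_ALG`.

Pure algebra: from the abstract three-degeneracy-maps package `Deg3` to `Deg3Out`.
`V := ker U ⊆ L'` (saturated, finite free); `α = q A₁ - A₂ T_q + A₃ : L → V` (`U α = 0` by `R1`);
`α' = (C₁ - T_q C₂ + q C₃)|V` kills `im U` by `R2`, so it is onto by `split`, `dual` and Nakayama;
`C₂ α = C₃ α = 0`, `α' α = C₁ α = -(q - 1)(T_q² - (q + 1)²)` by `R3`; `α` is injective with
saturated image by `ihara`.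
-/
import Fermat.Agent.S59.NonMin.Geom.Defs

set_option autoImplicit false
set_option linter.style.haveILetI false
set_option linter.unusedSectionVars false

namespace Fermat.Agent.S59.NonMin.Geom.H72

open IsLocalRing

section General

variable {𝒪 : Type} [CommRing 𝒪] [IsDomain 𝒪] [IsDiscreteValuationRing 𝒪]

/-- `𝔪 M = ϖ M`. -/
theorem mem_max_smul_top_iff {M : Type*} [AddCommGroup M] [Module 𝒪 M] {ϖ : 𝒪}
    (hϖ : maximalIdeal 𝒪 = Ideal.span {ϖ}) (x : M) :
    x ∈ (maximalIdeal 𝒪 • ⊤ : Submodule 𝒪 M) ↔ ∃ y : M, x = ϖ • y := by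
  rw [hϖ, Submodule.ideal_span_singleton_smul, Submodule.mem_smul_pointwise_iff_exists]
  constructor
  · rintro ⟨y, -, rfl⟩
    exact ⟨y, rfl⟩
  · rintro ⟨y, rfl⟩
    exact ⟨y, Submodule.mem_top, rfl⟩

/-- A saturated submodule: `𝔪 L' ∩ V = 𝔪 V`. -/
theorem mem_max_smul_top_of_saturated {M : Type*} [AddCommGroup M] [Module 𝒪 M]
    (V : Submodule 𝒪 M) (hsat : ∀ (a : 𝒪) (w : M), a ≠ 0 → a • w ∈ V → w ∈ V) (x : V)
    (hx : (x : M) ∈ (maximalIdeal 𝒪 • ⊤ : Submodule 𝒪 M)) :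
    x ∈ (maximalIdeal 𝒪 • ⊤ : Submodule 𝒪 V) := by
  obtain ⟨ϖ, hirr⟩ := IsDiscreteValuationRing.exists_irreducible 𝒪
  have hϖ : maximalIdeal 𝒪 = Ideal.span {ϖ} :=
    (IsDiscreteValuationRing.irreducible_iff_uniformizer ϖ).mp hirr
  obtain ⟨y, hy⟩ := (mem_max_smul_top_iff hϖ _).1 hx
  have hyV : y ∈ V := hsat ϖ y hirr.ne_zero (hy ▸ x.2)
  exact (mem_max_smul_top_iff hϖ _).2 ⟨⟨y, hyV⟩, Subtype.ext hy⟩

end General

section Main

variable {𝒪 : Type} [CommRing 𝒪] [IsDomain 𝒪] [IsDiscreteValuationRing 𝒪]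
  {H H' : Type} [CommRing H] [CommRing H'] {rest : H' →+* H} {θ : H →+* ResidueField 𝒪}
  (D : Deg3 𝒪 rest θ)

/-- `α = q A₁ - A₂ T_q + A₃ : L → L'`. -/
def alphaFull : D.L →ₗ[𝒪] D.L' := D.q • D.A₁ - D.A₂ ∘ₗ D.η D.Tq + D.A₃

theorem alphaFull_apply (v : D.L) :
    alphaFull D v = D.q • D.A₁ v - D.A₂ (D.η D.Tq v) + D.A₃ v := rfl

theorem U_alphaFull (v : D.L) : D.U (alphaFull D v) = 0 := by
  rw [alphaFull_apply, map_add, map_sub, map_nsmul, D.R1a, D.R1b, D.R1c, smul_sub]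
  abel

/-- `α' = C₁ - T_q C₂ + q C₃ : L' → L`. -/
def alphaFull' : D.L' →ₗ[𝒪] D.L := D.C₁ - D.η D.Tq ∘ₗ D.C₂ + D.q • D.C₃

theorem alphaFull'_apply (w : D.L') :
    alphaFull' D w = D.C₁ w - D.η D.Tq (D.C₂ w) + D.q • D.C₃ w := rfl

theorem alphaFull'_U (w : D.L') : alphaFull' D (D.U w) = 0 := by
  rw [alphaFull'_apply, D.R2a, D.R2b, D.R2c, map_nsmul, smul_sub]
  abel

/-- `U` commutes with the Hecke operators, pointwise. -/
theorem U_η'_apply (t : H') (w : D.L') : D.U (D.η' t w) = D.η' t (D.U w) :=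
  LinearMap.congr_fun (D.U_η' t).eq w

theorem Tq_η_apply (t : H) (v : D.L) : D.η D.Tq (D.η t v) = D.η t (D.η D.Tq v) :=
  LinearMap.congr_fun (D.Tq_η t).eq v

/-- `ker U` is saturated. -/
theorem ker_U_saturated (a : 𝒪) (w : D.L') (ha : a ≠ 0) (h : a • w ∈ LinearMap.ker D.U) :
    w ∈ LinearMap.ker D.U := by
  rw [LinearMap.mem_ker, map_smul] at h
  rw [LinearMap.mem_ker]
  exact (smul_eq_zero.1 h).resolve_left ha

/-- The Hecke action on `V = ker U`. -/
def etaV : H' →+* Module.End 𝒪 (LinearMap.ker D.U) where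
  toFun t := (D.η' t).restrict fun w hw => by
    rw [LinearMap.mem_ker] at hw ⊢
    rw [U_η'_apply, hw, map_zero]
  map_one' := by
    ext w
    simp
  map_mul' s t := by
    ext w
    simp
  map_zero' := by
    ext w
    simp
  map_add' s t := by
    ext w
    simp

theorem coe_etaV (t : H') (v : LinearMap.ker D.U) :
    ((etaV D t v : LinearMap.ker D.U) : D.L') = D.η' t v := rfl

/-- `α : L → V`. -/
def alphaV : D.L →ₗ[𝒪] LinearMap.ker D.U :=
  LinearMap.codRestrict (LinearMap.ker D.U) (alphaFull D) fun v => U_alphaFull D v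

theorem coe_alphaV (v : D.L) : ((alphaV D v : LinearMap.ker D.U) : D.L') = alphaFull D v := rfl

/-- `α' : V → L`. -/
def alphaV' : LinearMap.ker D.U →ₗ[𝒪] D.L := alphaFull' D ∘ₗ (LinearMap.ker D.U).subtype

theorem alphaV'_apply (w : LinearMap.ker D.U) : alphaV' D w = alphaFull' D (w : D.L') := rfl

/-- The Hecke action on `V` is `θ`-local. -/
theorem etaV_local (t : H') (a : 𝒪) (ha : residue 𝒪 a = θ (rest t)) :
    ∃ m : ℕ, ∀ v : LinearMap.ker D.U,
      ((etaV D t - a • (1 : Module.End 𝒪 (LinearMap.ker D.U))) ^ m) v ∈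
        (maximalIdeal 𝒪 • ⊤ : Submodule 𝒪 (LinearMap.ker D.U)) := by
  obtain ⟨m, hm⟩ := D.η'_local t a ha
  refine ⟨m, fun v => ?_⟩
  refine mem_max_smul_top_of_saturated _ (ker_U_saturated D) _ ?_
  have key : ∀ (n : ℕ) (v : LinearMap.ker D.U),
      ((((etaV D t - a • (1 : Module.End 𝒪 (LinearMap.ker D.U))) ^ n) v :
        LinearMap.ker D.U) : D.L') =
      ((D.η' t - a • (1 : Module.End 𝒪 D.L')) ^ n) (v : D.L') := by
    intro n
    induction n with
    | zero => intro v; rfl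
    | succ n ih =>
      intro v
      rw [pow_succ, pow_succ, Module.End.mul_apply, Module.End.mul_apply, ih]
      rfl
  rw [key]
  exact hm _

theorem alphaV_η (t : H') (v : D.L) : alphaV D (D.η (rest t) v) = etaV D t (alphaV D v) := by
  apply Subtype.ext
  rw [coe_etaV, coe_alphaV, coe_alphaV, alphaFull_apply, alphaFull_apply, D.A₁_η,
    Tq_η_apply, D.A₂_η, D.A₃_η, map_add, map_sub, map_nsmul]

theorem alphaV'_η (t : H') (w : LinearMap.ker D.U) :
    alphaV' D (etaV D t w) = D.η (rest t) (alphaV' D w) := by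
  rw [alphaV'_apply, alphaV'_apply, coe_etaV, alphaFull'_apply, alphaFull'_apply, D.C₁_η,
    D.C₂_η, D.C₃_η, Tq_η_apply, map_add, map_sub, map_nsmul]

/-- Krull: an element of `L` divisible by all powers of `ϖ` is zero; hence every nonzero
element is `ϖ ^ n • v₁` with `v₁ ∉ 𝔪 L`. -/
theorem exists_eq_pow_smul {ϖ : 𝒪} (hϖ : maximalIdeal 𝒪 = Ideal.span {ϖ}) (v : D.L)
    (hv : v ≠ 0) :
    ∃ (n : ℕ) (v₁ : D.L), v = ϖ ^ n • v₁ ∧ v₁ ∉ (maximalIdeal 𝒪 • ⊤ : Submodule 𝒪 D.L) := by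
  by_contra hcon
  simp only [not_exists, not_and, not_not] at hcon
  have hall : ∀ n : ℕ, ∃ v₁ : D.L, v = ϖ ^ n • v₁ := by
    intro n
    induction n with
    | zero => exact ⟨v, by rw [pow_zero, one_smul]⟩
    | succ n ih =>
      obtain ⟨v₁, hv₁⟩ := ih
      obtain ⟨y, hy⟩ := (mem_max_smul_top_iff hϖ _).1 (hcon n v₁ hv₁)
      exact ⟨y, by rw [hv₁, hy, smul_smul, pow_succ]⟩
  have hk := Ideal.iInf_pow_smul_eq_bot_of_isLocalRing (M := D.L) (maximalIdeal 𝒪)
    (maximalIdeal.isMaximal 𝒪).ne_top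
  have hmem : v ∈ ⨅ i : ℕ, (maximalIdeal 𝒪 ^ i • ⊤ : Submodule 𝒪 D.L) := by
    rw [Submodule.mem_iInf]
    intro n
    obtain ⟨v₁, hv₁⟩ := hall n
    rw [hv₁]
    refine Submodule.smul_mem_smul ?_ Submodule.mem_top
    rw [hϖ, Ideal.span_singleton_pow]
    exact Ideal.subset_span rfl
  rw [hk] at hmem
  exact hv ((Submodule.mem_bot 𝒪).1 hmem)

/-- Ihara's lemma for `α`. -/
theorem ihara_alpha (v : D.L)
    (h : alphaFull D v ∈ (maximalIdeal 𝒪 • ⊤ : Submodule 𝒪 D.L')) :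
    v ∈ (maximalIdeal 𝒪 • ⊤ : Submodule 𝒪 D.L) := D.ihara v h

theorem alphaFull_injective : Function.Injective (alphaFull D) := by
  rw [injective_iff_map_eq_zero]
  intro v hv
  by_contra hv0
  obtain ⟨ϖ, hirr⟩ := IsDiscreteValuationRing.exists_irreducible 𝒪
  have hϖ : maximalIdeal 𝒪 = Ideal.span {ϖ} :=
    (IsDiscreteValuationRing.irreducible_iff_uniformizer ϖ).mp hirr
  obtain ⟨n, v₁, hv₁, hnot⟩ := exists_eq_pow_smul D hϖ v hv0
  rw [hv₁, map_smul] at hv
  have h0 : alphaFull D v₁ = 0 :=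
    (smul_eq_zero.1 hv).resolve_left (pow_ne_zero n hirr.ne_zero)
  exact hnot (ihara_alpha D v₁ (h0 ▸ Submodule.zero_mem _))

theorem alphaV_injective : Function.Injective (alphaV D) := fun _ _ h =>
  alphaFull_injective D (congrArg Subtype.val h)

/-- The image of `α` is saturated. -/
theorem alphaV_sat (a : 𝒪) (w : LinearMap.ker D.U) (ha : a ≠ 0)
    (h : a • w ∈ LinearMap.range (alphaV D)) : w ∈ LinearMap.range (alphaV D) := by
  obtain ⟨ϖ, hirr⟩ := IsDiscreteValuationRing.exists_irreducible 𝒪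
  have hϖ : maximalIdeal 𝒪 = Ideal.span {ϖ} :=
    (IsDiscreteValuationRing.irreducible_iff_uniformizer ϖ).mp hirr
  -- the case `a = ϖ`
  have hstep : ∀ w : LinearMap.ker D.U, ϖ • w ∈ LinearMap.range (alphaV D) →
      w ∈ LinearMap.range (alphaV D) := by
    rintro w ⟨v, hv⟩
    have h1 : alphaFull D v ∈ (maximalIdeal 𝒪 • ⊤ : Submodule 𝒪 D.L') := by
      rw [mem_max_smul_top_iff hϖ]
      refine ⟨(w : D.L'), ?_⟩
      rw [← coe_alphaV, hv]
      rfl
    obtain ⟨v₁, hv₁⟩ := (mem_max_smul_top_iff hϖ _).1 (ihara_alpha D v h1)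
    refine ⟨v₁, ?_⟩
    rw [hv₁, map_smul] at hv
    exact smul_right_injective _ hirr.ne_zero hv
  have hpow : ∀ (n : ℕ) (w : LinearMap.ker D.U), ϖ ^ n • w ∈ LinearMap.range (alphaV D) →
      w ∈ LinearMap.range (alphaV D) := by
    intro n
    induction n with
    | zero => intro w hw; rwa [pow_zero, one_smul] at hw
    | succ n ih =>
      intro w hw
      rw [pow_succ, mul_smul] at hw
      exact hstep w (ih _ hw)
  obtain ⟨n, u, hu⟩ := IsDiscreteValuationRing.eq_unit_mul_pow_irreducible ha hirr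
  refine hpow n w ?_
  have h2 : ϖ ^ n • w = (↑u⁻¹ : 𝒪) • (a • w) := by
    rw [hu, smul_smul, ← mul_assoc, Units.inv_mul, one_mul]
  rw [h2]
  exact Submodule.smul_mem _ _ h

/-- `α'` is onto (dual Ihara + splitting + Nakayama). -/
theorem alphaV'_surjective : Function.Surjective (alphaV' D) := by
  rw [← LinearMap.range_eq_top]
  refine top_le_iff.1 ?_
  refine Submodule.le_of_le_smul_of_le_jacobson_bot (I := maximalIdeal 𝒪)
    (Module.Finite.fg_top) (IsLocalRing.maximalIdeal_le_jacobson _) ?_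
  intro v _
  obtain ⟨w, hw⟩ := D.dual v
  obtain ⟨w₀, w₁, hw01, hw₀⟩ := D.split w
  have h1 : alphaFull' D w = alphaV' D ⟨w₀, hw₀⟩ := by
    rw [alphaV'_apply, hw01, map_add, alphaFull'_U, add_zero]
  have h2 : v = alphaV' D ⟨w₀, hw₀⟩ - (alphaFull' D w - v) := by
    rw [h1]
    abel
  rw [h2]
  refine Submodule.sub_mem _ (Submodule.mem_sup_left ⟨_, rfl⟩) (Submodule.mem_sup_right ?_)
  rw [alphaFull'_apply]
  exact hw

theorem nsmul_eq_zero_of_unit {M : Type*} [AddCommGroup M] [Module 𝒪 M] (x : M)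
    (h : D.q • x = 0) : x = 0 := by
  rw [← Nat.cast_smul_eq_nsmul 𝒪] at h
  have h1 := congrArg (fun y => (↑(D.q_unit.unit⁻¹) : 𝒪) • y) h
  simp only [smul_smul, smul_zero] at h1
  rw [show (↑(D.q_unit.unit⁻¹) : 𝒪) * (D.q : 𝒪) = 1 from by
    have := D.q_unit.unit.inv_mul
    simp, one_smul] at h1
  exact h1

/-- `α' α = -(q - 1)(T_q² - (q + 1)²)`. -/
theorem alphaV'_alphaV (v : D.L) :
    alphaV' D (alphaV D v) =
      -(D.η (((D.q : H) - 1) * (D.Tq ^ 2 - ((D.q : H) + 1) ^ 2)) v) := by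
  have hU : D.U (alphaFull D v) = 0 := U_alphaFull D v
  have hC2 : D.C₂ (alphaFull D v) = 0 := by
    apply nsmul_eq_zero_of_unit D
    rw [← D.R2a, hU, map_zero]
  have hC3 : D.C₃ (alphaFull D v) = 0 := by
    apply nsmul_eq_zero_of_unit D
    rw [← D.R2b, hU, map_zero]
  rw [alphaV'_apply, coe_alphaV, alphaFull'_apply, hC2, hC3, map_zero, smul_zero, sub_zero,
    add_zero, alphaFull_apply, map_add, map_sub, map_nsmul, D.R3a, D.R3b, D.R3c]
  have hq : ∀ x : D.L, D.η (D.q : H) x = D.q • x := by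
    intro x
    rw [map_natCast]
    exact Module.End.natCast_apply _ _
  simp only [map_mul, map_sub, map_add, map_one, pow_two, Module.End.mul_apply,
    LinearMap.sub_apply, LinearMap.add_apply, Module.End.one_apply, hq, map_nsmul, smul_sub,
    smul_add, mul_smul, add_smul, one_smul, mul_add, add_mul]
  simp only [← Nat.cast_smul_eq_nsmul 𝒪, smul_smul]
  module

end Main

/-- **NM-ALG.** -/
theorem stmt_ALG : Stmt_ALG := by
  intro 𝒪 _ _ _ H H' _ _ rest θ D
  exact ⟨{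
    V := LinearMap.ker D.U
    ι := (LinearMap.ker D.U).subtype
    ι_inj := Subtype.val_injective
    range_ι := fun w => by
      constructor
      · rintro ⟨v, rfl⟩
        exact v.2
      · intro hw
        exact ⟨⟨w, hw⟩, rfl⟩
    η'' := etaV D
    ι_η := fun _ _ => rfl
    η''_local := etaV_local D
    α := alphaV D
    α' := alphaV' D
    ι_α := fun _ => rfl
    α'_eq := fun _ => rfl
    α_η := alphaV_η D
    α'_η := alphaV'_η D
    α_inj := alphaV_injective D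
    α_sat := alphaV_sat D
    α'_surj := alphaV'_surjective D
    comp := alphaV'_alphaV D }⟩

end Fermat.Agent.S59.NonMin.Geom.H72
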