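import Fermat.Agent.S59.NonMin.Geom.H30_AsmG
import Fermat.Agent.S59.NonMin.Geom.H72_ALG
import Fermat.Agent.S59.NonMin.Geom.H61_BM

/-!
# S59 / NMGEOM, assembly ASM-G (helper30): the target from the three open inputs

`nmgeomb_of3 : H48.Stmt_DEG3 → Stmt_RANK → Stmt_TWGEOMB → CaseC.Geom.Stmt_NMGEOMB`
(`Stmt_BM` by helper61 and `Stmt_ALG` by helper72 are plugged in), and the corollary for
`Geom.Stmt_NMGEOM2`.
-/

set_option autoImplicit false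

namespace Fermat.Agent.S59.NonMin.Geom.H30

open Fermat.Agent.S59.NonMin.Geom

/-- **ASM-G** with `BM` and `ALG` plugged in. -/
theorem nmgeomb_of3 (hD3 : H48.Stmt_DEG3) (hRANK : Stmt_RANK) (hB0 : Stmt_TWGEOMB) :
    Fermat.Agent.S59.CaseC.Geom.Stmt_NMGEOMB :=
  nmgeomb_of hD3 H61.stmt_BM H72.stmt_ALG hRANK hB0

theorem nmgeom2_of3 (hD3 : H48.Stmt_DEG3) (hRANK : Stmt_RANK) (hB0 : Stmt_TWGEOMB) :
    Stmt_NMGEOM2 :=
  nmgeom2_of_nmgeomb (nmgeomb_of3 hD3 hRANK hB0)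

end Fermat.Agent.S59.NonMin.Geom.H30
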