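/-
S59, package RT-NONMIN, sub-package NMGEOM, leaf FIT (helper12): Fitting decomposition over a
complete discrete valuation ring with finite residue field.

For `f ∈ End X` (`X` finite over `𝒪`) there is an idempotent `π`, commuting with the commutant
of `f`, whose fixed points are the `x` with `f^n x → 0`.

Proof: `S m := 𝔪^m X`; `X ⧸ S m` is finite, so some power `f^(n m)`, `n m > 0`, is idempotent
modulo `S m`.  The idempotent power of `f` modulo `S m` is unique, so `f^(n m') ≡ f^(n m)` modulo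
`S m` for `m ≤ m'`; `E x := lim f^(n m) x`, `π := 1 - E`.
-/
import Mathlib
import Fermat.Prelude.Thm_IsAdicComplete_of_module_finite
import Fermat.Agent.S59.Patch.ULim
import Fermat.Agent.S59.NonMin.Geom.Defs

set_option autoImplicit false
set_option linter.style.haveILetI false
set_option linter.unusedSectionVars false

open IsLocalRing

namespace Fermat.Agent.S59.NonMin.Geom.H12

/-! ### Idempotent powers in a finite monoid -/

/-- In a finite monoid every element has an idempotent power with positive exponent. -/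
theorem exists_pow_idem {M : Type*} [Monoid M] [Finite M] (a : M) :
    ∃ n : ℕ, 0 < n ∧ a ^ (n + n) = a ^ n := by
  obtain ⟨i, j, hij, h⟩ := Finite.exists_ne_map_eq_of_infinite (fun k : ℕ => a ^ k)
  wlog hlt : i < j generalizing i j
  · exact this j i hij.symm h.symm (lt_of_le_of_ne (not_lt.mp hlt) hij.symm)
  obtain ⟨d, hd⟩ : ∃ d, j = i + d := ⟨j - i, by omega⟩
  have hd0 : 0 < d := by omega
  subst hd
  have h' : a ^ i = a ^ (i + d) := h
  -- `a ^ k = a ^ (k + d)` for `k ≥ i`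
  have h1 : ∀ k, i ≤ k → a ^ k = a ^ (k + d) := by
    intro k hk
    obtain ⟨c, rfl⟩ : ∃ c, k = i + c := ⟨k - i, by omega⟩
    calc a ^ (i + c) = a ^ i * a ^ c := pow_add _ _ _
      _ = a ^ (i + d) * a ^ c := by rw [← h']
      _ = a ^ (i + c + d) := by rw [← pow_add]; congr 1; omega
  have h2 : ∀ t k, i ≤ k → a ^ k = a ^ (k + t * d) := by
    intro t
    induction t with
    | zero => intro k _; simp
    | succ t ih =>
      intro k hk
      rw [ih k hk, h1 (k + t * d) (by omega)]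
      congr 1
      ring
  refine ⟨(i + 1) * d, Nat.mul_pos (Nat.succ_pos i) hd0, ?_⟩
  have hge : i ≤ (i + 1) * d := by nlinarith
  exact (h2 (i + 1) ((i + 1) * d) hge).symm

section Fit

variable {𝒪 : Type} [CommRing 𝒪] [IsDomain 𝒪] [IsDiscreteValuationRing 𝒪]
  [IsAdicComplete (maximalIdeal 𝒪) 𝒪] [Finite (ResidueField 𝒪)]
  {X : Type} [AddCommGroup X] [Module 𝒪 X] [Module.Finite 𝒪 X]

/-- `𝔪^m X`. -/
abbrev Sm (𝒪 : Type) [CommRing 𝒪] [IsLocalRing 𝒪] (X : Type) [AddCommGroup X] [Module 𝒪 X]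
    (m : ℕ) : Submodule 𝒪 X :=
  (maximalIdeal 𝒪 ^ m • ⊤ : Submodule 𝒪 X)

omit [IsDomain 𝒪] [IsDiscreteValuationRing 𝒪] [IsAdicComplete (maximalIdeal 𝒪) 𝒪]
  [Finite (ResidueField 𝒪)] [Module.Finite 𝒪 X] in
/-- Every endomorphism preserves `𝔪^m X`. -/
theorem map_mem_Sm [IsLocalRing 𝒪] (g : Module.End 𝒪 X) (m : ℕ) {x : X} (hx : x ∈ Sm 𝒪 X m) :
    g x ∈ Sm 𝒪 X m := by
  have h : (Sm 𝒪 X m).map g ≤ Sm 𝒪 X m := by
    rw [Submodule.map_smul'']
    exact Submodule.smul_mono le_rfl le_top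
  exact h ⟨x, hx, rfl⟩

omit [IsDomain 𝒪] [IsDiscreteValuationRing 𝒪] [IsAdicComplete (maximalIdeal 𝒪) 𝒪]
  [Finite (ResidueField 𝒪)] [Module.Finite 𝒪 X] in
theorem Sm_anti [IsLocalRing 𝒪] {m m' : ℕ} (h : m ≤ m') : Sm 𝒪 X m' ≤ Sm 𝒪 X m :=
  Submodule.smul_mono_left (Ideal.pow_le_pow_right h)

/-- Some positive power of `f` is idempotent modulo `𝔪^m X`. -/
theorem exists_idem_mod (f : Module.End 𝒪 X) (m : ℕ) :
    ∃ n : ℕ, 0 < n ∧ ∀ x : X, (f ^ (n + n)) x - (f ^ n) x ∈ Sm 𝒪 X m := by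
  haveI : Fermat.Agent.S59.Patch.FinQuot (maximalIdeal 𝒪) 𝒪 :=
    Fermat.Agent.S59.Patch.finQuot_of_isLocalRing 𝒪
  haveI : Fermat.Agent.S59.Patch.FinQuot (maximalIdeal 𝒪) X :=
    Fermat.Agent.S59.Patch.finQuot_of_finite _
  haveI hfin : Finite (X ⧸ Sm 𝒪 X m) := Fermat.Agent.S59.Patch.FinQuot.fin m
  haveI : Finite (Module.End 𝒪 (X ⧸ Sm 𝒪 X m)) :=
    Finite.of_injective (fun g : Module.End 𝒪 (X ⧸ Sm 𝒪 X m) => (g : X ⧸ Sm 𝒪 X m → X ⧸ Sm 𝒪 X m))
      DFunLike.coe_injective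
  have hle : Sm 𝒪 X m ≤ (Sm 𝒪 X m).comap f := fun x hx => map_mem_Sm f m hx
  set fb : Module.End 𝒪 (X ⧸ Sm 𝒪 X m) := (Sm 𝒪 X m).mapQ (Sm 𝒪 X m) f hle with hfb
  have hpow : ∀ (k : ℕ) (x : X), (fb ^ k) (Submodule.Quotient.mk x)
      = Submodule.Quotient.mk ((f ^ k) x) := by
    intro k
    induction k with
    | zero => intro x; simp
    | succ k ih =>
      intro x
      rw [pow_succ, Module.End.mul_apply, pow_succ, Module.End.mul_apply, hfb,
        Submodule.mapQ_apply, ← hfb, ih]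
  obtain ⟨n, hn, h⟩ := exists_pow_idem fb
  refine ⟨n, hn, fun x => ?_⟩
  have h1 := congrArg (fun g : Module.End 𝒪 (X ⧸ Sm 𝒪 X m) => g (Submodule.Quotient.mk x)) h
  simp only [hpow] at h1
  exact (Submodule.Quotient.eq _).mp h1

omit [IsDomain 𝒪] [IsDiscreteValuationRing 𝒪] [IsAdicComplete (maximalIdeal 𝒪) 𝒪]
  [Finite (ResidueField 𝒪)] [Module.Finite 𝒪 X] in
/-- An idempotent modulo `S` power: `f^(t n) ≡ f^n` for `t ≥ 1`. -/
theorem idem_mul [IsLocalRing 𝒪] (f : Module.End 𝒪 X) (m n : ℕ)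
    (h : ∀ x : X, (f ^ (n + n)) x - (f ^ n) x ∈ Sm 𝒪 X m) (t : ℕ) (x : X) :
    (f ^ ((t + 1) * n)) x - (f ^ n) x ∈ Sm 𝒪 X m := by
  induction t with
  | zero => simp
  | succ t ih =>
    have e : (f ^ ((t + 1 + 1) * n)) x = (f ^ n) ((f ^ ((t + 1) * n)) x) := by
      rw [← Module.End.mul_apply, ← pow_add]
      congr 2
      ring
    have h1 : (f ^ n) ((f ^ ((t + 1) * n)) x) - (f ^ n) ((f ^ n) x) ∈ Sm 𝒪 X m := by
      rw [← map_sub]
      exact map_mem_Sm _ m ih
    have h2 : (f ^ n) ((f ^ n) x) - (f ^ n) x ∈ Sm 𝒪 X m := by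
      rw [← Module.End.mul_apply, ← pow_add]
      exact h x
    rw [e]
    have := add_mem h1 h2
    simpa using this

/-- **FIT**, for finite modules. -/
theorem fit (f : Module.End 𝒪 X) :
    ∃ π : Module.End 𝒪 X, π * π = π ∧ (∀ g : Module.End 𝒪 X, Commute g f → Commute g π) ∧
      ∀ x : X, π x = x ↔ ∀ m : ℕ, ∃ n : ℕ, (f ^ n) x ∈ Sm 𝒪 X m := by
  haveI : IsAdicComplete (maximalIdeal 𝒪) X := IsAdicComplete.of_module_finite _ _
  choose n hn0 hn using exists_idem_mod f
  -- compatibility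
  have hcomp : ∀ {m m' : ℕ}, m ≤ m' → ∀ x : X, (f ^ n m) x - (f ^ n m') x ∈ Sm 𝒪 X m := by
    intro m m' hmm x
    have hm' : ∀ y : X, (f ^ (n m' + n m')) y - (f ^ n m') y ∈ Sm 𝒪 X m :=
      fun y => Sm_anti hmm (hn m' y)
    obtain ⟨a, ha⟩ : ∃ a, n m = a + 1 := ⟨n m - 1, by have := hn0 m; omega⟩
    obtain ⟨b, hb⟩ : ∃ b, n m' = b + 1 := ⟨n m' - 1, by have := hn0 m'; omega⟩
    have h1 := idem_mul f m (n m) (hn m) b x
    have h2 := idem_mul f m (n m') hm' a x
    have e : (b + 1) * n m = (a + 1) * n m' := by rw [← ha, ← hb]; ring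
    rw [e] at h1
    have := sub_mem h2 h1
    simpa using this
  -- the limit
  have hlim : ∀ x : X, ∃ L : X, ∀ m, (f ^ n m) x - L ∈ Sm 𝒪 X m := by
    intro x
    obtain ⟨L, hL⟩ := IsPrecomplete.prec' (I := maximalIdeal 𝒪) (fun m => (f ^ n m) x)
      (fun {m m'} hmm => SModEq.sub_mem.mpr (hcomp hmm x))
    exact ⟨L, fun m => SModEq.sub_mem.mp (hL m)⟩
  choose E hE using hlim
  have huniq : ∀ y y' : X, (∀ m, y - y' ∈ Sm 𝒪 X m) → y = y' := by
    intro y y' h
    have := IsHausdorff.haus' (I := maximalIdeal 𝒪) (y - y')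
      (fun m => SModEq.sub_mem.mpr (by simpa using h m))
    exact sub_eq_zero.mp this
  have hEadd : ∀ x y, E (x + y) = E x + E y := by
    intro x y
    apply huniq
    intro m
    have h1 := hE (x + y) m
    have h2 := hE x m
    have h3 := hE y m
    have : E (x + y) - (E x + E y)
        = ((f ^ n m) x - E x) + ((f ^ n m) y - E y) - ((f ^ n m) (x + y) - E (x + y)) := by
      rw [map_add]; abel
    rw [this]
    exact sub_mem (add_mem h2 h3) h1
  have hEsmul : ∀ (c : 𝒪) x, E (c • x) = c • E x := by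
    intro c x
    apply huniq
    intro m
    have h1 := hE (c • x) m
    have h2 := (Sm 𝒪 X m).smul_mem c (hE x m)
    have : E (c • x) - c • E x
        = c • ((f ^ n m) x - E x) - ((f ^ n m) (c • x) - E (c • x)) := by
      rw [map_smul, smul_sub]; abel
    rw [this]
    exact sub_mem h2 h1
  let EL : Module.End 𝒪 X :=
    { toFun := E
      map_add' := hEadd
      map_smul' := hEsmul }
  have hEL : ∀ x, EL x = E x := fun _ => rfl
  -- `E` commutes with the commutant
  have hEcomm : ∀ g : Module.End 𝒪 X, Commute g f → ∀ x, g (E x) = E (g x) := by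
    intro g hg x
    apply huniq
    intro m
    have h1 : g ((f ^ n m) x - E x) ∈ Sm 𝒪 X m := map_mem_Sm g m (hE x m)
    have h2 := hE (g x) m
    have hc : g ((f ^ n m) x) = (f ^ n m) (g x) := by
      have := (hg.pow_right (n m)).eq
      exact congrArg (fun u : Module.End 𝒪 X => u x) this
    have : g (E x) - E (g x) = ((f ^ n m) (g x) - E (g x)) - g ((f ^ n m) x - E x) := by
      rw [map_sub, hc]; abel
    rw [this]
    exact sub_mem h2 h1
  -- `E` is idempotent
  have hEE : ∀ x, E (E x) = E x := by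
    intro x
    apply huniq
    intro m
    have h1 := hE (E x) m
    have h2 : (f ^ n m) ((f ^ n m) x - E x) ∈ Sm 𝒪 X m := map_mem_Sm _ m (hE x m)
    have h3 : (f ^ (n m + n m)) x - (f ^ n m) x ∈ Sm 𝒪 X m := hn m x
    have h4 := hE x m
    have e : (f ^ (n m + n m)) x = (f ^ n m) ((f ^ n m) x) := by
      rw [pow_add, Module.End.mul_apply]
    have : E (E x) - E x
        = ((f ^ (n m + n m)) x - (f ^ n m) x) + ((f ^ n m) x - E x)
          - (f ^ n m) ((f ^ n m) x - E x) - ((f ^ n m) (E x) - E (E x)) := by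
      rw [e, map_sub]; abel
    rw [this]
    exact sub_mem (sub_mem (add_mem h3 h4) h2) h1
  refine ⟨1 - EL, ?_, ?_, ?_⟩
  · have : EL * EL = EL := LinearMap.ext fun x => hEE x
    rw [mul_sub, sub_mul, sub_mul, this]
    simp
  · intro g hg
    have hgE : Commute g EL := LinearMap.ext fun x => hEcomm g hg x
    exact (Commute.one_right g).sub_right hgE
  · intro x
    have hfix : (1 - EL) x = x ↔ E x = 0 := by
      rw [LinearMap.sub_apply, Module.End.one_apply, hEL, sub_eq_self]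
    rw [hfix]
    constructor
    · intro h0 m
      refine ⟨n m, ?_⟩
      have := hE x m
      rwa [h0, sub_zero] at this
    · intro h
      apply huniq
      intro m
      rw [sub_zero]
      obtain ⟨k, hk⟩ := h m
      -- `f^(n m) x ∈ S m`
      have h1 : (f ^ ((k + 1) * n m)) x ∈ Sm 𝒪 X m := by
        have hge : k ≤ (k + 1) * n m := by
          have := hn0 m
          nlinarith
        obtain ⟨c, hc⟩ : ∃ c, (k + 1) * n m = c + k := ⟨(k + 1) * n m - k, by omega⟩
        rw [hc, pow_add, Module.End.mul_apply]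
        exact map_mem_Sm _ m hk
      have h2 := idem_mul f m (n m) (hn m) k x
      have h3 : (f ^ n m) x ∈ Sm 𝒪 X m := by
        have := sub_mem h1 h2
        simpa using this
      have h4 := hE x m
      have := sub_mem h3 h4
      simpa using this

end Fit

/-- **FIT**. -/
theorem stmt_FIT : Stmt_FIT := by
  intro 𝒪 _ _ _ _ _ X _ _ _ _ f
  exact fit f

end Fermat.Agent.S59.NonMin.Geom.H12
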