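import Fermat.Agent.S59.NonMin.Geom.H61_Deg3Leaves
import Fermat.Agent.S59.NonMin.Geom.H48_AsmGLat
import Fermat.Agent.S59.NonMin.Geom.H61_BM
import Fermat.Agent.S59.NonMin.Geom.H12_Fit

/-!
# S59 / NMGEOM, assembly ASM-G / DEG3, sub-leaf PROJQ (helper30)

`stmt_PROJQ : Geom.Stmt_PROJQ`: the projector of the anemic lattice
`X = InBetti 𝒪 N (insert q S) θ' Sig` (no condition at `T_q`) onto the lattice
`L = InBetti 𝒪 N S θ Sig`.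

Proof: `Stmt_BM` at `(N, insert q S, θ', Sig)` realises `X` as a finite free module; the `T_ℓ`
(`ℓ ∤ N`) act on `X` (`H48.inBetti_map`, `H53.TB_TB_comm`, `H53.UB_TB_comm`); `H12.fit` for
`f := T_q - a₀` gives an idempotent `π₀` commuting with the `T_ℓ` whose fixed points are the
vectors local at `q`; the lattice is saturated (`H48.exists_inBetti_smul`), so
`𝔪^m X = X ∩ Mval m`.

* `exists_lift_end` : lift of an operator along an injective linear map with stable range;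
* `projq_core`      : the strong form for a given realisation `ι : X → Hom(Γ₀(N), 𝒪)`;
* `projq_strong`    : the strong form (commutation with `T_ℓ` for ALL `ℓ ∤ N`, values in `𝔪^m`
                      are preserved for all `m`);
* `stmt_PROJQ`      : the leaf;
* `projq_rest`      : the form with a restriction map `rest₀` (`θ' = θ ∘ rest₀`).
-/

set_option autoImplicit false

open Polynomial CuspForm CongruenceSubgroup IsLocalRing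
open scoped MatrixGroups

namespace Fermat.Agent.S59.NonMin.Geom.H30P

open Fermat.Agent.S41 Fermat.Agent.Betti Fermat.Agent.S59 Fermat.Agent.S59.Asm
  Fermat.Agent.S59.NonMin Fermat.Agent.S59.NonMin.Geom
open ModularCurve.Period

/-! ## 1. Abstract lemmas -/

section Abs

variable {𝒪 : Type} [CommRing 𝒪] {X Y : Type} [AddCommGroup X] [Module 𝒪 X]
  [AddCommGroup Y] [Module 𝒪 Y]

/-- Lift of an operator along an injective linear map with stable range. -/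
theorem exists_lift_end (ι : X →ₗ[𝒪] Y) (hinj : Function.Injective ι) (Φ : Module.End 𝒪 Y)
    (h : ∀ x, ∃ y, ι y = Φ (ι x)) : ∃ Ψ : Module.End 𝒪 X, ∀ x, ι (Ψ x) = Φ (ι x) := by
  choose g hg using h
  refine ⟨{ toFun := g, map_add' := ?_, map_smul' := ?_ }, fun x => hg x⟩
  · intro x y
    apply hinj
    rw [hg, map_add, map_add, map_add, hg, hg]
  · intro c x
    apply hinj
    rw [RingHom.id_apply, hg, map_smul, map_smul, map_smul, hg]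

/-- The lift of a power. -/
theorem lift_pow (ι : X →ₗ[𝒪] Y) (Φ : Module.End 𝒪 Y) (Ψ : Module.End 𝒪 X)
    (h : ∀ x, ι (Ψ x) = Φ (ι x)) (n : ℕ) (x : X) : ι ((Ψ ^ n) x) = (Φ ^ n) (ι x) := by
  induction n with
  | zero => rfl
  | succ n ih => rw [pow_succ', Module.End.mul_apply, h, ih, pow_succ', Module.End.mul_apply]

end Abs

/-! ## 2. The core -/

section Core

variable {𝒪 : Type} [CommRing 𝒪] [IsDomain 𝒪] [IsDiscreteValuationRing 𝒪]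
  [IsAdicComplete (maximalIdeal 𝒪) 𝒪] [Finite (ResidueField 𝒪)] [CharZero 𝒪]
  {N : ℕ} [NeZero N]

omit [IsAdicComplete (maximalIdeal 𝒪) 𝒪] [Finite (ResidueField 𝒪)] [CharZero 𝒪] [NeZero N] in
/-- `𝔪^m X ⊆ X ∩ Mval m`. -/
theorem map_mem_Mval_of_mem {X : Type} [AddCommGroup X] [Module 𝒪 X]
    (ι : X →ₗ[𝒪] (Additive (Gamma0 N) →+ 𝒪)) (m : ℕ) {x : X}
    (hx : x ∈ (maximalIdeal 𝒪 ^ m • ⊤ : Submodule 𝒪 X)) :
    ι x ∈ H48.Mval 𝒪 (Additive (Gamma0 N)) m := by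
  refine Submodule.smul_induction_on hx (fun c hc y _ => ?_) (fun a b ha hb => ?_)
  · rw [map_smul]
    exact H48.smul_mem_Mval hc _
  · rw [map_add]
    exact Submodule.add_mem _ ha hb


omit [IsDomain 𝒪] [IsDiscreteValuationRing 𝒪] [IsAdicComplete (maximalIdeal 𝒪) 𝒪]
  [Finite (ResidueField 𝒪)] [CharZero 𝒪] [NeZero N] in
theorem loc_transport [IsLocalRing 𝒪] {ℓ q : ℕ} (h : ℓ = q) (hℓ : ℓ.Prime) (hℓN : ¬ ℓ ∣ N)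
    (hq : q.Prime) (hqN : ¬ q ∣ N) (a : 𝒪) (φ : Additive (Gamma0 N) →+ 𝒪)
    (hl : H48.Loc N hq hqN a φ) : H48.Loc N hℓ hℓN a φ := by
  subst h
  exact hl

omit [IsDomain 𝒪] [IsDiscreteValuationRing 𝒪] [IsAdicComplete (maximalIdeal 𝒪) 𝒪]
  [Finite (ResidueField 𝒪)] [CharZero 𝒪] in
theorem T_transport {S : Set ℕ} {ℓ q : ℕ} (h : ℓ = q) (hℓ : ℓ.Prime) (hℓN : ¬ ℓ ∣ N)
    (hℓS : ℓ ∉ S) (hq : q.Prime) (hqN : ¬ q ∣ N) (hqS : q ∉ S) :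
    (CuspForm.heckeAlgebra.T hℓ hℓN hℓS : CuspForm.heckeAlgebra N 2 S) =
      CuspForm.heckeAlgebra.T hq hqN hqS := by
  subst h
  rfl

/-- **PROJQ**, strong form, for a given realisation `ι` of the anemic lattice. -/
theorem projq_core (S : Finset ℕ)
    (θ : CuspForm.heckeAlgebra N 2 (↑S : Set ℕ) →+* ResidueField 𝒪) (Sig : Finset ℕ)
    (hSig : ∀ r ∈ Sig, r.Prime) {q : ℕ} (hq : q.Prime) (hqN : ¬ q ∣ N) (hqS : q ∉ (↑S : Set ℕ))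
    (θ' : CuspForm.heckeAlgebra N 2 (↑(insert q S) : Set ℕ) →+* ResidueField 𝒪)
    (hθ' : ∀ (ℓ : ℕ) (hℓ : ℓ.Prime) (hℓN : ¬ ℓ ∣ N) (hℓS' : ℓ ∉ (↑(insert q S) : Set ℕ))
      (hℓS : ℓ ∉ (↑S : Set ℕ)),
      θ' (CuspForm.heckeAlgebra.T hℓ hℓN hℓS') = θ (CuspForm.heckeAlgebra.T hℓ hℓN hℓS))
    {X : Type} [AddCommGroup X] [Module 𝒪 X] [Module.Finite 𝒪 X]
    (ι : X →ₗ[𝒪] (Additive (Gamma0 N) →+ 𝒪)) (hinj : Function.Injective ι)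
    (hrange : ∀ φ, φ ∈ Set.range ι ↔ InBetti 𝒪 N (↑(insert q S) : Set ℕ) θ' Sig φ) :
    ∃ P : (Additive (Gamma0 N) →+ 𝒪) → (Additive (Gamma0 N) →+ 𝒪),
      (∀ φ, InBetti 𝒪 N (↑(insert q S) : Set ℕ) θ' Sig φ →
        InBetti 𝒪 N (↑S : Set ℕ) θ Sig (P φ)) ∧
      (∀ φ, InBetti 𝒪 N (↑S : Set ℕ) θ Sig φ → P φ = φ) ∧
      (∀ φ ψ, InBetti 𝒪 N (↑(insert q S) : Set ℕ) θ' Sig φ →
        InBetti 𝒪 N (↑(insert q S) : Set ℕ) θ' Sig ψ → P (φ + ψ) = P φ + P ψ) ∧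
      (∀ (c : 𝒪) φ, InBetti 𝒪 N (↑(insert q S) : Set ℕ) θ' Sig φ → P (c • φ) = c • P φ) ∧
      (∀ (ℓ : ℕ) (hℓ : ℓ.Prime) (hℓN : ¬ ℓ ∣ N) φ,
        InBetti 𝒪 N (↑(insert q S) : Set ℕ) θ' Sig φ →
          InBetti 𝒪 N (↑(insert q S) : Set ℕ) θ' Sig (TB N 𝒪 hℓ hℓN φ) ∧
          P (TB N 𝒪 hℓ hℓN φ) = TB N 𝒪 hℓ hℓN (P φ)) ∧
      (∀ (m : ℕ) φ, InBetti 𝒪 N (↑(insert q S) : Set ℕ) θ' Sig φ →
        φ ∈ H48.Mval 𝒪 (Additive (Gamma0 N)) m → P φ ∈ H48.Mval 𝒪 (Additive (Gamma0 N)) m) ∧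
      (∀ φ, InBetti 𝒪 N (↑S : Set ℕ) θ Sig φ →
        InBetti 𝒪 N (↑(insert q S) : Set ℕ) θ' Sig φ) := by
  classical
  obtain ⟨ϖ, hϖ⟩ := IsDiscreteValuationRing.exists_irreducible 𝒪
  have hS_of : ∀ ℓ : ℕ, ℓ ∉ (↑(insert q S) : Set ℕ) → ℓ ∉ (↑S : Set ℕ) := fun ℓ h hmem =>
    h (Finset.mem_coe.mpr (Finset.mem_insert_of_mem (Finset.mem_coe.mp hmem)))
  have hX : ∀ x, InBetti 𝒪 N (↑(insert q S) : Set ℕ) θ' Sig (ι x) :=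
    fun x => (hrange _).mp ⟨x, rfl⟩
  have hXinv : ∀ φ, InBetti 𝒪 N (↑(insert q S) : Set ℕ) θ' Sig φ → ∃ x, ι x = φ :=
    fun φ h => (hrange φ).mpr h
  -- the lattice of `(N, S)` lies in the anemic lattice
  have hLX : ∀ φ, InBetti 𝒪 N (↑S : Set ℕ) θ Sig φ →
      InBetti 𝒪 N (↑(insert q S) : Set ℕ) θ' Sig φ := fun φ hφ =>
    ⟨hφ.1, hφ.2.1, fun ℓ hℓ hℓN hℓS' a ha =>
      hφ.2.2 ℓ hℓ hℓN (hS_of ℓ hℓS') a (ha.trans (hθ' ℓ hℓ hℓN hℓS' (hS_of ℓ hℓS')))⟩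
  -- stability under the `T_ℓ`
  have hst : ∀ (ℓ : ℕ) (hℓ : ℓ.Prime) (hℓN : ¬ ℓ ∣ N) φ,
      InBetti 𝒪 N (↑(insert q S) : Set ℕ) θ' Sig φ →
      InBetti 𝒪 N (↑(insert q S) : Set ℕ) θ' Sig (TB N 𝒪 hℓ hℓN φ) := by
    intro ℓ hℓ hℓN φ hφ
    exact H48.inBetti_map (H48.TBl 𝒪 N hℓ hℓN) (fun φ hφ => H53.TB_par 𝒪 hℓ hℓN φ hφ)
      (fun r hr hr₂ => ⟨hr₂, fun φ hφ => H53.UB_TB_comm 𝒪 (hSig r hr) hr₂ hℓ hℓN φ hφ⟩)
      (fun ℓ' hℓ' hℓ'N hℓ'S => ⟨hℓ'N, hℓ'S, rfl,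
        fun φ hφ => H53.TB_TB_comm 𝒪 hℓ' hℓ'N hℓ hℓN φ hφ⟩) hφ
  -- the lifts of the `T_ℓ`
  have hlift : ∀ (ℓ : ℕ) (hℓ : ℓ.Prime) (hℓN : ¬ ℓ ∣ N),
      ∃ Ψ : Module.End 𝒪 X, ∀ x, ι (Ψ x) = TB N 𝒪 hℓ hℓN (ι x) :=
    fun ℓ hℓ hℓN => exists_lift_end ι hinj (H48.TBl 𝒪 N hℓ hℓN)
      (fun x => hXinv _ (hst ℓ hℓ hℓN _ (hX x)))
  obtain ⟨Tq, hTq⟩ := hlift q hq hqN
  obtain ⟨a₀, ha₀⟩ := IsLocalRing.residue_surjective (θ (CuspForm.heckeAlgebra.T hq hqN hqS))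
  have hfι : ∀ x, ι ((Tq - a₀ • (1 : Module.End 𝒪 X)) x) = H48.Dl 𝒪 N hq hqN a₀ (ι x) := by
    intro x
    rw [LinearMap.sub_apply, LinearMap.smul_apply, Module.End.one_apply, map_sub, map_smul,
      hTq, H48.Dl_apply]
  have hfpow : ∀ (n : ℕ) (x : X), ι (((Tq - a₀ • (1 : Module.End 𝒪 X)) ^ n) x) =
      (H48.Dl 𝒪 N hq hqN a₀ ^ n) (ι x) :=
    fun n x => lift_pow ι _ _ hfι n x
  obtain ⟨π₀, hidem, hcomm, hfix⟩ := H12.fit (Tq - a₀ • (1 : Module.End 𝒪 X))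
  -- saturation
  have hsat : ∀ (m : ℕ) (x : X), ι x ∈ H48.Mval 𝒪 (Additive (Gamma0 N)) m →
      x ∈ (maximalIdeal 𝒪 ^ m • ⊤ : Submodule 𝒪 X) := by
    intro m x hx
    obtain ⟨φ', h1, h2⟩ := H48.exists_inBetti_smul hϖ (hX x) hx
    obtain ⟨x', rfl⟩ := hXinv φ' h2
    have hxx : x = ϖ ^ m • x' := hinj (by rw [h1, map_smul])
    rw [hxx]
    refine Submodule.smul_mem_smul ?_ Submodule.mem_top
    rw [H48.maxPow_eq hϖ]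
    exact Ideal.mem_span_singleton_self _
  have hfix' : ∀ x, π₀ x = x ↔ H48.Loc N hq hqN a₀ (ι x) := by
    intro x
    rw [hfix]
    constructor
    · intro h m
      obtain ⟨n, hn⟩ := h m
      refine ⟨n, ?_⟩
      rw [← hfpow]
      exact map_mem_Mval_of_mem ι m hn
    · intro h m
      obtain ⟨n, hn⟩ := h m
      refine ⟨n, hsat m _ ?_⟩
      rw [hfpow]
      exact hn
  -- the inverse of `ι`
  obtain ⟨inv, hinv⟩ : ∃ inv : (Additive (Gamma0 N) →+ 𝒪) → X,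
      ∀ φ, InBetti 𝒪 N (↑(insert q S) : Set ℕ) θ' Sig φ → ι (inv φ) = φ := by
    refine ⟨fun φ => if h : ∃ x, ι x = φ then h.choose else 0, fun φ hφ => ?_⟩
    have h := hXinv φ hφ
    show ι (if h : ∃ x, ι x = φ then h.choose else 0) = φ
    rw [dif_pos h]
    exact h.choose_spec
  have hinv_add : ∀ φ ψ, InBetti 𝒪 N (↑(insert q S) : Set ℕ) θ' Sig φ →
      InBetti 𝒪 N (↑(insert q S) : Set ℕ) θ' Sig ψ → inv (φ + ψ) = inv φ + inv ψ := by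
    intro φ ψ hφ hψ
    have h1 : InBetti 𝒪 N (↑(insert q S) : Set ℕ) θ' Sig (φ + ψ) :=
      (hrange _).mp ⟨inv φ + inv ψ, by rw [map_add, hinv φ hφ, hinv ψ hψ]⟩
    apply hinj
    rw [hinv _ h1, map_add, hinv φ hφ, hinv ψ hψ]
  have hinv_smul : ∀ (c : 𝒪) φ, InBetti 𝒪 N (↑(insert q S) : Set ℕ) θ' Sig φ →
      inv (c • φ) = c • inv φ := by
    intro c φ hφ
    have h1 : InBetti 𝒪 N (↑(insert q S) : Set ℕ) θ' Sig (c • φ) :=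
      (hrange _).mp ⟨c • inv φ, by rw [map_smul, hinv φ hφ]⟩
    apply hinj
    rw [hinv _ h1, map_smul, hinv φ hφ]
  refine ⟨fun φ => ι (π₀ (inv φ)), ?_, ?_, ?_, ?_, ?_, ?_, hLX⟩
  · -- the image lies in the lattice of `(N, S)`
    intro φ hφ
    show InBetti 𝒪 N (↑S : Set ℕ) θ Sig (ι (π₀ (inv φ)))
    have h1 := hX (π₀ (inv φ))
    rw [H48.inBetti_iff] at h1 ⊢
    obtain ⟨hp, hu, hl⟩ := h1
    refine ⟨hp, hu, ?_⟩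
    intro ℓ hℓ hℓN hℓS a ha
    by_cases hℓq : ℓ = q
    · have h2 : H48.Loc N hq hqN a₀ (ι (π₀ (inv φ))) :=
        (hfix' _).mp (by rw [← Module.End.mul_apply, hidem])
      have h3 : residue 𝒪 a = residue 𝒪 a₀ := by
        rw [ha, ha₀, T_transport hℓq hℓ hℓN hℓS hq hqN hqS]
      have h4 : a₀ - a ∈ maximalIdeal 𝒪 := by
        rw [← IsLocalRing.residue_eq_zero_iff, map_sub, h3, sub_self]
      exact loc_transport hℓq hℓ hℓN hq hqN a _ (H48.loc_of_loc hq hqN h4 h2)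
    · have hℓS' : ℓ ∉ (↑(insert q S) : Set ℕ) := fun hmem => by
        rcases Finset.mem_insert.mp (Finset.mem_coe.mp hmem) with h | h
        · exact hℓq h
        · exact hℓS (Finset.mem_coe.mpr h)
      exact hl ℓ hℓ hℓN hℓS' a (ha.trans (hθ' ℓ hℓ hℓN hℓS' hℓS).symm)
  · -- the lattice of `(N, S)` is fixed
    intro φ hφ
    show ι (π₀ (inv φ)) = φ
    have hφX := hLX φ hφ
    have h2 : π₀ (inv φ) = inv φ := by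
      rw [hfix', hinv φ hφX]
      exact (H48.inBetti_iff.mp hφ).2.2 q hq hqN hqS a₀ ha₀
    rw [h2, hinv φ hφX]
  · intro φ ψ hφ hψ
    show ι (π₀ (inv (φ + ψ))) = ι (π₀ (inv φ)) + ι (π₀ (inv ψ))
    rw [hinv_add φ ψ hφ hψ, map_add, map_add]
  · intro c φ hφ
    show ι (π₀ (inv (c • φ))) = c • ι (π₀ (inv φ))
    rw [hinv_smul c φ hφ, map_smul, map_smul]
  · intro ℓ hℓ hℓN φ hφ
    refine ⟨hst ℓ hℓ hℓN φ hφ, ?_⟩
    show ι (π₀ (inv (TB N 𝒪 hℓ hℓN φ))) = TB N 𝒪 hℓ hℓN (ι (π₀ (inv φ)))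
    obtain ⟨Tℓ, hTℓ⟩ := hlift ℓ hℓ hℓN
    have hTT : Commute Tℓ Tq := by
      apply LinearMap.ext
      intro x
      apply hinj
      rw [Module.End.mul_apply, Module.End.mul_apply, hTℓ, hTq, hTq, hTℓ]
      exact H53.TB_TB_comm 𝒪 hℓ hℓN hq hqN (ι x) (hX x).1
    have hc : Commute Tℓ (Tq - a₀ • (1 : Module.End 𝒪 X)) :=
      hTT.sub_right ((Commute.one_right Tℓ).smul_right a₀)
    have hcπ := hcomm Tℓ hc
    have h1 : inv (TB N 𝒪 hℓ hℓN φ) = Tℓ (inv φ) := by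
      apply hinj
      rw [hinv _ (hst ℓ hℓ hℓN φ hφ), hTℓ, hinv φ hφ]
    have h2 : π₀ (Tℓ (inv φ)) = Tℓ (π₀ (inv φ)) := by
      have := LinearMap.congr_fun hcπ.eq (inv φ)
      rw [Module.End.mul_apply, Module.End.mul_apply] at this
      exact this.symm
    rw [h1, h2, hTℓ]
  · intro m φ hφ hm
    show ι (π₀ (inv φ)) ∈ H48.Mval 𝒪 (Additive (Gamma0 N)) m
    apply map_mem_Mval_of_mem ι m
    refine H12.map_mem_Sm π₀ m (hsat m _ ?_)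
    rw [hinv φ hφ]
    exact hm

end Core

/-! ## 3. The leaf -/

/-- **PROJQ**, strong form: the projector commutes with `T_ℓ` for ALL `ℓ ∤ N` (including
`ℓ = q` and `ℓ ∈ S`), preserves the homomorphisms with values in `𝔪^m` for every `m`, and the
lattice of `(N, S)` lies in the anemic lattice. -/
theorem projq_strong (𝒪 : Type) [CommRing 𝒪] [IsDomain 𝒪] [IsDiscreteValuationRing 𝒪]
    [IsAdicComplete (maximalIdeal 𝒪) 𝒪] [Finite (ResidueField 𝒪)] [CharZero 𝒪]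
    (N : ℕ) [NeZero N] (S : Finset ℕ) (hNS : ∀ r : ℕ, r.Prime → r ∣ N → r ∈ S)
    (θ : CuspForm.heckeAlgebra N 2 (↑S : Set ℕ) →+* ResidueField 𝒪) (Sig : Finset ℕ)
    (hSig : ∀ r ∈ Sig, r.Prime) {q : ℕ} (hq : q.Prime) (hqN : ¬ q ∣ N) (hqS : q ∉ (↑S : Set ℕ))
    (θ' : CuspForm.heckeAlgebra N 2 (↑(insert q S) : Set ℕ) →+* ResidueField 𝒪)
    (hθ' : ∀ (ℓ : ℕ) (hℓ : ℓ.Prime) (hℓN : ¬ ℓ ∣ N) (hℓS' : ℓ ∉ (↑(insert q S) : Set ℕ))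
      (hℓS : ℓ ∉ (↑S : Set ℕ)),
      θ' (CuspForm.heckeAlgebra.T hℓ hℓN hℓS') = θ (CuspForm.heckeAlgebra.T hℓ hℓN hℓS)) :
    ∃ P : (Additive (Gamma0 N) →+ 𝒪) → (Additive (Gamma0 N) →+ 𝒪),
      (∀ φ, InBetti 𝒪 N (↑(insert q S) : Set ℕ) θ' Sig φ →
        InBetti 𝒪 N (↑S : Set ℕ) θ Sig (P φ)) ∧
      (∀ φ, InBetti 𝒪 N (↑S : Set ℕ) θ Sig φ → P φ = φ) ∧
      (∀ φ ψ, InBetti 𝒪 N (↑(insert q S) : Set ℕ) θ' Sig φ →
        InBetti 𝒪 N (↑(insert q S) : Set ℕ) θ' Sig ψ → P (φ + ψ) = P φ + P ψ) ∧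
      (∀ (c : 𝒪) φ, InBetti 𝒪 N (↑(insert q S) : Set ℕ) θ' Sig φ → P (c • φ) = c • P φ) ∧
      (∀ (ℓ : ℕ) (hℓ : ℓ.Prime) (hℓN : ¬ ℓ ∣ N) φ,
        InBetti 𝒪 N (↑(insert q S) : Set ℕ) θ' Sig φ →
          InBetti 𝒪 N (↑(insert q S) : Set ℕ) θ' Sig (TB N 𝒪 hℓ hℓN φ) ∧
          P (TB N 𝒪 hℓ hℓN φ) = TB N 𝒪 hℓ hℓN (P φ)) ∧
      (∀ (m : ℕ) φ, InBetti 𝒪 N (↑(insert q S) : Set ℕ) θ' Sig φ →
        φ ∈ H48.Mval 𝒪 (Additive (Gamma0 N)) m → P φ ∈ H48.Mval 𝒪 (Additive (Gamma0 N)) m) ∧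
      (∀ φ, InBetti 𝒪 N (↑S : Set ℕ) θ Sig φ →
        InBetti 𝒪 N (↑(insert q S) : Set ℕ) θ' Sig φ) := by
  obtain ⟨MX, ι, hinj, hrange, -⟩ := H61.stmt_BM 𝒪 N (insert q S)
    (fun r hr hrN => Finset.mem_insert_of_mem (hNS r hr hrN)) θ' Sig hSig
  exact projq_core S θ Sig hSig hq hqN hqS θ' hθ' ι hinj hrange

/-- **PROJQ**. -/
theorem stmt_PROJQ : Stmt_PROJQ := by
  intro 𝒪 _ _ _ _ _ _ N _ S hNS θ Sig hSig q hq hqN hqS θ' hθ'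
  obtain ⟨P, h1, h2, h3, h4, h5, h6, -⟩ :=
    projq_strong 𝒪 N S hNS θ Sig hSig hq hqN hqS θ' hθ'
  refine ⟨P, h1, h2, h3, h4, fun ℓ hℓ hℓN _ φ hφ => h5 ℓ hℓ hℓN φ hφ, fun φ hφ hm γ => ?_⟩
  have h7 := h6 1 φ hφ (fun γ => by rw [pow_one]; exact hm γ) γ
  rwa [pow_one] at h7

/-- **PROJQ** with a restriction map `rest₀` of the Hecke algebras (`θ' = θ ∘ rest₀`);
the form asked for by the assembly `deg3_of` (helper48). -/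
theorem projq_rest (𝒪 : Type) [CommRing 𝒪] [IsDomain 𝒪] [IsDiscreteValuationRing 𝒪]
    [IsAdicComplete (maximalIdeal 𝒪) 𝒪] [Finite (ResidueField 𝒪)] [CharZero 𝒪]
    (N : ℕ) [NeZero N] (S : Finset ℕ) (hNS : ∀ r : ℕ, r.Prime → r ∣ N → r ∈ S)
    (θ : CuspForm.heckeAlgebra N 2 (↑S : Set ℕ) →+* ResidueField 𝒪) (Sig : Finset ℕ)
    (hSig : ∀ r ∈ Sig, r.Prime) {q : ℕ} (hq : q.Prime) (hqN : ¬ q ∣ N) (hqS : q ∉ (↑S : Set ℕ))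
    (rest₀ : CuspForm.heckeAlgebra N 2 (↑(insert q S) : Set ℕ) →+*
      CuspForm.heckeAlgebra N 2 (↑S : Set ℕ))
    (hrest : ∀ (ℓ : ℕ) (hℓ : ℓ.Prime) (hℓN : ¬ ℓ ∣ N) (hℓS' : ℓ ∉ (↑(insert q S) : Set ℕ))
      (hℓS : ℓ ∉ (↑S : Set ℕ)),
      rest₀ (CuspForm.heckeAlgebra.T hℓ hℓN hℓS') = CuspForm.heckeAlgebra.T hℓ hℓN hℓS) :
    ∃ P : (Additive (Gamma0 N) →+ 𝒪) → (Additive (Gamma0 N) →+ 𝒪),
      (∀ φ, InBetti 𝒪 N (↑(insert q S) : Set ℕ) (θ.comp rest₀) Sig φ →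
        InBetti 𝒪 N (↑S : Set ℕ) θ Sig (P φ)) ∧
      (∀ φ, InBetti 𝒪 N (↑S : Set ℕ) θ Sig φ → P φ = φ) ∧
      (∀ φ ψ, InBetti 𝒪 N (↑(insert q S) : Set ℕ) (θ.comp rest₀) Sig φ →
        InBetti 𝒪 N (↑(insert q S) : Set ℕ) (θ.comp rest₀) Sig ψ → P (φ + ψ) = P φ + P ψ) ∧
      (∀ (c : 𝒪) φ, InBetti 𝒪 N (↑(insert q S) : Set ℕ) (θ.comp rest₀) Sig φ →
        P (c • φ) = c • P φ) ∧
      (∀ (ℓ : ℕ) (hℓ : ℓ.Prime) (hℓN : ¬ ℓ ∣ N) φ,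
        InBetti 𝒪 N (↑(insert q S) : Set ℕ) (θ.comp rest₀) Sig φ →
          InBetti 𝒪 N (↑(insert q S) : Set ℕ) (θ.comp rest₀) Sig (TB N 𝒪 hℓ hℓN φ) ∧
          P (TB N 𝒪 hℓ hℓN φ) = TB N 𝒪 hℓ hℓN (P φ)) ∧
      (∀ (m : ℕ) φ, InBetti 𝒪 N (↑(insert q S) : Set ℕ) (θ.comp rest₀) Sig φ →
        φ ∈ H48.Mval 𝒪 (Additive (Gamma0 N)) m → P φ ∈ H48.Mval 𝒪 (Additive (Gamma0 N)) m) ∧
      (∀ φ, InBetti 𝒪 N (↑S : Set ℕ) θ Sig φ →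
        InBetti 𝒪 N (↑(insert q S) : Set ℕ) (θ.comp rest₀) Sig φ) :=
  projq_strong 𝒪 N S hNS θ Sig hSig hq hqN hqS (θ.comp rest₀)
    (fun ℓ hℓ hℓN hℓS' hℓS => by rw [RingHom.comp_apply, hrest ℓ hℓ hℓN hℓS' hℓS])

end Fermat.Agent.S59.NonMin.Geom.H30P
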