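import Mathlib
import Fermat.Agent.S59.NonMin.Geom.Defs

/-!
# S59 NMGEOM, assembly ASM-G / DEG3: function-level sub-leaves (planner helper61)

The first half of the assembly (`Geom.H48.Stmt_DEG3`, helper48) is split into statements about
homomorphisms `Γ₀(N) → 𝒪` (no `HMod`, no structure):

* `Stmt_INBMAP`   : a linear map between the `Hom`s which preserves parabolic homomorphisms and
                    intertwines the `U_r` (`r ∈ Sig`) and the `T_ℓ` maps `InBetti` to `InBetti`;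
* `Stmt_IHARAFLD` : Ihara's lemma on the lattice, three-vector form:
                    `A₁ φ₁ + A₂ φ₂ + A₃ φ₃ ≡ 0 mod 𝔪` ⟹ `φ_i ≡ 0 mod 𝔪` for `φ_i` in the lattice;
* `Stmt_PROJQ`    : the projector `π` of the anemic lattice of level `N` away from `S ∪ {q}` onto
                    the lattice away from `S` (`Stmt_BM` + `Stmt_FIT`);
* `Stmt_SPLITFLD` : `L' = ker U_q + im U_q` on the lattice of level `N q²` (`Stmt_RELSPLIT`).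

Definitions only; no `sorry`.
-/

set_option autoImplicit false

open Polynomial CuspForm CongruenceSubgroup IsLocalRing
open scoped MatrixGroups

namespace Fermat.Agent.S59.NonMin.Geom

open Fermat.Agent.S41 Fermat.Agent.Betti Fermat.Agent.S59 Fermat.Agent.S59.Asm
open ModularCurve.Period

/-- **INB-MAP**: an `𝒪`-linear map `F : Hom(Γ₀(N), 𝒪) → Hom(Γ₀(N'), 𝒪)` which preserves
parabolic homomorphisms and intertwines (on parabolic homomorphisms) the `U_r`, `r ∈ Sig`, and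
the `T_ℓ`, `ℓ ∤ N'`, `ℓ ∉ S'`, maps the lattice `InBetti 𝒪 N S θ Sig` into
`InBetti 𝒪 N' S' θ' Sig`.
[`(T' - a)^n (F φ) = F ((T - a)^n φ)`; a homomorphism with values in `𝔪^m` is `ϖ^m ψ`
(`H61.hom_div`), and `F (ϖ^m ψ) = ϖ^m F ψ`.] -/
def Stmt_INBMAP : Prop :=
  ∀ (𝒪 : Type) [CommRing 𝒪] [IsDomain 𝒪] [IsDiscreteValuationRing 𝒪]
    (N N' : ℕ) [NeZero N] [NeZero N'] (S S' : Set ℕ)
    (θ : CuspForm.heckeAlgebra N 2 S →+* ResidueField 𝒪)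
    (θ' : CuspForm.heckeAlgebra N' 2 S' →+* ResidueField 𝒪) (Sig : Finset ℕ)
    (F : (Additive (Gamma0 N) →+ 𝒪) →+ (Additive (Gamma0 N') →+ 𝒪)),
    (∀ (c : 𝒪) φ, F (c • φ) = c • F φ) →
    (∀ φ, IsParabolicHom (Gamma0 N) φ → IsParabolicHom (Gamma0 N') (F φ)) →
    (∀ r ∈ Sig, ∀ hr' : r ∣ N', ∃ hr : r ∣ N, ∀ φ, IsParabolicHom (Gamma0 N) φ →
      UB N' 𝒪 hr' (F φ) = F (UB N 𝒪 hr φ)) →
    (∀ (ℓ : ℕ) (hℓ : ℓ.Prime) (hℓN' : ¬ ℓ ∣ N') (hℓS' : ℓ ∉ S'),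
      ∃ (hℓN : ¬ ℓ ∣ N) (hℓS : ℓ ∉ S),
        θ' (CuspForm.heckeAlgebra.T hℓ hℓN' hℓS') = θ (CuspForm.heckeAlgebra.T hℓ hℓN hℓS) ∧
        ∀ φ, IsParabolicHom (Gamma0 N) φ →
          TB N' 𝒪 hℓ hℓN' (F φ) = F (TB N 𝒪 hℓ hℓN φ)) →
    ∀ φ, InBetti 𝒪 N S θ Sig φ → InBetti 𝒪 N' S' θ' Sig (F φ)

/-- **IHARA-FLD** (three-vector Ihara on the lattice): for `φ₁, φ₂, φ₃` in the Betti lattice of
`(N, S, θ, Sig)`, if `A₁ φ₁ + A₂ φ₂ + A₃ φ₃` has values in `𝔪` then so have `φ₁, φ₂, φ₃`.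
[Reduction mod `𝔪`: `redB φ_i` are cuspidal, `T_ℓ - θ(T_ℓ)` is nilpotent on them
(`ℓ ∉ S`, `ℓ ∤ N`); `K' := {(x₁, x₂, x₃) ∈ X̄³ : A₁ x₁ + A₂ x₂ + A₃ x₃ = 0}`, `X̄` the reduction of
the lattice (finite dimensional: `Stmt_BM`), is stable under the diagonal `T_ℓ`, `ℓ ∉ S ∪ {q}`
(`Stmt_RELT` with coefficients `k`); a common eigenvector (`H53_CommonEigen`) is killed by
`H78.stmt_IHARA3v`, the auxiliary primes by `H61.stmt_CHEBk`.]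
The field `ihara` of `Deg3` is the case `(q φ, - T_q φ, φ)`. -/
def Stmt_IHARAFLD : Prop :=
  ∀ (𝒪 : Type) [CommRing 𝒪] [IsDomain 𝒪] [IsDiscreteValuationRing 𝒪]
    [IsAdicComplete (maximalIdeal 𝒪) 𝒪] [Finite (ResidueField 𝒪)] [CharZero 𝒪]
    (p : ℕ) [Fact p.Prime], p ≠ 2 → (p : 𝒪) ∈ maximalIdeal 𝒪 →
    ∀ (ρbar : ResidualGaloisRep (ResidueField 𝒪)) (Smin : Finset ℕ), ResHyp p ρbar Smin →
    ∀ (N₀ : ℕ) (Sig : Finset ℕ) (N : ℕ) [NeZero N] (S : Finset ℕ), GeomHyp p Smin N₀ Sig N S →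
    ∀ (θ : CuspForm.heckeAlgebra N 2 (↑S : Set ℕ) →+* ResidueField 𝒪),
    Fermat.Agent.S59.Datum.FrobHyp ρbar N S θ →
    ∀ (q : ℕ), q.Prime → q ≠ p → ¬ q ∣ N → q ∉ (↑S : Set ℕ) →
    ∀ φ₁ φ₂ φ₃ : Additive (Gamma0 N) →+ 𝒪,
      InBetti 𝒪 N (↑S : Set ℕ) θ Sig φ₁ → InBetti 𝒪 N (↑S : Set ℕ) θ Sig φ₂ →
      InBetti 𝒪 N (↑S : Set ℕ) θ Sig φ₃ →
      (∀ γ, (resA1 N q 𝒪 φ₁ + resA2 N q 𝒪 φ₂ + resA3 N q 𝒪 φ₃) γ ∈ maximalIdeal 𝒪) →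
      ∀ γ, φ₁ γ ∈ maximalIdeal 𝒪 ∧ φ₂ γ ∈ maximalIdeal 𝒪 ∧ φ₃ γ ∈ maximalIdeal 𝒪

/-- **PROJQ** (gap 1 of the assembly): the projector of the anemic lattice
`X = InBetti 𝒪 N (insert q S) θ' Sig` (no condition at `T_q`) onto the lattice
`L = InBetti 𝒪 N S θ Sig`.
[`Stmt_BM` at `(N, insert q S, θ', Sig)` gives `X` as a finite free module; `T_q` acts on `X`
(`H53.TB_par`, `H53.UB_TB_comm`, `H53.TB_TB_comm`, `Stmt_INBMAP`); `H12.stmt_FIT` for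
`f := T_q - a₀`; `L` is the set of fixed points (`H61.local_shift`: locality does not depend on
the lift `a₀`; `H61.hom_div`: `X` is saturated).] -/
def Stmt_PROJQ : Prop :=
  ∀ (𝒪 : Type) [CommRing 𝒪] [IsDomain 𝒪] [IsDiscreteValuationRing 𝒪]
    [IsAdicComplete (maximalIdeal 𝒪) 𝒪] [Finite (ResidueField 𝒪)] [CharZero 𝒪]
    (N : ℕ) [NeZero N] (S : Finset ℕ), (∀ r : ℕ, r.Prime → r ∣ N → r ∈ S) →
    ∀ (θ : CuspForm.heckeAlgebra N 2 (↑S : Set ℕ) →+* ResidueField 𝒪) (Sig : Finset ℕ),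
    (∀ r ∈ Sig, r.Prime) →
    ∀ (q : ℕ), q.Prime → ¬ q ∣ N → q ∉ (↑S : Set ℕ) →
    ∀ (θ' : CuspForm.heckeAlgebra N 2 (↑(insert q S) : Set ℕ) →+* ResidueField 𝒪),
    (∀ (ℓ : ℕ) (hℓ : ℓ.Prime) (hℓN : ¬ ℓ ∣ N) (hℓS' : ℓ ∉ (↑(insert q S) : Set ℕ))
      (hℓS : ℓ ∉ (↑S : Set ℕ)),
      θ' (CuspForm.heckeAlgebra.T hℓ hℓN hℓS') = θ (CuspForm.heckeAlgebra.T hℓ hℓN hℓS)) →
    ∃ π : (Additive (Gamma0 N) →+ 𝒪) → (Additive (Gamma0 N) →+ 𝒪),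
      (∀ φ, InBetti 𝒪 N (↑(insert q S) : Set ℕ) θ' Sig φ →
        InBetti 𝒪 N (↑S : Set ℕ) θ Sig (π φ)) ∧
      (∀ φ, InBetti 𝒪 N (↑S : Set ℕ) θ Sig φ → π φ = φ) ∧
      (∀ φ ψ, InBetti 𝒪 N (↑(insert q S) : Set ℕ) θ' Sig φ →
        InBetti 𝒪 N (↑(insert q S) : Set ℕ) θ' Sig ψ → π (φ + ψ) = π φ + π ψ) ∧
      (∀ (c : 𝒪) φ, InBetti 𝒪 N (↑(insert q S) : Set ℕ) θ' Sig φ → π (c • φ) = c • π φ) ∧
      (∀ (ℓ : ℕ) (hℓ : ℓ.Prime) (hℓN : ¬ ℓ ∣ N), ℓ ∉ (↑S : Set ℕ) →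
        ∀ φ, InBetti 𝒪 N (↑(insert q S) : Set ℕ) θ' Sig φ →
          InBetti 𝒪 N (↑(insert q S) : Set ℕ) θ' Sig (TB N 𝒪 hℓ hℓN φ) ∧
          π (TB N 𝒪 hℓ hℓN φ) = TB N 𝒪 hℓ hℓN (π φ)) ∧
      (∀ φ, InBetti 𝒪 N (↑(insert q S) : Set ℕ) θ' Sig φ → (∀ γ, φ γ ∈ maximalIdeal 𝒪) →
        ∀ γ, π φ γ ∈ maximalIdeal 𝒪)

/-- **SPLIT-FLD**: on the Betti lattice of level `N q²` (no condition at `q`; `q ∉ Sig`,
`q` invertible in `𝒪`) `L' = ker U_q + im U_q`.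
[The operators `e, g` of `H98.stmt_RELSPLIT` preserve the lattice by `Stmt_INBMAP`.] -/
def Stmt_SPLITFLD : Prop :=
  ∀ (𝒪 : Type) [CommRing 𝒪] [IsDomain 𝒪] [IsDiscreteValuationRing 𝒪]
    (N q : ℕ) [NeZero N] [NeZero (N * q ^ 2)], q.Prime → ¬ q ∣ N → IsUnit (q : 𝒪) →
    ∀ (S' : Set ℕ) (θ' : CuspForm.heckeAlgebra (N * q ^ 2) 2 S' →+* ResidueField 𝒪)
      (Sig : Finset ℕ), (∀ r ∈ Sig, r.Prime ∧ r ≠ q) →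
    ∀ (hd : q ∣ N * q ^ 2) (ψ : Additive (Gamma0 (N * q ^ 2)) →+ 𝒪),
      InBetti 𝒪 (N * q ^ 2) S' θ' Sig ψ →
      ∃ ψ₀ ψ₁ : Additive (Gamma0 (N * q ^ 2)) →+ 𝒪,
        InBetti 𝒪 (N * q ^ 2) S' θ' Sig ψ₀ ∧ InBetti 𝒪 (N * q ^ 2) S' θ' Sig ψ₁ ∧
        ψ = ψ₀ + UB (N * q ^ 2) 𝒪 hd ψ₁ ∧ UB (N * q ^ 2) 𝒪 hd ψ₀ = 0

end Fermat.Agent.S59.NonMin.Geom
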