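import Mathlib
import Fermat.Agent.S59.NonMin.Geom.H61_BM
import Fermat.Agent.S59.NonMin.Geom.H61_Deg3Leaves
import Fermat.Agent.S59.NonMin.Geom.H61_CHEBk
import Fermat.Agent.S59.NonMin.Geom.H53_CommonEigen
import Fermat.Agent.S59.NonMin.Geom.H78_Ihara3v
import Fermat.Agent.S59.NonMin.Geom.H13_RelT
import Fermat.Agent.S59.NonMin.Geom.H48_AsmGLat
import Fermat.Agent.S59.NonMin.Geom.H94_DualDefs
import Fermat.Agent.S16.H38_Chi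

/-!
# S59 / NMGEOM, leaf IHARA-FLD (helper61): Ihara's lemma on the Betti lattice

`stmt_IHARAFLD : Stmt_IHARAFLD`: for `φ₁, φ₂, φ₃` in the Betti lattice of `(N, S, θ, Sig)`, if
`A₁ φ₁ + A₂ φ₂ + A₃ φ₃` has values in `𝔪` then so have `φ₁, φ₂, φ₃`.

Proof: `V` := the finite free module of `Stmt_BM`; on `W = V³` the diagonal operators
`T_ℓ - a_ℓ` (`ℓ ∤ N q p`, `ℓ ∉ S`) commute and are nilpotent modulo `𝔪`; the submodule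
`K = {w : A₁ w₁ + A₂ w₂ + A₃ w₃ ≡ 0}` is stable (`Stmt_RELT`).  If `K ⊄ 𝔪 W` there is a common
eigenvector modulo `𝔪` in `K` outside `𝔪 W` (`H53.exists_common_eigen_mod`); its reduction is
killed by `H78.stmt_IHARA3v` (auxiliary primes: `chebk_core`), and the lattice is saturated:
contradiction.

No `sorry`.
-/

set_option autoImplicit false

open Polynomial CuspForm CongruenceSubgroup IsLocalRing
open scoped MatrixGroups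

namespace Fermat.Agent.S59.NonMin.Geom.H61

open Fermat.Agent.S41 Fermat.Agent.Betti Fermat.Agent.S59 Fermat.Agent.S59.Asm
  Fermat.Agent.S59.NonMin Fermat.Agent.S59.NonMin.Geom
open ModularCurve.Period

/-! ## 1. Reduction modulo the maximal ideal -/

section Red

variable (𝒪 : Type) [CommRing 𝒪] [IsLocalRing 𝒪]

theorem ihf_redB_TB {N : ℕ} {ℓ : ℕ} (hℓ : ℓ.Prime) (hℓN : ¬ ℓ ∣ N)
    (φ : Additive (Gamma0 N) →+ 𝒪) :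
    redB 𝒪 (TB N 𝒪 hℓ hℓN φ) = TB N (ResidueField 𝒪) hℓ hℓN (redB 𝒪 φ) :=
  (H48.TB_nat (residue 𝒪).toAddMonoidHom hℓ hℓN φ).symm

theorem ihf_redB_smul {G : Type} [AddGroup G] (c : 𝒪) (φ : G →+ 𝒪) :
    redB 𝒪 (c • φ) = residue 𝒪 c • redB 𝒪 φ := by
  refine AddMonoidHom.ext fun γ => ?_
  show residue 𝒪 (c * φ γ) = residue 𝒪 c * residue 𝒪 (φ γ)
  exact map_mul _ _ _

theorem ihf_redB_add {G : Type} [AddGroup G] (φ ψ : G →+ 𝒪) :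
    redB 𝒪 (φ + ψ) = redB 𝒪 φ + redB 𝒪 ψ := by
  refine AddMonoidHom.ext fun γ => ?_
  show residue 𝒪 (φ γ + ψ γ) = residue 𝒪 (φ γ) + residue 𝒪 (ψ γ)
  exact map_add _ _ _

theorem ihf_redB_sub {G : Type} [AddGroup G] (φ ψ : G →+ 𝒪) :
    redB 𝒪 (φ - ψ) = redB 𝒪 φ - redB 𝒪 ψ := by
  refine AddMonoidHom.ext fun γ => ?_
  show residue 𝒪 (φ γ - ψ γ) = residue 𝒪 (φ γ) - residue 𝒪 (ψ γ)
  exact map_sub _ _ _

theorem ihf_redB_eq_zero_iff {G : Type} [AddGroup G] (φ : G →+ 𝒪) :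
    redB 𝒪 φ = 0 ↔ ∀ γ, φ γ ∈ maximalIdeal 𝒪 := by
  constructor
  · intro h γ
    have := DFunLike.congr_fun h γ
    exact (residue_eq_zero_iff (φ γ)).1 this
  · intro h
    refine AddMonoidHom.ext fun γ => ?_
    exact (residue_eq_zero_iff (φ γ)).2 (h γ)

theorem ihf_redB_resA1 (N q : ℕ) (φ : Additive (Gamma0 N) →+ 𝒪) :
    redB 𝒪 (resA1 N q 𝒪 φ) = resA1 N q (ResidueField 𝒪) (redB 𝒪 φ) := rfl

theorem ihf_redB_resA2 (N q : ℕ) (φ : Additive (Gamma0 N) →+ 𝒪) :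
    redB 𝒪 (resA2 N q 𝒪 φ) = resA2 N q (ResidueField 𝒪) (redB 𝒪 φ) := rfl

theorem ihf_redB_resA3 (N q : ℕ) (φ : Additive (Gamma0 N) →+ 𝒪) :
    redB 𝒪 (resA3 N q 𝒪 φ) = resA3 N q (ResidueField 𝒪) (redB 𝒪 φ) := rfl

/-- A parabolic homomorphism with values in a torsion-free group is cuspidal. -/
theorem ihf_cuspidal_of_parabolic {A : Type} [AddCommGroup A] [IsAddTorsionFree A] {N : ℕ}
    {φ : Additive (Gamma0 N) →+ A} (h : IsParabolicHom (Gamma0 N) φ) :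
    IsCuspidalHom (Gamma0 N) φ := by
  intro γ hγ
  rcases hγ.lt_or_eq with hlt | heq
  · have h12 : (γ : SL(2, ℤ)) ^ 12 = 1 := Fermat.Agent.S16.H38.pow_twelve_eq_one_of_trace _ hlt
    have h12' : γ ^ 12 = 1 := Subtype.ext h12
    have h0 : (12 : ℕ) • φ (Additive.ofMul γ) = 0 := by
      rw [← map_nsmul, ← ofMul_pow, h12', ofMul_one, map_zero]
    exact (nsmul_eq_zero_iff_right (by norm_num : (12 : ℕ) ≠ 0)).1 h0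
  · exact h γ heq

theorem ihf_cuspidal_redB [IsDomain 𝒪] [CharZero 𝒪] {N : ℕ}
    {φ : Additive (Gamma0 N) →+ 𝒪} (h : IsParabolicHom (Gamma0 N) φ) :
    IsCuspidalHom (Gamma0 N) (redB 𝒪 φ) := by
  intro γ hγ
  show residue 𝒪 (φ (Additive.ofMul γ)) = 0
  rw [ihf_cuspidal_of_parabolic h γ hγ, map_zero]

end Red

/-! ## 2. The diagonal operators on `V³` -/

section Diag

variable {𝒪 : Type} [CommRing 𝒪] {V : Type} [AddCommGroup V] [Module 𝒪 V]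

/-- the diagonal operator on `V³` -/
def ihfDiag (D : Module.End 𝒪 V) : Module.End 𝒪 (V × V × V) := D.prodMap (D.prodMap D)

theorem ihfDiag_apply (D : Module.End 𝒪 V) (w : V × V × V) :
    ihfDiag D w = (D w.1, D w.2.1, D w.2.2) := rfl

theorem ihfDiag_pow (D : Module.End 𝒪 V) (n : ℕ) (w : V × V × V) :
    (ihfDiag D ^ n) w = ((D ^ n) w.1, (D ^ n) w.2.1, (D ^ n) w.2.2) := by
  induction n generalizing w with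
  | zero => rfl
  | succ n ih =>
    rw [pow_succ, Module.End.mul_apply, ih, ihfDiag_apply]
    simp only [pow_succ, Module.End.mul_apply]

variable [IsDomain 𝒪] [IsDiscreteValuationRing 𝒪]

theorem ihf_mem_prod {ϖ : 𝒪} (hϖ : Irreducible ϖ) (w : V × V × V) :
    w ∈ (maximalIdeal 𝒪 • ⊤ : Submodule 𝒪 (V × V × V)) ↔
      w.1 ∈ (maximalIdeal 𝒪 • ⊤ : Submodule 𝒪 V) ∧
      w.2.1 ∈ (maximalIdeal 𝒪 • ⊤ : Submodule 𝒪 V) ∧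
      w.2.2 ∈ (maximalIdeal 𝒪 • ⊤ : Submodule 𝒪 V) := by
  rw [mem_smul_top_iff hϖ, mem_smul_top_iff hϖ, mem_smul_top_iff hϖ, mem_smul_top_iff hϖ]
  constructor
  · rintro ⟨y, rfl⟩
    exact ⟨⟨y.1, rfl⟩, ⟨y.2.1, rfl⟩, ⟨y.2.2, rfl⟩⟩
  · rintro ⟨⟨y₁, h₁⟩, ⟨y₂, h₂⟩, ⟨y₃, h₃⟩⟩
    refine ⟨(y₁, y₂, y₃), ?_⟩
    exact Prod.ext h₁ (Prod.ext h₂ h₃)

end Diag

/-! ## 3. The core -/

section Core

variable (𝒪 : Type) [CommRing 𝒪] [IsDomain 𝒪] [IsDiscreteValuationRing 𝒪] [CharZero 𝒪]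

/-- The eigenvalues: `a ℓ = θ(T_ℓ)` for the good primes, `0` otherwise. -/
noncomputable def ihfA (N : ℕ) [NeZero N] (S : Set ℕ)
    (θ : CuspForm.heckeAlgebra N 2 S →+* ResidueField 𝒪) (ℓ : ℕ) : ResidueField 𝒪 := by
  classical
  exact if h : ℓ.Prime ∧ ¬ ℓ ∣ N ∧ ℓ ∉ S then θ (CuspForm.heckeAlgebra.T h.1 h.2.1 h.2.2) else 0

omit [CharZero 𝒪] in
theorem ihfA_eq (N : ℕ) [NeZero N] (S : Set ℕ)
    (θ : CuspForm.heckeAlgebra N 2 S →+* ResidueField 𝒪) {ℓ : ℕ} (hℓ : ℓ.Prime)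
    (hℓN : ¬ ℓ ∣ N) (hℓS : ℓ ∉ S) :
    ihfA 𝒪 N S θ ℓ = θ (CuspForm.heckeAlgebra.T hℓ hℓN hℓS) := by
  unfold ihfA
  rw [dif_pos ⟨hℓ, hℓN, hℓS⟩]

/-- **IHARA-FLD**, core: for any realisation `ι : V → Hom(Γ₀(N), 𝒪)` of the Betti lattice by a
finite module with a `θ`-local Hecke action. -/
theorem ihara_fld_core (p : ℕ) [Fact p.Prime] (hp2 : p ≠ 2) (hp𝒪 : (p : 𝒪) ∈ maximalIdeal 𝒪)
    (N : ℕ) [NeZero N] (S : Set ℕ) (θ : CuspForm.heckeAlgebra N 2 S →+* ResidueField 𝒪)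
    (Sig : Finset ℕ) (q : ℕ) (hq : q.Prime) (hqp : q ≠ p) (hqN : ¬ q ∣ N)
    (hex : ∀ M : ℕ, 0 < M → p ∣ M →
      ∃ (ℓ : ℕ) (hℓ : ℓ.Prime) (hℓN : ¬ ℓ ∣ N) (hℓS : ℓ ∉ S), ℓ ≠ q ∧ ℓ ≠ p ∧
        ℓ % M = 1 % M ∧ (q : ZMod ℓ) ^ ((ℓ - 1) / p) ≠ 1 ∧
        θ (CuspForm.heckeAlgebra.T hℓ hℓN hℓS) ≠ 2)
    (V : Type) [AddCommGroup V] [Module 𝒪 V] [Module.Finite 𝒪 V]
    (η : CuspForm.heckeAlgebra N 2 S →+* Module.End 𝒪 V)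
    (hloc : ∀ (t : CuspForm.heckeAlgebra N 2 S) (a : 𝒪), residue 𝒪 a = θ t →
      ∃ m : ℕ, ∀ v : V, ((η t - a • (1 : Module.End 𝒪 V)) ^ m) v ∈
        (maximalIdeal 𝒪 • ⊤ : Submodule 𝒪 V))
    (ι : V →ₗ[𝒪] (Additive (Gamma0 N) →+ 𝒪)) (hinj : Function.Injective ι)
    (hrange : ∀ φ, φ ∈ Set.range ι ↔ InBetti 𝒪 N S θ Sig φ)
    (hequiv : ∀ (ℓ : ℕ) (hℓ : ℓ.Prime) (hℓN : ¬ ℓ ∣ N) (hℓS : ℓ ∉ S) (v : V),
      ι (η (CuspForm.heckeAlgebra.T hℓ hℓN hℓS) v) = TB N 𝒪 hℓ hℓN (ι v))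
    (v₁ v₂ v₃ : V)
    (hrel : ∀ γ, (resA1 N q 𝒪 (ι v₁) + resA2 N q 𝒪 (ι v₂) + resA3 N q 𝒪 (ι v₃)) γ ∈
      maximalIdeal 𝒪) :
    ((v₁, v₂, v₃) : V × V × V) ∈ (maximalIdeal 𝒪 • ⊤ : Submodule 𝒪 (V × V × V)) := by
  classical
  obtain ⟨ϖ, hϖ⟩ := IsDiscreteValuationRing.exists_irreducible 𝒪
  have hp : p.Prime := Fact.out
  have hN : 0 < N := Nat.pos_of_ne_zero (NeZero.ne N)
  have hchar : CharP (ResidueField 𝒪) p := by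
    refine (CharP.charP_iff_prime_eq_zero hp).2 ?_
    have h := (residue_eq_zero_iff (p : 𝒪)).2 hp𝒪
    rwa [map_natCast] at h
  -- saturation: a vector whose image has values in `𝔪` is in `𝔪 V`
  have hsat : ∀ v : V, redB 𝒪 (ι v) = 0 → v ∈ (maximalIdeal 𝒪 • ⊤ : Submodule 𝒪 V) := by
    intro v hv
    have h1 : ι v ∈ H48.Mval 𝒪 (Additive (Gamma0 N)) 1 := by
      intro γ
      rw [pow_one]
      exact (ihf_redB_eq_zero_iff 𝒪 (ι v)).1 hv γ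
    have h2 : InBetti 𝒪 N S θ Sig (ι v) := (hrange _).1 ⟨v, rfl⟩
    obtain ⟨φ', h3, h4⟩ := H48.exists_inBetti_smul hϖ h2 h1
    obtain ⟨y, rfl⟩ := (hrange φ').2 h4
    rw [pow_one, ← map_smul] at h3
    exact (mem_smul_top_iff hϖ v).2 ⟨y, (hinj h3).symm⟩
  -- the index set and the operators
  let P : ℕ → Prop := fun ℓ => ℓ.Prime ∧ ¬ ℓ ∣ N ∧ ℓ ∉ S ∧ ℓ ≠ q ∧ ℓ ≠ p
  let tt : {ℓ : ℕ // P ℓ} → CuspForm.heckeAlgebra N 2 S :=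
    fun i => CuspForm.heckeAlgebra.T i.2.1 i.2.2.1 i.2.2.2.1
  have hlift : ∀ i : {ℓ : ℕ // P ℓ}, ∃ a : 𝒪, residue 𝒪 a = θ (tt i) :=
    fun i => residue_surjective _
  choose a ha using hlift
  let D : {ℓ : ℕ // P ℓ} → Module.End 𝒪 V := fun i => η (tt i) - a i • (1 : Module.End 𝒪 V)
  let U : {ℓ : ℕ // P ℓ} → Module.End 𝒪 (V × V × V) := fun i => ihfDiag (D i)
  have hD : ∀ (i : {ℓ : ℕ // P ℓ}) (v : V),
      ι (D i v) = TB N 𝒪 i.2.1 i.2.2.1 (ι v) - a i • ι v := by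
    intro i v
    show ι ((η (tt i) - a i • (1 : Module.End 𝒪 V)) v) = _
    rw [LinearMap.sub_apply, LinearMap.smul_apply, Module.End.one_apply, map_sub, map_smul]
    exact congrArg (· - a i • ι v) (hequiv i.1 i.2.1 i.2.2.1 i.2.2.2.1 v)
  have hDc : ∀ (i j : {ℓ : ℕ // P ℓ}) (v : V), D i (D j v) = D j (D i v) := by
    intro i j v
    have h := (commute_sub_smul η (tt i) (tt j) (a i) (a j)).eq
    exact LinearMap.congr_fun h v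
  have hcomm : ∀ i j w, U i (U j w) - U j (U i w) ∈
      (maximalIdeal 𝒪 • ⊤ : Submodule 𝒪 (V × V × V)) := by
    intro i j w
    have h : U i (U j w) = U j (U i w) := by
      show ihfDiag (D i) (ihfDiag (D j) w) = ihfDiag (D j) (ihfDiag (D i) w)
      rw [ihfDiag_apply, ihfDiag_apply, ihfDiag_apply, ihfDiag_apply]
      exact Prod.ext (hDc i j _) (Prod.ext (hDc i j _) (hDc i j _))
    rw [h, sub_self]
    exact Submodule.zero_mem _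
  have hnil : ∀ i, ∃ m : ℕ, ∀ w, ((U i) ^ m) w ∈
      (maximalIdeal 𝒪 • ⊤ : Submodule 𝒪 (V × V × V)) := by
    intro i
    obtain ⟨m, hm⟩ := hloc (tt i) (a i) (ha i)
    refine ⟨m, fun w => ?_⟩
    show (ihfDiag (D i) ^ m) w ∈ _
    rw [ihfDiag_pow, ihf_mem_prod hϖ]
    exact ⟨hm _, hm _, hm _⟩
  -- the submodule `K`
  let Ψ : (V × V × V) →ₗ[𝒪] (Additive (Gamma0 (N * q ^ 2)) →+ 𝒪) :=
    (H48.resL 𝒪 (j1 N q)).comp (ι.comp (LinearMap.fst 𝒪 V (V × V))) +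
    (H48.resL 𝒪 (j2 N q)).comp
      (ι.comp ((LinearMap.fst 𝒪 V V).comp (LinearMap.snd 𝒪 V (V × V)))) +
    (H48.resL 𝒪 (j3 N q)).comp
      (ι.comp ((LinearMap.snd 𝒪 V V).comp (LinearMap.snd 𝒪 V (V × V))))
  have hΨ : ∀ w : V × V × V, Ψ w = H48.resL 𝒪 (j1 N q) (ι w.1) +
      H48.resL 𝒪 (j2 N q) (ι w.2.1) + H48.resL 𝒪 (j3 N q) (ι w.2.2) := fun w => rfl
  let K : Submodule 𝒪 (V × V × V) :=
    (H48.Mval 𝒪 (Additive (Gamma0 (N * q ^ 2))) 1).comap Ψ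
  have hKmem : ∀ w, w ∈ K ↔ Ψ w ∈ H48.Mval 𝒪 (Additive (Gamma0 (N * q ^ 2))) 1 :=
    fun w => Iff.rfl
  have hK : ∀ i, ∀ w ∈ K, U i w ∈ K := by
    intro i w hw
    rw [hKmem] at hw ⊢
    have hℓq : ¬ i.1 ∣ q ^ 2 := fun h =>
      i.2.2.2.2.1 ((Nat.prime_dvd_prime_iff_eq i.2.1 hq).1 (i.2.1.dvd_of_dvd_pow h))
    have hℓN' : ¬ i.1 ∣ N * q ^ 2 := fun h =>
      ((Nat.Prime.dvd_mul i.2.1).1 h).elim i.2.2.1 hℓq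
    obtain ⟨hA, -⟩ := H13.stmt_RELT N q hq hqN i.1 i.2.1 i.2.2.1 hℓN' 𝒪
    have key : Ψ (U i w) = H48.TBl 𝒪 (N * q ^ 2) i.2.1 hℓN' (Ψ w) - a i • Ψ w := by
      rw [hΨ, hΨ]
      show H48.resL 𝒪 (j1 N q) (ι (D i w.1)) + H48.resL 𝒪 (j2 N q) (ι (D i w.2.1)) +
        H48.resL 𝒪 (j3 N q) (ι (D i w.2.2)) = _
      rw [hD, hD, hD, map_sub, map_sub, map_sub, map_smul, map_smul, map_smul, map_add, map_add,
        smul_add, smul_add, H48.TBl_apply, H48.TBl_apply, H48.TBl_apply]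
      have e1 := (hA (ι w.1)).1
      have e2 := (hA (ι w.2.1)).2.1
      have e3 := (hA (ι w.2.2)).2.2
      have f1 : H48.resL 𝒪 (j1 N q) (TB N 𝒪 i.2.1 i.2.2.1 (ι w.1)) =
          TB (N * q ^ 2) 𝒪 i.2.1 hℓN' (H48.resL 𝒪 (j1 N q) (ι w.1)) := e1.symm
      have f2 : H48.resL 𝒪 (j2 N q) (TB N 𝒪 i.2.1 i.2.2.1 (ι w.2.1)) =
          TB (N * q ^ 2) 𝒪 i.2.1 hℓN' (H48.resL 𝒪 (j2 N q) (ι w.2.1)) := e2.symm
      have f3 : H48.resL 𝒪 (j3 N q) (TB N 𝒪 i.2.1 i.2.2.1 (ι w.2.2)) =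
          TB (N * q ^ 2) 𝒪 i.2.1 hℓN' (H48.resL 𝒪 (j3 N q) (ι w.2.2)) := e3.symm
      rw [f1, f2, f3]
      abel
    rw [key]
    exact Submodule.sub_mem _ (H48.map_mem_Mval _ hw) (Submodule.smul_mem _ _ hw)
  -- the vector is in `K`
  have hvK : ((v₁, v₂, v₃) : V × V × V) ∈ K := by
    rw [hKmem]
    intro γ
    rw [pow_one]
    exact hrel γ
  by_contra hne
  have hKne : ¬ K ≤ (maximalIdeal 𝒪 • ⊤ : Submodule 𝒪 (V × V × V)) := fun hle => hne (hle hvK)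
  obtain ⟨w, hwK, hwn, hwU⟩ := H53.exists_common_eigen_mod U hcomm hnil K hK hKne
  apply hwn
  -- the reductions
  have hpar : ∀ v : V, IsParabolicHom (Gamma0 N) (ι v) := fun v => ((hrange _).1 ⟨v, rfl⟩).1
  have heig : ∀ (v : V), (∀ i, D i v ∈ (maximalIdeal 𝒪 • ⊤ : Submodule 𝒪 V)) →
      ∀ (ℓ : ℕ) (hℓ : ℓ.Prime) (hℓN : ¬ ℓ ∣ N), P ℓ →
        TB N (ResidueField 𝒪) hℓ hℓN (redB 𝒪 (ι v)) = ihfA 𝒪 N S θ ℓ • redB 𝒪 (ι v) := by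
    intro v hv ℓ hℓ hℓN hPℓ
    obtain ⟨y, hy⟩ := (mem_smul_top_iff hϖ _).1 (hv ⟨ℓ, hPℓ⟩)
    have h1 := hD ⟨ℓ, hPℓ⟩ v
    rw [← hy, map_smul] at h1
    have h2 := congrArg (redB 𝒪) h1
    rw [ihf_redB_smul, ihf_redB_sub, ihf_redB_TB, ihf_redB_smul, ha,
      (residue_eq_zero_iff ϖ).2 hϖ.not_isUnit, zero_smul] at h2
    rw [ihfA_eq 𝒪 N S θ hℓ hℓN hPℓ.2.2.1]
    exact (sub_eq_zero.1 h2.symm)
  have hwU' : ∀ i, D i w.1 ∈ (maximalIdeal 𝒪 • ⊤ : Submodule 𝒪 V) ∧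
      D i w.2.1 ∈ (maximalIdeal 𝒪 • ⊤ : Submodule 𝒪 V) ∧
      D i w.2.2 ∈ (maximalIdeal 𝒪 • ⊤ : Submodule 𝒪 V) := by
    intro i
    have := hwU i
    rwa [show U i w = ihfDiag (D i) w from rfl, ihfDiag_apply, ihf_mem_prod hϖ] at this
  have hrelk : resA1 N q (ResidueField 𝒪) (redB 𝒪 (ι w.1)) +
      resA2 N q (ResidueField 𝒪) (redB 𝒪 (ι w.2.1)) +
      resA3 N q (ResidueField 𝒪) (redB 𝒪 (ι w.2.2)) = 0 := by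
    rw [← ihf_redB_resA1, ← ihf_redB_resA2, ← ihf_redB_resA3, ← ihf_redB_add, ← ihf_redB_add,
      ihf_redB_eq_zero_iff]
    intro γ
    have := (hKmem w).1 hwK γ
    rw [pow_one] at this
    exact this
  have hP : ∀ ℓ, P ℓ → ℓ.Prime ∧ ¬ ℓ ∣ N * q ∧ ℓ ≠ p := by
    intro ℓ hℓ
    refine ⟨hℓ.1, fun h => ?_, hℓ.2.2.2.2⟩
    rcases (Nat.Prime.dvd_mul hℓ.1).1 h with h | h
    · exact hℓ.2.1 h
    · exact hℓ.2.2.2.1 ((Nat.prime_dvd_prime_iff_eq hℓ.1 hq).1 h)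
  have hexP : ∀ M : ℕ, 0 < M → p ∣ M →
      ∃ ℓ, P ℓ ∧ ℓ % M = 1 % M ∧ (q : ZMod ℓ) ^ ((ℓ - 1) / p) ≠ 1 ∧ ihfA 𝒪 N S θ ℓ ≠ 2 := by
    intro M hM hpM
    obtain ⟨ℓ, hℓ, hℓN, hℓS, hℓq, hℓp, h1, h2, h3⟩ := hex M hM hpM
    refine ⟨ℓ, ⟨hℓ, hℓN, hℓS, hℓq, hℓp⟩, h1, h2, ?_⟩
    rw [ihfA_eq 𝒪 N S θ hℓ hℓN hℓS]
    exact h3
  obtain ⟨e₁, e₂, e₃⟩ := H78.stmt_IHARA3v (ResidueField 𝒪) p hp2 N q hN hq hqN hqp P
    (ihfA 𝒪 N S θ) hP hexP (redB 𝒪 (ι w.1)) (redB 𝒪 (ι w.2.1)) (redB 𝒪 (ι w.2.2))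
    (ihf_cuspidal_redB 𝒪 (hpar _)) (ihf_cuspidal_redB 𝒪 (hpar _)) (ihf_cuspidal_redB 𝒪 (hpar _))
    (fun ℓ hℓ hℓN hPℓ => ⟨heig w.1 (fun i => (hwU' i).1) ℓ hℓ hℓN hPℓ,
      heig w.2.1 (fun i => (hwU' i).2.1) ℓ hℓ hℓN hPℓ,
      heig w.2.2 (fun i => (hwU' i).2.2) ℓ hℓ hℓN hPℓ⟩) hrelk
  rw [ihf_mem_prod hϖ]
  exact ⟨hsat _ e₁, hsat _ e₂, hsat _ e₃⟩

end Core

/-! ## 4. The statement -/

/-- **IHARA-FLD**. -/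
theorem stmt_IHARAFLD : Stmt_IHARAFLD := by
  intro 𝒪 _ _ _ _ _ _ p _ hp2 hp𝒪 ρbar Smin hres N₀ Sig N _ S hG θ hθ q hq hqp hqN hqS
    φ₁ φ₂ φ₃ h₁ h₂ h₃ hrel
  classical
  obtain ⟨ϖ, hϖ⟩ := IsDiscreteValuationRing.exists_irreducible 𝒪
  have hS : ∀ r : ℕ, r.Prime → r ∣ N → r ∈ S := by
    intro s hs hsN
    rw [hG.hS, Finset.mem_union]
    rw [hG.hN] at hsN
    rcases (Nat.Prime.dvd_mul hs).mp hsN with h | h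
    · exact Or.inl (hG.hN₀S s hs h)
    · right
      obtain ⟨r, hr, hsr⟩ := (Prime.dvd_finsetProd_iff (Nat.Prime.prime hs) _).mp h
      have h1 : s ∣ r := Nat.Prime.dvd_of_dvd_pow hs hsr
      have h2 : s = r := (Nat.prime_dvd_prime_iff_eq hs (hG.hSig r hr).1).mp h1
      rw [h2]
      exact hr
  have hSig : ∀ r ∈ Sig, r.Prime := fun r hr => (hG.hSig r hr).1
  have hB : ∃ M : HMod 𝒪 N (↑S : Set ℕ) θ,
      ∃ ι : M.V →ₗ[𝒪] (Additive (Gamma0 N) →+ 𝒪), Function.Injective ι ∧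
        (∀ φ, φ ∈ Set.range ι ↔ InBetti 𝒪 N (↑S : Set ℕ) θ Sig φ) ∧
        ∀ (ℓ : ℕ) (hℓ : ℓ.Prime) (hℓN : ¬ ℓ ∣ N) (hℓS : ℓ ∉ (↑S : Set ℕ)) (v : M.V),
          ι (M.η (CuspForm.heckeAlgebra.T hℓ hℓN hℓS) v) = TB N 𝒪 hℓ hℓN (ι v) :=
    stmt_BM 𝒪 N S hS θ Sig hSig
  obtain ⟨M, ι, hinj, hrange, hequiv⟩ := hB
  obtain ⟨v₁, rfl⟩ := (hrange φ₁).2 h₁
  obtain ⟨v₂, rfl⟩ := (hrange φ₂).2 h₂
  obtain ⟨v₃, rfl⟩ := (hrange φ₃).2 h₃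
  have hex : ∀ M' : ℕ, 0 < M' → p ∣ M' →
      ∃ (ℓ : ℕ) (hℓ : ℓ.Prime) (hℓN : ¬ ℓ ∣ N) (hℓS : ℓ ∉ (↑S : Set ℕ)), ℓ ≠ q ∧ ℓ ≠ p ∧
        ℓ % M' = 1 % M' ∧ (q : ZMod ℓ) ^ ((ℓ - 1) / p) ≠ 1 ∧
        θ (CuspForm.heckeAlgebra.T hℓ hℓN hℓS) ≠ 2 := by
    intro M' hM' hpM'
    obtain ⟨ℓ, hℓ, hℓN, hℓS, hℓS', h1, h2, h3⟩ :=
      chebk_core 𝒪 p hp2 ρbar Smin hres N S θ hθ q hq M' hM' hpM' {q, p}
    refine ⟨ℓ, hℓ, hℓN, hℓS, ?_, ?_, h1, h2, h3⟩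
    · rintro rfl
      exact hℓS' (Finset.mem_insert_self _ _)
    · rintro rfl
      exact hℓS' (Finset.mem_insert_of_mem (Finset.mem_singleton_self _))
  have hmem := ihara_fld_core 𝒪 p hp2 hp𝒪 N (↑S : Set ℕ) θ Sig q hq hqp hqN hex M.V M.η
    M.η_local ι hinj hrange hequiv v₁ v₂ v₃ hrel
  rw [ihf_mem_prod hϖ, mem_smul_top_iff hϖ, mem_smul_top_iff hϖ, mem_smul_top_iff hϖ] at hmem
  obtain ⟨⟨y₁, e₁⟩, ⟨y₂, e₂⟩, ⟨y₃, e₃⟩⟩ := hmem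
  have hval : ∀ (y v : M.V), ϖ • y = v → ∀ γ, ι v γ ∈ maximalIdeal 𝒪 := by
    intro y v e γ
    rw [← e, map_smul]
    show ϖ * ι y γ ∈ maximalIdeal 𝒪
    exact Ideal.mul_mem_right _ _ hϖ.not_isUnit
  intro γ
  exact ⟨hval y₁ v₁ e₁ γ, hval y₂ v₂ e₂ γ, hval y₃ v₃ e₃ γ⟩

end Fermat.Agent.S59.NonMin.Geom.H61
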