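import Fermat.Agent.S59.NonMin.Geom.Defs
import Fermat.Agent.S59.NonMin.Geom.H72_RelBase

/-!
# S59 / NMGEOM leaf REL3 (helper72)

`C₁ A₁ = q (q + 1)`, `C₁ A₂ = q T_q`, `C₁ A₃ = T_q² - (q + 1)`.

Reusable pieces (for REL1, REL2, ...):
* `kap1 = inclG (N q) q ∘ castG`, `kap2 = conjG (N q) q ∘ castG : Γ₀(N q²) → Γ₀(N q)`;
  `j1_eq, j2_eq, j3_eq`; `kap1_injective`, `finiteIndex_kap1`, `index_kap1`;
* `resA1_eq, resA2_eq, resA3_eq` : `A₁ = r₁'' r₁`, `A₂ = r₁'' r₂`, `A₃ = r₂'' r₂` (with `castG`);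
* `corC1_eq : C₁ = c₁ ∘ corAlong kap1`;
* `cor_kap1_res_kap1 : corAlong kap1 ∘ resAlong kap1 = q`,
  `cor_kap1_res_kap2 : corAlong kap1 ∘ resAlong kap2 = c₁'' r₂''`.
-/

set_option autoImplicit false

open scoped MatrixGroups
open CongruenceSubgroup Matrix

namespace Fermat.Agent.S59.NonMin.Geom.H72R

open Fermat.Agent.S41 Fermat.Agent.S41.H19 Fermat.Agent.S41.H77 Fermat.Agent.S41.H39
open Fermat.Agent.S41.H20 Fermat.Agent.Betti Fermat.Agent.S59.NonMin.Geom

section Tower

variable (N q : ℕ)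

/-- `Γ₀(N q²) → Γ₀(N q)`, the inclusion. -/
def kap1 : Gamma0 (N * q ^ 2) →* Gamma0 (N * q) := (inclG (N * q) q).comp (castG N q)

/-- `Γ₀(N q²) → Γ₀(N q)`, conjugation by `diag(q, 1)`. -/
def kap2 : Gamma0 (N * q ^ 2) →* Gamma0 (N * q) := (conjG (N * q) q).comp (castG N q)

theorem j1_eq : j1 N q = (inclG N q).comp (kap1 N q) := rfl
theorem j2_eq : j2 N q = (conjG N q).comp (kap1 N q) := rfl
theorem j3_eq : j3 N q = (conjG N q).comp (kap2 N q) := rfl

theorem castG_injective : Function.Injective (castG N q) := Subgroup.inclusion_injective _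

theorem castG_surjective : Function.Surjective (castG N q) := by
  intro x
  refine ⟨⟨(x : SL(2, ℤ)), ?_⟩, rfl⟩
  have h : Gamma0 (N * q * q) = Gamma0 (N * q ^ 2) := congrArg (fun M => Gamma0 M) (by ring)
  rw [← h]
  exact x.2

theorem range_castG : (castG N q).range = ⊤ := MonoidHom.range_eq_top.mpr (castG_surjective N q)

theorem finiteIndex_castG : (castG N q).range.FiniteIndex := by
  rw [range_castG]; infer_instance

theorem kap1_injective : Function.Injective (kap1 N q) :=
  (inclG_injective (N * q) q).comp (castG_injective N q)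

theorem kap2_injective (hq : q ≠ 0) : Function.Injective (kap2 N q) :=
  (conjG_injective (N * q) q hq).comp (castG_injective N q)

theorem range_kap1 : (kap1 N q).range = (inclG (N * q) q).range := by
  unfold kap1
  rw [MonoidHom.range_comp, range_castG, ← MonoidHom.range_eq_map]

variable {N q}

theorem isReps_kap1 (hN : 0 < N) (hq : 0 < q) : IsReps (kap1 N q) (tLow (N * q) q) :=
  isReps_of_range_eq (range_kap1 N q).symm
    (isReps_tLow (Nat.mul_pos hN hq) hq (dvd_mul_left q N))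

theorem index_kap1 (hN : 0 < N) (hq : 0 < q) : (kap1 N q).range.index = q := by
  rw [range_kap1]; exact index_inclG_of_dvd (Nat.mul_pos hN hq) hq (dvd_mul_left q N)

theorem finiteIndex_kap1 (hN : 0 < N) (hq : 0 < q) : (kap1 N q).range.FiniteIndex := by
  rw [range_kap1]; exact finiteIndex_inclG_of_dvd (Nat.mul_pos hN hq) hq (dvd_mul_left q N)

variable {A : Type*} [AddCommGroup A]

theorem resA1_eq (φ : Additive (Gamma0 N) →+ A) :
    resA1 N q A φ = resAlong A (kap1 N q) (res1 N q A φ) := rfl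

theorem resA2_eq (φ : Additive (Gamma0 N) →+ A) :
    resA2 N q A φ = resAlong A (kap1 N q) (res2 N q A φ) := rfl

theorem resA3_eq (φ : Additive (Gamma0 N) →+ A) :
    resA3 N q A φ = resAlong A (kap2 N q) (res2 N q A φ) := rfl

/-- `C₁ = c₁ ∘ (transfer from level N q² to level N q)`. -/
theorem corC1_eq (hN : 0 < N) (hq : q.Prime) (hqN : ¬ q ∣ N)
    (ψ : Additive (Gamma0 (N * q ^ 2)) →+ A) :
    corC1 N q A ψ = cor1 N q A (corAlong A (kap1 N q) ψ) := by
  have := finiteIndex_kap1 hN hq.pos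
  have := finiteIndex_inclG hN hq hqN
  unfold corC1 cor1
  rw [j1_eq, corAlong_comp (kap1 N q) (inclG N q) (kap1_injective N q) (inclG_injective N q)]

/-- transfer ∘ restriction along the inclusion `Γ₀(N q²) → Γ₀(N q)` is `q`. -/
theorem cor_kap1_res_kap1 (hN : 0 < N) (hq : 0 < q) (ψ : Additive (Gamma0 (N * q)) →+ A) :
    corAlong A (kap1 N q) (resAlong A (kap1 N q) ψ) = q • ψ := by
  have := finiteIndex_kap1 hN hq
  rw [corAlong_resAlong _ (kap1_injective N q), index_kap1 hN hq]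

theorem cor_castG_res_castG (ψ : Additive (Gamma0 (N * q * q)) →+ A) :
    corAlong A (castG N q) (resAlong A (castG N q) ψ) = ψ := by
  have := finiteIndex_castG N q
  rw [corAlong_resAlong _ (castG_injective N q), range_castG, Subgroup.index_top, one_smul]

/-- transfer along the inclusion ∘ restriction along the conjugation is `c₁'' r₂''`. -/
theorem cor_kap1_res_kap2 (hN : 0 < N) (hq : 0 < q) (ψ : Additive (Gamma0 (N * q)) →+ A) :
    corAlong A (kap1 N q) (resAlong A (kap2 N q) ψ)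
      = cor1 (N * q) q A (res2 (N * q) q A ψ) := by
  have := finiteIndex_castG N q
  have := finiteIndex_inclG_of_dvd (Nat.mul_pos hN hq) hq (dvd_mul_left q N)
  unfold kap1 cor1
  rw [corAlong_comp (castG N q) (inclG (N * q) q) (castG_injective N q)
    (inclG_injective (N * q) q)]
  congr 1
  exact cor_castG_res_castG (res2 (N * q) q A ψ)

end Tower

/-! ### REL3 -/

theorem stmt_REL3 : Stmt_REL3 := by
  intro N q _ hq hqN A _ φ
  have hN : 0 < N := Nat.pos_of_ne_zero (NeZero.ne N)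
  refine ⟨?_, ?_, ?_⟩
  · rw [corC1_eq hN hq hqN, resA1_eq, cor_kap1_res_kap1 hN hq.pos]
    unfold cor1
    rw [corAlong_smul]
    change q • cor1 N q A (res1 N q A φ) = _
    rw [cor1_res1 hN hq hqN, smul_smul]
  · rw [corC1_eq hN hq hqN, resA2_eq, cor_kap1_res_kap1 hN hq.pos]
    unfold cor1
    rw [corAlong_smul]
    change q • Tcoh N A q φ = _
    rw [Tcoh_eq_TB hN hq hqN]
  · rw [corC1_eq hN hq hqN, resA3_eq, cor_kap1_res_kap2 hN hq.pos, Tdag_res2 hN hq hqN]
    unfold cor1
    rw [corAlong_sub]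
    change Tcoh N A q (Tcoh N A q φ) - cor1 N q A (res1 N q A φ) = _
    rw [cor1_res1 hN hq hqN, Tcoh_eq_TB hN hq hqN, Tcoh_eq_TB hN hq hqN]

end Fermat.Agent.S59.NonMin.Geom.H72R
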