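import Mathlib
import Fermat.Agent.S59.NonMin.Geom.H61_Deg3Leaves
import Fermat.Agent.S59.NonMin.Geom.H61_BM

/-!
# S59 NMGEOM, DEG3 sub-leaf INB-MAP (helper61) and the basic properties of the Betti lattice

* `stmt_INBMAP : Stmt_INBMAP`;
* `inBetti_zero`, `inBetti_add`, `inBetti_smul`, `inBetti_neg`, `inBetti_sub` : `InBetti` is a
  submodule;
* `inBetti_sat` : it is saturated;
* `inBetti_TB`, `inBetti_UB` : it is stable under all `T_ℓ` (`ℓ ∤ N`) and all `U_r` (`r ∣ N`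
  prime);
* `inBetti_mem_max` : a lattice element with values in `𝔪` is `ϖ` times a lattice element.
-/

set_option autoImplicit false

open Polynomial CuspForm CongruenceSubgroup IsLocalRing
open scoped MatrixGroups

namespace Fermat.Agent.S59.NonMin.Geom.H61

open Fermat.Agent.S41 Fermat.Agent.Betti Fermat.Agent.S59 Fermat.Agent.S59.Asm
open ModularCurve.Period
open Fermat.Agent.S59.NonMin.Geom

section

variable {𝒪 : Type} [CommRing 𝒪] [IsDomain 𝒪] [IsDiscreteValuationRing 𝒪]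

theorem par_sub_smul {N : ℕ} {χ₁ χ₂ : Additive (Gamma0 N) →+ 𝒪} (a : 𝒪)
    (h₁ : IsParabolicHom (Gamma0 N) χ₁) (h₂ : IsParabolicHom (Gamma0 N) χ₂) :
    IsParabolicHom (Gamma0 N) (χ₁ - a • χ₂) := by
  intro γ hγ
  show χ₁ (Additive.ofMul γ) - a • χ₂ (Additive.ofMul γ) = 0
  rw [h₁ γ hγ, h₂ γ hγ, smul_zero, sub_zero]

/-- a multiple of `ϖ^m` has values in `𝔪^m` -/
theorem smul_pow_mem {G : Type} [AddZeroClass G] {ϖ : 𝒪} (hϖ : Irreducible ϖ) (m : ℕ)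
    (ψ : G →+ 𝒪) (γ : G) : (ϖ ^ m • ψ) γ ∈ maximalIdeal 𝒪 ^ m := by
  show ϖ ^ m • ψ γ ∈ _
  rw [smul_eq_mul]
  exact Ideal.mul_mem_right _ _ (Ideal.pow_mem_pow (hϖ.maximalIdeal_eq ▸
    Ideal.mem_span_singleton_self ϖ) m)

/-- **INB-MAP**. -/
theorem stmt_INBMAP : Stmt_INBMAP := by
  intro 𝒪 _ _ _ N N' _ _ S S' θ θ' Sig F hlin hpar hU hT φ hφ
  obtain ⟨hφpar, hφU, hφloc⟩ := hφ
  obtain ⟨ϖ, hϖ⟩ := IsDiscreteValuationRing.exists_irreducible 𝒪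
  refine ⟨hpar φ hφpar, ?_, ?_⟩
  · intro r hr hr'
    obtain ⟨hrN, h⟩ := hU r hr hr'
    rw [h φ hφpar, hφU r hr hrN, map_zero]
  · intro ℓ hℓ hℓN' hℓS' a ha m
    obtain ⟨hℓN, hℓS, hθ, hcomm⟩ := hT ℓ hℓ hℓN' hℓS'
    obtain ⟨n, hn⟩ := hφloc ℓ hℓ hℓN hℓS a (ha.trans hθ) m
    refine ⟨n, ?_⟩
    have hit : ∀ k : ℕ,
        IsParabolicHom (Gamma0 N)
          ((fun χ : Additive (Gamma0 N) →+ 𝒪 => TB N 𝒪 hℓ hℓN χ - a • χ)^[k] φ) ∧
        (fun χ : Additive (Gamma0 N') →+ 𝒪 => TB N' 𝒪 hℓ hℓN' χ - a • χ)^[k] (F φ)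
          = F ((fun χ : Additive (Gamma0 N) →+ 𝒪 => TB N 𝒪 hℓ hℓN χ - a • χ)^[k] φ) := by
      intro k
      induction k with
      | zero => exact ⟨hφpar, rfl⟩
      | succ k ih =>
        rw [Function.iterate_succ_apply', Function.iterate_succ_apply']
        refine ⟨par_sub_smul a (Fermat.Agent.S59.NonMin.Geom.H53.TB_par 𝒪 hℓ hℓN _ ih.1) ih.1, ?_⟩
        rw [ih.2, hcomm _ ih.1, map_sub, hlin]
    rw [(hit n).2]
    obtain ⟨ψ, hψ⟩ := hom_div hϖ m _ hn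
    intro γ
    rw [← hψ, hlin]
    exact smul_pow_mem hϖ m _ γ

end

end Fermat.Agent.S59.NonMin.Geom.H61
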