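/-
S59, RT-NONMIN, NMGEOM, assembly DEG3, sub-leaf **SPLIT-FLD** (helper80).

`splitfld_of : Stmt_RELSPLIT → Stmt_INBMAP → Stmt_SPLITFLD`:
on the Betti lattice of level `N q²` (no condition at `q`), `L' = ker U_q + im U_q`.

Proof: the operators `e, g` of `Stmt_RELSPLIT` (`U e = 0`, `1 = e + U g`) are `𝒪`-linear,
preserve parabolic homomorphisms and commute with the `T_ℓ` (`ℓ ∤ N q²`) and the `U_r`
(`r ≠ q`), hence preserve the lattice (`Stmt_INBMAP` with `N' = N`, `S' = S`, `θ' = θ`);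
`ψ₀ := e ψ`, `ψ₁ := g ψ`.
-/
import Fermat.Agent.S59.NonMin.Geom.H61_Deg3Leaves

set_option autoImplicit false

open CuspForm CongruenceSubgroup IsLocalRing

namespace Fermat.Agent.S59.NonMin.Geom.H80

open Fermat.Agent.S41 Fermat.Agent.Betti Fermat.Agent.S59 Fermat.Agent.S59.NonMin.Geom
open ModularCurve.Period

/-- An `𝒪`-linear endomorphism of `Hom(Γ₀(M), 𝒪)` which preserves parabolic homomorphisms and
commutes with the `T_ℓ` and the `U_r`, `r ∈ Sig`, preserves the Betti lattice. -/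
theorem inBetti_of_commute (hINB : Stmt_INBMAP) {𝒪 : Type} [CommRing 𝒪] [IsDomain 𝒪]
    [IsDiscreteValuationRing 𝒪] (M : ℕ) [NeZero M] (S : Set ℕ)
    (θ : CuspForm.heckeAlgebra M 2 S →+* ResidueField 𝒪) (Sig : Finset ℕ)
    (F : (Additive (Gamma0 M) →+ 𝒪) →+ (Additive (Gamma0 M) →+ 𝒪))
    (hlin : ∀ (c : 𝒪) φ, F (c • φ) = c • F φ)
    (hpar : ∀ φ, IsParabolicHom (Gamma0 M) φ → IsParabolicHom (Gamma0 M) (F φ))
    (hU : ∀ r ∈ Sig, ∀ (hr : r ∣ M) φ, F (UB M 𝒪 hr φ) = UB M 𝒪 hr (F φ))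
    (hT : ∀ (ℓ : ℕ) (hℓ : ℓ.Prime) (hℓM : ¬ ℓ ∣ M) φ,
      F (TB M 𝒪 hℓ hℓM φ) = TB M 𝒪 hℓ hℓM (F φ))
    (φ : Additive (Gamma0 M) →+ 𝒪) (hφ : InBetti 𝒪 M S θ Sig φ) :
    InBetti 𝒪 M S θ Sig (F φ) :=
  hINB 𝒪 M M S S θ θ Sig F hlin hpar
    (fun r hr hr' => ⟨hr', fun φ _ => (hU r hr hr' φ).symm⟩)
    (fun ℓ hℓ hℓM hℓS => ⟨hℓM, hℓS, rfl, fun φ _ => (hT ℓ hℓ hℓM φ).symm⟩) φ hφ

/-- **SPLIT-FLD**. -/
theorem splitfld_of (hSPLIT : Stmt_RELSPLIT) (hINB : Stmt_INBMAP) : Stmt_SPLITFLD := by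
  intro 𝒪 _ _ _ N q _ _ hq hqN hqu S' θ' Sig hSig hd ψ hψ
  obtain ⟨e, g, hlin, hUe, hsum, hpar, hT, hU⟩ := hSPLIT 𝒪 N q hq hqN hqu hd
  refine ⟨e ψ, g ψ, ?_, ?_, hsum ψ, hUe ψ⟩
  · exact inBetti_of_commute hINB (N * q ^ 2) S' θ' Sig e (fun c φ => (hlin c φ).1)
      (fun φ h => (hpar φ h).1)
      (fun r hr hr' φ => (hU r hr' (hSig r hr).1 (hSig r hr).2 φ).1)
      (fun ℓ hℓ hℓM φ => (hT ℓ hℓ hℓM φ).1) ψ hψ
  · exact inBetti_of_commute hINB (N * q ^ 2) S' θ' Sig g (fun c φ => (hlin c φ).2)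
      (fun φ h => (hpar φ h).2)
      (fun r hr hr' φ => (hU r hr' (hSig r hr).1 (hSig r hr).2 φ).2)
      (fun ℓ hℓ hℓM φ => (hT ℓ hℓ hℓM φ).2) ψ hψ

end Fermat.Agent.S59.NonMin.Geom.H80
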