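/-
S59, RT-NONMIN, NMGEOM, assembly DEG3, sub-leaf **SPLIT-FLD** (helper80): unconditional.

`stmt_SPLITFLD : Stmt_SPLITFLD`
  = `H80.splitfld_of` applied to `H98.stmt_RELSPLIT` (helper98) and `H61.stmt_INBMAP` (helper61).
-/
import Fermat.Agent.S59.NonMin.Geom.H80_SplitFld
import Fermat.Agent.S59.NonMin.Geom.H98_RelSplitStmt
import Fermat.Agent.S59.NonMin.Geom.H61_InBetti

set_option autoImplicit false

namespace Fermat.Agent.S59.NonMin.Geom.H80

/-- **SPLIT-FLD**, unconditional. -/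
theorem stmt_SPLITFLD : Fermat.Agent.S59.NonMin.Geom.Stmt_SPLITFLD :=
  splitfld_of Fermat.Agent.S59.NonMin.Geom.H98.stmt_RELSPLIT
    Fermat.Agent.S59.NonMin.Geom.H61.stmt_INBMAP

end Fermat.Agent.S59.NonMin.Geom.H80
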