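/-
S59, package RT-NONMIN, sub-package NMGEOM, leaf REL2 (helper92):
`C₁ U_q = q C₂`, `C₂ U_q = q C₃`, `C₃ U_q = T_q C₃ - C₂` in Betti cohomology
(`U_q` of level `N q²`, `T_q` of level `N`, any coefficient group).

Proof: with `κ₁, κ₂ : Γ₀(N q²) → Γ₀(N q)` (inclusion, conjugation by `diag(q, 1)`):
`U_q = κ₁^* ∘ κ₂_*` (`UB_eq_res_cor`), `κ₁_* κ₁^* = q`, `κ₂_* κ₁^* = U_q` of level `N q`
(`cor_res_eq_UB`), `c₂ U_q = T_q c₂ - c₁` at the levels `N`, `N q` (`cor2_UB`), and transitivity of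
the transfer: `C₁ = c₁ κ₁_*`, `C₂ = c₂ κ₁_* = c₁ κ₂_*`, `C₃ = c₂ κ₂_*`.
-/
import Fermat.Agent.S59.NonMin.Geom.H72_Rel3
import Fermat.Agent.S59.NonMin.Geom.H92_RelBase2

set_option autoImplicit false
set_option linter.style.haveILetI false
set_option linter.unusedSectionVars false

open scoped MatrixGroups
open CongruenceSubgroup Matrix ModularForm

namespace Fermat.Agent.S59.NonMin.Geom.H92

open Fermat.Agent.S41 Fermat.Agent.S41.H19 Fermat.Agent.S41.H77 Fermat.Agent.S41.H39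
open Fermat.Agent.S41.H20 Fermat.Agent.Betti Fermat.Agent.S59.NonMin.Geom
open Fermat.Agent.S59.NonMin.Geom.H72R

section Tower

variable {N q : ℕ} {A : Type*} [AddCommGroup A]

theorem range_kap2 (N q : ℕ) : (kap2 N q).range = (conjG (N * q) q).range := by
  unfold kap2
  rw [MonoidHom.range_comp, range_castG, ← MonoidHom.range_eq_map]

theorem j2_eq' (N q : ℕ) : j2 N q = (inclG N q).comp (kap2 N q) := rfl

theorem finiteIndex_kap2 [NeZero q] (N : ℕ) : (kap2 N q).range.FiniteIndex := by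
  rw [range_kap2]
  exact (isReps_tInv (dvd_mul_left q N)).finiteIndex

theorem kap1_surj (κ : Gamma0 (N * q)) (h : ((N * q ^ 2 : ℕ) : ℤ) ∣ mat κ 1 0) :
    ∃ κ' : Gamma0 (N * q ^ 2), kap1 N q κ' = κ := by
  refine ⟨⟨(κ : SL(2, ℤ)), ?_⟩, rfl⟩
  rw [Gamma0_mem, ZMod.intCast_zmod_eq_zero_iff_dvd]
  exact h

/-- `U_q` of level `N q²` is `κ₁^* ∘ κ₂_*`. -/
theorem UB_eq_kap [NeZero (N * q ^ 2)] [NeZero q] (hd : q ∣ N * q ^ 2)
    (ψ : Additive (Gamma0 (N * q ^ 2)) →+ A) :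
    UB (N * q ^ 2) A hd ψ = resAlong A (kap1 N q) (corAlong A (kap2 N q) ψ) :=
  UB_eq_res_cor (dvd_mul_left q N) hd (kap1 N q) (kap2 N q) (fun _ => rfl) (fun _ => rfl)
    (kap2_injective N q (NeZero.ne q)) (range_kap2 N q) ψ

/-- `κ₂_* ∘ κ₁^*` is `U_q` of level `N q`. -/
theorem kap_eq_UB [NeZero (N * q)] [NeZero q] (hd : q ∣ N * q)
    (χ : Additive (Gamma0 (N * q)) →+ A) :
    corAlong A (kap2 N q) (resAlong A (kap1 N q) χ) = UB (N * q) A hd χ :=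
  cor_res_eq_UB hd (by ring) (kap1 N q) (kap2 N q) (fun _ => rfl) (fun _ => rfl)
    (kap2_injective N q (NeZero.ne q)) (range_kap2 N q) kap1_surj χ

/-- `C₂ = c₂ ∘ κ₁_*`. -/
theorem corC2_eq (hN : 0 < N) (hq : q.Prime) (hqN : ¬ q ∣ N)
    (ψ : Additive (Gamma0 (N * q ^ 2)) →+ A) :
    corC2 N q A ψ = cor2 N q A (corAlong A (kap1 N q) ψ) := by
  have := finiteIndex_kap1 hN hq.pos
  have := finiteIndex_conjG hN hq hqN
  unfold corC2 cor2
  rw [j2_eq, corAlong_comp (kap1 N q) (conjG N q) (kap1_injective N q)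
    (conjG_injective N q hq.ne_zero)]

/-- `C₂ = c₁ ∘ κ₂_*`. -/
theorem corC2_eq' (hN : 0 < N) (hq : q.Prime) (hqN : ¬ q ∣ N)
    (ψ : Additive (Gamma0 (N * q ^ 2)) →+ A) :
    corC2 N q A ψ = cor1 N q A (corAlong A (kap2 N q) ψ) := by
  haveI : NeZero q := ⟨hq.ne_zero⟩
  have := finiteIndex_kap2 (q := q) N
  have := finiteIndex_inclG hN hq hqN
  unfold corC2 cor1
  rw [j2_eq', corAlong_comp (kap2 N q) (inclG N q) (kap2_injective N q hq.ne_zero)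
    (inclG_injective N q)]

/-- `C₃ = c₂ ∘ κ₂_*`. -/
theorem corC3_eq (hN : 0 < N) (hq : q.Prime) (hqN : ¬ q ∣ N)
    (ψ : Additive (Gamma0 (N * q ^ 2)) →+ A) :
    corC3 N q A ψ = cor2 N q A (corAlong A (kap2 N q) ψ) := by
  haveI : NeZero q := ⟨hq.ne_zero⟩
  have := finiteIndex_kap2 (q := q) N
  have := finiteIndex_conjG hN hq hqN
  unfold corC3 cor2
  rw [j3_eq, corAlong_comp (kap2 N q) (conjG N q) (kap2_injective N q hq.ne_zero)
    (conjG_injective N q hq.ne_zero)]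

end Tower

/-! ### REL2 -/

theorem stmt_REL2 : Stmt_REL2 := by
  intro N q _ _ hq hqN hd A _ ψ
  have hN : 0 < N := Nat.pos_of_ne_zero (NeZero.ne N)
  haveI : NeZero q := ⟨hq.ne_zero⟩
  haveI : NeZero (N * q) := ⟨(Nat.mul_pos hN hq.pos).ne'⟩
  have hd' : q ∣ N * q := dvd_mul_left q N
  refine ⟨?_, ?_, ?_⟩
  · rw [corC1_eq hN hq hqN, UB_eq_kap hd ψ, cor_kap1_res_kap1 hN hq.pos, corC2_eq' hN hq hqN]
    unfold cor1
    rw [corAlong_smul]
  · rw [corC2_eq hN hq hqN, UB_eq_kap hd ψ, cor_kap1_res_kap1 hN hq.pos, corC3_eq hN hq hqN]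
    unfold cor2
    rw [corAlong_smul]
  · rw [corC3_eq hN hq hqN, UB_eq_kap hd ψ, kap_eq_UB hd', cor2_UB hN hq hqN hd',
      corC3_eq hN hq hqN, corC2_eq' hN hq hqN]

end Fermat.Agent.S59.NonMin.Geom.H92
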