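import Fermat.Agent.S41.H77_CorComp

/-!
# S59, NMGEOM, leaf REL-T (helper13): abstract part

Transfer calculus for "Hecke operators" `T = cor_a ∘ res_b` defined by a pair of homomorphisms
`a, b : G' → G`.

* `index_range_comp`, `finiteIndex_of_comp` : the index of a composite of injective maps;
* `corAlong_id`, `corAlong_zero'` ;
* `cor_hecke_comm` : the transfer along `ι : H → G` commutes with the Hecke operators, if the
  square of the `b`'s is cartesian and the `a`'s have the same index;
* `res_hecke_comm` : the same for the restriction.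
-/

set_option autoImplicit false
set_option linter.style.haveILetI false

namespace Fermat.Agent.S59.NonMin.Geom.H13

open Fermat.Agent.S41 Fermat.Agent.S41.H19 Fermat.Agent.S41.H77

section Index

variable {P H G : Type*} [Group P] [Group H] [Group G]

/-- The index of the range of a composite. -/
theorem index_range_comp (κ : P →* H) (ι : H →* G) (hι : Function.Injective ι) :
    (ι.comp κ).range.index = κ.range.index * ι.range.index := by
  rw [MonoidHom.range_comp, Subgroup.index_map_of_injective _ hι]

theorem finiteIndex_of_comp (κ : P →* H) (ι : H →* G) (hι : Function.Injective ι)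
    (h : (ι.comp κ).range.FiniteIndex) : κ.range.FiniteIndex ∧ ι.range.FiniteIndex := by
  have h1 := h.index_ne_zero
  rw [index_range_comp κ ι hι] at h1
  exact ⟨⟨fun h0 => h1 (by rw [h0, zero_mul])⟩, ⟨fun h0 => h1 (by rw [h0, mul_zero])⟩⟩

theorem finiteIndex_comp (κ : P →* H) (ι : H →* G) (hι : Function.Injective ι)
    (hκ : κ.range.FiniteIndex) (hι' : ι.range.FiniteIndex) : (ι.comp κ).range.FiniteIndex := by
  refine ⟨?_⟩
  rw [index_range_comp κ ι hι]
  exact Nat.mul_ne_zero hκ.index_ne_zero hι'.index_ne_zero

end Index

section Cor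

variable {G : Type*} [Group G] {A : Type*} [AddCommGroup A]

theorem corAlong_zero' {H : Type*} [Group H] (ι : H →* G) :
    corAlong A ι (0 : Additive H →+ A) = 0 := by
  have h := corAlong_sub (A := A) ι (0 : Additive H →+ A) 0
  rw [sub_zero, sub_self] at h
  exact h

/-- The transfer along the identity. -/
theorem corAlong_id (φ : Additive G →+ A) : corAlong A (MonoidHom.id G) φ = φ := by
  haveI : (MonoidHom.id G).range.FiniteIndex := by
    rw [MonoidHom.range_eq_top.2 Function.surjective_id]
    infer_instance
  have h := corAlong_resAlong (A := A) (MonoidHom.id G) Function.injective_id φ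
  rw [MonoidHom.range_eq_top.2 Function.surjective_id, Subgroup.index_top, one_smul] at h
  exact h

end Cor

section Hecke

variable {G H G' H' : Type*} [Group G] [Group H] [Group G'] [Group H']
  {A : Type*} [AddCommGroup A]

/-- **The transfer commutes with the Hecke operators.** -/
theorem cor_hecke_comm (ι : H →* G) (aG bG : G' →* G) (aH bH : H' →* H) (ι' : H' →* G')
    (hι : Function.Injective ι) [hfι : ι.range.FiniteIndex]
    (haG : Function.Injective aG) [hfG : aG.range.FiniteIndex]
    (haH : Function.Injective aH) [hfH : aH.range.FiniteIndex]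
    (hι' : Function.Injective ι')
    (hidx : aG.range.index = aH.range.index)
    (hca : ∀ p, ι (aH p) = aG (ι' p)) (hcb : ∀ p, bG (ι' p) = ι (bH p))
    (hpull : ∀ (k : G') (h : H), bG k = ι h → ∃ p, ι' p = k)
    (ψ : Additive H →+ A) :
    corAlong A ι (corAlong A aH (resAlong A bH ψ))
      = corAlong A aG (resAlong A bG (corAlong A ι ψ)) := by
  have hcomp : ι.comp aH = aG.comp ι' := MonoidHom.ext hca
  have h1 := index_range_comp aH ι hι
  have h2 := index_range_comp ι' aG haG
  rw [hcomp, h2, hidx] at h1
  have h0 : aH.range.index ≠ 0 := hfH.index_ne_zero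
  have h3 : ι'.range.index = ι.range.index := by
    have h4 : aH.range.index * ι'.range.index = aH.range.index * ι.range.index := by
      rw [mul_comm, h1]
    exact Nat.eq_of_mul_eq_mul_left (Nat.pos_of_ne_zero h0) h4
  haveI hfι' : ι'.range.FiniteIndex := ⟨by rw [h3]; exact hfι.index_ne_zero⟩
  have hidx' : Nat.card (G ⧸ ι.range) ≤ Nat.card (G' ⧸ ι'.range) := by
    rw [← Subgroup.index_eq_card, ← Subgroup.index_eq_card, h3]
  rw [← corAlong_comp aH ι haH hι, hcomp, corAlong_comp ι' aG hι' haG,
    corAlong_mackey ι bG ι' bH hι hι' hcb hpull hidx' ψ]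

/-- **The restriction commutes with the Hecke operators.** -/
theorem res_hecke_comm (r : H →* G) (aG bG : G' →* G) (aH bH : H' →* H) (r' : H' →* G')
    (haG : Function.Injective aG) [hfG : aG.range.FiniteIndex]
    (haH : Function.Injective aH)
    (hidx : Nat.card (G ⧸ aG.range) ≤ Nat.card (H ⧸ aH.range))
    (hca : ∀ p, r (aH p) = aG (r' p)) (hcb : ∀ p, bG (r' p) = r (bH p))
    (hpull : ∀ (k : H) (h : G'), r k = aG h → ∃ p, aH p = k)
    (φ : Additive G →+ A) :
    corAlong A aH (resAlong A bH (resAlong A r φ))
      = resAlong A r (corAlong A aG (resAlong A bG φ)) := by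
  rw [corAlong_mackey aG r aH r' haG haH hca hpull hidx (resAlong A bG φ)]
  congr 1
  apply AddMonoidHom.ext
  intro x
  show φ (Additive.ofMul (r (bH (Additive.toMul x)))) = φ (Additive.ofMul (bG (r' (Additive.toMul x))))
  rw [hcb]

end Hecke

end Fermat.Agent.S59.NonMin.Geom.H13
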