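/-
S59, package RT-NONMIN, sub-package NMGEOM, leaf ADJ3 (helper98), a piece of DUAL-k:
the degeneracy maps `A_a = i_a^*` and `C_a = (i_a)_*` (`a = 1, 2, 3`, levels `N` and `N q²`) are
adjoint for the pairing `S41.H94.Bform`:

  `Bform (A_a φ) ψ = Bform φ (C_a ψ)`   (`φ`, `ψ` cuspidal).

Stated once for a general `ι : Γ₀(M') → Γ₀(N)` which is the conjugation by `diag(c, 1)`
(`H12.IsDeg ι c`, `c ≠ 0`) with range of finite index (`Bform_adj_deg`), then three instances.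
-/
import Fermat.Agent.S41.H94_Dual
import Fermat.Agent.S59.NonMin.Geom.Defs
import Fermat.Agent.S59.NonMin.Geom.H12_RelU
import Fermat.Agent.S59.NonMin.Geom.H72_Rel3
import Fermat.Agent.S59.NonMin.Geom.H92_Rel2
import Fermat.Agent.S59.NonMin.Geom.H13_RelTAbs

set_option autoImplicit false
set_option linter.style.haveILetI false
set_option linter.unusedSectionVars false

open scoped MatrixGroups
open CongruenceSubgroup Matrix

namespace Fermat.Agent.S59.NonMin.Geom.H98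

open Fermat.Agent.S41 Fermat.Agent.S41.H19 ModularCurve.Period

section Entries

variable {N M' : ℕ}

/-- The entries of the image under a degeneracy map of degree `c`. -/
theorem isDeg_entries {ι : Gamma0 M' →* Gamma0 N} {c : ℕ} (hι : H12.IsDeg ι c) (hc : c ≠ 0)
    (γ : Gamma0 M') :
    mat (ι γ) 0 0 = mat γ 0 0 ∧ mat (ι γ) 0 1 = (c : ℤ) * mat γ 0 1 ∧
      mat γ 1 0 = (c : ℤ) * mat (ι γ) 1 0 ∧ mat (ι γ) 1 1 = mat γ 1 1 := by
  have h := hι γ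
  have hc0 : (c : ℤ) ≠ 0 := by exact_mod_cast hc
  have h00 := congrFun (congrFun h 0) 0
  have h01 := congrFun (congrFun h 0) 1
  have h10 := congrFun (congrFun h 1) 0
  have h11 := congrFun (congrFun h 1) 1
  simp only [Dq, Matrix.mul_apply, Fin.sum_univ_two, Matrix.of_apply, Matrix.cons_val',
    Matrix.cons_val_zero, Matrix.cons_val_one, Matrix.empty_val', Matrix.cons_val_fin_one,
    mul_zero, mul_one, zero_mul, one_mul, add_zero, zero_add] at h00 h01 h10 h11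
  refine ⟨?_, h01, ?_, h11⟩
  · exact mul_right_cancel₀ hc0 (by rw [h00, mul_comm])
  · rw [← h10, mul_comm]

theorem isDeg_trace {ι : Gamma0 M' →* Gamma0 N} {c : ℕ} (hι : H12.IsDeg ι c) (hc : c ≠ 0)
    (γ : Gamma0 M') : (mat (ι γ)).trace = (mat γ).trace := by
  obtain ⟨h00, -, -, h11⟩ := isDeg_entries hι hc γ
  rw [Matrix.trace_fin_two, Matrix.trace_fin_two, h00, h11]

/-- the composite `Γ₀(M') → Γ₀(N) ⊆ SL(2,ℤ)` -/
abbrev jd (ι : Gamma0 M' →* Gamma0 N) : Gamma0 M' →* SL(2, ℤ) := (Gamma0 N).subtype.comp ι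

theorem jd_injective {ι : Gamma0 M' →* Gamma0 N} {c : ℕ} (hι : H12.IsDeg ι c) (hc : c ≠ 0) :
    Function.Injective (jd ι) :=
  (Gamma0 N).subtype_injective.comp (hι.injective hc)

theorem trace_jd {ι : Gamma0 M' →* Gamma0 N} {c : ℕ} (hι : H12.IsDeg ι c) (hc : c ≠ 0)
    (h : Gamma0 M') :
    ((jd ι h : SL(2, ℤ)) : Matrix (Fin 2) (Fin 2) ℤ).trace
      = (((Gamma0 M').subtype h : SL(2, ℤ)) : Matrix (Fin 2) (Fin 2) ℤ).trace :=
  isDeg_trace hι hc h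

theorem neg_one_mem_range_jd {ι : Gamma0 M' →* Gamma0 N} {c : ℕ} (hι : H12.IsDeg ι c)
    (hc : c ≠ 0) : (-1 : SL(2, ℤ)) ∈ (jd ι).range := by
  refine ⟨⟨-1, H94.neg_one_mem_Gamma0 M'⟩, ?_⟩
  obtain ⟨h00, h01, h10, h11⟩ := isDeg_entries hι hc (⟨-1, H94.neg_one_mem_Gamma0 M'⟩ : Gamma0 M')
  have hc0 : (c : ℤ) ≠ 0 := by exact_mod_cast hc
  apply Subtype.ext
  show mat (ι ⟨-1, H94.neg_one_mem_Gamma0 M'⟩) = ((-1 : SL(2, ℤ)) : Matrix _ _ ℤ)
  have e00 : mat (⟨-1, H94.neg_one_mem_Gamma0 M'⟩ : Gamma0 M') 0 0 = -1 := by simp [mat]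
  have e01 : mat (⟨-1, H94.neg_one_mem_Gamma0 M'⟩ : Gamma0 M') 0 1 = 0 := by simp [mat]
  have e10 : mat (⟨-1, H94.neg_one_mem_Gamma0 M'⟩ : Gamma0 M') 1 0 = 0 := by simp [mat]
  have e11 : mat (⟨-1, H94.neg_one_mem_Gamma0 M'⟩ : Gamma0 M') 1 1 = -1 := by simp [mat]
  rw [e00] at h00
  rw [e01, mul_zero] at h01
  rw [e10] at h10
  rw [e11] at h11
  have h10' : mat (ι ⟨-1, H94.neg_one_mem_Gamma0 M'⟩) 1 0 = 0 := by
    rcases mul_eq_zero.mp h10.symm with h | h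
    · exact absurd h hc0
    · exact h
  ext i j
  fin_cases i <;> fin_cases j
  · simpa using h00
  · simpa using h01
  · simpa using h10'
  · simpa using h11

theorem isPosPar_jd_iff {ι : Gamma0 M' →* Gamma0 N} {c : ℕ} (hι : H12.IsDeg ι c) (hc : c ≠ 0)
    (h : Gamma0 M') :
    H94.IsPosPar ((Gamma0 M').subtype h) ↔ H94.IsPosPar (jd ι h) := by
  have hc0 : (0 : ℤ) < c := by exact_mod_cast Nat.pos_of_ne_zero hc
  obtain ⟨-, e01, e10, -⟩ := isDeg_entries hι hc h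
  have hne : ((Gamma0 M').subtype h = 1) ↔ (jd ι h = 1) := by
    constructor
    · intro h1
      have : h = 1 := (Gamma0 M').subtype_injective (by rw [h1, map_one])
      rw [this, map_one]
    · intro h1
      have : h = 1 := jd_injective hι hc (by rw [h1, map_one])
      rw [this, map_one]
  have e01' : (jd ι h : SL(2, ℤ)) 0 1 = (c : ℤ) * ((Gamma0 M').subtype h : SL(2, ℤ)) 0 1 := e01
  have e10' : ((Gamma0 M').subtype h : SL(2, ℤ)) 1 0 = (c : ℤ) * (jd ι h : SL(2, ℤ)) 1 0 := e10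
  unfold H94.IsPosPar
  rw [trace_jd hι hc]
  constructor
  · rintro ⟨h1, h2, h3, h4⟩
    refine ⟨h1, fun h' => h2 (hne.mpr h'), ?_, ?_⟩
    · rw [e01']; exact mul_nonneg hc0.le h3
    · rw [e10'] at h4; nlinarith
  · rintro ⟨h1, h2, h3, h4⟩
    refine ⟨h1, fun h' => h2 (hne.mp h'), ?_, ?_⟩
    · rw [e01'] at h3; nlinarith
    · rw [e10']; nlinarith

theorem finiteIndex_range_jd [NeZero N] {ι : Gamma0 M' →* Gamma0 N}
    (hfi : ι.range.FiniteIndex) : (jd ι).range.FiniteIndex := by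
  have h1 : ((Gamma0 N).subtype).range.FiniteIndex := by
    rw [Subgroup.range_subtype]; infer_instance
  exact H13.finiteIndex_comp ι (Gamma0 N).subtype (Gamma0 N).subtype_injective hfi h1

end Entries

section Adjunction

variable {k : Type} [Field k] {N M' : ℕ}

theorem isCuspVia_jd_iff {ι : Gamma0 M' →* Gamma0 N} {c : ℕ} (hι : H12.IsDeg ι c) (hc : c ≠ 0)
    (ψ : Additive (Gamma0 M') →+ k) :
    H94.IsCuspVia (jd ι) ψ ↔ IsCuspidalHom (Gamma0 M') ψ := by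
  unfold H94.IsCuspVia IsCuspidalHom
  refine forall_congr' fun h => ?_
  rw [trace_jd hι hc]
  rfl

/-- Adjointness of `ι^*` and `ι_*` for a degeneracy map `ι` of degree `c`. -/
theorem Bform_adj_deg (L : H94.Leaves) (h2 : (2 : k) ≠ 0) (hN : N ≠ 0) (hM' : M' ≠ 0)
    {ι : Gamma0 M' →* Gamma0 N} {c : ℕ} (hι : H12.IsDeg ι c) (hc : c ≠ 0)
    (hfi : ι.range.FiniteIndex)
    {φ : Additive (Gamma0 N) →+ k} {ψ : Additive (Gamma0 M') →+ k}
    (hφ : IsCuspidalHom (Gamma0 N) φ) (hψ : IsCuspidalHom (Gamma0 M') ψ) :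
    IsCuspidalHom (Gamma0 M') (resAlong k ι φ) ∧ IsCuspidalHom (Gamma0 N) (corAlong k ι ψ) ∧
      H94.Bform k M' (resAlong k ι φ) ψ = H94.Bform k N φ (corAlong k ι ψ) := by
  haveI : NeZero N := ⟨hN⟩
  haveI : NeZero M' := ⟨hM'⟩
  haveI : Fintype (SL(2, ℤ) ⧸ (Gamma0 N).subtype.range) := Fintype.ofFinite _
  haveI : Fintype (SL(2, ℤ) ⧸ (Gamma0 M').subtype.range) := Fintype.ofFinite _
  have hfi2 : (jd ι).range.FiniteIndex := finiteIndex_range_jd hfi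
  haveI : Finite (SL(2, ℤ) ⧸ ((Gamma0 N).subtype.comp ι).range) :=
    Subgroup.finite_quotient_of_finiteIndex
  haveI : Fintype (SL(2, ℤ) ⧸ ((Gamma0 N).subtype.comp ι).range) := Fintype.ofFinite _
  have hneg2 : (-1 : SL(2, ℤ)) ∈ (jd ι).range := neg_one_mem_range_jd hι hc
  have hz2 : (ModularGroup.S : SL(2, ℤ)) ^ 2 ∈ ((Gamma0 N).subtype.comp ι).range := by
    rw [H94.S_sq]; exact hneg2
  obtain ⟨P⟩ := H94.nonempty_potTriple_of_cuspidal L h2 _ (H94.neg_one_mem_range N) hφ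
  obtain ⟨Q⟩ := H94.nonempty_potTriple_of_cuspidal L h2 _ (H94.neg_one_mem_range M') hψ
  obtain ⟨Q₂⟩ := H94.nonempty_potTriple_of_cuspidal L h2 (jd ι) hneg2
    ((isCuspVia_jd_iff hι hc ψ).mpr hψ)
  obtain ⟨P', Q', hPQ⟩ := L.adj1 SL(2, ℤ) (Gamma0 N) (Gamma0 M') k ModularGroup.S
    ModularGroup.T (Gamma0 N).subtype ι (Gamma0 N).subtype_injective
    (hι.injective hc) hfi L.ml hz2 h2 φ ψ P Q₂
  have hres : IsCuspidalHom (Gamma0 M') (resAlong k ι φ) :=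
    (isCuspVia_jd_iff hι hc _).mp (H94.cuspidal_of_potTriple L h2 (jd ι) hneg2 P')
  have hcor : IsCuspidalHom (Gamma0 N) (corAlong k ι ψ) :=
    H94.cuspidal_of_potTriple L h2 _ (H94.neg_one_mem_range N) Q'
  refine ⟨hres, hcor, ?_⟩
  obtain ⟨P₀⟩ := H94.nonempty_potTriple_of_cuspidal L h2 _ (H94.neg_one_mem_range M') hres
  rw [H94.Bform_eq L h2 M' P₀ Q, H94.Bform_eq L h2 N P Q', ← hPQ]
  have hfi1 : ((Gamma0 M').subtype).range.FiniteIndex := by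
    rw [Subgroup.range_subtype]; infer_instance
  exact H94.pairingOf_inv L.b1 L.b2 L.b3 L.psl L.ml L.c3 L.par h2 (Gamma0 M').subtype (jd ι)
    (Gamma0 M').subtype_injective (jd_injective hι hc) hfi1 hfi2
    (H94.neg_one_mem_range M') hneg2 (fun h => (trace_jd hι hc h).symm)
    (fun h => isPosPar_jd_iff hι hc h) P₀ Q P' Q₂

end Adjunction

section Instances

variable (N q : ℕ)

theorem finiteIndex_range_j1 (hN : N ≠ 0) (hq : q ≠ 0) : (j1 N q).range.FiniteIndex := by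
  rw [H72R.j1_eq]
  exact H13.finiteIndex_comp _ _ (H19.inclG_injective N q)
    (H72R.finiteIndex_kap1 (Nat.pos_of_ne_zero hN) (Nat.pos_of_ne_zero hq))
    (H94.finiteIndex_range_inclG N q hN hq)

theorem finiteIndex_range_j2 (hN : N ≠ 0) (hq : q ≠ 0) : (j2 N q).range.FiniteIndex := by
  rw [H72R.j2_eq]
  exact H13.finiteIndex_comp _ _ (H19.conjG_injective N q hq)
    (H72R.finiteIndex_kap1 (Nat.pos_of_ne_zero hN) (Nat.pos_of_ne_zero hq))
    (H94.finiteIndex_range_conjG N q hN hq)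

theorem finiteIndex_range_j3 (hN : N ≠ 0) (hq : q ≠ 0) : (j3 N q).range.FiniteIndex := by
  haveI : NeZero q := ⟨hq⟩
  rw [H72R.j3_eq]
  exact H13.finiteIndex_comp _ _ (H19.conjG_injective N q hq)
    (H92.finiteIndex_kap2 N)
    (H94.finiteIndex_range_conjG N q hN hq)

variable {N q}

/-- **ADJ3**: `A_a` and `C_a` are adjoint for `Bform`, `a = 1, 2, 3`. -/
theorem adj3 (L : S41.H94.Leaves) {k : Type} [Field k] (h2 : (2 : k) ≠ 0) (N q : ℕ) (hN : N ≠ 0)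
    (hq : q ≠ 0)
    {φ : Additive (Gamma0 N) →+ k} {ψ : Additive (Gamma0 (N * q ^ 2)) →+ k}
    (hφ : IsCuspidalHom (Gamma0 N) φ) (hψ : IsCuspidalHom (Gamma0 (N * q ^ 2)) ψ) :
    S41.H94.Bform k (N * q ^ 2) (resA1 N q k φ) ψ = S41.H94.Bform k N φ (corC1 N q k ψ) ∧
    S41.H94.Bform k (N * q ^ 2) (resA2 N q k φ) ψ = S41.H94.Bform k N φ (corC2 N q k ψ) ∧
    S41.H94.Bform k (N * q ^ 2) (resA3 N q k φ) ψ = S41.H94.Bform k N φ (corC3 N q k ψ) := by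
  have hM' : N * q ^ 2 ≠ 0 := Nat.mul_ne_zero hN (pow_ne_zero 2 hq)
  exact ⟨(Bform_adj_deg L h2 hN hM' (H12.isDeg_j1 N q) one_ne_zero
      (finiteIndex_range_j1 N q hN hq) hφ hψ).2.2,
    (Bform_adj_deg L h2 hN hM' (H12.isDeg_j2 N q) hq
      (finiteIndex_range_j2 N q hN hq) hφ hψ).2.2,
    (Bform_adj_deg L h2 hN hM' (H12.isDeg_j3 N hq) (pow_ne_zero 2 hq)
      (finiteIndex_range_j3 N q hN hq) hφ hψ).2.2⟩

/-- Cuspidality of `A_a φ` and `C_a ψ` (by-product of the adjunction). -/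
theorem adj3_cusp (L : S41.H94.Leaves) {k : Type} [Field k] (h2 : (2 : k) ≠ 0) (N q : ℕ)
    (hN : N ≠ 0) (hq : q ≠ 0)
    {φ : Additive (Gamma0 N) →+ k} {ψ : Additive (Gamma0 (N * q ^ 2)) →+ k}
    (hφ : IsCuspidalHom (Gamma0 N) φ) (hψ : IsCuspidalHom (Gamma0 (N * q ^ 2)) ψ) :
    (IsCuspidalHom (Gamma0 (N * q ^ 2)) (resA1 N q k φ) ∧
      IsCuspidalHom (Gamma0 (N * q ^ 2)) (resA2 N q k φ) ∧
      IsCuspidalHom (Gamma0 (N * q ^ 2)) (resA3 N q k φ)) ∧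
    (IsCuspidalHom (Gamma0 N) (corC1 N q k ψ) ∧ IsCuspidalHom (Gamma0 N) (corC2 N q k ψ) ∧
      IsCuspidalHom (Gamma0 N) (corC3 N q k ψ)) := by
  have hM' : N * q ^ 2 ≠ 0 := Nat.mul_ne_zero hN (pow_ne_zero 2 hq)
  have h1 := Bform_adj_deg L h2 hN hM' (H12.isDeg_j1 N q) one_ne_zero
      (finiteIndex_range_j1 N q hN hq) hφ hψ
  have h2' := Bform_adj_deg L h2 hN hM' (H12.isDeg_j2 N q) hq
      (finiteIndex_range_j2 N q hN hq) hφ hψ
  have h3 := Bform_adj_deg L h2 hN hM' (H12.isDeg_j3 N hq) (pow_ne_zero 2 hq)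
      (finiteIndex_range_j3 N q hN hq) hφ hψ
  exact ⟨⟨h1.1, h2'.1, h3.1⟩, h1.2.1, h2'.2.1, h3.2.1⟩

end Instances

end Fermat.Agent.S59.NonMin.Geom.H98
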