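import Fermat.Agent.S59.NonMin.Geom.H72_DualK
import Fermat.Agent.S59.NonMin.Geom.H98_Adj3

/-!
# S59 / NMGEOM, leaf DUAL-k (helper72): the unconditional statement

`stmt_DUALk : Stmt_DUALk`, from `H72K.dualk_of` and helper98's adjointness `H98.adj3`.
-/

set_option autoImplicit false

open CuspForm CongruenceSubgroup IsLocalRing
open scoped MatrixGroups

namespace Fermat.Agent.S59.NonMin.Geom.H72K

open Fermat.Agent.S41 Fermat.Agent.Betti Fermat.Agent.S59 Fermat.Agent.S59.NonMin.Geom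

/-- **ADJ3** (helper98). -/
theorem stmt_ADJ3 : Stmt_ADJ3 :=
  fun _ _ h2 N q hN hq _ _ hφ hψ => H98.adj3 H94.leaves h2 N q hN hq hφ hψ

/-- **DUAL-k**: dual Ihara over the residue field. -/
theorem stmt_DUALk : Stmt_DUALk := dualk_of stmt_ADJ3

end Fermat.Agent.S59.NonMin.Geom.H72K
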