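import Fermat.Agent.S59.NonMin.Geom.H94_DualAsm
import Fermat.Agent.S59.NonMin.Geom.H94_UAdj
import Fermat.Agent.S59.NonMin.Geom.H72_DualKFinal

/-!
# S59 / NMGEOM, leaf DUAL: the statement (helper94, helper72)

`stmt_DUAL : Stmt_DUAL`, from `H72K.stmt_DUALk` (helper72; dual Ihara over the residue field) and
`H94.stmt_LIFTB` (helper94; lifting to the Betti lattice) by `H94.dual_of`.

No `sorry`.
-/

set_option autoImplicit false

namespace Fermat.Agent.S59.NonMin.Geom.H94

open Fermat.Agent.S59.NonMin.Geom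

/-- **DUAL**. -/
theorem stmt_DUAL : Stmt_DUAL :=
  dual_of Fermat.Agent.S59.NonMin.Geom.H72K.stmt_DUALk stmt_LIFTB

end Fermat.Agent.S59.NonMin.Geom.H94
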