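import Fermat.Agent.S59.NonMin.Geom.H48_AsmG
import Fermat.Agent.S59.NonMin.Geom.H30_AsmG3
import Fermat.Agent.S59.NonMin.Geom.H61_IharaFld
import Fermat.Agent.S59.NonMin.Geom.H30_ProjQ
import Fermat.Agent.S59.NonMin.Geom.H80_SplitFldFinal
import Fermat.Agent.S59.NonMin.Geom.H94_DualFinal
import Fermat.Agent.S59.NonMin.Geom.H12_Rel1
import Fermat.Agent.S59.NonMin.Geom.H92_Rel2
import Fermat.Agent.S59.NonMin.Geom.H72_Rel3
import Fermat.Agent.S59.NonMin.Geom.H13_RelT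
import Fermat.Agent.S59.NonMin.Geom.H12_RelU
import Fermat.Agent.S59.NonMin.Geom.H94_RelPar

/-!
# S59 / NMGEOM: the assembly with all the function-level leaves plugged in (helper61)

* `stmt_DEG3 : H48.Stmt_DEG3` (unconditional);
* `nmgeomb_of_rank_b0 : Stmt_RANK → Stmt_TWGEOMB → CaseC.Geom.Stmt_NMGEOMB`;
* `nmgeom2_of_rank_b0 : Stmt_RANK → Stmt_TWGEOMB → Stmt_NMGEOM2`.

The only inputs of NMGEOM left are `Stmt_RANK` (multiplicity one) and `Stmt_TWGEOMB` (the base).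
-/

set_option autoImplicit false

namespace Fermat.Agent.S59.NonMin.Geom.H61

open Fermat.Agent.S59.NonMin.Geom

/-- **DEG3**, unconditional. -/
theorem stmt_DEG3 : H48.Stmt_DEG3 :=
  H48.deg3_of stmt_IHARAFLD H30P.stmt_PROJQ H80.stmt_SPLITFLD H94.stmt_DUAL H12.stmt_REL1
    H92.stmt_REL2 H72R.stmt_REL3 H13.stmt_RELT H12.stmt_RELU H94.stmt_RELPAR

/-- **NMGEOMB** from RANK and B0. -/
theorem nmgeomb_of_rank_b0 (hRANK : Stmt_RANK) (hB0 : Stmt_TWGEOMB) :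
    Fermat.Agent.S59.CaseC.Geom.Stmt_NMGEOMB :=
  H30.nmgeomb_of3 stmt_DEG3 hRANK hB0

/-- **NMGEOM2** from RANK and B0. -/
theorem nmgeom2_of_rank_b0 (hRANK : Stmt_RANK) (hB0 : Stmt_TWGEOMB) : Stmt_NMGEOM2 :=
  H30.nmgeom2_of3 stmt_DEG3 hRANK hB0

end Fermat.Agent.S59.NonMin.Geom.H61
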