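import Fermat.Agent.S59.NonMin.Geom.H30_AsmStep

/-!
# S59 / NMGEOM, assembly ASM-G, second half (helper30): the induction

`nmgeomb_of : H48.Stmt_DEG3 → Stmt_BM → Stmt_ALG → Stmt_RANK → Stmt_TWGEOMB →
  CaseC.Geom.Stmt_NMGEOMB`
(and `nmgeom2_of_nmgeomb` for `Geom.Stmt_NMGEOM2`).  The class is
`G s := ∃ Sig, GeomHyp p Smin N Sig s.N s.S ∧ FrobHyp ρbar s.N s.S s.θ ∧ IsBetti s Sig`.

Step at a state `s` of the class and a prime `q ≠ p`, `q ∤ N`, `q ∉ S`: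
`rest := Asm.H41.rest`; `M''` := the Betti lattice of `(N q², insert q S, θ ∘ rest, Sig)`
(`Stmt_BM`); `d : Deg3Data` by `Stmt_DEG3` (first half, helper48); `O : Deg3Out d.toDeg3` by
`Stmt_ALG`; the next module is `O.V = ker U_q`, a Betti lattice for `insert q Sig`
(`isBetti_out`); `rank` from `Stmt_RANK`.
-/

set_option autoImplicit false

open Polynomial CuspForm CongruenceSubgroup IsLocalRing
open scoped MatrixGroups

namespace Fermat.Agent.S59.NonMin.Geom.H30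

open Fermat.Agent.S41 Fermat.Agent.Betti Fermat.Agent.S59 Fermat.Agent.S59.Asm
  Fermat.Agent.S59.NonMin Fermat.Agent.S59.NonMin.Geom
open ModularCurve.Period

/-- the new primes of the level `N q²` lie in `insert q S` -/
theorem new_prime_mem {N q : ℕ} (hq : q.Prime) (S : Finset ℕ) :
    ∀ r : ℕ, r.Prime → r ∣ N * q ^ 2 → ¬ r ∣ N → r ∈ (↑(insert q S) : Set ℕ) := by
  intro r hr hrd hrN
  rcases (Nat.Prime.dvd_mul hr).mp hrd with h | h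
  · exact absurd h hrN
  · have hrq : r ∣ q := Nat.Prime.dvd_of_dvd_pow hr h
    have : r = q := (Nat.prime_dvd_prime_iff_eq hr hq).mp hrq
    rw [this]
    exact Finset.mem_coe.mpr (Finset.mem_insert_self q S)

/-- The step at a Betti state, with a given restriction map `rest`. -/
theorem step_rest (hD3 : H48.Stmt_DEG3) (hBM : Stmt_BM) (hALG : Stmt_ALG) (hRANK : Stmt_RANK)
    (𝒪 : Type) [CommRing 𝒪] [IsDomain 𝒪] [IsDiscreteValuationRing 𝒪]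
    [IsAdicComplete (maximalIdeal 𝒪) 𝒪] [Finite (ResidueField 𝒪)] [CharZero 𝒪]
    (p : ℕ) [Fact p.Prime] (hp2 : p ≠ 2) (hpm : (p : 𝒪) ∈ maximalIdeal 𝒪)
    (ρbar : ResidualGaloisRep (ResidueField 𝒪)) (Smin : Finset ℕ) (hRes : ResHyp p ρbar Smin)
    (N₀ : ℕ) (hflat : p ∣ N₀ → ¬ (GaloisRepAdic.ofResidualGaloisRep ρbar).IsFlatAt p)
    (Sig : Finset ℕ) (s : NMState 𝒪) (hG : GeomHyp p Smin N₀ Sig s.N s.S)
    (hF : Fermat.Agent.S59.Datum.FrobHyp ρbar s.N s.S s.θ) (hIBs : IsBetti s Sig)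
    (q : ℕ) (hq : q.Prime) (hqp : q ≠ p) (hqN : ¬ q ∣ s.N) (hqS : q ∉ (↑s.S : Set ℕ))
    [NeZero (s.N * q ^ 2)]
    (rest : CuspForm.heckeAlgebra (s.N * q ^ 2) 2 (↑(insert q s.S) : Set ℕ) →+*
      CuspForm.heckeAlgebra s.N 2 (↑s.S : Set ℕ))
    (hrest_T : ∀ (ℓ : ℕ) (hℓ : ℓ.Prime) (hℓN' : ¬ ℓ ∣ s.N * q ^ 2)
      (hℓS' : ℓ ∉ (↑(insert q s.S) : Set ℕ)) (hℓN : ¬ ℓ ∣ s.N) (hℓS : ℓ ∉ (↑s.S : Set ℕ)),
      rest (CuspForm.heckeAlgebra.T hℓ hℓN' hℓS') = CuspForm.heckeAlgebra.T hℓ hℓN hℓS) :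
    ∃ st : NMStep s hq hqN hqS, IsBetti st.next (insert q Sig) ∧ st.rest = rest := by
  -- the Betti lattice of level `N q²` before cutting by `U_q`
  obtain ⟨M'', ι'', hι''⟩ := hBM 𝒪 (s.N * q ^ 2) (insert q s.S)
    (fun r hr hrN => geomHyp_prime_mem_next hG hq hr hrN)
    (s.θ.comp rest) Sig (fun r hr => (hG.hSig r hr).1)
  obtain ⟨ι, hι⟩ := hIBs
  have h1 := hD3 𝒪 p hp2 hpm ρbar Smin hRes N₀ Sig s hG hF ι hι q hq hqp hqN hqS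
    rest hrest_T M'' ι'' hι''
  obtain ⟨d, hU⟩ := h1
  have h2 : Nonempty (Deg3Out d.toDeg3) := hALG 𝒪 rest s.θ d.toDeg3
  have O : Deg3Out d.toDeg3 := Classical.choice h2
  have hIBn := isBetti_out d O Sig ι'' hι'' hU
  have hrank := hRANK 𝒪 p hp2 hpm ρbar Smin hRes N₀ hflat Sig s hG hF ⟨ι, hι⟩ q hq hqp hqN hqS
    rest hrest_T (outHMod d O) hIBn
  exact ⟨outStep d O hrest_T hrank, hIBn, rfl⟩

/-- The step at a state of the class `G`. -/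
theorem step_G (hD3 : H48.Stmt_DEG3) (hBM : Stmt_BM) (hALG : Stmt_ALG) (hRANK : Stmt_RANK)
    (𝒪 : Type) [CommRing 𝒪] [IsDomain 𝒪] [IsDiscreteValuationRing 𝒪]
    [IsAdicComplete (maximalIdeal 𝒪) 𝒪] [Finite (ResidueField 𝒪)] [CharZero 𝒪]
    (p : ℕ) [Fact p.Prime] (hp2 : p ≠ 2) (hpm : (p : 𝒪) ∈ maximalIdeal 𝒪)
    (ρbar : ResidualGaloisRep (ResidueField 𝒪)) (Smin : Finset ℕ) (hRes : ResHyp p ρbar Smin)
    (N₀ : ℕ) (hflat : p ∣ N₀ → ¬ (GaloisRepAdic.ofResidualGaloisRep ρbar).IsFlatAt p)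
    (Sig : Finset ℕ) (s : NMState 𝒪) (hG : GeomHyp p Smin N₀ Sig s.N s.S)
    (hF : Fermat.Agent.S59.Datum.FrobHyp ρbar s.N s.S s.θ) (hIBs : IsBetti s Sig)
    (q : ℕ) (hq : q.Prime) (hqp : q ≠ p) (hqN : ¬ q ∣ s.N) (hqS : q ∉ (↑s.S : Set ℕ))
    [NeZero (s.N * q ^ 2)] :
    ∃ st : NMStep s hq hqN hqS, GeomHyp p Smin N₀ (insert q Sig) st.next.N st.next.S ∧
      Fermat.Agent.S59.Datum.FrobHyp ρbar st.next.N st.next.S st.next.θ ∧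
      IsBetti st.next (insert q Sig) := by
  have hsub : (↑s.S : Set ℕ) ⊆ (↑(insert q s.S) : Set ℕ) := fun x hx =>
    Finset.mem_coe.mpr (Finset.mem_insert_of_mem (Finset.mem_coe.mp hx))
  have hdvd : s.N ∣ s.N * q ^ 2 := Dvd.intro _ rfl
  obtain ⟨st, hst, -⟩ := step_rest hD3 hBM hALG hRANK 𝒪 p hp2 hpm ρbar Smin hRes N₀ hflat Sig s
    hG hF hIBs q hq hqp hqN hqS
    (Fermat.Agent.S59.Asm.H41.rest hdvd 2 hsub (new_prime_mem hq s.S))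
    (fun ℓ hℓ hℓN' hℓS' hℓN hℓS =>
      Fermat.Agent.S59.Asm.H41.rest_T hdvd 2 hsub (new_prime_mem hq s.S) hℓ hℓN' hℓS' hℓN hℓS)
  refine ⟨st, ?_, ?_, hst⟩
  · exact geomHyp_next hG hq hqp (fun h => hqS (Finset.mem_coe.mpr h))
  · exact frobHyp_next ρbar hF st.rest st.rest_T

/-- **ASM-G, second half**: the induction. -/
theorem nmgeomb_of (hD3 : H48.Stmt_DEG3) (hBM : Stmt_BM) (hALG : Stmt_ALG) (hRANK : Stmt_RANK)
    (hB0 : Stmt_TWGEOMB) : Fermat.Agent.S59.CaseC.Geom.Stmt_NMGEOMB := by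
  intro 𝒪 _ _ _ _ _ _ p _ hp2 hpm ρbar Smin hRes N _ _ hNS hsq hflat θ hFrob
  obtain ⟨M, hnt, hIB, hTW⟩ := hB0 𝒪 p hp2 hpm ρbar Smin hRes N hNS hsq θ hFrob
  refine ⟨M, fun s => ∃ Sig : Finset ℕ, GeomHyp p Smin N Sig s.N s.S ∧
    Fermat.Agent.S59.Datum.FrobHyp ρbar s.N s.S s.θ ∧ IsBetti s Sig, hnt, hTW,
    ⟨∅, geomHyp_base p Smin N hsq hNS, hFrob, hIB⟩, ?_, fun s hs => hs⟩
  rintro s ⟨Sig, hG, hF, hIBs⟩ q hq hqp hqN hqS _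
  obtain ⟨st, h1, h2, h3⟩ := step_G hD3 hBM hALG hRANK 𝒪 p hp2 hpm ρbar Smin hRes N hflat Sig s
    hG hF hIBs q hq hqp hqN hqS
  exact ⟨st, insert q Sig, h1, h2, h3⟩

/-- `Geom.Stmt_NMGEOM2` is a projection of `CaseC.Geom.Stmt_NMGEOMB`. -/
theorem nmgeom2_of_nmgeomb (h : Fermat.Agent.S59.CaseC.Geom.Stmt_NMGEOMB) : Stmt_NMGEOM2 := by
  intro 𝒪 _ _ _ _ _ _ p _ hp2 hpm ρbar Smin hRes N _ _ hNS hsq hflat θ hFrob
  obtain ⟨M, G, h1, h2, h3, h4, -⟩ := h 𝒪 p hp2 hpm ρbar Smin hRes N hNS hsq hflat θ hFrob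
  exact ⟨M, G, h1, h2, h3, h4⟩

end Fermat.Agent.S59.NonMin.Geom.H30
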