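import Fermat.Agent.S59.NonMin.Geom.H48_AsmGDefs
import Fermat.Agent.S59.CaseC.Geom.Defs
import Fermat.Agent.S59.Asm.H41_Rest

/-!
# S59 / NMGEOM, assembly ASM-G, second half (helper30): from `Deg3Out` to `NMStep`

Interface with the first half: `Geom.H48.Deg3Data`, `Geom.H48.Stmt_DEG3` (helper48).

* `inBetti_cut`   : cutting a Betti lattice by `U_q = 0` (abstract form);
* `outHMod d O`   : the Hecke module of the next state (`V = ker U_q` of `Deg3Out`);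
* `isBetti_out`   : it is the Betti lattice of `(N q², insert q S, θ ∘ rest, insert q Sig)`;
* `outStep`       : the `NMStep`;
* `geomHyp_base`, `geomHyp_next`, `frobHyp_next` : the class `G` is preserved.
-/

set_option autoImplicit false

open Polynomial CuspForm CongruenceSubgroup IsLocalRing
open scoped MatrixGroups

namespace Fermat.Agent.S59.NonMin.Geom.H30

open Fermat.Agent.S41 Fermat.Agent.Betti Fermat.Agent.S59 Fermat.Agent.S59.Asm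
  Fermat.Agent.S59.NonMin Fermat.Agent.S59.NonMin.Geom
open ModularCurve.Period

theorem q_dvd_level (N q : ℕ) : q ∣ N * q ^ 2 := ⟨N * q, by ring⟩

/-- Cutting a Betti lattice by `U_q = 0` (abstract form). -/
theorem inBetti_cut {𝒪 : Type} [CommRing 𝒪] [IsLocalRing 𝒪] {N' : ℕ} [NeZero N'] {S' : Set ℕ}
    {θ' : CuspForm.heckeAlgebra N' 2 S' →+* ResidueField 𝒪} {Sig : Finset ℕ} {q : ℕ}
    (hqN' : q ∣ N')
    {V W : Type} [AddCommGroup V] [Module 𝒪 V] [AddCommGroup W] [Module 𝒪 W]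
    (j : V →ₗ[𝒪] W) (U : Module.End 𝒪 W)
    (hj : ∀ w : W, w ∈ Set.range j ↔ U w = 0)
    (ι'' : W →ₗ[𝒪] (Additive (Gamma0 N') →+ 𝒪)) (hinj : Function.Injective ι'')
    (hrange : ∀ φ, φ ∈ Set.range ι'' ↔ InBetti 𝒪 N' S' θ' Sig φ)
    (hU : ∀ (hd : q ∣ N') (w : W), ι'' (U w) = UB N' 𝒪 hd (ι'' w))
    (φ : Additive (Gamma0 N') →+ 𝒪) :
    φ ∈ Set.range (ι''.comp j) ↔ InBetti 𝒪 N' S' θ' (insert q Sig) φ := by
  constructor
  · rintro ⟨v, rfl⟩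
    have h1 : InBetti 𝒪 N' S' θ' Sig (ι'' (j v)) := (hrange _).mp ⟨_, rfl⟩
    have h2 : U (j v) = 0 := (hj _).mp ⟨v, rfl⟩
    refine ⟨h1.1, ?_, h1.2.2⟩
    intro r hr hrN
    rcases Finset.mem_insert.mp hr with hrq | hr'
    · subst hrq
      have h3 := hU hrN (j v)
      rw [h2, map_zero] at h3
      exact h3.symm
    · exact h1.2.1 r hr' hrN
  · intro h
    have h1 : InBetti 𝒪 N' S' θ' Sig φ :=
      ⟨h.1, fun r hr hrN => h.2.1 r (Finset.mem_insert_of_mem hr) hrN, h.2.2⟩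
    obtain ⟨w, rfl⟩ := (hrange φ).mpr h1
    have h2 : U w = 0 := by
      apply hinj
      rw [hU hqN', map_zero]
      exact h.2.1 q (Finset.mem_insert_self _ _) hqN'
    obtain ⟨v, rfl⟩ := (hj w).mpr h2
    exact ⟨v, rfl⟩

section Step

variable {𝒪 : Type} [CommRing 𝒪] [IsLocalRing 𝒪] {s : NMState 𝒪}
  {q : ℕ} {hq : q.Prime} {hqN : ¬ q ∣ s.N} {hqS : q ∉ (↑s.S : Set ℕ)} [NeZero (s.N * q ^ 2)]
  {rest : CuspForm.heckeAlgebra (s.N * q ^ 2) 2 (↑(insert q s.S) : Set ℕ) →+*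
    CuspForm.heckeAlgebra s.N 2 (↑s.S : Set ℕ)}
  {M'' : HMod 𝒪 (s.N * q ^ 2) (↑(insert q s.S) : Set ℕ) (s.θ.comp rest)}

/-- The Hecke module of the next state: `V = ker U_q` with the action `η''`. -/
noncomputable def outHMod (d : H48.Deg3Data s hq hqN hqS rest M'') (O : Deg3Out d.toDeg3) :
    HMod 𝒪 (s.N * q ^ 2) (↑(insert q s.S) : Set ℕ) (s.θ.comp rest) where
  V := O.V
  instAddCommGroup := O.iV1
  instModule := O.iV2
  instFinite := O.iV3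
  instFree := O.iV4
  η := O.η''
  η_local := O.η''_local

/-- the embedding of the next module into the lattice before cutting -/
noncomputable def outι (d : H48.Deg3Data s hq hqN hqS rest M'') (O : Deg3Out d.toDeg3) :
    (outHMod d O).V →ₗ[𝒪] M''.V := O.ι

theorem outι_inj (d : H48.Deg3Data s hq hqN hqS rest M'') (O : Deg3Out d.toDeg3) :
    Function.Injective (outι d O) := O.ι_inj

theorem outι_range (d : H48.Deg3Data s hq hqN hqS rest M'') (O : Deg3Out d.toDeg3)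
    (w : M''.V) : w ∈ Set.range (outι d O) ↔ d.U w = 0 := O.range_ι w

theorem outι_η (d : H48.Deg3Data s hq hqN hqS rest M'') (O : Deg3Out d.toDeg3)
    (t : CuspForm.heckeAlgebra (s.N * q ^ 2) 2 (↑(insert q s.S) : Set ℕ))
    (v : (outHMod d O).V) :
    outι d O ((outHMod d O).η t v) = M''.η t (outι d O v) := O.ι_η t v

/-- The next state is a Betti state for `insert q Sig`. -/
theorem isBetti_out (d : H48.Deg3Data s hq hqN hqS rest M'') (O : Deg3Out d.toDeg3)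
    (Sig : Finset ℕ) (ι'' : M''.V →ₗ[𝒪] (Additive (Gamma0 (s.N * q ^ 2)) →+ 𝒪))
    (hι'' : H48.IsBettiVia (⟨s.N * q ^ 2, insert q s.S, s.θ.comp rest, M''⟩ : NMState 𝒪)
      Sig ι'')
    (hU : ∀ (hd : q ∣ s.N * q ^ 2) (w : M''.V),
      ι'' (d.U w) = UB (s.N * q ^ 2) 𝒪 hd (ι'' w)) :
    IsBetti (⟨s.N * q ^ 2, insert q s.S, s.θ.comp rest, outHMod d O⟩ : NMState 𝒪)
      (insert q Sig) := by
  obtain ⟨hinj, hrange, hT⟩ := hι''
  refine ⟨ι''.comp (outι d O), hinj.comp (outι_inj d O), ?_, ?_⟩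
  · intro φ
    exact inBetti_cut (q_dvd_level _ _) (outι d O) d.U (outι_range d O) ι'' hinj hrange hU φ
  · intro ℓ hℓ hℓN hℓS v
    have h1 := outι_η d O (CuspForm.heckeAlgebra.T hℓ hℓN hℓS) v
    have h2 := hT ℓ hℓ hℓN hℓS (outι d O v)
    exact (congrArg ι'' h1).trans h2

/-- The step. -/
noncomputable def outStep (d : H48.Deg3Data s hq hqN hqS rest M'') (O : Deg3Out d.toDeg3)
    (rest_T : ∀ (ℓ : ℕ) (hℓ : ℓ.Prime) (hℓN' : ¬ ℓ ∣ s.N * q ^ 2)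
      (hℓS' : ℓ ∉ (↑(insert q s.S) : Set ℕ)) (hℓN : ¬ ℓ ∣ s.N) (hℓS : ℓ ∉ (↑s.S : Set ℕ)),
      rest (CuspForm.heckeAlgebra.T hℓ hℓN' hℓS') = CuspForm.heckeAlgebra.T hℓ hℓN hℓS)
    (hrank : ∀ (x : CuspForm.heckeAlgebra s.N 2 (↑s.S : Set ℕ) →+* 𝒪),
      (∀ t, residue 𝒪 (x t) = s.θ t) →
      Module.finrank 𝒪 ↥(NMState.eigen
        (⟨s.N * q ^ 2, insert q s.S, s.θ.comp rest, outHMod d O⟩ : NMState 𝒪)
        (x.comp rest)) ≤ Module.finrank 𝒪 ↥(s.eigen x)) :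
    NMStep s hq hqN hqS where
  rest := rest
  rest_T := rest_T
  M' := outHMod d O
  α := O.α
  α' := O.α'
  α_η := O.α_η
  α'_η := O.α'_η
  α_inj := O.α_inj
  α_sat := O.α_sat
  α'_surj := O.α'_surj
  u := -1
  comp := fun v => by
    have h := O.comp v
    rw [Units.val_neg, Units.val_one, neg_one_smul]
    exact h
  rank := hrank

theorem outStep_next (d : H48.Deg3Data s hq hqN hqS rest M'') (O : Deg3Out d.toDeg3)
    (rest_T : ∀ (ℓ : ℕ) (hℓ : ℓ.Prime) (hℓN' : ¬ ℓ ∣ s.N * q ^ 2)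
      (hℓS' : ℓ ∉ (↑(insert q s.S) : Set ℕ)) (hℓN : ¬ ℓ ∣ s.N) (hℓS : ℓ ∉ (↑s.S : Set ℕ)),
      rest (CuspForm.heckeAlgebra.T hℓ hℓN' hℓS') = CuspForm.heckeAlgebra.T hℓ hℓN hℓS)
    (hrank : ∀ (x : CuspForm.heckeAlgebra s.N 2 (↑s.S : Set ℕ) →+* 𝒪),
      (∀ t, residue 𝒪 (x t) = s.θ t) →
      Module.finrank 𝒪 ↥(NMState.eigen
        (⟨s.N * q ^ 2, insert q s.S, s.θ.comp rest, outHMod d O⟩ : NMState 𝒪)
        (x.comp rest)) ≤ Module.finrank 𝒪 ↥(s.eigen x)) :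
    (outStep d O rest_T hrank).next
      = (⟨s.N * q ^ 2, insert q s.S, s.θ.comp rest, outHMod d O⟩ : NMState 𝒪) := rfl

end Step

/-! ### The class `G` is preserved -/

theorem geomHyp_base (p : ℕ) (Smin : Finset ℕ) (N : ℕ) (hsq : Squarefree N)
    (hNS : ∀ r : ℕ, r.Prime → r ∣ N → r ∈ Smin) : GeomHyp p Smin N ∅ N Smin where
  hN := by rw [Finset.prod_empty, mul_one]
  hS := by rw [Finset.union_empty]
  hSig := fun r hr => absurd hr (Finset.notMem_empty r)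
  hN₀ := hsq
  hN₀S := hNS

theorem geomHyp_next {p : ℕ} {Smin : Finset ℕ} {N₀ : ℕ} {Sig : Finset ℕ} {N : ℕ} {S : Finset ℕ}
    (h : GeomHyp p Smin N₀ Sig N S) {q : ℕ} (hq : q.Prime) (hqp : q ≠ p) (hqS : q ∉ S) :
    GeomHyp p Smin N₀ (insert q Sig) (N * q ^ 2) (insert q S) where
  hN := by
    have hqSig : q ∉ Sig := fun hmem => hqS (by rw [h.hS]; exact Finset.mem_union_right _ hmem)
    rw [Finset.prod_insert hqSig, h.hN]
    ring
  hS := by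
    rw [h.hS, Finset.union_insert]
  hSig := fun r hr => by
    rcases Finset.mem_insert.mp hr with rfl | hr'
    · exact ⟨hq, hqp, fun hmem => hqS (by rw [h.hS]; exact Finset.mem_union_left _ hmem)⟩
    · exact h.hSig r hr'
  hN₀ := h.hN₀
  hN₀S := h.hN₀S

theorem geomHyp_prime_mem {p : ℕ} {Smin : Finset ℕ} {N₀ : ℕ} {Sig : Finset ℕ} {N : ℕ}
    {S : Finset ℕ} (h : GeomHyp p Smin N₀ Sig N S) {r : ℕ} (hr : r.Prime) (hrN : r ∣ N) :
    r ∈ S := by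
  rw [h.hS]
  rw [h.hN] at hrN
  rcases (Nat.Prime.dvd_mul hr).mp hrN with h1 | h1
  · exact Finset.mem_union_left _ (h.hN₀S r hr h1)
  · obtain ⟨t, ht, htd⟩ := (Prime.dvd_finsetProd_iff (Nat.Prime.prime hr) _).mp h1
    have hrt : r ∣ t := Nat.Prime.dvd_of_dvd_pow hr htd
    have : r = t := (Nat.prime_dvd_prime_iff_eq hr (h.hSig t ht).1).mp hrt
    rw [this]
    exact Finset.mem_union_right _ ht

theorem geomHyp_prime_mem_next {p : ℕ} {Smin : Finset ℕ} {N₀ : ℕ} {Sig : Finset ℕ} {N : ℕ}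
    {S : Finset ℕ} (h : GeomHyp p Smin N₀ Sig N S) {q : ℕ} (hq : q.Prime) {r : ℕ}
    (hr : r.Prime) (hrN : r ∣ N * q ^ 2) : r ∈ insert q S := by
  rcases (Nat.Prime.dvd_mul hr).mp hrN with h1 | h1
  · exact Finset.mem_insert_of_mem (geomHyp_prime_mem h hr h1)
  · have hrq : r ∣ q := Nat.Prime.dvd_of_dvd_pow hr h1
    have : r = q := (Nat.prime_dvd_prime_iff_eq hr hq).mp hrq
    rw [this]
    exact Finset.mem_insert_self q S

theorem frobHyp_next {k : Type} [Field k] (ρbar : ResidualGaloisRep k) {N : ℕ} [NeZero N]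
    {S : Finset ℕ} {θ : CuspForm.heckeAlgebra N 2 (↑S : Set ℕ) →+* k}
    (h : Fermat.Agent.S59.Datum.FrobHyp ρbar N S θ) {q : ℕ} [NeZero (N * q ^ 2)]
    (rest : CuspForm.heckeAlgebra (N * q ^ 2) 2 (↑(insert q S) : Set ℕ) →+*
      CuspForm.heckeAlgebra N 2 (↑S : Set ℕ))
    (rest_T : ∀ (ℓ : ℕ) (hℓ : ℓ.Prime) (hℓN' : ¬ ℓ ∣ N * q ^ 2)
      (hℓS' : ℓ ∉ (↑(insert q S) : Set ℕ)) (hℓN : ¬ ℓ ∣ N) (hℓS : ℓ ∉ (↑S : Set ℕ)),
      rest (CuspForm.heckeAlgebra.T hℓ hℓN' hℓS') = CuspForm.heckeAlgebra.T hℓ hℓN hℓS) :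
    Fermat.Agent.S59.Datum.FrobHyp ρbar (N * q ^ 2) (insert q S) (θ.comp rest) := by
  intro ℓ hℓ hℓN' hℓS' A hA σ hσ
  have hℓN : ¬ ℓ ∣ N := fun hd => hℓN' (Dvd.dvd.mul_right hd _)
  have hℓS : ℓ ∉ (↑S : Set ℕ) := fun hmem =>
    hℓS' (Finset.mem_coe.mpr (Finset.mem_insert_of_mem (Finset.mem_coe.mp hmem)))
  rw [RingHom.comp_apply, rest_T ℓ hℓ hℓN' hℓS' hℓN hℓS]
  exact h ℓ hℓ hℓN hℓS A hA σ hσ

end Fermat.Agent.S59.NonMin.Geom.H30
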