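import Fermat.Agent.S59.NonMin.Geom.H92_B0Defs
import Fermat.Agent.S59.Lim.H2_KerNm

/-!
# S59 / NMGEOM, leaf B0, slice (1) (helper30): `stmt_B0TOP : H92B.Stmt_B0TOP`

The leaves of NEB-GEOM and `H92B.Stmt_B0BETTI` give `Geom.Stmt_TWGEOMB`: the module of the
minimal level is `M := Dm.MD.toHMod hϖ` (`Dm : NEB.Geom.MinSetup` from `Stmt_A_MIN`), the Tate
module of the `θ`-part of `𝒪 ⊗ J₀(N)[p^∞]`; `TWGeom` for this `M` is `Lim.twGeom_of_twDiv` (with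
`Lim.H2.stmt_KERNM`), `IsBetti` is `Stmt_B0BETTI`.  (Copy of `NEB.Geom.stmt_TWGEOM_of` with
`Lim.stmt_LIM_A` opened.)
-/

set_option autoImplicit false
set_option linter.unusedSectionVars false
set_option linter.style.haveILetI false
set_option linter.unusedVariables false

noncomputable section

open ModularCurve AlgebraicCurve IsLocalRing TensorProduct Polynomial

namespace Fermat.Agent.S59.NonMin.Geom.H30B

open Fermat.Agent.NEB Fermat.Agent.NEB.JH Fermat.Agent.NEB.Geom Fermat.Agent.S59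
  Fermat.Agent.S59.Asm Fermat.Agent.S59.Lim Fermat.Agent.S59.Lim.H2
  Fermat.Agent.S59.NonMin Fermat.Agent.S59.NonMin.Geom

/-- **B0-TOP**. -/
theorem stmt_B0TOP : H92B.Stmt_B0TOP := by
  intro hMIN hSETUP hR0 hGAL hES hHSTEP hPI hFN hLG hB 𝒪 _ _ _ _ _ _ p _ hp2 hpm ρbar Smin hres
    N _ hint hNS hsq θ hfrob
  obtain ⟨ϖ, hϖ⟩ := IsDiscreteValuationRing.exists_irreducible 𝒪
  have hstd : StdHyp 𝒪 ϖ p N Smin θ ρbar := ⟨hϖ, hp2, hpm, hres, hNS, hsq, hfrob, hint.out⟩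
  obtain ⟨Dm⟩ := hMIN 𝒪 ϖ p N Smin θ ρbar hstd
  refine ⟨Dm.MD.toHMod hϖ, ?_, hB 𝒪 ϖ hϖ p hpm N Smin hNS θ Dm, ?_⟩
  · haveI : Nontrivial Dm.MD.W := Dm.nontriv
    exact Dm.MD.isDiv.nontrivial_tate
  intro r n qv hfam _ hint'
  have key : Nonempty (TWDiv 𝒪 ϖ p ρbar N Smin θ Dm.MD n qv) := by
    rcases Nat.eq_zero_or_pos r with hr | hr
    · subst hr
      exact hR0 𝒪 ϖ p N Smin θ ρbar hstd Dm n qv
    · have hprime : ∀ j, (qv j).Prime := fun j => (hfam.2.1 j).1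
      have hc0 : twC qv ≠ 0 := Finset.prod_ne_zero_iff.mpr fun j _ => (hprime j).ne_zero
      haveI : NeZero (twC qv) := ⟨hc0⟩
      haveI : NeZero (N * twC qv) := ⟨mul_ne_zero (NeZero.ne N) hc0⟩
      obtain ⟨D⟩ := hSETUP 𝒪 ϖ p N Smin θ ρbar hstd n r qv hr hfam hint'.out
      exact H84.nonempty_twDiv Dm D
        (hGAL 𝒪 ϖ p N Smin θ ρbar hstd Dm n r qv D)
        (hES 𝒪 ϖ p N Smin θ ρbar hstd Dm n r qv D)
        (hHSTEP 𝒪 ϖ p N Smin θ ρbar hstd Dm n r qv D)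
        (hPI 𝒪 ϖ p N Smin θ ρbar hstd Dm n r qv D)
        (hFN 𝒪 ϖ p N Smin θ ρbar hstd Dm n r qv D)
        (hLG 𝒪 ϖ p N Smin θ ρbar hstd Dm n r qv D)
  obtain ⟨T⟩ := key
  exact twGeom_of_twDiv H2.stmt_KERNM hϖ p hpm ρbar N Smin θ Dm.MD n qv T

/-- B0 from the leaves of NEB-GEOM and `Stmt_B0BETTI` (unfolded form of `stmt_B0TOP`). -/
theorem twgeomb_of (hMIN : Stmt_A_MIN) (hSETUP : Stmt_A_SETUP) (hR0 : Stmt_A_R0)
    (hGAL : Stmt_A_GAL) (hES : Stmt_A_ES) (hHSTEP : Stmt_A_HSTEP) (hPI : Stmt_A_PI)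
    (hFN : Stmt_A_FROBNIL) (hLG : Stmt_A_LG) (hB : H92B.Stmt_B0BETTI) : Stmt_TWGEOMB :=
  stmt_B0TOP hMIN hSETUP hR0 hGAL hES hHSTEP hPI hFN hLG hB

end Fermat.Agent.S59.NonMin.Geom.H30B
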