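import Fermat.Agent.S59.NonMin.Geom.H61_NmgFinal
import Fermat.Agent.S59.NonMin.Geom.H92_B0Final
import Fermat.Agent.S59.NonMin.Geom.H12_B0Coord
import Fermat.Agent.S59.NonMin.Geom.Rank.H2_Final2

/-!
# S59 / NMGEOM: the package is closed (helper30)

* `stmt_TWGEOMB : Geom.Stmt_TWGEOMB` (the base B0), unconditional:
  `H92B.stmt_TWGEOMB_of_coord` (helper92) with `H12C.stmt_B0COORD` (helper12);
* `stmt_NMGEOMB : CaseC.Geom.Stmt_NMGEOMB`, unconditional: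
  `H61.nmgeomb_of_rank_b0` (helper61) with `Rank.H2F.stmt_RANK` (helper2, plan helper27);
* `stmt_NMGEOM2 : Geom.Stmt_NMGEOM2`, unconditional.

`Stmt_NMGEOMB` is input 3 of `S59/Final/H53_Top.lean` (`s59_of`).
-/

set_option autoImplicit false

namespace Fermat.Agent.S59.NonMin.Geom.H30D

open Fermat.Agent.S59.NonMin.Geom

/-- **B0**, unconditional. -/
theorem stmt_TWGEOMB : Stmt_TWGEOMB :=
  H92B.stmt_TWGEOMB_of_coord H12C.stmt_B0COORD

/-- **NMGEOMB**, unconditional. -/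
theorem stmt_NMGEOMB : Fermat.Agent.S59.CaseC.Geom.Stmt_NMGEOMB :=
  H61.nmgeomb_of_rank_b0 Rank.H2F.stmt_RANK stmt_TWGEOMB

/-- **NMGEOM2**, unconditional. -/
theorem stmt_NMGEOM2 : Stmt_NMGEOM2 :=
  H61.nmgeom2_of_rank_b0 Rank.H2F.stmt_RANK stmt_TWGEOMB

end Fermat.Agent.S59.NonMin.Geom.H30D
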