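import Fermat.Agent.S59.NonMin.Geom.Defs

/-!
# S59 / NMGEOM, leaf B0, part (1) (helper30): transport of `TWGeom` along a Hecke isomorphism

`Asm.TWGeom 𝒪 p ρbar N S θ M n qv` depends on the Hecke module `M` of the minimal level only
through the projection `π : W.V → M.V` (fields `π`, `π_surjective`, `ker_π`, `π_η`).  Hence it is
transported along an `𝒪`-linear isomorphism `e : M.V ≃ M'.V` which commutes with the Hecke
operators.

* `twGeomTransport e he T : TWGeom … M' n qv`;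
* `nonempty_twGeom_of_equiv`;
* `isBetti_of_equiv` : `IsBetti` is transported along a Hecke isomorphism (so for `Stmt_TWGEOMB`
  it is enough to compare the module of `Lim.stmt_LIM_A` with ANY Betti lattice, e.g. the one of
  `H61.stmt_BM`).
-/

set_option autoImplicit false

open Polynomial CuspForm CongruenceSubgroup IsLocalRing
open scoped MatrixGroups

namespace Fermat.Agent.S59.NonMin.Geom.H30T

open Fermat.Agent.S41 Fermat.Agent.Betti Fermat.Agent.S59 Fermat.Agent.S59.Asm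
  Fermat.Agent.S59.NonMin Fermat.Agent.S59.NonMin.Geom
open ModularCurve.Period

section

variable {𝒪 : Type} [CommRing 𝒪] [IsLocalRing 𝒪] {p : ℕ}
  {ρbar : ResidualGaloisRep (ResidueField 𝒪)} {N : ℕ} [NeZero N] {S : Finset ℕ}
  {θ : CuspForm.heckeAlgebra N 2 (↑S : Set ℕ) →+* ResidueField 𝒪}
  {M M' : HMod 𝒪 N (↑S : Set ℕ) θ} {r : ℕ} {n : ℕ} {qv : Fin r → ℕ} [NeZero (twLevel N qv)]

/-- Transport of `TWGeom` along a Hecke isomorphism of the modules of the minimal level. -/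
noncomputable def twGeomTransport (e : M.V ≃ₗ[𝒪] M'.V)
    (he : ∀ (t : CuspForm.heckeAlgebra N 2 (↑S : Set ℕ)) (v : M.V), e (M.η t v) = M'.η t (e v))
    (T : TWGeom 𝒪 p ρbar N S θ M n qv) : TWGeom 𝒪 p ρbar N S θ M' n qv where
  rest := T.rest
  rest_T := T.rest_T
  W := T.W
  gal := T.gal
  gal_cont := T.gal_cont
  gal_η := T.gal_η
  es := T.es
  d := T.d
  d_pow := T.d_pow
  d_comm := T.d_comm
  d_η := T.d_η
  d_gal := T.d_gal
  rk := T.rk
  b := T.b
  b_basis := T.b_basis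
  π := e.toLinearMap.comp T.π
  π_surjective := e.surjective.comp T.π_surjective
  ker_π := by
    rw [← T.ker_π]
    ext v
    simp only [LinearMap.mem_ker, LinearMap.comp_apply, LinearEquiv.coe_coe,
      LinearEquiv.map_eq_zero_iff]
  π_η := fun t v => by
    show e (T.π (T.W.η t v)) = M'.η (T.rest t) (e (T.π v))
    rw [T.π_η, he]
  P := T.P
  P_over := T.P_over
  frob := T.frob
  frob_spec := T.frob_spec
  σ := T.σ
  σ_mem := T.σ_mem
  a := T.a
  a' := T.a'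
  a_ne := T.a_ne
  charpoly_frob := T.charpoly_frob
  Vα := T.Vα
  Vβ := T.Vβ
  isCompl := T.isCompl
  Vα_η := T.Vα_η
  Vα_d := T.Vα_d
  Vα_frob := T.Vα_frob
  Vβ_frob := T.Vβ_frob
  Vα_nil := T.Vα_nil
  Vβ_nil := T.Vβ_nil
  lg := T.lg

theorem nonempty_twGeom_of_equiv (e : M.V ≃ₗ[𝒪] M'.V)
    (he : ∀ (t : CuspForm.heckeAlgebra N 2 (↑S : Set ℕ)) (v : M.V), e (M.η t v) = M'.η t (e v))
    (h : Nonempty (TWGeom 𝒪 p ρbar N S θ M n qv)) :
    Nonempty (TWGeom 𝒪 p ρbar N S θ M' n qv) :=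
  h.elim fun T => ⟨twGeomTransport e he T⟩

end

/-- `IsBetti` is transported along a Hecke isomorphism. -/
theorem isBetti_of_equiv {𝒪 : Type} [CommRing 𝒪] [IsLocalRing 𝒪] {N : ℕ} [NeZero N]
    {S : Finset ℕ} {θ : CuspForm.heckeAlgebra N 2 (↑S : Set ℕ) →+* ResidueField 𝒪}
    {M M' : HMod 𝒪 N (↑S : Set ℕ) θ} (e : M.V ≃ₗ[𝒪] M'.V)
    (he : ∀ (t : CuspForm.heckeAlgebra N 2 (↑S : Set ℕ)) (v : M.V), e (M.η t v) = M'.η t (e v))
    (Sig : Finset ℕ) (h : IsBetti (⟨N, S, θ, M'⟩ : NMState 𝒪) Sig) :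
    IsBetti (⟨N, S, θ, M⟩ : NMState 𝒪) Sig := by
  obtain ⟨ι, hinj, hrange, hT⟩ := h
  refine ⟨ι.comp e.toLinearMap, hinj.comp e.injective, fun φ => ?_, fun ℓ hℓ hℓN hℓS v => ?_⟩
  · rw [← hrange φ]
    constructor
    · rintro ⟨v, rfl⟩
      exact ⟨e v, rfl⟩
    · rintro ⟨w, rfl⟩
      exact ⟨e.symm w, by
        show ι (e (e.symm w)) = ι w
        rw [e.apply_symm_apply]⟩
  · show ι (e (M.η (CuspForm.heckeAlgebra.T hℓ hℓN hℓS) v)) = TB N 𝒪 hℓ hℓN (ι (e v))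
    rw [he]
    exact hT ℓ hℓ hℓN hℓS (e v)

end Fermat.Agent.S59.NonMin.Geom.H30T
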