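import Mathlib
import Fermat.Agent.S59.NonMin.Geom.H48_AsmGLat
import Fermat.Agent.S59.NonMin.Geom.H61_Deg3Leaves

/-!
# S59 / NMGEOM, assembly ASM-G, first half (helper48): tools

* `InBetti` is closed under `+`, `•`, `-` (`inBetti_add`, `inBetti_smul`, `inBetti_sub`);
* `exists_lift` : lifting of an additive homogeneous map through an injective linear map;
* `intertwine_all` : a linear map which intertwines the generators `T_ℓ` of the Hecke algebra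
  intertwines the Hecke algebra (when all the primes of the level lie in `S`);
* `map_mem_Mval_of_mem`, `mem_smul_top_of_mem_Mval` : `𝔪 • ⊤` versus values in `𝔪`;
* the membership lemmas `mem_res`, `mem_cor`, `mem_UBq`.

No `sorry`.
-/

set_option autoImplicit false

open Polynomial CuspForm CongruenceSubgroup IsLocalRing
open scoped MatrixGroups

namespace Fermat.Agent.S59.NonMin.Geom.H48

open Fermat.Agent.S41 Fermat.Agent.Betti Fermat.Agent.S59 Fermat.Agent.S59.Asm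
  Fermat.Agent.S59.NonMin Fermat.Agent.S59.NonMin.Geom
open ModularCurve.Period

/-! ## 1. Closure properties of the lattice -/

section Closure

variable {𝒪 : Type} [CommRing 𝒪] [IsDomain 𝒪] [IsDiscreteValuationRing 𝒪]
  {N : ℕ} [NeZero N] {S : Set ℕ} {θ : CuspForm.heckeAlgebra N 2 S →+* ResidueField 𝒪}
  {Sig : Finset ℕ}

theorem Loc.mono {ℓ : ℕ} {hℓ : ℓ.Prime} {hℓN : ¬ ℓ ∣ N} {a : 𝒪}
    {φ : Additive (Gamma0 N) →+ 𝒪} {m n n' : ℕ} (hnn' : n ≤ n')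
    (h : (Dl 𝒪 N hℓ hℓN a ^ n) φ ∈ Mval 𝒪 (Additive (Gamma0 N)) m) :
    (Dl 𝒪 N hℓ hℓN a ^ n') φ ∈ Mval 𝒪 (Additive (Gamma0 N)) m := by
  have : n' = (n' - n) + n := (Nat.sub_add_cancel hnn').symm
  rw [this, pow_add, Module.End.mul_apply]
  exact map_mem_Mval _ h

theorem inBetti_add {φ ψ : Additive (Gamma0 N) →+ 𝒪} (hφ : InBetti 𝒪 N S θ Sig φ)
    (hψ : InBetti 𝒪 N S θ Sig ψ) : InBetti 𝒪 N S θ Sig (φ + ψ) := by
  rw [inBetti_iff] at hφ hψ ⊢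
  refine ⟨(parabolicHoms 𝒪 (Gamma0 N) 𝒪).add_mem hφ.1 hψ.1, ?_, ?_⟩
  · intro r hr hrN
    rw [map_add, hφ.2.1 r hr hrN, hψ.2.1 r hr hrN, add_zero]
  · intro ℓ hℓ hℓN hℓS a ha m
    obtain ⟨n₁, h₁⟩ := hφ.2.2 ℓ hℓ hℓN hℓS a ha m
    obtain ⟨n₂, h₂⟩ := hψ.2.2 ℓ hℓ hℓN hℓS a ha m
    refine ⟨max n₁ n₂, ?_⟩
    rw [map_add]
    exact Submodule.add_mem _ (Loc.mono (le_max_left _ _) h₁) (Loc.mono (le_max_right _ _) h₂)

theorem inBetti_smul (c : 𝒪) {φ : Additive (Gamma0 N) →+ 𝒪} (hφ : InBetti 𝒪 N S θ Sig φ) :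
    InBetti 𝒪 N S θ Sig (c • φ) := by
  rw [inBetti_iff] at hφ ⊢
  refine ⟨(parabolicHoms 𝒪 (Gamma0 N) 𝒪).smul_mem c hφ.1, ?_, ?_⟩
  · intro r hr hrN
    rw [← UBl_apply, map_smul, UBl_apply, hφ.2.1 r hr hrN, smul_zero]
  · intro ℓ hℓ hℓN hℓS a ha m
    obtain ⟨n, hn⟩ := hφ.2.2 ℓ hℓ hℓN hℓS a ha m
    refine ⟨n, ?_⟩
    rw [map_smul]
    exact Submodule.smul_mem _ _ hn

theorem inBetti_neg {φ : Additive (Gamma0 N) →+ 𝒪} (hφ : InBetti 𝒪 N S θ Sig φ) :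
    InBetti 𝒪 N S θ Sig (-φ) := by
  have := inBetti_smul (-1 : 𝒪) hφ
  rwa [neg_one_smul] at this

theorem inBetti_sub {φ ψ : Additive (Gamma0 N) →+ 𝒪} (hφ : InBetti 𝒪 N S θ Sig φ)
    (hψ : InBetti 𝒪 N S θ Sig ψ) : InBetti 𝒪 N S θ Sig (φ - ψ) := by
  rw [sub_eq_add_neg]
  exact inBetti_add hφ (inBetti_neg hψ)

theorem inBetti_nsmul (n : ℕ) {φ : Additive (Gamma0 N) →+ 𝒪} (hφ : InBetti 𝒪 N S θ Sig φ) :
    InBetti 𝒪 N S θ Sig (n • φ) := by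
  have := inBetti_smul (n : 𝒪) hφ
  rwa [Nat.cast_smul_eq_nsmul] at this

end Closure

/-! ## 2. Lifting through an injective linear map -/

section Lift

variable {𝒪 : Type*} [CommRing 𝒪] {V₁ V₂ F₂ : Type*} [AddCommGroup V₁] [Module 𝒪 V₁]
  [AddCommGroup V₂] [Module 𝒪 V₂] [AddCommGroup F₂] [Module 𝒪 F₂]

theorem exists_lift (ι₂ : V₂ →ₗ[𝒪] F₂) (hι₂ : Function.Injective ι₂) (Ψ : V₁ → F₂)
    (hadd : ∀ v w, Ψ (v + w) = Ψ v + Ψ w) (hsmul : ∀ (c : 𝒪) v, Ψ (c • v) = c • Ψ v)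
    (h : ∀ v, Ψ v ∈ Set.range ι₂) : ∃ Ψ' : V₁ →ₗ[𝒪] V₂, ∀ v, ι₂ (Ψ' v) = Ψ v := by
  choose f hf using h
  refine ⟨{ toFun := f, map_add' := ?_, map_smul' := ?_ }, hf⟩
  · intro v w
    apply hι₂
    rw [map_add, hf, hf, hf, hadd]
  · intro c v
    apply hι₂
    rw [RingHom.id_apply, map_smul, hf, hf, hsmul]

end Lift

/-! ## 3. Induction over the Hecke algebra -/

section Ind

variable {𝒪 : Type*} [CommRing 𝒪] {V₁ V₂ : Type*} [AddCommGroup V₁] [Module 𝒪 V₁]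
  [AddCommGroup V₂] [Module 𝒪 V₂]

theorem intCast_end_apply {W : Type*} [AddCommGroup W] [Module 𝒪 W] (n : ℤ) (w : W) :
    ((n : Module.End 𝒪 W)) w = n • w := by
  have : ((n : ℤ) : Module.End 𝒪 W) = n • (1 : Module.End 𝒪 W) := by
    rw [zsmul_eq_mul, mul_one]
  rw [this, LinearMap.smul_apply, Module.End.one_apply]

theorem intertwine_all {N : ℕ} [NeZero N] {S : Set ℕ}
    (hNS : ∀ r : ℕ, r.Prime → r ∣ N → r ∈ S)
    (f : CuspForm.heckeAlgebra N 2 S →+* Module.End 𝒪 V₁)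
    (g : CuspForm.heckeAlgebra N 2 S →+* Module.End 𝒪 V₂) (B : V₁ →ₗ[𝒪] V₂)
    (h : ∀ (ℓ : ℕ) (hℓ : ℓ.Prime) (hℓN : ¬ ℓ ∣ N) (hℓS : ℓ ∉ S) (v : V₁),
      B (f (CuspForm.heckeAlgebra.T hℓ hℓN hℓS) v) = g (CuspForm.heckeAlgebra.T hℓ hℓN hℓS) (B v))
    (t : CuspForm.heckeAlgebra N 2 S) (v : V₁) : B (f t v) = g t (B v) := by
  obtain ⟨x, hx⟩ := t
  revert v
  induction hx using Algebra.adjoin_induction with
  | mem x hx =>
    intro v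
    rcases hx with ⟨ℓ, hℓ, hℓN, hℓS, rfl⟩ | ⟨r, hrN, hr, hrS, rfl⟩
    · exact h ℓ hℓ hℓN hℓS v
    · exact absurd (hNS r hr hrN) hrS
  | algebraMap n =>
    intro v
    have h1 : (⟨algebraMap ℤ _ n, Subalgebra.algebraMap_mem _ n⟩ :
        CuspForm.heckeAlgebra N 2 S) = (n : CuspForm.heckeAlgebra N 2 S) := by
      apply Subtype.ext
      simp
    calc B (f ⟨algebraMap ℤ _ n, Subalgebra.algebraMap_mem _ n⟩ v)
        = B ((n : Module.End 𝒪 V₁) v) := by rw [h1, map_intCast]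
      _ = B (n • v) := by rw [intCast_end_apply]
      _ = n • B v := map_zsmul B n v
      _ = (n : Module.End 𝒪 V₂) (B v) := (intCast_end_apply n (B v)).symm
      _ = g ⟨algebraMap ℤ _ n, Subalgebra.algebraMap_mem _ n⟩ (B v) := by rw [h1, map_intCast]
  | add x y hx hy ihx ihy =>
    intro v
    have h1 : (⟨x + y, Subalgebra.add_mem _ hx hy⟩ : CuspForm.heckeAlgebra N 2 S) =
        ⟨x, hx⟩ + ⟨y, hy⟩ := rfl
    rw [h1, map_add, map_add, LinearMap.add_apply, LinearMap.add_apply, map_add, ihx, ihy]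
  | mul x y hx hy ihx ihy =>
    intro v
    have h1 : (⟨x * y, Subalgebra.mul_mem _ hx hy⟩ : CuspForm.heckeAlgebra N 2 S) =
        ⟨x, hx⟩ * ⟨y, hy⟩ := rfl
    rw [h1, map_mul, map_mul, Module.End.mul_apply, Module.End.mul_apply, ihx, ihy]

end Ind

/-! ## 4. `𝔪 • ⊤` versus values in `𝔪` -/

section Top

variable {𝒪 : Type} [CommRing 𝒪] [IsDomain 𝒪] [IsDiscreteValuationRing 𝒪]
  {V : Type*} [AddCommGroup V] [Module 𝒪 V]

theorem map_mem_Mval_of_mem {G : Type*} [AddGroup G] (ι : V →ₗ[𝒪] (G →+ 𝒪)) {v : V}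
    (hv : v ∈ (maximalIdeal 𝒪 • ⊤ : Submodule 𝒪 V)) : ι v ∈ Mval 𝒪 G 1 := by
  refine Submodule.smul_induction_on hv ?_ ?_
  · intro r hr n _
    rw [map_smul]
    exact smul_mem_Mval (by rwa [pow_one]) _
  · intro x y hx hy
    rw [map_add]
    exact Submodule.add_mem _ hx hy

theorem mem_smul_top_of_mem_Mval {N : ℕ} [NeZero N] {S : Set ℕ}
    {θ : CuspForm.heckeAlgebra N 2 S →+* ResidueField 𝒪} {Sig : Finset ℕ}
    (ι : V →ₗ[𝒪] (Additive (Gamma0 N) →+ 𝒪)) (hinj : Function.Injective ι)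
    (hrange : ∀ φ, φ ∈ Set.range ι ↔ InBetti 𝒪 N S θ Sig φ) {v : V}
    (hv : ι v ∈ Mval 𝒪 (Additive (Gamma0 N)) 1) :
    v ∈ (maximalIdeal 𝒪 • ⊤ : Submodule 𝒪 V) := by
  obtain ⟨ϖ, hϖ⟩ := IsDiscreteValuationRing.exists_irreducible 𝒪
  obtain ⟨φ', h1, h2⟩ := exists_inBetti_smul hϖ ((hrange _).mp ⟨v, rfl⟩) hv
  obtain ⟨v', rfl⟩ := (hrange φ').mpr h2
  rw [← map_smul] at h1
  rw [hinj h1, pow_one]
  exact Submodule.smul_mem_smul ((mem_maximalIdeal _).mpr hϖ.not_isUnit) Submodule.mem_top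

end Top

end Fermat.Agent.S59.NonMin.Geom.H48
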