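import Mathlib
import Fermat.Agent.S59.NonMin.Geom.H48_AsmGTools
import Fermat.Agent.S59.NonMin.Geom.H30_AsmStep

/-!
# S59 / NMGEOM, assembly ASM-G, first half (helper48): `deg3_of`

`deg3_of : Stmt_IHARAFLD → Stmt_PROJQ → Stmt_SPLITFLD → Stmt_DUAL → Stmt_REL1 → Stmt_REL2 →
  Stmt_REL3 → Stmt_RELT → Stmt_RELU → Stmt_RELPAR → Stmt_DEG3`.

The operators of `Deg3Data` are the lifts of `U_q`, `res_a`, `π ∘ cor_a` to the modules of the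
two lattices (`π` the projector of `Stmt_PROJQ`).  No `sorry`.
-/

set_option autoImplicit false

open Polynomial CuspForm CongruenceSubgroup IsLocalRing
open scoped MatrixGroups

namespace Fermat.Agent.S59.NonMin.Geom.H48

open Fermat.Agent.S41 Fermat.Agent.Betti Fermat.Agent.S59 Fermat.Agent.S59.Asm
  Fermat.Agent.S59.NonMin Fermat.Agent.S59.NonMin.Geom
open ModularCurve.Period

/-! ## 1. Membership -/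

section Mem

variable {𝒪 : Type} [CommRing 𝒪] [IsDomain 𝒪] [IsDiscreteValuationRing 𝒪]
  {N : ℕ} [NeZero N] {S : Finset ℕ}
  {θ : CuspForm.heckeAlgebra N 2 (↑S : Set ℕ) →+* ResidueField 𝒪} {Sig : Finset ℕ}
  {q : ℕ} [NeZero (N * q ^ 2)]

omit [NeZero N] [NeZero (N * q ^ 2)] in
theorem not_dvd_level (hq : q.Prime) {ℓ : ℕ} (hℓ : ℓ.Prime) (hℓN : ¬ ℓ ∣ N)
    (hℓS : ℓ ∉ (↑(insert q S) : Set ℕ)) : ¬ ℓ ∣ N * q ^ 2 := by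
  intro h
  rcases (Nat.Prime.dvd_mul hℓ).mp h with h1 | h1
  · exact hℓN h1
  · have h2 : ℓ ∣ q := Nat.Prime.dvd_of_dvd_pow hℓ h1
    have : ℓ = q := (Nat.prime_dvd_prime_iff_eq hℓ hq).mp h2
    exact hℓS (by rw [this]; exact Finset.mem_coe.mpr (Finset.mem_insert_self q S))

omit [NeZero N] [NeZero (N * q ^ 2)] in
theorem not_mem_of_not_mem_insert {ℓ : ℕ} (hℓS : ℓ ∉ (↑(insert q S) : Set ℕ)) :
    ℓ ∉ (↑S : Set ℕ) :=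
  fun h => hℓS (Finset.mem_coe.mpr (Finset.mem_insert_of_mem (Finset.mem_coe.mp h)))

/-- a linear map of level `N → N q²` commuting with the Hecke operators maps the lattice of
`(N, S, θ)` to the lattice of `(N q², S ∪ {q}, θ ∘ rest)` -/
theorem mem_up (hSig : ∀ r ∈ Sig, r.Prime ∧ r ∣ N)
    (rest : CuspForm.heckeAlgebra (N * q ^ 2) 2 (↑(insert q S) : Set ℕ) →+*
      CuspForm.heckeAlgebra N 2 (↑S : Set ℕ))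
    (hrest : ∀ (ℓ : ℕ) (hℓ : ℓ.Prime) (hℓN' : ¬ ℓ ∣ N * q ^ 2)
      (hℓS' : ℓ ∉ (↑(insert q S) : Set ℕ)) (hℓN : ¬ ℓ ∣ N) (hℓS : ℓ ∉ (↑S : Set ℕ)),
      rest (CuspForm.heckeAlgebra.T hℓ hℓN' hℓS') = CuspForm.heckeAlgebra.T hℓ hℓN hℓS)
    (Φ : (Additive (Gamma0 N) →+ 𝒪) →ₗ[𝒪] (Additive (Gamma0 (N * q ^ (2 : ℕ))) →+ 𝒪))
    (hpar : ∀ φ, IsParabolicHom (Gamma0 N) φ → IsParabolicHom (Gamma0 (N * q ^ 2)) (Φ φ))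
    (hU : ∀ (r : ℕ), r.Prime → ∀ (hrN : r ∣ N) (hrN' : r ∣ N * q ^ 2)
      (φ : Additive (Gamma0 N) →+ 𝒪), UB (N * q ^ 2) 𝒪 hrN' (Φ φ) = Φ (UB N 𝒪 hrN φ))
    (hT : ∀ (ℓ : ℕ) (hℓ : ℓ.Prime) (hℓN : ¬ ℓ ∣ N) (hℓN' : ¬ ℓ ∣ N * q ^ 2)
      (φ : Additive (Gamma0 N) →+ 𝒪),
      TB (N * q ^ 2) 𝒪 hℓ hℓN' (Φ φ) = Φ (TB N 𝒪 hℓ hℓN φ))
    {φ : Additive (Gamma0 N) →+ 𝒪} (hφ : InBetti 𝒪 N (↑S : Set ℕ) θ Sig φ) :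
    InBetti 𝒪 (N * q ^ 2) (↑(insert q S) : Set ℕ) (θ.comp rest) Sig (Φ φ) := by
  refine inBetti_map Φ hpar ?_ ?_ hφ
  · intro r hr hr₂
    exact ⟨(hSig r hr).2, fun φ _ => hU r (hSig r hr).1 (hSig r hr).2 hr₂ φ⟩
  · intro ℓ hℓ hℓN₂ hℓS₂
    have hℓN : ¬ ℓ ∣ N := fun h => hℓN₂ (Dvd.dvd.mul_right h _)
    refine ⟨hℓN, not_mem_of_not_mem_insert hℓS₂, ?_, fun φ _ => hT ℓ hℓ hℓN hℓN₂ φ⟩
    rw [RingHom.comp_apply, hrest]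

/-- a linear map of level `N q² → N` commuting with the Hecke operators maps the lattice of
`(N q², S ∪ {q}, θ ∘ rest)` to the anemic lattice of `(N, S ∪ {q}, θ')` -/
theorem mem_down (hq : q.Prime)
    (rest : CuspForm.heckeAlgebra (N * q ^ 2) 2 (↑(insert q S) : Set ℕ) →+*
      CuspForm.heckeAlgebra N 2 (↑S : Set ℕ))
    (hrest : ∀ (ℓ : ℕ) (hℓ : ℓ.Prime) (hℓN' : ¬ ℓ ∣ N * q ^ 2)
      (hℓS' : ℓ ∉ (↑(insert q S) : Set ℕ)) (hℓN : ¬ ℓ ∣ N) (hℓS : ℓ ∉ (↑S : Set ℕ)),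
      rest (CuspForm.heckeAlgebra.T hℓ hℓN' hℓS') = CuspForm.heckeAlgebra.T hℓ hℓN hℓS)
    (θ' : CuspForm.heckeAlgebra N 2 (↑(insert q S) : Set ℕ) →+* ResidueField 𝒪)
    (hθ' : ∀ (ℓ : ℕ) (hℓ : ℓ.Prime) (hℓN : ¬ ℓ ∣ N) (hℓS' : ℓ ∉ (↑(insert q S) : Set ℕ))
      (hℓS : ℓ ∉ (↑S : Set ℕ)),
      θ' (CuspForm.heckeAlgebra.T hℓ hℓN hℓS') = θ (CuspForm.heckeAlgebra.T hℓ hℓN hℓS))
    (Φ : (Additive (Gamma0 (N * q ^ (2 : ℕ))) →+ 𝒪) →ₗ[𝒪] (Additive (Gamma0 N) →+ 𝒪))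
    (hpar : ∀ φ, IsParabolicHom (Gamma0 (N * q ^ 2)) φ → IsParabolicHom (Gamma0 N) (Φ φ))
    (hU : ∀ (r : ℕ), r.Prime → ∀ (hrN : r ∣ N) (hrN' : r ∣ N * q ^ 2)
      (ψ : Additive (Gamma0 (N * q ^ 2)) →+ 𝒪),
      Φ (UB (N * q ^ 2) 𝒪 hrN' ψ) = UB N 𝒪 hrN (Φ ψ))
    (hT : ∀ (ℓ : ℕ) (hℓ : ℓ.Prime) (hℓN : ¬ ℓ ∣ N) (hℓN' : ¬ ℓ ∣ N * q ^ 2)
      (ψ : Additive (Gamma0 (N * q ^ 2)) →+ 𝒪),
      Φ (TB (N * q ^ 2) 𝒪 hℓ hℓN' ψ) = TB N 𝒪 hℓ hℓN (Φ ψ))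
    (hSigP : ∀ r ∈ Sig, r.Prime)
    {ψ : Additive (Gamma0 (N * q ^ 2)) →+ 𝒪}
    (hψ : InBetti 𝒪 (N * q ^ 2) (↑(insert q S) : Set ℕ) (θ.comp rest) Sig ψ) :
    InBetti 𝒪 N (↑(insert q S) : Set ℕ) θ' Sig (Φ ψ) := by
  refine inBetti_map Φ hpar ?_ ?_ hψ
  · intro r hr hr₂
    exact ⟨Dvd.dvd.mul_right hr₂ _, fun ψ _ => (hU r (hSigP r hr) hr₂ _ ψ).symm⟩
  · intro ℓ hℓ hℓN₂ hℓS₂
    have hℓN' : ¬ ℓ ∣ N * q ^ 2 := not_dvd_level hq hℓ hℓN₂ hℓS₂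
    refine ⟨hℓN', hℓS₂, ?_, fun ψ _ => (hT ℓ hℓ hℓN₂ hℓN' ψ).symm⟩
    rw [RingHom.comp_apply, hrest ℓ hℓ hℓN' hℓS₂ hℓN₂ (not_mem_of_not_mem_insert hℓS₂),
      hθ' ℓ hℓ hℓN₂ hℓS₂ (not_mem_of_not_mem_insert hℓS₂)]

/-- the lattice of `(N, S, θ)` lies in the anemic lattice of `(N, S ∪ {q}, θ')` -/
theorem mem_incl
    (θ' : CuspForm.heckeAlgebra N 2 (↑(insert q S) : Set ℕ) →+* ResidueField 𝒪)
    (hθ' : ∀ (ℓ : ℕ) (hℓ : ℓ.Prime) (hℓN : ¬ ℓ ∣ N) (hℓS' : ℓ ∉ (↑(insert q S) : Set ℕ))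
      (hℓS : ℓ ∉ (↑S : Set ℕ)),
      θ' (CuspForm.heckeAlgebra.T hℓ hℓN hℓS') = θ (CuspForm.heckeAlgebra.T hℓ hℓN hℓS))
    {φ : Additive (Gamma0 N) →+ 𝒪} (hφ : InBetti 𝒪 N (↑S : Set ℕ) θ Sig φ) :
    InBetti 𝒪 N (↑(insert q S) : Set ℕ) θ' Sig φ := by
  have := inBetti_map (θ₁ := θ) (θ₂ := θ') (Sig := Sig)
    (LinearMap.id : (Additive (Gamma0 N) →+ 𝒪) →ₗ[𝒪] (Additive (Gamma0 N) →+ 𝒪))
    (fun φ h => h) (fun r _ hr₂ => ⟨hr₂, fun φ _ => rfl⟩)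
    (fun ℓ hℓ hℓN₂ hℓS₂ => ⟨hℓN₂, not_mem_of_not_mem_insert hℓS₂,
      hθ' ℓ hℓ hℓN₂ hℓS₂ (not_mem_of_not_mem_insert hℓS₂), fun φ _ => rfl⟩) hφ
  exact this

/-- `U_q` preserves the lattice of level `M` (`q ∣ M`) -/
theorem mem_UBq [CharZero 𝒪] {M : ℕ} [NeZero M] {S' : Set ℕ}
    {θ' : CuspForm.heckeAlgebra M 2 S' →+* ResidueField 𝒪}
    (hq : q.Prime) (hd : q ∣ M) (hSigP : ∀ r ∈ Sig, r.Prime)
    {ψ : Additive (Gamma0 M) →+ 𝒪} (hψ : InBetti 𝒪 M S' θ' Sig ψ) :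
    InBetti 𝒪 M S' θ' Sig (UB M 𝒪 hd ψ) := by
  have := inBetti_map (θ₁ := θ') (θ₂ := θ') (Sig := Sig) (UBl 𝒪 M hd)
    (fun φ h => H53.UB_par 𝒪 hd φ h)
    (fun r hr hr₂ => ⟨hr₂, fun φ hφ => H53.UB_UB_comm 𝒪 (hSigP r hr) hr₂ hq hd φ hφ⟩)
    (fun ℓ hℓ hℓN₂ hℓS₂ => ⟨hℓN₂, hℓS₂, rfl, fun φ hφ => H53.TB_UB_comm 𝒪 hq hd hℓ hℓN₂ φ hφ⟩)
    hψ
  exact this

end Mem

/-! ## 2. Small facts -/

theorem isUnit_natCast_of_ne {𝒪 : Type} [CommRing 𝒪] [IsLocalRing 𝒪] {p q : ℕ} (hp : p.Prime)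
    (hq : q.Prime) (hqp : q ≠ p) (h : (p : 𝒪) ∈ maximalIdeal 𝒪) : IsUnit (q : 𝒪) := by
  by_contra hu
  have hqm : (q : 𝒪) ∈ maximalIdeal 𝒪 := (mem_maximalIdeal _).mpr hu
  have hc : Nat.Coprime p q := (Nat.coprime_primes hp hq).mpr (Ne.symm hqp)
  have h1 : ((Nat.gcd p q : ℕ) : 𝒪) ∈ maximalIdeal 𝒪 := by
    have := Nat.gcd_eq_gcd_ab p q
    have h2 : ((Nat.gcd p q : ℕ) : 𝒪) =
        (p : 𝒪) * ((Nat.gcdA p q : ℤ) : 𝒪) + (q : 𝒪) * ((Nat.gcdB p q : ℤ) : 𝒪) := by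
      have h3 := congrArg (fun z : ℤ => (z : 𝒪)) this
      simpa using h3
    rw [h2]
    exact Ideal.add_mem _ (Ideal.mul_mem_right _ _ h) (Ideal.mul_mem_right _ _ hqm)
  rw [hc, Nat.cast_one] at h1
  exact (mem_maximalIdeal _).mp h1 isUnit_one

theorem geomHyp_sig_dvd {p : ℕ} {Smin : Finset ℕ} {N₀ : ℕ} {Sig : Finset ℕ} {N : ℕ}
    {S : Finset ℕ} (h : GeomHyp p Smin N₀ Sig N S) {r : ℕ} (hr : r ∈ Sig) : r ∣ N := by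
  rw [h.hN]
  refine Dvd.dvd.mul_left ?_ _
  exact dvd_trans (dvd_pow_self r (by norm_num)) (Finset.dvd_prod_of_mem (fun r => r ^ 2) hr)

theorem geomHyp_sig_mem {p : ℕ} {Smin : Finset ℕ} {N₀ : ℕ} {Sig : Finset ℕ} {N : ℕ}
    {S : Finset ℕ} (h : GeomHyp p Smin N₀ Sig N S) {r : ℕ} (hr : r ∈ Sig) : r ∈ S := by
  rw [h.hS]
  exact Finset.mem_union_right _ hr

/-! ## 3. The assembly -/

/-- **DEG3** from the function-level leaves. -/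
theorem deg3_of (hIH : Stmt_IHARAFLD) (hPJ : Stmt_PROJQ) (hSP : Stmt_SPLITFLD)
    (hDU : Stmt_DUAL) (hR1 : Stmt_REL1) (hR2 : Stmt_REL2) (hR3 : Stmt_REL3) (hRT : Stmt_RELT)
    (hRU : Stmt_RELU) (hRP : Stmt_RELPAR) : Stmt_DEG3 := by
  intro 𝒪 _ _ _ _ _ _ p _ hp2 hp𝒪 ρbar Smin hres N₀ Sig s hG hF ι hι q hq hqp hqN hqS _ rest
    hrest M' ι' hι'
  obtain ⟨hιi, hιr, hιT⟩ := hι
  obtain ⟨hι'i, hι'r, hι'T⟩ := hι'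
  change ∀ φ, φ ∈ Set.range ι' ↔
    InBetti 𝒪 (s.N * q ^ 2) (↑(insert q s.S) : Set ℕ) (s.θ.comp rest) Sig φ at hι'r
  change ∀ (ℓ : ℕ) (hℓ : ℓ.Prime) (hℓN : ¬ ℓ ∣ s.N * q ^ 2)
    (hℓS : ℓ ∉ (↑(insert q s.S) : Set ℕ)) (v : M'.V),
    ι' (M'.η (CuspForm.heckeAlgebra.T hℓ hℓN hℓS) v) = TB (s.N * q ^ 2) 𝒪 hℓ hℓN (ι' v) at hι'T
  -- arithmetic
  have hd : q ∣ s.N * q ^ 2 := H30.q_dvd_level s.N q
  have hSigP : ∀ r ∈ Sig, r.Prime := fun r hr => (hG.hSig r hr).1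
  have hSigN : ∀ r ∈ Sig, r.Prime ∧ r ∣ s.N := fun r hr => ⟨hSigP r hr, geomHyp_sig_dvd hG hr⟩
  have hSigq : ∀ r ∈ Sig, r.Prime ∧ r ≠ q := fun r hr =>
    ⟨hSigP r hr, fun h => hqS (Finset.mem_coe.mpr (h ▸ geomHyp_sig_mem hG hr))⟩
  have hNS : ∀ r : ℕ, r.Prime → r ∣ s.N → r ∈ s.S := fun r hr hrN =>
    H30.geomHyp_prime_mem hG hr hrN
  have hN'S' : ∀ r : ℕ, r.Prime → r ∣ s.N * q ^ 2 → r ∈ (↑(insert q s.S) : Set ℕ) :=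
    fun r hr hrN => Finset.mem_coe.mpr (H30.geomHyp_prime_mem_next hG hq hr hrN)
  have hqu : IsUnit (q : 𝒪) := isUnit_natCast_of_ne (Fact.out : p.Prime) hq hqp hp𝒪
  -- the anemic lattice `X` of level `N` and the projector
  have hsub : (↑s.S : Set ℕ) ⊆ (↑(insert q s.S) : Set ℕ) := fun x hx =>
    Finset.mem_coe.mpr (Finset.mem_insert_of_mem (Finset.mem_coe.mp hx))
  have hnew0 : ∀ r : ℕ, r.Prime → r ∣ s.N → ¬ r ∣ s.N → r ∈ (↑(insert q s.S) : Set ℕ) :=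
    fun r _ h1 h2 => absurd h1 h2
  set rest₀ : CuspForm.heckeAlgebra s.N 2 (↑(insert q s.S) : Set ℕ) →+*
      CuspForm.heckeAlgebra s.N 2 (↑s.S : Set ℕ) :=
    Fermat.Agent.S59.Asm.H41.rest (dvd_refl s.N) 2 hsub hnew0 with hrest₀
  set θ' : CuspForm.heckeAlgebra s.N 2 (↑(insert q s.S) : Set ℕ) →+* ResidueField 𝒪 :=
    s.θ.comp rest₀ with hθ'def
  have hθ' : ∀ (ℓ : ℕ) (hℓ : ℓ.Prime) (hℓN : ¬ ℓ ∣ s.N)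
      (hℓS' : ℓ ∉ (↑(insert q s.S) : Set ℕ)) (hℓS : ℓ ∉ (↑s.S : Set ℕ)),
      θ' (CuspForm.heckeAlgebra.T hℓ hℓN hℓS') = s.θ (CuspForm.heckeAlgebra.T hℓ hℓN hℓS) := by
    intro ℓ hℓ hℓN hℓS' hℓS
    rw [hθ'def, RingHom.comp_apply, hrest₀,
      Fermat.Agent.S59.Asm.H41.rest_T (dvd_refl s.N) 2 hsub hnew0 hℓ hℓN hℓS' hℓN hℓS]
  obtain ⟨π, hπ1, hπ2, hπ3, hπ4, hπ5, hπ6⟩ :=
    hPJ 𝒪 s.N s.S hNS s.θ Sig hSigP q hq hqN hqS θ' hθ'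
  -- abbreviations for the three lattices
  have hL : ∀ v : s.M.V, InBetti 𝒪 s.N (↑s.S : Set ℕ) s.θ Sig (ι v) :=
    fun v => (hιr _).mp ⟨v, rfl⟩
  have hL' : ∀ w : M'.V,
      InBetti 𝒪 (s.N * q ^ 2) (↑(insert q s.S) : Set ℕ) (s.θ.comp rest) Sig (ι' w) :=
    fun w => (hι'r _).mp ⟨w, rfl⟩
  have hLX : ∀ v : s.M.V, InBetti 𝒪 s.N (↑(insert q s.S) : Set ℕ) θ' Sig (ι v) :=
    fun v => mem_incl θ' hθ' (hL v)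
  -- membership
  have hA1 : ∀ φ, InBetti 𝒪 s.N (↑s.S : Set ℕ) s.θ Sig φ →
      InBetti 𝒪 (s.N * q ^ 2) (↑(insert q s.S) : Set ℕ) (s.θ.comp rest) Sig
        (resA1 s.N q 𝒪 φ) := fun φ hφ =>
    mem_up hSigN rest hrest (resL 𝒪 (j1 s.N q))
      (fun φ h => ((hRP s.N q hq hqN 𝒪).1 φ h).1)
      (fun r hr hrN hrN' φ => ((hRU s.N q hq hqN r hr hrN hrN' 𝒪).1 φ).1)
      (fun ℓ hℓ hℓN hℓN' φ => ((hRT s.N q hq hqN ℓ hℓ hℓN hℓN' 𝒪).1 φ).1) hφ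
  have hA2 : ∀ φ, InBetti 𝒪 s.N (↑s.S : Set ℕ) s.θ Sig φ →
      InBetti 𝒪 (s.N * q ^ 2) (↑(insert q s.S) : Set ℕ) (s.θ.comp rest) Sig
        (resA2 s.N q 𝒪 φ) := fun φ hφ =>
    mem_up hSigN rest hrest (resL 𝒪 (j2 s.N q))
      (fun φ h => ((hRP s.N q hq hqN 𝒪).1 φ h).2.1)
      (fun r hr hrN hrN' φ => ((hRU s.N q hq hqN r hr hrN hrN' 𝒪).1 φ).2.1)
      (fun ℓ hℓ hℓN hℓN' φ => ((hRT s.N q hq hqN ℓ hℓ hℓN hℓN' 𝒪).1 φ).2.1) hφ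
  have hA3 : ∀ φ, InBetti 𝒪 s.N (↑s.S : Set ℕ) s.θ Sig φ →
      InBetti 𝒪 (s.N * q ^ 2) (↑(insert q s.S) : Set ℕ) (s.θ.comp rest) Sig
        (resA3 s.N q 𝒪 φ) := fun φ hφ =>
    mem_up hSigN rest hrest (resL 𝒪 (j3 s.N q))
      (fun φ h => ((hRP s.N q hq hqN 𝒪).1 φ h).2.2)
      (fun r hr hrN hrN' φ => ((hRU s.N q hq hqN r hr hrN hrN' 𝒪).1 φ).2.2)
      (fun ℓ hℓ hℓN hℓN' φ => ((hRT s.N q hq hqN ℓ hℓ hℓN hℓN' 𝒪).1 φ).2.2) hφ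
  have hC1 : ∀ ψ, InBetti 𝒪 (s.N * q ^ 2) (↑(insert q s.S) : Set ℕ) (s.θ.comp rest) Sig ψ →
      InBetti 𝒪 s.N (↑(insert q s.S) : Set ℕ) θ' Sig (corC1 s.N q 𝒪 ψ) := fun ψ hψ =>
    mem_down hq rest hrest θ' hθ' (corL 𝒪 (j1 s.N q))
      (fun φ h => ((hRP s.N q hq hqN 𝒪).2.1 φ h).1)
      (fun r hr hrN hrN' ψ => ((hRU s.N q hq hqN r hr hrN hrN' 𝒪).2 ψ).1)
      (fun ℓ hℓ hℓN hℓN' ψ => ((hRT s.N q hq hqN ℓ hℓ hℓN hℓN' 𝒪).2 ψ).1) hSigP hψ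
  have hC2 : ∀ ψ, InBetti 𝒪 (s.N * q ^ 2) (↑(insert q s.S) : Set ℕ) (s.θ.comp rest) Sig ψ →
      InBetti 𝒪 s.N (↑(insert q s.S) : Set ℕ) θ' Sig (corC2 s.N q 𝒪 ψ) := fun ψ hψ =>
    mem_down hq rest hrest θ' hθ' (corL 𝒪 (j2 s.N q))
      (fun φ h => ((hRP s.N q hq hqN 𝒪).2.1 φ h).2.1)
      (fun r hr hrN hrN' ψ => ((hRU s.N q hq hqN r hr hrN hrN' 𝒪).2 ψ).2.1)
      (fun ℓ hℓ hℓN hℓN' ψ => ((hRT s.N q hq hqN ℓ hℓ hℓN hℓN' 𝒪).2 ψ).2.1) hSigP hψ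
  have hC3 : ∀ ψ, InBetti 𝒪 (s.N * q ^ 2) (↑(insert q s.S) : Set ℕ) (s.θ.comp rest) Sig ψ →
      InBetti 𝒪 s.N (↑(insert q s.S) : Set ℕ) θ' Sig (corC3 s.N q 𝒪 ψ) := fun ψ hψ =>
    mem_down hq rest hrest θ' hθ' (corL 𝒪 (j3 s.N q))
      (fun φ h => ((hRP s.N q hq hqN 𝒪).2.1 φ h).2.2)
      (fun r hr hrN hrN' ψ => ((hRU s.N q hq hqN r hr hrN hrN' 𝒪).2 ψ).2.2)
      (fun ℓ hℓ hℓN hℓN' ψ => ((hRT s.N q hq hqN ℓ hℓ hℓN hℓN' 𝒪).2 ψ).2.2) hSigP hψ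
  have hUq : ∀ ψ, InBetti 𝒪 (s.N * q ^ 2) (↑(insert q s.S) : Set ℕ) (s.θ.comp rest) Sig ψ →
      InBetti 𝒪 (s.N * q ^ 2) (↑(insert q s.S) : Set ℕ) (s.θ.comp rest) Sig
        (UB (s.N * q ^ 2) 𝒪 hd ψ) := fun ψ hψ => mem_UBq hq hd hSigP hψ
  have hLT : ∀ v : s.M.V, (InBetti 𝒪 s.N (↑s.S : Set ℕ) s.θ Sig) (TB s.N 𝒪 hq hqN (ι v)) := fun v => by
    rw [← hιT q hq hqN hqS]
    exact hL _
  -- linearity of `π` on `X`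
  have hπneg : ∀ φ, (InBetti 𝒪 s.N (↑(insert q s.S) : Set ℕ) θ' Sig) φ → π (-φ) = -π φ := fun φ hφ => by
    have := hπ4 (-1 : 𝒪) φ hφ
    rwa [neg_one_smul, neg_one_smul] at this
  have hπsub : ∀ φ ψ, (InBetti 𝒪 s.N (↑(insert q s.S) : Set ℕ) θ' Sig) φ → (InBetti 𝒪 s.N (↑(insert q s.S) : Set ℕ) θ' Sig) ψ → π (φ - ψ) = π φ - π ψ := fun φ ψ hφ hψ => by
    rw [sub_eq_add_neg, hπ3 φ (-ψ) hφ (inBetti_neg hψ), hπneg ψ hψ, ← sub_eq_add_neg]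
  have hπnsmul : ∀ (n : ℕ) φ, (InBetti 𝒪 s.N (↑(insert q s.S) : Set ℕ) θ' Sig) φ → π (n • φ) = n • π φ := fun n φ hφ => by
    have := hπ4 (n : 𝒪) φ hφ
    rwa [Nat.cast_smul_eq_nsmul, Nat.cast_smul_eq_nsmul] at this
  have hπTq : ∀ φ, (InBetti 𝒪 s.N (↑(insert q s.S) : Set ℕ) θ' Sig) φ → (InBetti 𝒪 s.N (↑(insert q s.S) : Set ℕ) θ' Sig) (TB s.N 𝒪 hq hqN φ) ∧
      π (TB s.N 𝒪 hq hqN φ) = TB s.N 𝒪 hq hqN (π φ) := fun φ hφ => hπ5 q hq hqN hqS φ hφ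
  -- the lifts
  obtain ⟨U, hU⟩ : ∃ U : M'.V →ₗ[𝒪] M'.V, ∀ w, ι' (U w) = UB (s.N * q ^ 2) 𝒪 hd (ι' w) :=
    exists_lift ι' hι'i (fun w => UBl 𝒪 (s.N * q ^ 2) hd (ι' w))
      (fun v w => by simp only [map_add]) (fun c v => by simp only [map_smul])
      (fun w => (hι'r _).mpr (hUq _ (hL' w)))
  obtain ⟨A₁, hA₁⟩ : ∃ A : s.M.V →ₗ[𝒪] M'.V, ∀ v, ι' (A v) = resA1 s.N q 𝒪 (ι v) :=
    exists_lift ι' hι'i (fun v => resL 𝒪 (j1 s.N q) (ι v))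
      (fun v w => by simp only [map_add]) (fun c v => by simp only [map_smul])
      (fun v => (hι'r _).mpr (hA1 _ (hL v)))
  obtain ⟨A₂, hA₂⟩ : ∃ A : s.M.V →ₗ[𝒪] M'.V, ∀ v, ι' (A v) = resA2 s.N q 𝒪 (ι v) :=
    exists_lift ι' hι'i (fun v => resL 𝒪 (j2 s.N q) (ι v))
      (fun v w => by simp only [map_add]) (fun c v => by simp only [map_smul])
      (fun v => (hι'r _).mpr (hA2 _ (hL v)))
  obtain ⟨A₃, hA₃⟩ : ∃ A : s.M.V →ₗ[𝒪] M'.V, ∀ v, ι' (A v) = resA3 s.N q 𝒪 (ι v) :=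
    exists_lift ι' hι'i (fun v => resL 𝒪 (j3 s.N q) (ι v))
      (fun v w => by simp only [map_add]) (fun c v => by simp only [map_smul])
      (fun v => (hι'r _).mpr (hA3 _ (hL v)))
  obtain ⟨C₁, hC₁⟩ : ∃ C : M'.V →ₗ[𝒪] s.M.V, ∀ w, ι (C w) = π (corC1 s.N q 𝒪 (ι' w)) :=
    exists_lift ι hιi (fun w => π (corL 𝒪 (j1 s.N q) (ι' w)))
      (fun v w => by
        simp only [map_add]
        exact hπ3 _ _ (hC1 _ (hL' v)) (hC1 _ (hL' w)))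
      (fun c v => by
        simp only [map_smul]
        exact hπ4 c _ (hC1 _ (hL' v)))
      (fun w => (hιr _).mpr (hπ1 _ (hC1 _ (hL' w))))
  obtain ⟨C₂, hC₂⟩ : ∃ C : M'.V →ₗ[𝒪] s.M.V, ∀ w, ι (C w) = π (corC2 s.N q 𝒪 (ι' w)) :=
    exists_lift ι hιi (fun w => π (corL 𝒪 (j2 s.N q) (ι' w)))
      (fun v w => by
        simp only [map_add]
        exact hπ3 _ _ (hC2 _ (hL' v)) (hC2 _ (hL' w)))
      (fun c v => by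
        simp only [map_smul]
        exact hπ4 c _ (hC2 _ (hL' v)))
      (fun w => (hιr _).mpr (hπ1 _ (hC2 _ (hL' w))))
  obtain ⟨C₃, hC₃⟩ : ∃ C : M'.V →ₗ[𝒪] s.M.V, ∀ w, ι (C w) = π (corC3 s.N q 𝒪 (ι' w)) :=
    exists_lift ι hιi (fun w => π (corL 𝒪 (j3 s.N q) (ι' w)))
      (fun v w => by
        simp only [map_add]
        exact hπ3 _ _ (hC3 _ (hL' v)) (hC3 _ (hL' w)))
      (fun c v => by
        simp only [map_smul]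
        exact hπ4 c _ (hC3 _ (hL' v)))
      (fun w => (hιr _).mpr (hπ1 _ (hC3 _ (hL' w))))
  -- the operators commute with the Hecke algebra
  have hUη : ∀ t (w : M'.V), U (M'.η t w) = M'.η t (U w) :=
    intertwine_all hN'S' M'.η M'.η U (fun ℓ hℓ hℓN hℓS v => by
      apply hι'i
      rw [hU, hι'T, hι'T, hU]
      exact H53.UB_TB_comm 𝒪 hq hd hℓ hℓN (ι' v) (hL' v).1)
  have hAη : ∀ (A : s.M.V →ₗ[𝒪] M'.V)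
      (R : (Additive (Gamma0 s.N) →+ 𝒪) → (Additive (Gamma0 (s.N * q ^ 2)) →+ 𝒪)),
      (∀ v, ι' (A v) = R (ι v)) →
      (∀ (ℓ : ℕ) (hℓ : ℓ.Prime) (hℓN : ¬ ℓ ∣ s.N) (hℓN' : ¬ ℓ ∣ s.N * q ^ 2)
        (φ : Additive (Gamma0 s.N) →+ 𝒪),
        TB (s.N * q ^ 2) 𝒪 hℓ hℓN' (R φ) = R (TB s.N 𝒪 hℓ hℓN φ)) →
      ∀ t (v : s.M.V), A (s.M.η (rest t) v) = M'.η t (A v) := by
    intro A R hA hR
    refine intertwine_all hN'S' (s.M.η.comp rest) M'.η A (fun ℓ hℓ hℓN' hℓS' v => ?_)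
    have hℓN : ¬ ℓ ∣ s.N := fun h => hℓN' (Dvd.dvd.mul_right h _)
    apply hι'i
    rw [hA, hι'T, hA, RingHom.comp_apply,
      hrest ℓ hℓ hℓN' hℓS' hℓN (not_mem_of_not_mem_insert hℓS'), hιT, hR ℓ hℓ hℓN hℓN']
  have hCη : ∀ (C : M'.V →ₗ[𝒪] s.M.V)
      (R : (Additive (Gamma0 (s.N * q ^ 2)) →+ 𝒪) → (Additive (Gamma0 s.N) →+ 𝒪)),
      (∀ w, ι (C w) = π (R (ι' w))) → (∀ w, (InBetti 𝒪 s.N (↑(insert q s.S) : Set ℕ) θ' Sig) (R (ι' w))) →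
      (∀ (ℓ : ℕ) (hℓ : ℓ.Prime) (hℓN : ¬ ℓ ∣ s.N) (hℓN' : ¬ ℓ ∣ s.N * q ^ 2)
        (ψ : Additive (Gamma0 (s.N * q ^ 2)) →+ 𝒪),
        R (TB (s.N * q ^ 2) 𝒪 hℓ hℓN' ψ) = TB s.N 𝒪 hℓ hℓN (R ψ)) →
      ∀ t (w : M'.V), C (M'.η t w) = s.M.η (rest t) (C w) := by
    intro C R hC hX hR
    refine intertwine_all hN'S' M'.η (s.M.η.comp rest) C (fun ℓ hℓ hℓN' hℓS' w => ?_)
    have hℓN : ¬ ℓ ∣ s.N := fun h => hℓN' (Dvd.dvd.mul_right h _)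
    have hℓS : ℓ ∉ (↑s.S : Set ℕ) := not_mem_of_not_mem_insert hℓS'
    apply hιi
    rw [hC, hι'T, RingHom.comp_apply, hrest ℓ hℓ hℓN' hℓS' hℓN hℓS, hιT, hC,
      hR ℓ hℓ hℓN hℓN']
    exact (hπ5 ℓ hℓ hℓN hℓS _ (hX w)).2
  refine ⟨{
    q_unit := hqu
    U := U
    U_η' := fun t => LinearMap.ext fun w => hUη t w
    A₁ := A₁
    A₂ := A₂
    A₃ := A₃
    C₁ := C₁
    C₂ := C₂
    C₃ := C₃
    A₁_η := hAη A₁ _ hA₁ (fun ℓ hℓ hℓN hℓN' φ => ((hRT s.N q hq hqN ℓ hℓ hℓN hℓN' 𝒪).1 φ).1)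
    A₂_η := hAη A₂ _ hA₂ (fun ℓ hℓ hℓN hℓN' φ => ((hRT s.N q hq hqN ℓ hℓ hℓN hℓN' 𝒪).1 φ).2.1)
    A₃_η := hAη A₃ _ hA₃ (fun ℓ hℓ hℓN hℓN' φ => ((hRT s.N q hq hqN ℓ hℓ hℓN hℓN' 𝒪).1 φ).2.2)
    C₁_η := hCη C₁ _ hC₁ (fun w => hC1 _ (hL' w))
      (fun ℓ hℓ hℓN hℓN' ψ => ((hRT s.N q hq hqN ℓ hℓ hℓN hℓN' 𝒪).2 ψ).1)
    C₂_η := hCη C₂ _ hC₂ (fun w => hC2 _ (hL' w))
      (fun ℓ hℓ hℓN hℓN' ψ => ((hRT s.N q hq hqN ℓ hℓ hℓN hℓN' 𝒪).2 ψ).2.1)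
    C₃_η := hCη C₃ _ hC₃ (fun w => hC3 _ (hL' w))
      (fun ℓ hℓ hℓN hℓN' ψ => ((hRT s.N q hq hqN ℓ hℓ hℓN hℓN' 𝒪).2 ψ).2.2)
    R1a := fun v => by
      apply hι'i
      rw [hU, hA₁, map_sub, hA₁, hA₂, hιT]
      exact (hR1 s.N q hq hqN hd 𝒪 (ι v)).1
    R1b := fun v => by
      apply hι'i
      rw [hU, hA₂, map_nsmul, hA₁]
      exact (hR1 s.N q hq hqN hd 𝒪 (ι v)).2.1
    R1c := fun v => by
      apply hι'i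
      rw [hU, hA₃, map_nsmul, hA₂]
      exact (hR1 s.N q hq hqN hd 𝒪 (ι v)).2.2
    R2a := fun w => by
      apply hιi
      rw [hC₁, hU, map_nsmul, hC₂, (hR2 s.N q hq hqN hd 𝒪 (ι' w)).1]
      exact hπnsmul q _ (hC2 _ (hL' w))
    R2b := fun w => by
      apply hιi
      rw [hC₂, hU, map_nsmul, hC₃, (hR2 s.N q hq hqN hd 𝒪 (ι' w)).2.1]
      exact hπnsmul q _ (hC3 _ (hL' w))
    R2c := fun w => by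
      apply hιi
      rw [hC₃, hU, map_sub, hιT, hC₃, hC₂, (hR2 s.N q hq hqN hd 𝒪 (ι' w)).2.2,
        hπsub _ _ (hπTq _ (hC3 _ (hL' w))).1 (hC2 _ (hL' w)), (hπTq _ (hC3 _ (hL' w))).2]
    R3a := fun v => by
      apply hιi
      rw [hC₁, hA₁, map_nsmul, (hR3 s.N q hq hqN 𝒪 (ι v)).1]
      exact hπ2 _ (inBetti_nsmul _ (hL v))
    R3b := fun v => by
      apply hιi
      rw [hC₁, hA₂, map_nsmul, hιT, (hR3 s.N q hq hqN 𝒪 (ι v)).2.1]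
      exact hπ2 _ (inBetti_nsmul _ (hLT v))
    R3c := fun v => by
      apply hιi
      rw [hC₁, hA₃, map_sub, hιT, hιT, map_nsmul, (hR3 s.N q hq hqN 𝒪 (ι v)).2.2]
      refine hπ2 _ (inBetti_sub ?_ (inBetti_nsmul _ (hL v)))
      rw [← hιT q hq hqN hqS, ← hιT q hq hqN hqS]
      exact hL _
    split := fun w => by
      obtain ⟨ψ₀, ψ₁, h0, h1, h2, h3⟩ :=
        hSP 𝒪 s.N q hq hqN hqu _ (s.θ.comp rest) Sig hSigq hd (ι' w) (hL' w)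
      obtain ⟨w₀, rfl⟩ := (hι'r ψ₀).mpr h0
      obtain ⟨w₁, rfl⟩ := (hι'r ψ₁).mpr h1
      refine ⟨w₀, w₁, hι'i ?_, hι'i ?_⟩
      · rw [map_add, hU]
        exact h2
      · rw [hU, map_zero]
        exact h3
    ihara := fun v hv => by
      have h1 := map_mem_Mval_of_mem ι' hv
      rw [map_add, map_sub, map_nsmul, hA₁, hA₂, hA₃, hιT] at h1
      have h2 := hIH 𝒪 p hp2 hp𝒪 ρbar Smin hres N₀ Sig s.N s.S hG s.θ hF q hq hqp hqN hqS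
        (q • ι v) (-(TB s.N 𝒪 hq hqN (ι v))) (ι v) (inBetti_nsmul _ (hL v))
        (inBetti_neg (hLT v)) (hL v) (fun γ => by
          have h3 := h1 γ
          rw [pow_one] at h3
          have h4 : resA1 s.N q 𝒪 (q • ι v) + resA2 s.N q 𝒪 (-(TB s.N 𝒪 hq hqN (ι v))) +
              resA3 s.N q 𝒪 (ι v) = q • resA1 s.N q 𝒪 (ι v) -
                resA2 s.N q 𝒪 (TB s.N 𝒪 hq hqN (ι v)) + resA3 s.N q 𝒪 (ι v) := by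
            show resL 𝒪 (j1 s.N q) (q • ι v) + resL 𝒪 (j2 s.N q) (-(TB s.N 𝒪 hq hqN (ι v))) +
              resL 𝒪 (j3 s.N q) (ι v) = q • resL 𝒪 (j1 s.N q) (ι v) -
                resL 𝒪 (j2 s.N q) (TB s.N 𝒪 hq hqN (ι v)) + resL 𝒪 (j3 s.N q) (ι v)
            rw [map_nsmul, map_neg, sub_eq_add_neg]
          rw [h4]
          exact h3)
      exact mem_smul_top_of_mem_Mval ι hιi hιr (fun γ => by
        rw [pow_one]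
        exact (h2 γ).2.2)
    dual := fun v => by
      obtain ⟨ψ, hψ, hval⟩ := hDU 𝒪 p hp2 hp𝒪 ρbar Smin hres N₀ Sig s.N s.S hG s.θ hF q hq hqp
        hqN hqS rest hrest (ι v) (hL v)
      obtain ⟨w, rfl⟩ := (hι'r ψ).mpr hψ
      refine ⟨w, mem_smul_top_of_mem_Mval ι hιi hιr ?_⟩
      have hX1 := hC1 _ (hL' w)
      have hX2 := hC2 _ (hL' w)
      have hX3 := hC3 _ (hL' w)
      have hXα : (InBetti 𝒪 s.N (↑(insert q s.S) : Set ℕ) θ' Sig) (alphaB' s.N 𝒪 hq hqN (ι' w) - ι v) :=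
        inBetti_sub (inBetti_add (inBetti_sub hX1 (hπTq _ hX2).1) (inBetti_nsmul _ hX3)) (hLX v)
      have h5 : ι (C₁ w - s.M.η (CuspForm.heckeAlgebra.T hq hqN hqS) (C₂ w) + q • C₃ w - v) =
          π (alphaB' s.N 𝒪 hq hqN (ι' w) - ι v) := by
        rw [map_sub, map_add, map_sub, map_nsmul, hιT, hC₁, hC₂, hC₃]
        unfold alphaB'
        rw [hπsub _ _ (inBetti_add (inBetti_sub hX1 (hπTq _ hX2).1) (inBetti_nsmul _ hX3))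
            (hLX v),
          hπ3 _ _ (inBetti_sub hX1 (hπTq _ hX2).1) (inBetti_nsmul _ hX3),
          hπsub _ _ hX1 (hπTq _ hX2).1, (hπTq _ hX2).2, hπnsmul q _ hX3, hπ2 _ (hL v)]
      rw [h5]
      intro γ
      rw [pow_one]
      exact hπ6 _ hXα hval γ }, fun _ w => hU w⟩

end Fermat.Agent.S59.NonMin.Geom.H48
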