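import Mathlib
import Fermat.Agent.S59.NonMin.Geom.H48_AsmGLat
import Fermat.Agent.S59.NonMin.Geom.H61_Deg3Leaves

/-!
# S59 / NMGEOM, sub-leaf INB-MAP (helper48)

`stmt_INBMAP : Stmt_INBMAP`, a restatement of `H48.inBetti_map`.  No `sorry`.
-/

set_option autoImplicit false

open Polynomial CuspForm CongruenceSubgroup IsLocalRing
open scoped MatrixGroups

namespace Fermat.Agent.S59.NonMin.Geom.H48

open Fermat.Agent.S41 Fermat.Agent.Betti Fermat.Agent.S59 Fermat.Agent.S59.Asm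
  Fermat.Agent.S59.NonMin Fermat.Agent.S59.NonMin.Geom
open ModularCurve.Period

/-- **INB-MAP**. -/
theorem stmt_INBMAP : Stmt_INBMAP := by
  intro 𝒪 _ _ _ N N' _ _ S S' θ θ' Sig F hsmul hpar hU hT φ hφ
  exact inBetti_map (θ₁ := θ) (θ₂ := θ')
    ({ toFun := F, map_add' := map_add F, map_smul' := hsmul } :
      (Additive (Gamma0 N) →+ 𝒪) →ₗ[𝒪] (Additive (Gamma0 N') →+ 𝒪)) hpar hU hT hφ

end Fermat.Agent.S59.NonMin.Geom.H48
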