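import Mathlib

/-!
# S59 / NMGEOM, leaf DUAL-k: the abstract linear algebra (helper72)

`k` a field, all spaces finite dimensional.

* `LocNil N x` : every operator `N i` of the family is nilpotent at `x`;
* `exists_joint_ker` (L1): a nonzero subspace stable under a commuting family, on which every
  member is locally nilpotent, contains a nonzero vector killed by the whole family;
* `exists_locNil_add` (L2): if `W` is stable under the commuting family `N` and for every `i` some
  power `(N i)^n` maps `W` into `K₁`, then every `z ∈ W` is `z₀ + z₁` with `z₀ ∈ W` locally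
  nilpotent and `z₁ ∈ K₁` (Fitting + induction on the dimension);
* `inj3_of_eigen` : three maps `A₁ A₂ A₃ : V → V'` intertwining `T i` and `T' i`, jointly injective
  on triples of joint eigenvectors, are jointly injective on triples of generalized eigenvectors;
* `dual_onto` : the abstract dual statement: if `αd` (the adjoint of `α'`) is injective on the
  generalized eigenvectors, then `α'` maps the generalized eigenvectors `y` with `U' r y = 0` onto
  the generalized eigenvectors `x` with `U r x = 0`.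
-/

set_option autoImplicit false

namespace Fermat.Agent.S59.NonMin.Geom.H72D

section LinAlg

variable {k : Type*} [Field k] {K : Type*} [AddCommGroup K] [Module k K]

/-- every member of the family is nilpotent at `x` -/
def LocNil {I : Type*} (N : I → Module.End k K) (x : K) : Prop :=
  ∀ i, ∃ n : ℕ, ((N i) ^ n) x = 0

theorem pow_apply_eq_zero_of_le {f : Module.End k K} {x : K} {n m : ℕ} (h : (f ^ n) x = 0)
    (hnm : n ≤ m) : (f ^ m) x = 0 := by
  obtain ⟨d, rfl⟩ := Nat.exists_eq_add_of_le hnm
  rw [add_comm, pow_add, Module.End.mul_apply, h, map_zero]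

theorem LocNil.add {I : Type*} {N : I → Module.End k K} {x y : K} (hx : LocNil N x)
    (hy : LocNil N y) : LocNil N (x + y) := by
  intro i
  obtain ⟨n, hn⟩ := hx i
  obtain ⟨m, hm⟩ := hy i
  refine ⟨max n m, ?_⟩
  rw [map_add, pow_apply_eq_zero_of_le hn (le_max_left _ _),
    pow_apply_eq_zero_of_le hm (le_max_right _ _), add_zero]

theorem LocNil.smul {I : Type*} {N : I → Module.End k K} {x : K} (hx : LocNil N x) (c : k) :
    LocNil N (c • x) := by
  intro i
  obtain ⟨n, hn⟩ := hx i
  exact ⟨n, by rw [map_smul, hn, smul_zero]⟩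

theorem LocNil.zero {I : Type*} (N : I → Module.End k K) : LocNil N (0 : K) :=
  fun _ => ⟨0, by simp⟩

theorem Commute.pow_apply_comm {f g : Module.End k K} (h : Commute f g) (n : ℕ) (x : K) :
    (f ^ n) (g x) = g ((f ^ n) x) := by
  have := (h.pow_left n).eq
  exact congrArg (fun e : Module.End k K => e x) this

/-- an operator commuting with the family preserves local nilpotence -/
theorem LocNil.map {I : Type*} {N : I → Module.End k K} {x : K} (hx : LocNil N x)
    (g : Module.End k K) (hg : ∀ i, Commute (N i) g) : LocNil N (g x) := by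
  intro i
  obtain ⟨n, hn⟩ := hx i
  exact ⟨n, by rw [Commute.pow_apply_comm (hg i), hn, map_zero]⟩

variable [FiniteDimensional k K]

/-- **L1**: joint kernel vector. -/
theorem exists_joint_ker {I : Type*} (N : I → Module.End k K)
    (hc : ∀ i j, Commute (N i) (N j)) :
    ∀ (W : Submodule k K), W ≠ ⊥ → (∀ i, ∀ x ∈ W, N i x ∈ W) → (∀ x ∈ W, LocNil N x) →
      ∃ z ∈ W, z ≠ 0 ∧ ∀ i, N i z = 0 := by
  intro W
  induction' hd : Module.finrank k W using Nat.strong_induction_on with d ih generalizing W
  intro hW hstab hnil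
  by_cases hall : ∀ i, ∀ x ∈ W, N i x = 0
  · obtain ⟨z, hz, hz0⟩ := (Submodule.ne_bot_iff W).mp hW
    exact ⟨z, hz, hz0, fun i => hall i z hz⟩
  · simp only [not_forall] at hall
    obtain ⟨i, x, hxW, hx⟩ := hall
    -- the subspace `W ⊓ ker (N i)`
    set W' : Submodule k K := W ⊓ LinearMap.ker (N i) with hW'
    have hlt : W' < W := by
      refine lt_of_le_of_ne inf_le_left ?_
      intro heq
      apply hx
      have : x ∈ W' := heq ▸ hxW
      exact LinearMap.mem_ker.mp this.2
    have hne : W' ≠ ⊥ := by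
      obtain ⟨n, hn⟩ := hnil x hxW i
      -- minimal exponent
      have hex : ∃ n, ((N i) ^ n) x = 0 := ⟨n, hn⟩
      classical
      set m := Nat.find hex with hm
      have hm0 : ((N i) ^ m) x = 0 := Nat.find_spec hex
      have hmpos : m ≠ 0 := by
        intro h0
        rw [h0, pow_zero, Module.End.one_apply] at hm0
        rw [hm0, map_zero] at hx
        exact hx rfl
      obtain ⟨m', hm'⟩ := Nat.exists_eq_succ_of_ne_zero hmpos
      have hmin : ((N i) ^ m') x ≠ 0 := by
        have : m' < m := by omega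
        exact Nat.find_min hex this
      have hmemW : ∀ j : ℕ, ((N i) ^ j) x ∈ W := by
        intro j
        induction j with
        | zero => simpa using hxW
        | succ j ihj =>
          rw [pow_succ', Module.End.mul_apply]
          exact hstab i _ ihj
      intro hbot
      have hmem : ((N i) ^ m') x ∈ W' := by
        refine ⟨hmemW m', LinearMap.mem_ker.mpr ?_⟩
        rw [← Module.End.mul_apply, ← pow_succ', ← Nat.succ_eq_add_one, ← hm', hm0]
      rw [hbot] at hmem
      exact hmin ((Submodule.mem_bot k).mp hmem)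
    have hdim : Module.finrank k W' < d := by
      rw [← hd]
      exact Submodule.finrank_lt_finrank_of_lt hlt
    obtain ⟨z, hz, hz0, hzk⟩ := ih _ hdim W' rfl hne
      (fun j y hy => ⟨hstab j y hy.1, LinearMap.mem_ker.mpr (by
        have := (hc i j).eq
        have h2 := congrArg (fun e : Module.End k K => e y) this
        simp only [Module.End.mul_apply] at h2
        rw [h2, LinearMap.mem_ker.mp hy.2, map_zero])⟩)
      (fun y hy => hnil y hy.1)
    exact ⟨z, hz.1, hz0, hzk⟩

/-- Fitting decomposition inside a stable subspace, in elementary form. -/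
theorem exists_fitting (f : Module.End k K) (W : Submodule k K) (hW : ∀ x ∈ W, f x ∈ W)
    (n₀ : ℕ) : ∃ m, n₀ ≤ m ∧ ∀ z ∈ W, ∃ z' ∈ W, ∃ w ∈ W, (f ^ m) z' = 0 ∧ z = z' + (f ^ m) w := by
  have hev := LinearMap.eventually_isCompl_ker_pow_range_pow (f.restrict hW)
  obtain ⟨m, hm, hm0⟩ := (hev.and (Filter.eventually_ge_atTop n₀)).exists
  refine ⟨m, hm0, fun z hz => ?_⟩
  have hz' : (⟨z, hz⟩ : W) ∈ (LinearMap.ker ((f.restrict hW) ^ m) ⊔
      LinearMap.range ((f.restrict hW) ^ m) : Submodule k W) := by
    rw [hm.sup_eq_top]; trivial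
  obtain ⟨a, ha, b, ⟨w, rfl⟩, hab⟩ := Submodule.mem_sup.mp hz'
  have hpow : ∀ v : W, (((f.restrict hW) ^ m) v : K) = (f ^ m) (v : K) := by
    intro v
    rw [Module.End.pow_restrict]
    rfl
  refine ⟨a, a.2, w, w.2, ?_, ?_⟩
  · rw [← hpow a, LinearMap.mem_ker.mp ha]; rfl
  · have := congrArg (Subtype.val) hab
    rw [← hpow w]
    exact this.symm

/-- **L2**. -/
theorem exists_locNil_add {I : Type*} (N : I → Module.End k K)
    (hc : ∀ i j, Commute (N i) (N j)) (K₁ : Submodule k K) :
    ∀ (W : Submodule k K), (∀ i, ∀ x ∈ W, N i x ∈ W) →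
      (∀ i, ∃ n : ℕ, ∀ x ∈ W, ((N i) ^ n) x ∈ K₁) →
      ∀ z ∈ W, ∃ z₀ ∈ W, LocNil N z₀ ∧ z - z₀ ∈ K₁ := by
  intro W
  induction' hd : Module.finrank k W using Nat.strong_induction_on with d ih generalizing W
  intro hstab hK₁ z hz
  by_cases hall : ∀ x ∈ W, LocNil N x
  · exact ⟨z, hz, hall z hz, by simp⟩
  · simp only [not_forall] at hall
    obtain ⟨x, hxW, hx⟩ := hall
    unfold LocNil at hx
    simp only [not_forall, not_exists] at hx
    obtain ⟨i, hxi⟩ := hx
    obtain ⟨n₀, hn₀⟩ := hK₁ i
    obtain ⟨m, hm, hfit⟩ := exists_fitting (N i) W (hstab i) n₀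
    set W' : Submodule k K := W ⊓ LinearMap.ker ((N i) ^ m) with hW'
    have hlt : W' < W := by
      refine lt_of_le_of_ne inf_le_left ?_
      intro heq
      have : x ∈ W' := heq ▸ hxW
      exact hxi m (LinearMap.mem_ker.mp this.2)
    have hdim : Module.finrank k W' < d := by
      rw [← hd]
      exact Submodule.finrank_lt_finrank_of_lt hlt
    have hmemW : ∀ (j : ℕ) (y : K), y ∈ W → ((N i) ^ j) y ∈ W := by
      intro j y hy
      induction j with
      | zero => simpa using hy
      | succ j ihj =>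
        rw [pow_succ', Module.End.mul_apply]
        exact hstab i _ ihj
    obtain ⟨z', hz'W, w, hwW, hz'k, hzz⟩ := hfit z hz
    have hz'W' : z' ∈ W' := ⟨hz'W, LinearMap.mem_ker.mpr hz'k⟩
    obtain ⟨z₀, hz₀, hz₀n, hz₀K⟩ := ih _ hdim W' rfl
      (fun j y hy => ⟨hstab j y hy.1, LinearMap.mem_ker.mpr (by
        rw [Commute.pow_apply_comm (hc i j), LinearMap.mem_ker.mp hy.2, map_zero])⟩)
      (fun j => by
        obtain ⟨n, hn⟩ := hK₁ j
        exact ⟨n, fun y hy => hn y hy.1⟩) z' hz'W'
    refine ⟨z₀, hz₀.1, hz₀n, ?_⟩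
    have h1 : ((N i) ^ m) w ∈ K₁ := by
      obtain ⟨d', rfl⟩ := Nat.exists_eq_add_of_le hm
      rw [pow_add, Module.End.mul_apply]
      exact hn₀ _ (hmemW d' w hwW)
    have : z - z₀ = (z' - z₀) + ((N i) ^ m) w := by rw [hzz]; abel
    rw [this]
    exact K₁.add_mem hz₀K h1

end LinAlg

/-! ### Three maps: from joint eigenvectors to generalized eigenvectors -/

section Three

variable {k : Type*} [Field k] {V : Type*} [AddCommGroup V] [Module k V]
  {V' : Type*} [AddCommGroup V'] [Module k V']

/-- the diagonal operator on `V × V × V` -/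
def diag3 (f : Module.End k V) : Module.End k (V × V × V) :=
  f.prodMap (f.prodMap f)

theorem diag3_apply (f : Module.End k V) (x : V × V × V) :
    diag3 f x = (f x.1, f x.2.1, f x.2.2) := rfl

theorem diag3_pow (f : Module.End k V) (n : ℕ) (x : V × V × V) :
    ((diag3 f) ^ n) x = ((f ^ n) x.1, (f ^ n) x.2.1, (f ^ n) x.2.2) := by
  induction n generalizing x with
  | zero => simp
  | succ n ih =>
    rw [pow_succ, Module.End.mul_apply, ih]
    simp only [diag3_apply, pow_succ, Module.End.mul_apply]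

theorem diag3_commute {f g : Module.End k V} (h : Commute f g) :
    Commute (diag3 f) (diag3 g) := by
  have e : ∀ x, f (g x) = g (f x) := fun x => congrArg (fun e : Module.End k V => e x) h.eq
  refine LinearMap.ext fun x => ?_
  simp only [Module.End.mul_apply, diag3_apply, e]

variable [FiniteDimensional k V]

/-- If `(A₁, A₂, A₃)` is jointly injective on triples of joint eigenvectors (for the system `a`),
it is jointly injective on triples of generalized eigenvectors. -/
theorem inj3_of_eigen {I : Type*} (T : I → Module.End k V) (T' : I → Module.End k V')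
    (a : I → k) (hTc : ∀ i j, Commute (T i) (T j))
    (A₁ A₂ A₃ : V →ₗ[k] V')
    (h₁ : ∀ i x, A₁ (T i x) = T' i (A₁ x)) (h₂ : ∀ i x, A₂ (T i x) = T' i (A₂ x))
    (h₃ : ∀ i x, A₃ (T i x) = T' i (A₃ x))
    (hI : ∀ x₁ x₂ x₃ : V, (∀ i, T i x₁ = a i • x₁) → (∀ i, T i x₂ = a i • x₂) →
      (∀ i, T i x₃ = a i • x₃) → A₁ x₁ + A₂ x₂ + A₃ x₃ = 0 → x₁ = 0 ∧ x₂ = 0 ∧ x₃ = 0)
    (x₁ x₂ x₃ : V) (hx₁ : LocNil (fun i => T i - a i • (1 : Module.End k V)) x₁)
    (hx₂ : LocNil (fun i => T i - a i • (1 : Module.End k V)) x₂)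
    (hx₃ : LocNil (fun i => T i - a i • (1 : Module.End k V)) x₃)
    (hrel : A₁ x₁ + A₂ x₂ + A₃ x₃ = 0) : x₁ = 0 ∧ x₂ = 0 ∧ x₃ = 0 := by
  set N : I → Module.End k V := fun i => T i - a i • (1 : Module.End k V) with hN
  have hNc : ∀ i j, Commute (N i) (N j) := by
    intro i j
    have h := hTc i j
    exact ((h.sub_right ((Commute.one_right _).smul_right _)).sub_left
      (((Commute.one_left _).smul_left _).sub_right ((Commute.one_left _).smul_left _ |>.smul_right _)))
  -- the subspace of relations between generalized eigenvectors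
  let W : Submodule k (V × V × V) :=
    { carrier := {x | LocNil N x.1 ∧ LocNil N x.2.1 ∧ LocNil N x.2.2 ∧
        A₁ x.1 + A₂ x.2.1 + A₃ x.2.2 = 0}
      add_mem' := by
        rintro x y ⟨hx1, hx2, hx3, hx⟩ ⟨hy1, hy2, hy3, hy⟩
        refine ⟨hx1.add hy1, hx2.add hy2, hx3.add hy3, ?_⟩
        simp only [Prod.fst_add, Prod.snd_add, map_add]
        rw [show A₁ x.1 + A₁ y.1 + (A₂ x.2.1 + A₂ y.2.1) + (A₃ x.2.2 + A₃ y.2.2)
          = (A₁ x.1 + A₂ x.2.1 + A₃ x.2.2) + (A₁ y.1 + A₂ y.2.1 + A₃ y.2.2) by abel, hx, hy,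
          add_zero]
      zero_mem' := ⟨LocNil.zero N, LocNil.zero N, LocNil.zero N, by simp⟩
      smul_mem' := by
        rintro c x ⟨hx1, hx2, hx3, hx⟩
        refine ⟨hx1.smul c, hx2.smul c, hx3.smul c, ?_⟩
        simp only [Prod.smul_fst, Prod.smul_snd, map_smul]
        rw [← smul_add, ← smul_add, hx, smul_zero] }
  have hAN : ∀ (A : V →ₗ[k] V') (_ : ∀ i x, A (T i x) = T' i (A x)) (i : I) (x : V),
      A (N i x) = (T' i - a i • (1 : Module.End k V')) (A x) := by
    intro A hA i x
    simp only [hN, LinearMap.sub_apply, LinearMap.smul_apply, Module.End.one_apply, map_sub,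
      map_smul, hA]
  by_contra hne
  have hW : W ≠ ⊥ := by
    intro hbot
    have hmem : (x₁, x₂, x₃) ∈ W := ⟨hx₁, hx₂, hx₃, hrel⟩
    rw [hbot] at hmem
    have h0 := (Submodule.mem_bot k).mp hmem
    apply hne
    simp only [Prod.mk_eq_zero] at h0
    exact h0
  obtain ⟨z, hzW, hz0, hzk⟩ := exists_joint_ker (fun i => diag3 (N i))
    (fun i j => diag3_commute (hNc i j)) W hW
    (by
      rintro i x ⟨hx1, hx2, hx3, hx⟩
      refine ⟨hx1.map _ (fun j => hNc j i), hx2.map _ (fun j => hNc j i),
        hx3.map _ (fun j => hNc j i), ?_⟩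
      simp only [diag3_apply]
      rw [hAN A₁ h₁, hAN A₂ h₂, hAN A₃ h₃, ← map_add, ← map_add, hx, map_zero])
    (by
      rintro x ⟨hx1, hx2, hx3, -⟩ i
      obtain ⟨n1, hn1⟩ := hx1 i
      obtain ⟨n2, hn2⟩ := hx2 i
      obtain ⟨n3, hn3⟩ := hx3 i
      refine ⟨max n1 (max n2 n3), ?_⟩
      rw [diag3_pow, pow_apply_eq_zero_of_le hn1 (le_max_left _ _),
        pow_apply_eq_zero_of_le hn2 ((le_max_left _ _).trans (le_max_right _ _)),
        pow_apply_eq_zero_of_le hn3 ((le_max_right _ _).trans (le_max_right _ _))]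
      rfl)
  have heig : ∀ (y : V), (∀ i, N i y = 0) → ∀ i, T i y = a i • y := by
    intro y hy i
    have := hy i
    simp only [hN, LinearMap.sub_apply, LinearMap.smul_apply, Module.End.one_apply] at this
    exact sub_eq_zero.mp this
  have hz1 : ∀ i, N i z.1 = 0 := fun i => congrArg Prod.fst (hzk i)
  have hz2 : ∀ i, N i z.2.1 = 0 := fun i => congrArg (fun x : V × V × V => x.2.1) (hzk i)
  have hz3 : ∀ i, N i z.2.2 = 0 := fun i => congrArg (fun x : V × V × V => x.2.2) (hzk i)
  obtain ⟨e1, e2, e3⟩ := hI z.1 z.2.1 z.2.2 (heig _ hz1) (heig _ hz2) (heig _ hz3) hzW.2.2.2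
  apply hz0
  ext
  · exact e1
  · exact e2
  · exact e3

end Three

/-! ### The abstract dual statement -/

section Dual

variable {k : Type*} [Field k] {V : Type*} [AddCommGroup V] [Module k V] [FiniteDimensional k V]
  {V' : Type*} [AddCommGroup V'] [Module k V'] [FiniteDimensional k V']

/-- A bilinear form with trivial left kernel on a finite dimensional space represents every
functional. -/
theorem exists_repr (B : V →ₗ[k] V →ₗ[k] k) (hB : ∀ x, (∀ y, B x y = 0) → x = 0)
    (f : V →ₗ[k] k) : ∃ x, B x = f := by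
  have hinj : Function.Injective B := by
    rw [← LinearMap.ker_eq_bot, LinearMap.ker_eq_bot']
    intro x hx
    exact hB x (fun y => by rw [hx]; rfl)
  have hsurj : Function.Surjective B :=
    (LinearMap.injective_iff_surjective_of_finrank_eq_finrank
      (Subspace.dual_finrank_eq (K := k) (V := V)).symm).mp hinj
  exact hsurj f

/-- separation of a vector from a subspace by the form -/
theorem exists_orth (B : V →ₗ[k] V →ₗ[k] k) (hB : ∀ x, (∀ y, B x y = 0) → x = 0)
    (R : Submodule k V) (x : V) (hx : x ∉ R) : ∃ z, (∀ r ∈ R, B z r = 0) ∧ B z x ≠ 0 := by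
  obtain ⟨f, hfx, hf⟩ := Submodule.exists_dual_map_eq_bot_of_notMem hx inferInstance
  obtain ⟨z, hz⟩ := exists_repr B hB f
  refine ⟨z, fun r hr => ?_, ?_⟩
  · rw [hz]
    have : f r ∈ R.map f := Submodule.mem_map_of_mem hr
    rw [hf] at this
    exact (Submodule.mem_bot k).mp this
  · rw [hz]; exact hfx

omit [FiniteDimensional k V'] in
theorem pow_ker_of_sq_ker (U : Module.End k V') (hU : ∀ y, U (U y) = 0 → U y = 0) (y : V')
    (n : ℕ) (h : (U ^ n) (U y) = 0) : U y = 0 := by
  induction n with
  | zero => simpa using h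
  | succ n ih =>
    apply ih
    rw [pow_succ, Module.End.mul_apply, Commute.pow_apply_comm (Commute.refl U),
      Commute.pow_apply_comm (Commute.refl U)] at h
    rw [Commute.pow_apply_comm (Commute.refl U)]
    exact hU _ h

theorem commute_sub_smul {E : Type*} [AddCommGroup E] [Module k E] (f g : Module.End k E)
    (c d : k) (h : Commute f g) :
    Commute (f - c • (1 : Module.End k E)) (g - d • (1 : Module.End k E)) :=
  ((h.sub_right ((Commute.one_right _).smul_right _)).sub_left
    (((Commute.one_left _).smul_left _).sub_right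
      ((Commute.one_left _).smul_left _ |>.smul_right _)))

theorem commute_sub_smul_left {E : Type*} [AddCommGroup E] [Module k E] (f g : Module.End k E)
    (c : k) (h : Commute f g) : Commute (f - c • (1 : Module.End k E)) g :=
  h.sub_left ((Commute.one_left _).smul_left _)

/-- **The abstract dual statement.** -/
theorem dual_onto (B : V →ₗ[k] V →ₗ[k] k) (B' : V' →ₗ[k] V' →ₗ[k] k)
    (hB : ∀ x, (∀ y, B x y = 0) → x = 0) (hB' : ∀ x, (∀ y, B' x y = 0) → x = 0)
    {I : Type*} (T : I → Module.End k V) (T' : I → Module.End k V') (a : I → k)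
    (hTc : ∀ i j, Commute (T i) (T j)) (hT'c : ∀ i j, Commute (T' i) (T' j))
    (hTsa : ∀ i x y, B x (T i y) = B (T i x) y)
    {J : Type*} (U : J → Module.End k V) (U' : J → Module.End k V')
    (hU'c : ∀ r s, Commute (U' r) (U' s)) (hT'U' : ∀ i r, Commute (T' i) (U' r))
    (hTU : ∀ i r, Commute (T i) (U r))
    (hU'ker : ∀ r y, U' r (U' r y) = 0 → U' r y = 0)
    (α' : V' →ₗ[k] V) (αd : V →ₗ[k] V')
    (hadj : ∀ x y, B' (αd x) y = B x (α' y))
    (hα'T : ∀ i y, α' (T' i y) = T i (α' y))
    (hαdT : ∀ i x, αd (T i x) = T' i (αd x))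
    (hα'U : ∀ r y, α' (U' r y) = U r (α' y))
    (hinj : ∀ x, LocNil (fun i => T i - a i • (1 : Module.End k V)) x → αd x = 0 → x = 0)
    (x : V) (hx : LocNil (fun i => T i - a i • (1 : Module.End k V)) x)
    (hxU : ∀ r, U r x = 0) :
    ∃ y : V', LocNil (fun i => T' i - a i • (1 : Module.End k V')) y ∧ (∀ r, U' r y = 0) ∧
      α' y = x := by
  classical
  set N : I → Module.End k V := fun i => T i - a i • (1 : Module.End k V) with hN
  set N' : I → Module.End k V' := fun i => T' i - a i • (1 : Module.End k V') with hN'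
  have hNc : ∀ i j, Commute (N i) (N j) := fun i j => commute_sub_smul _ _ _ _ (hTc i j)
  have hN'c : ∀ i j, Commute (N' i) (N' j) := fun i j => commute_sub_smul _ _ _ _ (hT'c i j)
  have hNsa : ∀ i x y, B x (N i y) = B (N i x) y := by
    intro i x y
    simp only [hN, LinearMap.sub_apply, LinearMap.smul_apply, Module.End.one_apply, map_sub,
      map_smul, hTsa]
  have hNsa_pow : ∀ i (n : ℕ) x y, B x ((N i ^ n) y) = B ((N i ^ n) x) y := by
    intro i n
    induction n with
    | zero => intro x y; simp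
    | succ n ih =>
      intro x y
      have e1 : (N i ^ (n + 1)) y = (N i ^ n) (N i y) := by
        rw [pow_succ, Module.End.mul_apply]
      have e2 : (N i ^ (n + 1)) x = N i ((N i ^ n) x) := by
        rw [pow_succ', Module.End.mul_apply]
      rw [e1, e2, ih, hNsa]
  have hαdN : ∀ i x, αd (N i x) = N' i (αd x) := by
    intro i x
    simp only [hN, hN', LinearMap.sub_apply, LinearMap.smul_apply, Module.End.one_apply, map_sub,
      map_smul, hαdT]
  have hα'N : ∀ i y, α' (N' i y) = N i (α' y) := by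
    intro i y
    simp only [hN, hN', LinearMap.sub_apply, LinearMap.smul_apply, Module.End.one_apply, map_sub,
      map_smul, hα'T]
  have hα'N_pow : ∀ i (n : ℕ) y, α' ((N' i ^ n) y) = (N i ^ n) (α' y) := by
    intro i n
    induction n with
    | zero => intro y; simp
    | succ n ih =>
      intro y
      have e1 : (N' i ^ (n + 1)) y = (N' i ^ n) (N' i y) := by
        rw [pow_succ, Module.End.mul_apply]
      have e2 : (N i ^ (n + 1)) (α' y) = (N i ^ n) (N i (α' y)) := by
        rw [pow_succ, Module.End.mul_apply]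
      rw [e1, e2, ih, hα'N]
  -- Step (i): `x` is in the range of `α'`
  have hrange : x ∈ LinearMap.range α' := by
    by_contra hxR
    obtain ⟨z, hzR, hzx⟩ := exists_orth B hB (LinearMap.range α') x hxR
    have hzK : αd z = 0 := by
      apply hB'
      intro y
      rw [hadj]
      exact hzR _ ⟨y, rfl⟩
    obtain ⟨z₀, hz₀K, hz₀n, hz₀1⟩ := exists_locNil_add N hNc (LinearMap.ker ((B.flip) x))
      (LinearMap.ker αd)
      (fun i w hw => LinearMap.mem_ker.mpr (by rw [hαdN, LinearMap.mem_ker.mp hw, map_zero]))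
      (fun i => by
        obtain ⟨n, hn⟩ := hx i
        refine ⟨n, fun w _ => LinearMap.mem_ker.mpr ?_⟩
        rw [LinearMap.flip_apply, ← hNsa_pow, hn, map_zero])
      z (LinearMap.mem_ker.mpr hzK)
    have hz₀ : z₀ = 0 := hinj z₀ hz₀n (LinearMap.mem_ker.mp hz₀K)
    rw [hz₀, sub_zero] at hz₀1
    exact hzx (by simpa [LinearMap.flip_apply] using LinearMap.mem_ker.mp hz₀1)
  obtain ⟨y₀, hy₀⟩ := hrange
  -- Step (ii): correct `y₀`
  choose nx hnx using hx
  -- the subspace `X` of `V`
  let X : Submodule k V :=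
    { carrier := {v | (∀ i, (N i ^ nx i) v = 0) ∧ ∀ r, U r v = 0}
      add_mem' := by
        rintro v w ⟨hv1, hv2⟩ ⟨hw1, hw2⟩
        exact ⟨fun i => by rw [map_add, hv1, hw1, add_zero],
          fun r => by rw [map_add, hv2, hw2, add_zero]⟩
      zero_mem' := ⟨fun i => map_zero _, fun r => map_zero _⟩
      smul_mem' := by
        rintro c v ⟨hv1, hv2⟩
        exact ⟨fun i => by rw [map_smul, hv1, smul_zero],
          fun r => by rw [map_smul, hv2, smul_zero]⟩ }
  have hxX : x ∈ X := ⟨hnx, hxU⟩
  have hNU : ∀ i r, Commute (N i) (U r) := fun i r => commute_sub_smul_left _ _ _ (hTU i r)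
  have hXN : ∀ i, ∀ v ∈ X, N i v ∈ X := by
    rintro i v ⟨hv1, hv2⟩
    refine ⟨fun j => ?_, fun r => ?_⟩
    · rw [Commute.pow_apply_comm (hNc j i), hv1, map_zero]
    · have := congrArg (fun e : Module.End k V => e v) (hNU i r).eq
      simp only [Module.End.mul_apply] at this
      rw [← this, hv2, map_zero]
  -- the family on `V'`
  let N'' : I ⊕ J → Module.End k V' := Sum.elim N' U'
  have hN''c : ∀ s t, Commute (N'' s) (N'' t) := by
    rintro (i | r) (j | s)
    · exact hN'c i j
    · exact commute_sub_smul_left _ _ _ (hT'U' i s)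
    · exact (commute_sub_smul_left _ _ _ (hT'U' j r)).symm
    · exact hU'c r s
  obtain ⟨y, hyW, hyn, hy1⟩ := exists_locNil_add N'' hN''c (LinearMap.ker α')
    (X.comap α')
    (by
      rintro (i | r) w hw
      · show α' (N' i w) ∈ X
        rw [hα'N]
        exact hXN i _ hw
      · show α' (U' r w) ∈ X
        rw [hα'U, (show U r (α' w) = 0 from hw.2 r)]
        exact X.zero_mem)
    (by
      rintro (i | r)
      · refine ⟨nx i, fun w hw => LinearMap.mem_ker.mpr ?_⟩
        show α' ((N' i ^ nx i) w) = 0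
        rw [hα'N_pow]
        exact hw.1 i
      · refine ⟨1, fun w hw => LinearMap.mem_ker.mpr ?_⟩
        show α' ((U' r ^ 1) w) = 0
        rw [pow_one, hα'U]
        exact hw.2 r)
    y₀ (show α' y₀ ∈ X by rw [hy₀]; exact hxX)
  refine ⟨y, fun i => hyn (Sum.inl i), fun r => ?_, ?_⟩
  · obtain ⟨n, hn⟩ := hyn (Sum.inr r)
    change (U' r ^ n) y = 0 at hn
    rcases n with _ | n
    · simp only [pow_zero, Module.End.one_apply] at hn
      rw [hn, map_zero]
    · apply pow_ker_of_sq_ker (U' r) (hU'ker r) y n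
      rw [← Module.End.mul_apply, ← pow_succ]
      exact hn
  · have := LinearMap.mem_ker.mp hy1
    rw [map_sub, sub_eq_zero] at this
    rw [← this, hy₀]

end Dual

end Fermat.Agent.S59.NonMin.Geom.H72D
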