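import Fermat.Agent.S59.NonMin.Geom.H72_DualKCore
import Fermat.Agent.S59.NonMin.Geom.H61_CHEBk
import Fermat.Agent.S41.H94_Leaves

/-!
# S59 / NMGEOM, leaf DUAL-k (helper72)

`dualk_of : Stmt_ADJ3 → Stmt_DUALk` : the dual Ihara statement over the residue field, from the
core `H72K.dualk_core`, with the Chebotarev primes of `H61.stmt_CHEBk` and the pairing of
`S41.H94.leaves`.  (`Stmt_ADJ3`, the adjointness of `A_a` and `C_a`, is helper98's `H98.adj3`.)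
-/

set_option autoImplicit false
set_option linter.unusedSectionVars false
set_option linter.style.haveILetI false

open CuspForm CongruenceSubgroup IsLocalRing
open scoped MatrixGroups

namespace Fermat.Agent.S59.NonMin.Geom.H72K

open Fermat.Agent.S41 Fermat.Agent.Betti Fermat.Agent.S59 Fermat.Agent.S59.NonMin.Geom
open ModularCurve.Period

/-- the level of a state: every `r ∈ Sig` divides the level exactly twice -/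
theorem sig_level {p : ℕ} {Smin : Finset ℕ} {N₀ : ℕ} {Sig : Finset ℕ} {N : ℕ} {S : Finset ℕ}
    (hG : GeomHyp p Smin N₀ Sig N S) :
    ∀ r ∈ Sig, r.Prime ∧ r ≠ p ∧ ∃ M₀ : ℕ, N = M₀ * r ^ 2 ∧ ¬ r ∣ M₀ := by
  intro r hr
  obtain ⟨hrp, hrne, hrS⟩ := hG.hSig r hr
  refine ⟨hrp, hrne, N₀ * ∏ s ∈ Sig.erase r, s ^ 2, ?_, ?_⟩
  · rw [hG.hN, ← Finset.mul_prod_erase Sig (fun s => s ^ 2) hr]
    ring
  · intro hd
    rcases (Nat.Prime.dvd_mul hrp).mp hd with h | h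
    · exact hrS (hG.hN₀S r hrp h)
    · obtain ⟨s, hs, hrs⟩ := (Prime.dvd_finsetProd_iff hrp.prime _).mp h
      have h1 : r ∣ s := hrp.dvd_of_dvd_pow hrs
      have hsp := (hG.hSig s (Finset.mem_of_mem_erase hs)).1
      have h2 : r = s := (Nat.prime_dvd_prime_iff_eq hrp hsp).mp h1
      exact (Finset.ne_of_mem_erase hs) h2.symm

/-- **DUAL-k** modulo the adjointness `Stmt_ADJ3`. -/
theorem dualk_of (hadj : Stmt_ADJ3) : Stmt_DUALk := by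
  intro 𝒪 _ _ _ _ _ _ p _ hp2 hpO ρbar Smin hres N₀ Sig N _ S hG θ hθ q hq hqp hqN hqS _ rest
    hrest φ hφ
  have hp : p.Prime := Fact.out
  haveI hchar : CharP (ResidueField 𝒪) p := by
    refine (CharP.charP_iff_prime_eq_zero hp).2 ?_
    have h := (residue_eq_zero_iff (p : 𝒪)).2 hpO
    rwa [map_natCast] at h
  obtain ⟨hφc, hφU, hφT⟩ := hφ
  have hpS : p ∈ S := by
    rw [hG.hS]
    exact Finset.mem_union_left _ hres.hpSmin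
  classical
  set P : ℕ → Prop := fun ℓ => ℓ.Prime ∧ ¬ ℓ ∣ N ∧ ℓ ≠ q ∧ ℓ ∉ (↑S : Set ℕ) with hPdef
  set a : ℕ → ResidueField 𝒪 :=
    fun ℓ => if h : P ℓ then θ (CuspForm.heckeAlgebra.T h.1 h.2.1 h.2.2.2) else 0 with hadef
  have ha : ∀ (ℓ : ℕ) (hℓ : ℓ.Prime) (hℓN : ¬ ℓ ∣ N) (hℓS : ℓ ∉ (↑S : Set ℕ)), ℓ ≠ q →
      a ℓ = θ (CuspForm.heckeAlgebra.T hℓ hℓN hℓS) := by
    intro ℓ hℓ hℓN hℓS hℓq
    have h : P ℓ := ⟨hℓ, hℓN, hℓq, hℓS⟩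
    simp only [hadef, dif_pos h]
  have hP : ∀ ℓ, P ℓ → ℓ.Prime ∧ ¬ ℓ ∣ N * q ∧ ℓ ≠ p := by
    rintro ℓ ⟨hℓ, hℓN, hℓq, hℓS⟩
    refine ⟨hℓ, ?_, ?_⟩
    · intro hd
      rcases (Nat.Prime.dvd_mul hℓ).mp hd with h | h
      · exact hℓN h
      · exact hℓq ((Nat.prime_dvd_prime_iff_eq hℓ hq).mp h)
    · intro h
      apply hℓS
      rw [h]
      exact Finset.mem_coe.mpr hpS
  have hcheb : ∀ M : ℕ, 0 < M → p ∣ M →
      ∃ ℓ, P ℓ ∧ ℓ % M = 1 % M ∧ (q : ZMod ℓ) ^ ((ℓ - 1) / p) ≠ 1 ∧ a ℓ ≠ 2 := by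
    intro M hM hpM
    obtain ⟨ℓ, hℓ, hℓN, hℓS, hℓS', h1, h2, h3⟩ :=
      H61.stmt_CHEBk 𝒪 p hp2 hpO ρbar Smin hres N S θ hθ q hq hqp M hM hpM {q}
    have hℓq : ℓ ≠ q := fun h => hℓS' (by rw [h]; exact Finset.mem_singleton_self q)
    refine ⟨ℓ, ⟨hℓ, hℓN, hℓq, hℓS⟩, h1, h2, ?_⟩
    rw [ha ℓ hℓ hℓN hℓS hℓq]
    exact h3
  obtain ⟨ψ, hψc, hψU, hψT, hψφ⟩ := dualk_core H94.leaves hadj p hp2 N q hq hqN hqp P a hP hcheb
    Sig (sig_level hG) φ hφc hφU (by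
      rintro ℓ hℓ hℓN ⟨-, -, hℓq, hℓS⟩
      obtain ⟨n, hn⟩ := hφT ℓ hℓ hℓN hℓS
      refine ⟨n, ?_⟩
      rw [ha ℓ hℓ hℓN hℓS hℓq]
      exact hn)
  refine ⟨ψ, ⟨hψc, hψU, ?_⟩, hψφ⟩
  intro ℓ hℓ hℓN' hℓS'
  have hℓN : ¬ ℓ ∣ N := fun h => hℓN' (dvd_mul_of_dvd_left h _)
  have hℓq : ℓ ≠ q := by
    intro h
    apply hℓS'
    rw [h]
    exact Finset.mem_coe.mpr (Finset.mem_insert_self q S)
  have hℓS : ℓ ∉ (↑S : Set ℕ) := by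
    intro h
    apply hℓS'
    exact Finset.mem_coe.mpr (Finset.mem_insert_of_mem (Finset.mem_coe.mp h))
  obtain ⟨n, hn⟩ := hψT ℓ hℓ hℓN' ⟨hℓ, hℓN, hℓq, hℓS⟩
  refine ⟨n, ?_⟩
  have e : (θ.comp rest) (CuspForm.heckeAlgebra.T hℓ hℓN' hℓS') = a ℓ := by
    rw [RingHom.comp_apply, hrest ℓ hℓ hℓN' hℓS' hℓN hℓS, ha ℓ hℓ hℓN hℓS hℓq]
  rw [e]
  exact hn

end Fermat.Agent.S59.NonMin.Geom.H72K
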