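import Fermat.Agent.S59.NonMin.Geom.H72_DualKOps
import Fermat.Agent.S59.NonMin.Geom.H78_Ihara3v

/-!
# S59 / NMGEOM, leaf DUAL-k (helper72): the core

`dualk_core` : over a finite field `k` of characteristic `p ≠ 2`, for a system of eigenvalues `a`
on a set `P` of primes containing Chebotarev primes, `α' = C₁ - T_q C₂ + q C₃` maps the
generalized `a`-eigenvectors of level `N q²` killed by the `U_r` (`r ∈ Sig`) ONTO those of
level `N`.  Inputs: the pairing `S41.H94.BL` (hypothesis `L : Leaves`), the adjointness `Stmt_ADJ3`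
of `A_a` and `C_a`, `H78.stmt_IHARA3v`, `H13.stmt_RELT`, `H12.stmt_RELU`, `H98.keru`,
`H98.TB_comm_TB`, `H98.UB_comm_TB`, `H98.UB_comm_UB`, and the linear algebra `H72D.dual_onto`.
-/

set_option autoImplicit false
set_option linter.unusedSectionVars false
set_option linter.style.haveILetI false

open CuspForm CongruenceSubgroup IsLocalRing
open scoped MatrixGroups

namespace Fermat.Agent.S59.NonMin.Geom.H72K

open Fermat.Agent.S41 Fermat.Agent.Betti Fermat.Agent.S59 Fermat.Agent.S59.NonMin.Geom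
open ModularCurve.Period

/-- **ADJ3**: `A_a` and `C_a` are adjoint for the pairing `S41.H94.Bform`. -/
def Stmt_ADJ3 : Prop :=
  ∀ (k : Type) [Field k], (2 : k) ≠ 0 → ∀ (N q : ℕ), N ≠ 0 → q ≠ 0 →
    ∀ (φ : Additive (Gamma0 N) →+ k) (ψ : Additive (Gamma0 (N * q ^ 2)) →+ k),
    IsCuspidalHom (Gamma0 N) φ → IsCuspidalHom (Gamma0 (N * q ^ 2)) ψ →
    H94.Bform k (N * q ^ 2) (resA1 N q k φ) ψ = H94.Bform k N φ (corC1 N q k ψ) ∧
    H94.Bform k (N * q ^ 2) (resA2 N q k φ) ψ = H94.Bform k N φ (corC2 N q k ψ) ∧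
    H94.Bform k (N * q ^ 2) (resA3 N q k φ) ψ = H94.Bform k N φ (corC3 N q k ψ)

/-! ### The relations of `α'`, `α†` with the Hecke operators -/

section Rel

variable (N : ℕ) [NeZero N] {q : ℕ} (hq : q.Prime) (hqN : ¬ q ∣ N) (A : Type) [AddCommGroup A]

theorem alphaB'_TB {ℓ : ℕ} (hℓ : ℓ.Prime) (hℓN : ¬ ℓ ∣ N) (hℓN' : ¬ ℓ ∣ N * q ^ 2)
    (ψ : Additive (Gamma0 (N * q ^ 2)) →+ A) :
    alphaB' N A hq hqN (TB (N * q ^ 2) A hℓ hℓN' ψ) = TB N A hℓ hℓN (alphaB' N A hq hqN ψ) := by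
  obtain ⟨-, hC⟩ := H13.stmt_RELT N q hq hqN ℓ hℓ hℓN hℓN' A
  obtain ⟨c1, c2, c3⟩ := hC ψ
  unfold alphaB'
  rw [c1, c2, c3, map_add, map_sub, map_nsmul,
    H98.TB_comm_TB hq hqN hℓ hℓN (corC2 N q A ψ)]

theorem alphaD_TB {ℓ : ℕ} (hℓ : ℓ.Prime) (hℓN : ¬ ℓ ∣ N) (hℓN' : ¬ ℓ ∣ N * q ^ 2)
    (φ : Additive (Gamma0 N) →+ A) :
    alphaD N A hq hqN (TB N A hℓ hℓN φ) = TB (N * q ^ 2) A hℓ hℓN' (alphaD N A hq hqN φ) := by
  obtain ⟨hA, -⟩ := H13.stmt_RELT N q hq hqN ℓ hℓ hℓN hℓN' A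
  obtain ⟨a1, -, a3⟩ := hA φ
  obtain ⟨-, a2, -⟩ := hA (TB N A hq hqN φ)
  unfold alphaD
  rw [map_add, map_sub, map_nsmul, a1, a2, a3,
    H98.TB_comm_TB hq hqN hℓ hℓN φ]

theorem alphaB'_UB [NeZero (N * q ^ 2)] {r : ℕ} (hr : r.Prime) (hrN : r ∣ N)
    (hrN' : r ∣ N * q ^ 2) (ψ : Additive (Gamma0 (N * q ^ 2)) →+ A) :
    alphaB' N A hq hqN (UB (N * q ^ 2) A hrN' ψ) = UB N A hrN (alphaB' N A hq hqN ψ) := by
  obtain ⟨-, hC⟩ := H12.stmt_RELU N q hq hqN r hr hrN hrN' A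
  obtain ⟨c1, c2, c3⟩ := hC ψ
  unfold alphaB'
  rw [c1, c2, c3, map_add, map_sub, map_nsmul,
    H98.UB_comm_TB hrN hq hqN (corC2 N q A ψ)]

end Rel

/-! ### Characteristic `p` -/

section Char

variable {k : Type} [Field k] (p : ℕ) [Fact p.Prime] [CharP k p]

theorem two_ne_zero_of_charP (hp2 : p ≠ 2) : (2 : k) ≠ 0 := by
  intro h
  have h' : ((2 : ℕ) : k) = 0 := by exact_mod_cast h
  have hd : p ∣ 2 := (CharP.cast_eq_zero_iff k p 2).mp h'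
  exact hp2 ((Nat.prime_dvd_prime_iff_eq Fact.out Nat.prime_two).mp hd)

theorem nsmul_cancel_of_prime_ne {r : ℕ} (hr : r.Prime) (hrp : r ≠ p) (a : k)
    (h : r • a = 0) : a = 0 := by
  rw [nsmul_eq_mul] at h
  rcases mul_eq_zero.mp h with h1 | h1
  · exfalso
    have hd : p ∣ r := (CharP.cast_eq_zero_iff k p r).mp h1
    exact hrp ((Nat.prime_dvd_prime_iff_eq Fact.out hr).mp hd).symm
  · exact h1

end Char

/-! ### The core -/

section Core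

variable {k : Type} [Field k]

theorem TL_eq_TBc (L : H94.Leaves) (h2 : (2 : k) ≠ 0) (N ℓ : ℕ) (hN : 0 < N) (hℓ : ℓ.Prime)
    (hℓN : ¬ ℓ ∣ N) : H94.TL L h2 N ℓ hN.ne' hℓ.ne_zero = TBc k N hℓ hℓN := by
  apply LinearMap.ext
  intro x
  apply Subtype.ext
  rw [H94.TL_coe, TBc_coe]
  exact Fermat.Agent.S41.H20.Tcoh_eq_TB hN hℓ hℓN x.1

theorem BL_TBc (L : H94.Leaves) (h2 : (2 : k) ≠ 0) (N ℓ : ℕ) [NeZero N] (hℓ : ℓ.Prime)
    (hℓN : ¬ ℓ ∣ N) (x y : H94.cuspSub k N) :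
    H94.BL L h2 N x (TBc k N hℓ hℓN y) = H94.BL L h2 N (TBc k N hℓ hℓN x) y := by
  have hN : 0 < N := Nat.pos_of_ne_zero (NeZero.ne N)
  have h := H94.BL_TL L h2 N ℓ hN hℓ hℓN x y
  rw [TL_eq_TBc L h2 N ℓ hN hℓ hℓN] at h
  exact h

variable [Finite k]

set_option maxHeartbeats 2000000 in
theorem dualk_core (L : H94.Leaves) (hadj : Stmt_ADJ3) (p : ℕ) [Fact p.Prime] [CharP k p]
    (hp2 : p ≠ 2) (N q : ℕ) [NeZero N] [NeZero (N * q ^ 2)] (hq : q.Prime) (hqN : ¬ q ∣ N)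
    (hqp : q ≠ p)
    (P : ℕ → Prop) (a : ℕ → k) (hP : ∀ ℓ, P ℓ → ℓ.Prime ∧ ¬ ℓ ∣ N * q ∧ ℓ ≠ p)
    (hcheb : ∀ M : ℕ, 0 < M → p ∣ M →
      ∃ ℓ, P ℓ ∧ ℓ % M = 1 % M ∧ (q : ZMod ℓ) ^ ((ℓ - 1) / p) ≠ 1 ∧ a ℓ ≠ 2)
    (Sig : Finset ℕ)
    (hSig : ∀ r ∈ Sig, r.Prime ∧ r ≠ p ∧ ∃ M₀ : ℕ, N = M₀ * r ^ 2 ∧ ¬ r ∣ M₀)
    (φ : Additive (Gamma0 N) →+ k) (hφc : IsCuspidalHom (Gamma0 N) φ)
    (hφU : ∀ r ∈ Sig, ∀ hr : r ∣ N, UB N k hr φ = 0)
    (hφT : ∀ (ℓ : ℕ) (hℓ : ℓ.Prime) (hℓN : ¬ ℓ ∣ N), P ℓ →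
      ∃ n : ℕ, (fun χ : Additive (Gamma0 N) →+ k => TB N k hℓ hℓN χ - a ℓ • χ)^[n] φ = 0) :
    ∃ ψ : Additive (Gamma0 (N * q ^ 2)) →+ k, IsCuspidalHom (Gamma0 (N * q ^ 2)) ψ ∧
      (∀ r ∈ Sig, ∀ hr : r ∣ N * q ^ 2, UB (N * q ^ 2) k hr ψ = 0) ∧
      (∀ (ℓ : ℕ) (hℓ : ℓ.Prime) (hℓN' : ¬ ℓ ∣ N * q ^ 2), P ℓ →
        ∃ n : ℕ, (fun χ : Additive (Gamma0 (N * q ^ 2)) →+ k =>
          TB (N * q ^ 2) k hℓ hℓN' χ - a ℓ • χ)^[n] ψ = 0) ∧
      alphaB' N k hq hqN ψ = φ := by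
  classical
  have hN : 0 < N := Nat.pos_of_ne_zero (NeZero.ne N)
  have h2 : (2 : k) ≠ 0 := two_ne_zero_of_charP p hp2
  -- finiteness
  haveI : Group.FG (Gamma0 N) := H94.fg_Gamma0 N
  haveI : Group.FG (Gamma0 (N * q ^ 2)) := H94.fg_Gamma0 _
  haveI : Finite (Additive (Gamma0 N) →+ k) := H94.finite_addHom_of_fg _ _
  haveI : Finite (Additive (Gamma0 (N * q ^ 2)) →+ k) := H94.finite_addHom_of_fg _ _
  haveI : Finite (H94.cuspSub k N) := Subtype.finite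
  haveI : Finite (H94.cuspSub k (N * q ^ 2)) := Subtype.finite
  haveI : Module.Finite k (H94.cuspSub k N) := Module.Finite.of_finite
  haveI : Module.Finite k (H94.cuspSub k (N * q ^ 2)) := Module.Finite.of_finite
  -- the primes of `P`
  have hPN : ∀ ℓ, P ℓ → ¬ ℓ ∣ N := fun ℓ h hd => (hP ℓ h).2.1 (dvd_mul_of_dvd_left hd q)
  have hPq : ∀ ℓ, P ℓ → ℓ ≠ q := by
    intro ℓ h he
    apply (hP ℓ h).2.1
    rw [he]
    exact dvd_mul_left q N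
  have hPN' : ∀ ℓ, P ℓ → ¬ ℓ ∣ N * q ^ 2 := by
    intro ℓ h hd
    rcases (Nat.Prime.dvd_mul (hP ℓ h).1).mp hd with h1 | h1
    · exact hPN ℓ h h1
    · have h3 := (hP ℓ h).1.dvd_of_dvd_pow h1
      exact hPq ℓ h ((Nat.prime_dvd_prime_iff_eq (hP ℓ h).1 hq).mp h3)
  have hSigN : ∀ r ∈ Sig, r ∣ N := by
    intro r hr
    obtain ⟨-, -, M₀, hM, -⟩ := hSig r hr
    rw [hM]
    exact dvd_mul_of_dvd_right (dvd_pow_self r two_ne_zero) _
  have hSigN' : ∀ r ∈ Sig, r ∣ N * q ^ 2 := fun r hr => dvd_mul_of_dvd_left (hSigN r hr) _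
  -- the families
  set T : {ℓ : ℕ // P ℓ} → Module.End k (H94.cuspSub k N) :=
    fun i => TBc k N (hP i.1 i.2).1 (hPN i.1 i.2) with hT
  set T' : {ℓ : ℕ // P ℓ} → Module.End k (H94.cuspSub k (N * q ^ 2)) :=
    fun i => TBc k (N * q ^ 2) (hP i.1 i.2).1 (hPN' i.1 i.2) with hT'
  set U : {r : ℕ // r ∈ Sig} → Module.End k (H94.cuspSub k N) :=
    fun r => UBc k N (hSigN r.1 r.2) with hU
  set U' : {r : ℕ // r ∈ Sig} → Module.End k (H94.cuspSub k (N * q ^ 2)) :=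
    fun r => UBc k (N * q ^ 2) (hSigN' r.1 r.2) with hU'
  set Tq : Module.End k (H94.cuspSub k N) := TBc k N hq hqN with hTq
  have hTc : ∀ i j, Commute (T i) (T j) := by
    intro i j
    apply LinearMap.ext
    intro x
    apply Subtype.ext
    exact H98.TB_comm_TB _ _ _ _ x.1
  have hT'c : ∀ i j, Commute (T' i) (T' j) := by
    intro i j
    apply LinearMap.ext
    intro x
    apply Subtype.ext
    exact H98.TB_comm_TB _ _ _ _ x.1
  have hTqc : ∀ i, Commute (T i) Tq := by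
    intro i
    apply LinearMap.ext
    intro x
    apply Subtype.ext
    exact H98.TB_comm_TB _ _ _ _ x.1
  have hTsa : ∀ i x y, H94.BL L h2 N x (T i y) = H94.BL L h2 N (T i x) y :=
    fun i x y => BL_TBc L h2 N i.1 _ _ x y
  have hU'c : ∀ r s, Commute (U' r) (U' s) := by
    intro r s
    apply LinearMap.ext
    intro x
    apply Subtype.ext
    exact H98.UB_comm_UB _ _ x.1
  have hT'U' : ∀ i r, Commute (T' i) (U' r) := by
    intro i r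
    apply LinearMap.ext
    intro x
    apply Subtype.ext
    exact (H98.UB_comm_TB _ _ _ x.1).symm
  have hTU : ∀ i r, Commute (T i) (U r) := by
    intro i r
    apply LinearMap.ext
    intro x
    apply Subtype.ext
    exact (H98.UB_comm_TB _ _ _ x.1).symm
  have hU'ker : ∀ r y, U' r (U' r y) = 0 → U' r y = 0 := by
    intro r y h
    obtain ⟨hr, hrp, M₀, hM, hrM⟩ := hSig r.1 r.2
    apply Subtype.ext
    have hrq : r.1 ≠ q := by
      intro he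
      apply hqN
      rw [← he]
      exact hSigN r.1 r.2
    refine keru_cast (N * q ^ 2) (M₀ * q ^ 2) r.1 (by rw [hM]; ring) hr ?_ (hSigN' r.1 r.2)
      (nsmul_cancel_of_prime_ne p hr hrp) y.1 (congrArg Subtype.val h)
    intro hd
    rcases (Nat.Prime.dvd_mul hr).mp hd with h1 | h1
    · exact hrM h1
    · exact hrq ((Nat.prime_dvd_prime_iff_eq hr hq).mp (hr.dvd_of_dvd_pow h1))
  -- adjointness
  have hadj' : ∀ x y, H94.BL L h2 (N * q ^ 2) (alphaDc k N hq hqN x) y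
      = H94.BL L h2 N x (alphaPc k N hq hqN y) := by
    intro x y
    obtain ⟨e1, -, e3⟩ := hadj k h2 N q hN.ne' hq.ne_zero x.1 y.1 x.2 y.2
    obtain ⟨-, e2, -⟩ := hadj k h2 N q hN.ne' hq.ne_zero (Tq x).1 y.1 (Tq x).2 y.2
    have f1 : H94.BL L h2 (N * q ^ 2) (A1c k N q x) y = H94.BL L h2 N x (C1c k N q y) := e1
    have f2 : H94.BL L h2 (N * q ^ 2) (A2c k N q (Tq x)) y
        = H94.BL L h2 N (Tq x) (C2c k N q y) := e2
    have f3 : H94.BL L h2 (N * q ^ 2) (A3c k N q x) y = H94.BL L h2 N x (C3c k N q y) := e3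
    have f4 : H94.BL L h2 N x (Tq (C2c k N q y)) = H94.BL L h2 N (Tq x) (C2c k N q y) :=
      BL_TBc L h2 N q hq hqN x _
    unfold alphaDc alphaPc
    simp only [LinearMap.add_apply, LinearMap.sub_apply, LinearMap.smul_apply,
      LinearMap.comp_apply, map_add, map_sub, map_smul]
    rw [f1, f2, f3, f4]
  have hα'T : ∀ i y, alphaPc k N hq hqN (T' i y) = T i (alphaPc k N hq hqN y) := by
    intro i y
    apply Subtype.ext
    rw [alphaPc_coe]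
    show alphaB' N k hq hqN (TB (N * q ^ 2) k _ _ y.1) = TB N k _ _ (alphaPc k N hq hqN y).1
    rw [alphaPc_coe]
    exact alphaB'_TB N hq hqN k _ _ _ y.1
  have hαdT : ∀ i x, alphaDc k N hq hqN (T i x) = T' i (alphaDc k N hq hqN x) := by
    intro i x
    apply Subtype.ext
    rw [alphaDc_coe]
    show alphaD N k hq hqN (TB N k _ _ x.1) = TB (N * q ^ 2) k _ _ (alphaDc k N hq hqN x).1
    rw [alphaDc_coe]
    exact alphaD_TB N hq hqN k _ _ _ x.1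
  have hα'U : ∀ r y, alphaPc k N hq hqN (U' r y) = U r (alphaPc k N hq hqN y) := by
    intro r y
    apply Subtype.ext
    rw [alphaPc_coe]
    show alphaB' N k hq hqN (UB (N * q ^ 2) k _ y.1) = UB N k _ (alphaPc k N hq hqN y).1
    rw [alphaPc_coe]
    exact alphaB'_UB N hq hqN k (hSig r.1 r.2).1 _ _ y.1
  -- Ihara
  have hA : ∀ i (x : H94.cuspSub k N),
      A1c k N q (T i x) = T' i (A1c k N q x) ∧ A2c k N q (T i x) = T' i (A2c k N q x) ∧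
      A3c k N q (T i x) = T' i (A3c k N q x) := by
    intro i x
    obtain ⟨hA, -⟩ := H13.stmt_RELT N q hq hqN i.1 (hP i.1 i.2).1 (hPN i.1 i.2) (hPN' i.1 i.2) k
    obtain ⟨a1, a2, a3⟩ := hA x.1
    exact ⟨Subtype.ext a1.symm, Subtype.ext a2.symm, Subtype.ext a3.symm⟩
  have hI : ∀ x₁ x₂ x₃ : H94.cuspSub k N, (∀ i, T i x₁ = a i.1 • x₁) →
      (∀ i, T i x₂ = a i.1 • x₂) → (∀ i, T i x₃ = a i.1 • x₃) →
      A1c k N q x₁ + A2c k N q x₂ + A3c k N q x₃ = 0 → x₁ = 0 ∧ x₂ = 0 ∧ x₃ = 0 := by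
    intro x₁ x₂ x₃ h₁ h₂ h₃ hrel
    have key := H78.stmt_IHARA3v k p hp2 N q hN hq hqN hqp P a hP hcheb x₁.1 x₂.1 x₃.1
      x₁.2 x₂.2 x₃.2
      (fun ℓ hℓ hℓN hPℓ => ⟨congrArg Subtype.val (h₁ ⟨ℓ, hPℓ⟩),
        congrArg Subtype.val (h₂ ⟨ℓ, hPℓ⟩), congrArg Subtype.val (h₃ ⟨ℓ, hPℓ⟩)⟩)
      (congrArg Subtype.val hrel)
    exact ⟨Subtype.ext key.1, Subtype.ext key.2.1, Subtype.ext key.2.2⟩
  have hinj : ∀ x, H72D.LocNil (fun i => T i - a i.1 • (1 : Module.End k (H94.cuspSub k N))) x →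
      alphaDc k N hq hqN x = 0 → x = 0 := by
    intro x hx h0
    have hc : ∀ i, Commute (T i - a i.1 • (1 : Module.End k (H94.cuspSub k N))) Tq :=
      fun i => (hTqc i).sub_left ((Commute.one_left _).smul_left _)
    have hx₂ : H72D.LocNil (fun i => T i - a i.1 • (1 : Module.End k (H94.cuspSub k N)))
        (-(Tq x)) := by
      have := (hx.map Tq hc).smul (-1 : k)
      rwa [neg_one_smul] at this
    have hx₃ := hx.smul (q : k)
    have hrel : A1c k N q x + A2c k N q (-(Tq x)) + A3c k N q ((q : k) • x) = 0 := by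
      rw [← h0]
      unfold alphaDc
      simp only [LinearMap.add_apply, LinearMap.sub_apply, LinearMap.smul_apply,
        LinearMap.comp_apply, map_neg, map_smul]
      abel
    exact (H72D.inj3_of_eigen T T' (fun i => a i.1) hTc (A1c k N q) (A2c k N q) (A3c k N q)
      (fun i x => (hA i x).1) (fun i x => (hA i x).2.1) (fun i x => (hA i x).2.2) hI
      x (-(Tq x)) ((q : k) • x) hx hx₂ hx₃ hrel).1
  -- the vector
  have hx : H72D.LocNil (fun i => T i - a i.1 • (1 : Module.End k (H94.cuspSub k N)))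
      (⟨φ, hφc⟩ : H94.cuspSub k N) := by
    intro i
    obtain ⟨n, hn⟩ := hφT i.1 (hP i.1 i.2).1 (hPN i.1 i.2) i.2
    refine ⟨n, Subtype.ext ?_⟩
    rw [iter_coe]
    exact hn
  have hxU : ∀ r, U r (⟨φ, hφc⟩ : H94.cuspSub k N) = 0 :=
    fun r => Subtype.ext (hφU r.1 r.2 _)
  obtain ⟨y, hy, hyU, hyx⟩ := H72D.dual_onto (H94.BL L h2 N) (H94.BL L h2 (N * q ^ 2))
    (H94.BL_nondeg L h2 N) (H94.BL_nondeg L h2 (N * q ^ 2)) T T' (fun i => a i.1) hTc hT'c hTsa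
    U U' hU'c hT'U' hTU hU'ker (alphaPc k N hq hqN) (alphaDc k N hq hqN) hadj' hα'T hαdT hα'U
    hinj ⟨φ, hφc⟩ hx hxU
  refine ⟨y.1, y.2, ?_, ?_, ?_⟩
  · intro r hr hd
    exact congrArg Subtype.val (hyU ⟨r, hr⟩)
  · intro ℓ hℓ hℓN' hPℓ
    obtain ⟨n, hn⟩ := hy ⟨ℓ, hPℓ⟩
    refine ⟨n, ?_⟩
    have := congrArg Subtype.val hn
    rw [iter_coe] at this
    exact this
  · have h := congrArg Subtype.val hyx
    rw [alphaPc_coe] at h
    exact h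

end Core

end Fermat.Agent.S59.NonMin.Geom.H72K
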