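import Fermat.Agent.S59.NonMin.Geom.H98_Rel4
import Fermat.Agent.Betti.H76_Vanish

/-!
# S59 / NMGEOM leaf RELSPLIT (helper98)

At the level `N q²` (`q ∤ N`, `q` invertible in `R`), with `U = U_q`:

  `e = 1 - U² + A₁ C₃ - q⁻¹ A₂ C₂`,   `g = U - q⁻¹ A₂ C₃ + q⁻² A₃ C₂`.

* `e + U g = 1` by `U A₂ = q A₁`, `U A₃ = q A₂` (`Stmt_REL1`);
* `U e = U - U³ + (A₁ T_q - A₂) C₃ - A₁ C₂ = 0` by `H98.rel4`;
* `e`, `g` commute with `T_ℓ` and `U_r` by `Stmt_RELT`, `Stmt_RELU` and `H98.UB_comm_TB`,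
  `H98.UB_comm_UB`; they preserve parabolic homomorphisms by `Stmt_RELPAR`.

Main results:
* `relsplit_of : Stmt_REL1 → Stmt_RELT → Stmt_RELU → Stmt_RELPAR → Stmt_RELSPLIT`;
* `UB_injective_of_torsionFree` : `U_q` of level `N q` is injective on `Hom(Γ₀(N q), A)`, `A` without
  `q`-torsion;
* `keru` : **KERU**, `U (U ψ) = 0 → U ψ = 0` at the level `N q²`, `A` without `q`-torsion.
-/

set_option autoImplicit false
set_option linter.style.haveILetI false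
set_option linter.unusedSectionVars false

open scoped MatrixGroups
open CongruenceSubgroup Matrix ModularForm

namespace Fermat.Agent.S59.NonMin.Geom.H98

open Fermat.Agent.S41 Fermat.Agent.S41.H19 Fermat.Agent.S41.H77 Fermat.Agent.S41.H39
open Fermat.Agent.S41.H20 Fermat.Agent.Betti Fermat.Agent.S59.NonMin.Geom
open Fermat.Agent.S59.NonMin.Geom.H72R ModularCurve.Period

/-! ### Linearity and parabolicity of the operators -/

section Lin

variable {M : ℕ} {R : Type*} [CommRing R]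

theorem UB_smul [NeZero M] {p : ℕ} (hp : p ∣ M) (c : R) (φ : Additive (Gamma0 M) →+ R) :
    UB M R hp (c • φ) = c • UB M R hp φ := by
  haveI : NeZero p := neZero_of_dvd hp
  exact ((isHeckeFamily_U M hp).heckeOpLin (incl_injective M) R).map_smul c φ

theorem TB_smul {p : ℕ} (hp : p.Prime) (hpM : ¬ p ∣ M) (c : R) (φ : Additive (Gamma0 M) →+ R) :
    TB M R hp hpM (c • φ) = c • TB M R hp hpM φ := by
  haveI : Fact p.Prime := ⟨hp⟩
  exact ((isHeckeFamily_T M hpM).heckeOpLin (incl_injective M) R).map_smul c φ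

variable {A : Type*} [AddCommGroup A]

theorem UB_par [NeZero M] {p : ℕ} (hp : p ∣ M) {φ : Additive (Gamma0 M) →+ A}
    (hφ : IsParabolicHom (Gamma0 M) φ) : IsParabolicHom (Gamma0 M) (UB M A hp φ) := by
  haveI : NeZero p := neZero_of_dvd hp
  exact Fermat.Agent.Betti.H76.heckeOp_isParabolicHom_gen (isHeckeFamily_U M hp) hφ

theorem par_add {Γ : Subgroup SL(2, ℤ)} {φ ψ : Additive Γ →+ A} (hφ : IsParabolicHom Γ φ)
    (hψ : IsParabolicHom Γ ψ) : IsParabolicHom Γ (φ + ψ) := by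
  intro γ hγ
  rw [AddMonoidHom.add_apply, hφ γ hγ, hψ γ hγ, add_zero]

theorem par_sub {Γ : Subgroup SL(2, ℤ)} {φ ψ : Additive Γ →+ A} (hφ : IsParabolicHom Γ φ)
    (hψ : IsParabolicHom Γ ψ) : IsParabolicHom Γ (φ - ψ) := by
  intro γ hγ
  rw [AddMonoidHom.sub_apply, hφ γ hγ, hψ γ hγ, sub_zero]

theorem par_smul {Γ : Subgroup SL(2, ℤ)} (c : R) {φ : Additive Γ →+ R}
    (hφ : IsParabolicHom Γ φ) : IsParabolicHom Γ (c • φ) := by
  intro γ hγ
  rw [AddMonoidHom.smul_apply, hφ γ hγ, smul_zero]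

end Lin

/-! ### The operators `e` and `g` -/

section Ops

variable {R : Type} [CommRing R] (N q : ℕ) [NeZero (N * q ^ 2)]

/-- `e = 1 - U² + A₁ C₃ - u A₂ C₂` (`u = q⁻¹`). -/
noncomputable def eOp (u : R) (hd : q ∣ N * q ^ 2) :
    (Additive (Gamma0 (N * q ^ 2)) →+ R) →+ (Additive (Gamma0 (N * q ^ 2)) →+ R) :=
  AddMonoidHom.mk'
    (fun ψ => ψ - UB (N * q ^ 2) R hd (UB (N * q ^ 2) R hd ψ)
      + resA1 N q R (corC3 N q R ψ) - u • resA2 N q R (corC2 N q R ψ))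
    (fun ψ χ => by
      unfold resA1 resA2 corC2 corC3
      simp only [map_add, corAlong_add, resAlong_add', smul_add]
      abel)

/-- `g = U - u A₂ C₃ + u² A₃ C₂` (`u = q⁻¹`). -/
noncomputable def gOp (u : R) (hd : q ∣ N * q ^ 2) :
    (Additive (Gamma0 (N * q ^ 2)) →+ R) →+ (Additive (Gamma0 (N * q ^ 2)) →+ R) :=
  AddMonoidHom.mk'
    (fun ψ => UB (N * q ^ 2) R hd ψ - u • resA2 N q R (corC3 N q R ψ)
      + (u * u) • resA3 N q R (corC2 N q R ψ))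
    (fun ψ χ => by
      unfold resA2 resA3 corC2 corC3
      simp only [map_add, corAlong_add, resAlong_add', smul_add]
      abel)

variable {N q}

theorem eOp_apply (u : R) (hd : q ∣ N * q ^ 2) (ψ : Additive (Gamma0 (N * q ^ 2)) →+ R) :
    eOp N q u hd ψ = ψ - UB (N * q ^ 2) R hd (UB (N * q ^ 2) R hd ψ)
      + resA1 N q R (corC3 N q R ψ) - u • resA2 N q R (corC2 N q R ψ) := rfl

theorem gOp_apply (u : R) (hd : q ∣ N * q ^ 2) (ψ : Additive (Gamma0 (N * q ^ 2)) →+ R) :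
    gOp N q u hd ψ = UB (N * q ^ 2) R hd ψ - u • resA2 N q R (corC3 N q R ψ)
      + (u * u) • resA3 N q R (corC2 N q R ψ) := rfl

theorem resA_smul (c : R) (φ : Additive (Gamma0 N) →+ R) :
    resA1 N q R (c • φ) = c • resA1 N q R φ ∧ resA2 N q R (c • φ) = c • resA2 N q R φ ∧
      resA3 N q R (c • φ) = c • resA3 N q R φ := ⟨rfl, rfl, rfl⟩

theorem corC_smul (c : R) (ψ : Additive (Gamma0 (N * q ^ 2)) →+ R) :
    corC2 N q R (c • ψ) = c • corC2 N q R ψ ∧ corC3 N q R (c • ψ) = c • corC3 N q R ψ :=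
  ⟨corAlong_smul _ _ _, corAlong_smul _ _ _⟩

theorem nsmul_cancel {X : Type*} [AddCommGroup X] [Module R X] {u : R} (hu : u * (q : R) = 1)
    (x : X) : u • (q • x) = x := by
  rw [← Nat.cast_smul_eq_nsmul R q x, smul_smul, hu, one_smul]

end Ops

/-! ### The theorem -/

/-- **RELSPLIT** from the relations. -/
theorem relsplit_of (h1 : Stmt_REL1) (hT : Stmt_RELT) (hU : Stmt_RELU) (hP : Stmt_RELPAR) :
    Stmt_RELSPLIT := by
  intro R _ _ _ N q _ _ hq hqN hqu hd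
  have hN : 0 < N := Nat.pos_of_ne_zero (NeZero.ne N)
  obtain ⟨u, hu⟩ : ∃ u : R, u * (q : R) = 1 := ⟨↑hqu.unit⁻¹, IsUnit.val_inv_mul hqu⟩
  obtain ⟨r1a, r1b, r1c⟩ :
      (∀ φ, UB (N * q ^ 2) R hd (resA1 N q R φ)
          = resA1 N q R (TB N R hq hqN φ) - resA2 N q R φ) ∧
      (∀ φ, UB (N * q ^ 2) R hd (resA2 N q R φ) = q • resA1 N q R φ) ∧
      (∀ φ, UB (N * q ^ 2) R hd (resA3 N q R φ) = q • resA2 N q R φ) :=
    ⟨fun φ => (h1 N q hq hqN hd R φ).1, fun φ => (h1 N q hq hqN hd R φ).2.1,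
      fun φ => (h1 N q hq hqN hd R φ).2.2⟩
  obtain ⟨pA, pC, -, -⟩ := hP N q hq hqN R
  refine ⟨eOp N q u hd, gOp N q u hd, ?_, ?_, ?_, ?_, ?_, ?_⟩
  · -- linearity
    intro c ψ
    constructor
    · rw [eOp_apply, eOp_apply, UB_smul, UB_smul, (corC_smul c ψ).1, (corC_smul c ψ).2,
        (resA_smul c _).1, (resA_smul c _).2.1, smul_comm u c]
      simp only [smul_add, smul_sub]
    · rw [gOp_apply, gOp_apply, UB_smul, (corC_smul c ψ).1, (corC_smul c ψ).2,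
        (resA_smul c _).2.1, (resA_smul c _).2.2, smul_comm u c, smul_comm (u * u) c]
      simp only [smul_add, smul_sub]
  · -- `U e = 0`
    intro ψ
    have h4 := rel4 hN hq hqN hd ψ
    rw [eOp_apply, map_sub, map_add, map_sub, r1a, UB_smul, r1b, nsmul_cancel hu]
    have h5 : UB (N * q ^ 2) R hd (UB (N * q ^ 2) R hd (UB (N * q ^ 2) R hd ψ))
        = UB (N * q ^ 2) R hd ψ + (resA1 N q R (TB N R hq hqN (corC3 N q R ψ))
          - resA1 N q R (corC2 N q R ψ) - resA2 N q R (corC3 N q R ψ)) := by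
      rw [← h4]; abel
    rw [h5]
    abel
  · -- `1 = e + U g`
    intro ψ
    rw [eOp_apply, gOp_apply, map_add, map_sub, UB_smul, UB_smul, r1b, r1c, nsmul_cancel hu,
      mul_smul, nsmul_cancel hu]
    abel
  · -- parabolic
    intro ψ hψ
    obtain ⟨-, c2, c3⟩ := pC ψ hψ
    have a13 := (pA _ c3).1
    have a23 := (pA _ c3).2.1
    have a22 := (pA _ c2).2.1
    have a32 := (pA _ c2).2.2
    constructor
    · rw [eOp_apply]
      exact par_sub (par_add (par_sub hψ (UB_par hd (UB_par hd hψ))) a13) (par_smul u a22)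
    · rw [gOp_apply]
      exact par_add (par_sub (UB_par hd hψ) (par_smul u a23)) (par_smul (u * u) a32)
  · -- `T_ℓ`
    intro ℓ hℓ hℓN' ψ
    have hℓN : ¬ ℓ ∣ N := fun h => hℓN' (Dvd.dvd.mul_right h _)
    obtain ⟨tA, tC⟩ := hT N q hq hqN ℓ hℓ hℓN hℓN' R
    have k1 : UB (N * q ^ 2) R hd (TB (N * q ^ 2) R hℓ hℓN' ψ)
        = TB (N * q ^ 2) R hℓ hℓN' (UB (N * q ^ 2) R hd ψ) := UB_comm_TB hd hℓ hℓN' ψ
    have k2 : UB (N * q ^ 2) R hd (UB (N * q ^ 2) R hd (TB (N * q ^ 2) R hℓ hℓN' ψ))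
        = TB (N * q ^ 2) R hℓ hℓN' (UB (N * q ^ 2) R hd (UB (N * q ^ 2) R hd ψ)) := by
      rw [k1, UB_comm_TB hd hℓ hℓN']
    have k13 : resA1 N q R (corC3 N q R (TB (N * q ^ 2) R hℓ hℓN' ψ))
        = TB (N * q ^ 2) R hℓ hℓN' (resA1 N q R (corC3 N q R ψ)) := by
      rw [(tC ψ).2.2, (tA (corC3 N q R ψ)).1]
    have k22 : resA2 N q R (corC2 N q R (TB (N * q ^ 2) R hℓ hℓN' ψ))
        = TB (N * q ^ 2) R hℓ hℓN' (resA2 N q R (corC2 N q R ψ)) := by
      rw [(tC ψ).2.1, (tA (corC2 N q R ψ)).2.1]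
    have k23 : resA2 N q R (corC3 N q R (TB (N * q ^ 2) R hℓ hℓN' ψ))
        = TB (N * q ^ 2) R hℓ hℓN' (resA2 N q R (corC3 N q R ψ)) := by
      rw [(tC ψ).2.2, (tA (corC3 N q R ψ)).2.1]
    have k32 : resA3 N q R (corC2 N q R (TB (N * q ^ 2) R hℓ hℓN' ψ))
        = TB (N * q ^ 2) R hℓ hℓN' (resA3 N q R (corC2 N q R ψ)) := by
      rw [(tC ψ).2.1, (tA (corC2 N q R ψ)).2.2]
    constructor
    · rw [eOp_apply, eOp_apply, k2, k13, k22, map_sub, map_add, map_sub, TB_smul]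
    · rw [gOp_apply, gOp_apply, k1, k23, k32, map_add, map_sub, TB_smul, TB_smul]
  · -- `U_r`
    intro r hrN' hr hrq ψ
    have hrN : r ∣ N := by
      rcases (Nat.Prime.dvd_mul hr).mp hrN' with h | h
      · exact h
      · exact absurd ((Nat.prime_dvd_prime_iff_eq hr hq).mp (hr.dvd_of_dvd_pow h)) hrq
    obtain ⟨uA, uC⟩ := hU N q hq hqN r hr hrN hrN' R
    have k1 : UB (N * q ^ 2) R hd (UB (N * q ^ 2) R hrN' ψ)
        = UB (N * q ^ 2) R hrN' (UB (N * q ^ 2) R hd ψ) := UB_comm_UB hd hrN' ψ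
    have k2 : UB (N * q ^ 2) R hd (UB (N * q ^ 2) R hd (UB (N * q ^ 2) R hrN' ψ))
        = UB (N * q ^ 2) R hrN' (UB (N * q ^ 2) R hd (UB (N * q ^ 2) R hd ψ)) := by
      rw [k1, UB_comm_UB hd hrN']
    have k13 : resA1 N q R (corC3 N q R (UB (N * q ^ 2) R hrN' ψ))
        = UB (N * q ^ 2) R hrN' (resA1 N q R (corC3 N q R ψ)) := by
      rw [(uC ψ).2.2, (uA (corC3 N q R ψ)).1]
    have k22 : resA2 N q R (corC2 N q R (UB (N * q ^ 2) R hrN' ψ))
        = UB (N * q ^ 2) R hrN' (resA2 N q R (corC2 N q R ψ)) := by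
      rw [(uC ψ).2.1, (uA (corC2 N q R ψ)).2.1]
    have k23 : resA2 N q R (corC3 N q R (UB (N * q ^ 2) R hrN' ψ))
        = UB (N * q ^ 2) R hrN' (resA2 N q R (corC3 N q R ψ)) := by
      rw [(uC ψ).2.2, (uA (corC3 N q R ψ)).2.1]
    have k32 : resA3 N q R (corC2 N q R (UB (N * q ^ 2) R hrN' ψ))
        = UB (N * q ^ 2) R hrN' (resA3 N q R (corC2 N q R ψ)) := by
      rw [(uC ψ).2.1, (uA (corC2 N q R ψ)).2.2]
    constructor
    · rw [eOp_apply, eOp_apply, k2, k13, k22, map_sub, map_add, map_sub, UB_smul]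
    · rw [gOp_apply, gOp_apply, k1, k23, k32, map_add, map_sub, UB_smul, UB_smul]

end Fermat.Agent.S59.NonMin.Geom.H98
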