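import Fermat.Agent.S59.NonMin.Geom.H72_DualAbs
import Fermat.Agent.S59.NonMin.Geom.H94_DualDefs
import Fermat.Agent.S59.NonMin.Geom.H94_RelPar
import Fermat.Agent.S59.NonMin.Geom.H98_CommT
import Fermat.Agent.S59.NonMin.Geom.H98_KerU
import Fermat.Agent.S59.NonMin.Geom.H98_RelSplit
import Fermat.Agent.S59.NonMin.Geom.H13_RelT
import Fermat.Agent.S59.NonMin.Geom.H12_RelU
import Fermat.Agent.S41.H94_Dual
import Fermat.Agent.S41.H20_Bridge
import Fermat.Agent.Betti.H76_Vanish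

/-!
# S59 / NMGEOM, leaf DUAL-k (helper72): the operators on the cuspidal classes

* `TB_cusp`, `UB_cusp` : the Betti Hecke operators preserve cuspidal homomorphisms (any
  coefficient group);
* `TBc`, `UBc`, `A1c..A3c`, `C1c..C3c` : the operators as linear maps on `S41.H94.cuspSub`;
* `alphaPc` (`= alphaB'`), `alphaDc` (`= alphaD`) and their relations with `TBc`, `UBc`;
* `keru_cast` : KERU at a level `M = M₁ r²`;
* `iter_coe` : function iterates versus powers of endomorphisms.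
-/

set_option autoImplicit false
set_option linter.unusedSectionVars false
set_option linter.style.haveILetI false

open CuspForm CongruenceSubgroup IsLocalRing
open scoped MatrixGroups

namespace Fermat.Agent.S59.NonMin.Geom.H72K

open Fermat.Agent.S41 Fermat.Agent.Betti Fermat.Agent.S59 Fermat.Agent.S59.NonMin.Geom
open ModularCurve.Period

/-! ### Cuspidal homomorphisms are stable under the Hecke operators -/

section Cusp

variable {N : ℕ} {A : Type*} [AddCommGroup A]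

theorem cuspidal_stable (N : ℕ) {ι : Type*} (rep : ι → GL (Fin 2) ℝ) (γ : Gamma0 N)
    (hγ : ((γ : SL(2, ℤ)) : Matrix (Fin 2) (Fin 2) ℤ).trace ^ 2 ≤ 4) (n : ℕ) (i : ι)
    (κ : Gamma0 N) (h : rep i * incl N (γ ^ n) = incl N κ * rep i) :
    ((κ : SL(2, ℤ)) : Matrix (Fin 2) (Fin 2) ℤ).trace ^ 2 ≤ 4 := by
  have h1 : incl N κ = rep i * incl N (γ ^ n) * (rep i)⁻¹ := by
    rw [h, mul_inv_cancel_right]
  have h2 : ((incl N κ : GL (Fin 2) ℝ) : Matrix (Fin 2) (Fin 2) ℝ).trace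
      = ((incl N (γ ^ n) : GL (Fin 2) ℝ) : Matrix (Fin 2) (Fin 2) ℝ).trace := by
    rw [h1]
    exact Matrix.trace_units_conj (rep i) _
  rw [incl_apply, incl_apply, trace_mapGL, trace_mapGL] at h2
  have h3 : ((κ : SL(2, ℤ)) : Matrix (Fin 2) (Fin 2) ℤ).trace
      = (((γ ^ n : Gamma0 N) : SL(2, ℤ)) : Matrix (Fin 2) (Fin 2) ℤ).trace := by
    exact_mod_cast h2
  rw [h3]
  exact H94.trG_pow_sq_le γ n hγ

theorem heckeOp_cusp {ι : Type*} [Fintype ι] {rep : ι → GL (Fin 2) ℝ}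
    (H : IsHeckeFamily (incl N) rep) {φ : Additive (Gamma0 N) →+ A}
    (hφ : IsCuspidalHom (Gamma0 N) φ) :
    IsCuspidalHom (Gamma0 N) (H.heckeOp (incl_injective N) φ) := by
  intro γ hγ
  exact H76.heckeOp_vanishes_gen H (incl_injective N)
    {γ : Gamma0 N | ((γ : SL(2, ℤ)) : Matrix (Fin 2) (Fin 2) ℤ).trace ^ 2 ≤ 4}
    (fun γ hγ n _ i κ h => cuspidal_stable N rep γ hγ n i κ h) φ (fun γ hγ => hφ γ hγ) γ hγ

/-- `T_ℓ` preserves cuspidal homomorphisms. -/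
theorem TB_cusp {ℓ : ℕ} (hℓ : ℓ.Prime) (hℓN : ¬ ℓ ∣ N) {φ : Additive (Gamma0 N) →+ A}
    (hφ : IsCuspidalHom (Gamma0 N) φ) : IsCuspidalHom (Gamma0 N) (TB N A hℓ hℓN φ) := by
  have : Fact ℓ.Prime := ⟨hℓ⟩
  exact heckeOp_cusp (isHeckeFamily_T N hℓN) hφ

/-- `U_r` preserves cuspidal homomorphisms. -/
theorem UB_cusp [NeZero N] {r : ℕ} (hr : r ∣ N) {φ : Additive (Gamma0 N) →+ A}
    (hφ : IsCuspidalHom (Gamma0 N) φ) : IsCuspidalHom (Gamma0 N) (UB N A hr φ) := by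
  have : NeZero r := neZero_of_dvd hr
  exact heckeOp_cusp (isHeckeFamily_U N hr) hφ

/-- KERU at a level `M = M₁ r²`. -/
theorem keru_cast (M M₁ r : ℕ) [NeZero M] (hM : M = M₁ * r ^ 2) (hr : r.Prime)
    (hrM : ¬ r ∣ M₁) (hd : r ∣ M) (hA : ∀ a : A, r • a = 0 → a = 0)
    (ψ : Additive (Gamma0 M) →+ A) (h : UB M A hd (UB M A hd ψ) = 0) : UB M A hd ψ = 0 := by
  subst hM
  have hM₁ : 0 < M₁ := by
    rcases Nat.eq_zero_or_pos M₁ with h0 | h0
    · exfalso
      exact NeZero.ne (M₁ * r ^ 2) (by rw [h0, zero_mul])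
    · exact h0
  exact H98.keru hM₁ hr hrM hd hA ψ h

end Cusp

/-! ### The operators on the cuspidal subspace -/

section Ops

/-- the additive group structure of the cuspidal subspace (a shortcut for the instance
search) -/
instance cuspACG (k : Type) [Field k] (M : ℕ) : AddCommGroup (H94.cuspSub k M) :=
  inferInstance

variable (k : Type) [Field k]

/-- `T_ℓ` on the cuspidal classes. -/
noncomputable def TBc (M : ℕ) {ℓ : ℕ} (hℓ : ℓ.Prime) (hℓM : ¬ ℓ ∣ M) :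
    Module.End k (H94.cuspSub k M) where
  toFun x := ⟨TB M k hℓ hℓM x.1, TB_cusp hℓ hℓM x.2⟩
  map_add' x y := Subtype.ext (map_add (TB M k hℓ hℓM) x.1 y.1)
  map_smul' c x := Subtype.ext (H98.TB_smul hℓ hℓM c x.1)

/-- `U_r` on the cuspidal classes. -/
noncomputable def UBc (M : ℕ) [NeZero M] {r : ℕ} (hr : r ∣ M) :
    Module.End k (H94.cuspSub k M) where
  toFun x := ⟨UB M k hr x.1, UB_cusp hr x.2⟩
  map_add' x y := Subtype.ext (map_add (UB M k hr) x.1 y.1)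
  map_smul' c x := Subtype.ext (H98.UB_smul hr c x.1)

variable {k}

@[simp] theorem TBc_coe (M : ℕ) {ℓ : ℕ} (hℓ : ℓ.Prime) (hℓM : ¬ ℓ ∣ M) (x : H94.cuspSub k M) :
    (TBc k M hℓ hℓM x : Additive (Gamma0 M) →+ k) = TB M k hℓ hℓM x.1 := rfl

@[simp] theorem UBc_coe (M : ℕ) [NeZero M] {r : ℕ} (hr : r ∣ M) (x : H94.cuspSub k M) :
    (UBc k M hr x : Additive (Gamma0 M) →+ k) = UB M k hr x.1 := rfl

variable (k)

/-- `A₁` on the cuspidal classes -/
def A1c (N q : ℕ) : H94.cuspSub k N →ₗ[k] H94.cuspSub k (N * q ^ 2) where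
  toFun x := ⟨resA1 N q k x.1, H94.resAlong_cusp (j1 N q) (H94.trG_j1 N q) x.2⟩
  map_add' _ _ := Subtype.ext rfl
  map_smul' _ _ := Subtype.ext rfl

/-- `A₂` on the cuspidal classes -/
def A2c (N q : ℕ) : H94.cuspSub k N →ₗ[k] H94.cuspSub k (N * q ^ 2) where
  toFun x := ⟨resA2 N q k x.1, H94.resAlong_cusp (j2 N q) (H94.trG_j2 N q) x.2⟩
  map_add' _ _ := Subtype.ext rfl
  map_smul' _ _ := Subtype.ext rfl

/-- `A₃` on the cuspidal classes -/
def A3c (N q : ℕ) : H94.cuspSub k N →ₗ[k] H94.cuspSub k (N * q ^ 2) where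
  toFun x := ⟨resA3 N q k x.1, H94.resAlong_cusp (j3 N q) (H94.trG_j3 N q) x.2⟩
  map_add' _ _ := Subtype.ext rfl
  map_smul' _ _ := Subtype.ext rfl

/-- `C₁` on the cuspidal classes -/
noncomputable def C1c (N q : ℕ) : H94.cuspSub k (N * q ^ 2) →ₗ[k] H94.cuspSub k N where
  toFun y := ⟨corC1 N q k y.1, H94.corAlong_cusp (j1 N q) (H94.trG_j1 N q) y.2⟩
  map_add' x y := Subtype.ext (H19.corAlong_add _ x.1 y.1)
  map_smul' c x := Subtype.ext (H19.corAlong_smul _ c x.1)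

/-- `C₂` on the cuspidal classes -/
noncomputable def C2c (N q : ℕ) : H94.cuspSub k (N * q ^ 2) →ₗ[k] H94.cuspSub k N where
  toFun y := ⟨corC2 N q k y.1, H94.corAlong_cusp (j2 N q) (H94.trG_j2 N q) y.2⟩
  map_add' x y := Subtype.ext (H19.corAlong_add _ x.1 y.1)
  map_smul' c x := Subtype.ext (H19.corAlong_smul _ c x.1)

/-- `C₃` on the cuspidal classes -/
noncomputable def C3c (N q : ℕ) : H94.cuspSub k (N * q ^ 2) →ₗ[k] H94.cuspSub k N where
  toFun y := ⟨corC3 N q k y.1, H94.corAlong_cusp (j3 N q) (H94.trG_j3 N q) y.2⟩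
  map_add' x y := Subtype.ext (H19.corAlong_add _ x.1 y.1)
  map_smul' c x := Subtype.ext (H19.corAlong_smul _ c x.1)

/-- `α' = C₁ - T_q C₂ + q C₃` on the cuspidal classes -/
noncomputable def alphaPc (N : ℕ) {q : ℕ} (hq : q.Prime) (hqN : ¬ q ∣ N) :
    H94.cuspSub k (N * q ^ 2) →ₗ[k] H94.cuspSub k N :=
  C1c k N q - (TBc k N hq hqN).comp (C2c k N q) + (q : k) • C3c k N q

/-- `α† = A₁ - A₂ T_q + q A₃` on the cuspidal classes -/
noncomputable def alphaDc (N : ℕ) {q : ℕ} (hq : q.Prime) (hqN : ¬ q ∣ N) :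
    H94.cuspSub k N →ₗ[k] H94.cuspSub k (N * q ^ 2) :=
  A1c k N q - (A2c k N q).comp (TBc k N hq hqN) + (q : k) • A3c k N q

variable {k}

theorem natCast_smul_hom {G : Type*} [AddZeroClass G] (n : ℕ) (φ : G →+ k) :
    (n : k) • φ = n • φ := by
  ext g
  simp [nsmul_eq_mul]

theorem alphaPc_coe (N : ℕ) {q : ℕ} (hq : q.Prime) (hqN : ¬ q ∣ N)
    (y : H94.cuspSub k (N * q ^ 2)) :
    (alphaPc k N hq hqN y : Additive (Gamma0 N) →+ k) = alphaB' N k hq hqN y.1 := by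
  show corC1 N q k y.1 - TB N k hq hqN (corC2 N q k y.1) + (q : k) • corC3 N q k y.1 = _
  unfold alphaB'
  congr 1
  exact natCast_smul_hom q (corC3 N q k y.1)

theorem alphaDc_coe (N : ℕ) {q : ℕ} (hq : q.Prime) (hqN : ¬ q ∣ N)
    (x : H94.cuspSub k N) :
    (alphaDc k N hq hqN x : Additive (Gamma0 (N * q ^ 2)) →+ k) = alphaD N k hq hqN x.1 := by
  show resA1 N q k x.1 - resA2 N q k (TB N k hq hqN x.1) + (q : k) • resA3 N q k x.1 = _
  unfold alphaD
  congr 1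
  exact natCast_smul_hom q (resA3 N q k x.1)

/-- function iterates versus powers -/
theorem iter_coe (M : ℕ) {ℓ : ℕ} (hℓ : ℓ.Prime) (hℓM : ¬ ℓ ∣ M) (a : k) (n : ℕ)
    (x : H94.cuspSub k M) :
    ((((TBc k M hℓ hℓM - a • (1 : Module.End k (H94.cuspSub k M))) ^ n) x :
        H94.cuspSub k M) : Additive (Gamma0 M) →+ k)
      = (fun χ : Additive (Gamma0 M) →+ k => TB M k hℓ hℓM χ - a • χ)^[n] x.1 := by
  induction n generalizing x with
  | zero => rfl
  | succ n ih =>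
    rw [pow_succ, Module.End.mul_apply, ih, Function.iterate_succ_apply]
    rfl

end Ops

end Fermat.Agent.S59.NonMin.Geom.H72K
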