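/-
S59 / NMGEOM, helper77: the one-step commutation of the TRANSFER maps with the Hecke operators
`T_ℓ` (Betti form), at an arbitrary level `N > 0` (the prime `q` may divide `N`):

* `cor1_Tcoh` : `cor1 N q (Tcoh (N q) ℓ ψ) = Tcoh N ℓ (cor1 N q ψ)`,
* `cor2_Tcoh` : `cor2 N q (Tcoh (N q) ℓ ψ) = Tcoh N ℓ (cor2 N q ψ)`   (`ℓ ∤ N q` prime).

Route: `cor_i ∘ cor1_ℓ = cor1_ℓ ∘ cor_i^{aux}` (transitivity of the transfer) and the Mackey formula
`cor_i^{aux} ∘ res2_ℓ = res2_ℓ ∘ cor_i`; the index hypothesis of the Mackey formula follows from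
the multiplicativity of the index (no computation of the index of `Γ₀(N q)` in `Γ₀(N)` when
`q ∣ N`).  The restriction versions are `S41.H19.Tcoh_res1`, `Tcoh_res2`.
-/
import Fermat.Agent.S41.H19_RelDeg
import Fermat.Agent.S41.H77_CorComp
import Fermat.Agent.S41.H94_Adj

set_option autoImplicit false

open scoped MatrixGroups
open CongruenceSubgroup Matrix

namespace Fermat.Agent.S59.NonMin.Geom.H77

open Fermat.Agent.S41 Fermat.Agent.S41.H19

section Index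

variable {P H G : Type*} [Group P] [Group H] [Group G]

/-- the index of the range of a composite -/
theorem index_range_comp (κ : P →* H) (ι : H →* G) (hι : Function.Injective ι) :
    (ι.comp κ).range.index = κ.range.index * ι.range.index := by
  rw [MonoidHom.range_comp]
  exact Subgroup.index_map_of_injective κ.range hι

end Index

section OneStep

variable {N q ℓ : ℕ} {A : Type*} [AddCommGroup A]

lemma not_dvd_mul_of (hq : q.Prime) (hℓ : ℓ.Prime) (hℓN : ¬ ℓ ∣ N) (hℓq : ℓ ≠ q) :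
    ¬ ℓ ∣ N * q := by
  intro h
  rcases (Nat.Prime.dvd_mul hℓ).mp h with h1 | h1
  · exact hℓN h1
  · exact hℓq ((Nat.prime_dvd_prime_iff_eq hℓ hq).mp h1)

theorem inclAux_injective (N q ℓ : ℕ) : Function.Injective (inclAux N q ℓ) :=
  Subgroup.inclusion_injective _

theorem conjAux_injective (N q ℓ : ℕ) (hq : q ≠ 0) : Function.Injective (conjAux N q ℓ) :=
  (conjG_injective (N * ℓ) q hq).comp (Subgroup.inclusion_injective _)

/-- `incl_q ∘ incl_ℓ = incl_ℓ ∘ incl_q^{aux}` -/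
theorem inclG_comp_inclG (N q ℓ : ℕ) :
    (inclG N q).comp (inclG (N * q) ℓ) = (inclG N ℓ).comp (inclAux N q ℓ) :=
  MonoidHom.ext fun _ => rfl

/-- `conj_q ∘ incl_ℓ = incl_ℓ ∘ conj_q^{aux}` -/
theorem conjG_comp_inclG (N q ℓ : ℕ) :
    (conjG N q).comp (inclG (N * q) ℓ) = (inclG N ℓ).comp (conjAux N q ℓ) :=
  MonoidHom.ext fun _ => rfl

/-- the index of `incl_q^{aux}` is the index of `incl_q` -/
theorem index_inclAux (hN : 0 < N) (hq : q.Prime) (hℓ : ℓ.Prime) (hℓN : ¬ ℓ ∣ N) (hℓq : ℓ ≠ q) :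
    (inclAux N q ℓ).range.index = (inclG N q).range.index := by
  have h1 := index_range_comp (inclG (N * q) ℓ) (inclG N q) (inclG_injective N q)
  have h2 := index_range_comp (inclAux N q ℓ) (inclG N ℓ) (inclG_injective N ℓ)
  rw [inclG_comp_inclG, h2, index_inclG hN hℓ hℓN,
    index_inclG (Nat.mul_pos hN hq.pos) hℓ (not_dvd_mul_of hq hℓ hℓN hℓq)] at h1
  have h3 : 0 < ℓ + 1 := Nat.succ_pos _
  rw [mul_comm] at h1
  exact Nat.eq_of_mul_eq_mul_left h3 h1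

/-- the index of `conj_q^{aux}` is the index of `conj_q` -/
theorem index_conjAux (hN : 0 < N) (hq : q.Prime) (hℓ : ℓ.Prime) (hℓN : ¬ ℓ ∣ N) (hℓq : ℓ ≠ q) :
    (conjAux N q ℓ).range.index = (conjG N q).range.index := by
  have h1 := index_range_comp (inclG (N * q) ℓ) (conjG N q) (conjG_injective N q hq.ne_zero)
  have h2 := index_range_comp (conjAux N q ℓ) (inclG N ℓ) (inclG_injective N ℓ)
  rw [conjG_comp_inclG, h2, index_inclG hN hℓ hℓN,
    index_inclG (Nat.mul_pos hN hq.pos) hℓ (not_dvd_mul_of hq hℓ hℓN hℓq)] at h1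
  have h3 : 0 < ℓ + 1 := Nat.succ_pos _
  rw [mul_comm] at h1
  exact Nat.eq_of_mul_eq_mul_left h3 h1

theorem finiteIndex_inclAux (hN : 0 < N) (hq : q.Prime) (hℓ : ℓ.Prime) (hℓN : ¬ ℓ ∣ N)
    (hℓq : ℓ ≠ q) : (inclAux N q ℓ).range.FiniteIndex :=
  ⟨by
    rw [index_inclAux hN hq hℓ hℓN hℓq]
    exact (H94.finiteIndex_range_inclG N q hN.ne' hq.ne_zero).index_ne_zero⟩

theorem finiteIndex_conjAux (hN : 0 < N) (hq : q.Prime) (hℓ : ℓ.Prime) (hℓN : ¬ ℓ ∣ N)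
    (hℓq : ℓ ≠ q) : (conjAux N q ℓ).range.FiniteIndex :=
  ⟨by
    rw [index_conjAux hN hq hℓ hℓN hℓq]
    exact (H94.finiteIndex_range_conjG N q hN.ne' hq.ne_zero).index_ne_zero⟩

/-- **The transfer along the inclusion commutes with `T_ℓ`** (`ℓ ∤ N q`; `q ∣ N` allowed). -/
theorem cor1_Tcoh (hN : 0 < N) (hq : q.Prime) (hℓ : ℓ.Prime) (hℓN : ¬ ℓ ∣ N) (hℓq : ℓ ≠ q)
    (ψ : Additive (Gamma0 (N * q)) →+ A) :
    cor1 N q A (Tcoh (N * q) A ℓ ψ) = Tcoh N A ℓ (cor1 N q A ψ) := by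
  have hℓNq : ¬ ℓ ∣ N * q := not_dvd_mul_of hq hℓ hℓN hℓq
  have hNq : 0 < N * q := Nat.mul_pos hN hq.pos
  have f1 := finiteIndex_inclG hN hℓ hℓN
  have f2 := finiteIndex_inclG hNq hℓ hℓNq
  have f3 := H94.finiteIndex_range_inclG N q hN.ne' hq.ne_zero
  have f4 := finiteIndex_inclAux (N := N) hN hq hℓ hℓN hℓq
  have hℓ' : (ℓ : ℤ) ≠ 0 := by exact_mod_cast hℓ.ne_zero
  unfold Tcoh cor1 res2
  rw [← H77.corAlong_comp (inclG (N * q) ℓ) (inclG N q) (inclG_injective _ _)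
    (inclG_injective _ _), inclG_comp_inclG,
    H77.corAlong_comp (inclAux N q ℓ) (inclG N ℓ) (inclAux_injective _ _ _)
    (inclG_injective _ _)]
  congr 1
  refine (corAlong_mackey (inclG N q) (conjG N ℓ) (inclAux N q ℓ) (conjG (N * q) ℓ)
    (inclG_injective N q) (inclAux_injective N q ℓ) (fun p => rfl) ?_ ?_ ψ).symm
  · intro k h hkh
    have e : conjMat ℓ (mat k) = mat h := congrArg mat hkh
    obtain ⟨c₁, hc₁⟩ := q_dvd_of_mem_gamma0_mul k.2
    have hc₁' : mat k 1 0 = (ℓ : ℤ) * c₁ := hc₁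
    obtain ⟨c₂, hc₂⟩ := mat_dvd h
    have e10 : mat k 1 0 / (ℓ : ℤ) = mat h 1 0 := congrFun (congrFun e 1) 0
    rw [hc₁', Int.mul_ediv_cancel_left _ hℓ', hc₂] at e10
    refine ⟨⟨(k : SL(2, ℤ)), ?_⟩, rfl⟩
    rw [Gamma0_mem, ZMod.intCast_zmod_eq_zero_iff_dvd]
    refine ⟨c₂, ?_⟩
    change mat k 1 0 = _
    rw [hc₁', e10]
    push_cast
    ring
  · rw [← Subgroup.index_eq_card, ← Subgroup.index_eq_card, index_inclAux hN hq hℓ hℓN hℓq]

/-- **The transfer along the conjugation by `diag(q, 1)` commutes with `T_ℓ`** (`ℓ ∤ N q`;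
`q ∣ N` allowed). -/
theorem cor2_Tcoh (hN : 0 < N) (hq : q.Prime) (hℓ : ℓ.Prime) (hℓN : ¬ ℓ ∣ N) (hℓq : ℓ ≠ q)
    (ψ : Additive (Gamma0 (N * q)) →+ A) :
    cor2 N q A (Tcoh (N * q) A ℓ ψ) = Tcoh N A ℓ (cor2 N q A ψ) := by
  have hℓNq : ¬ ℓ ∣ N * q := not_dvd_mul_of hq hℓ hℓN hℓq
  have hNq : 0 < N * q := Nat.mul_pos hN hq.pos
  have f1 := finiteIndex_inclG hN hℓ hℓN
  have f2 := finiteIndex_inclG hNq hℓ hℓNq
  have f3 := H94.finiteIndex_range_conjG N q hN.ne' hq.ne_zero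
  have f4 := finiteIndex_conjAux (N := N) hN hq hℓ hℓN hℓq
  have hℓ' : (ℓ : ℤ) ≠ 0 := by exact_mod_cast hℓ.ne_zero
  have hq' : (q : ℤ) ≠ 0 := by exact_mod_cast hq.ne_zero
  have hcop : IsCoprime (q : ℤ) (ℓ : ℤ) :=
    Nat.isCoprime_iff_coprime.mpr ((Nat.coprime_primes hq hℓ).mpr hℓq.symm)
  unfold Tcoh cor2 cor1 res2
  rw [← H77.corAlong_comp (inclG (N * q) ℓ) (conjG N q) (inclG_injective _ _)
    (conjG_injective _ _ hq.ne_zero), conjG_comp_inclG,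
    H77.corAlong_comp (conjAux N q ℓ) (inclG N ℓ) (conjAux_injective _ _ _ hq.ne_zero)
    (inclG_injective _ _)]
  congr 1
  refine (corAlong_mackey (conjG N q) (conjG N ℓ) (conjAux N q ℓ) (conjG (N * q) ℓ)
    (conjG_injective N q hq.ne_zero) (conjAux_injective N q ℓ hq.ne_zero) ?_ ?_ ?_ ψ).symm
  · intro p
    apply mat_injective
    rw [mat_conjG, mat_conjG, mat_conjG, mat_conjAux, conjMat_comm]
  · intro k h hkh
    have e : conjMat ℓ (mat k) = conjMat q (mat h) := congrArg mat hkh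
    -- `q` divides the upper right entry of `k`
    have e01 : (ℓ : ℤ) * mat k 0 1 = (q : ℤ) * mat h 0 1 := congrFun (congrFun e 0) 1
    have hdvd : (q : ℤ) ∣ mat k 0 1 :=
      hcop.dvd_of_dvd_mul_left ⟨mat h 0 1, e01⟩
    obtain ⟨α, hα⟩ := exists_conjG_eq (N := N * ℓ) hq.ne_zero k hdvd
    refine ⟨⟨(α : SL(2, ℤ)), ?_⟩, ?_⟩
    · have h1 : (α : SL(2, ℤ)) ∈ Gamma0 (N * ℓ * q) := α.2
      have h2 : N * ℓ * q = N * q * ℓ := mul_right_comm _ _ _
      exact (le_of_eq (congrArg (fun M => Gamma0 M) h2)) h1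
    · rw [← hα]
      rfl
  · rw [← Subgroup.index_eq_card, ← Subgroup.index_eq_card, index_conjAux hN hq hℓ hℓN hℓq]

end OneStep

end Fermat.Agent.S59.NonMin.Geom.H77
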