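/-
S59 / NMGEOM, leaf REL-T (helper77): the three degeneracy maps `A_a = resA_a` and the three
transfer maps `C_a = corC_a` between the levels `N` and `N q²` commute with the Hecke operators
`T_ℓ`, `ℓ ∤ N q`.

`stmt_RELT : Stmt_RELT`.  Route: each `j_a` is a composite of two one-step maps and a cast of the
level; one-step restriction: `S41.H19.Tcoh_res1/2`; one-step transfer: `H77.cor1_Tcoh`,
`H77.cor2_Tcoh` (`H77_CorT.lean`); `Tcoh = TB` by `S41.H20.Tcoh_eq_TB`.
-/
import Fermat.Agent.S59.NonMin.Geom.Defs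
import Fermat.Agent.S59.NonMin.Geom.H77_CorT
import Fermat.Agent.S41.H20_Bridge

set_option autoImplicit false

open scoped MatrixGroups
open CongruenceSubgroup Matrix

namespace Fermat.Agent.S59.NonMin.Geom.H77

open Fermat.Agent.S41 Fermat.Agent.S41.H19 Fermat.Agent.Betti Fermat.Agent.S59.NonMin.Geom

section Cast

variable {A : Type*} [AddCommGroup A]

/-- the identification of `Γ₀(M)` with `Γ₀(M')` for `M = M'` -/
def castLevel {M M' : ℕ} (h : M = M') : Gamma0 M →* Gamma0 M' :=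
  Subgroup.inclusion (le_of_eq (congrArg (fun M => Gamma0 M) h))

theorem castG_eq (N q : ℕ) : castG N q = castLevel (show N * q ^ 2 = N * q * q by ring) := rfl

theorem castLevel_injective {M M' : ℕ} (h : M = M') : Function.Injective (castLevel h) :=
  Subgroup.inclusion_injective _

theorem castLevel_surjective {M M' : ℕ} (h : M = M') : Function.Surjective (castLevel h) := by
  subst h
  intro x
  exact ⟨x, rfl⟩

theorem castLevel_range {M M' : ℕ} (h : M = M') : (castLevel h).range = ⊤ :=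
  MonoidHom.range_eq_top.2 (castLevel_surjective h)

theorem finiteIndex_castLevel {M M' : ℕ} (h : M = M') : (castLevel h).range.FiniteIndex := by
  rw [castLevel_range]
  infer_instance

theorem resAlong_castLevel_rfl {M : ℕ} (φ : Additive (Gamma0 M) →+ A) :
    resAlong A (castLevel (rfl : M = M)) φ = φ :=
  AddMonoidHom.ext fun _ => rfl

theorem corAlong_castLevel_rfl {M : ℕ} (ψ : Additive (Gamma0 M) →+ A) :
    corAlong A (castLevel (rfl : M = M)) ψ = ψ := by
  have hf := finiteIndex_castLevel (rfl : M = M)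
  have h := corAlong_resAlong (A := A) (castLevel (rfl : M = M)) (castLevel_injective rfl) ψ
  rw [resAlong_castLevel_rfl, castLevel_range, Subgroup.index_top, one_smul] at h
  exact h

/-- `T_ℓ` commutes with the restriction along a cast of the level -/
theorem Tcoh_resCast {M M' : ℕ} (h : M = M') (ℓ : ℕ) (φ : Additive (Gamma0 M') →+ A) :
    Tcoh M A ℓ (resAlong A (castLevel h) φ) = resAlong A (castLevel h) (Tcoh M' A ℓ φ) := by
  subst h
  rw [resAlong_castLevel_rfl, resAlong_castLevel_rfl]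

/-- `T_ℓ` commutes with the transfer along a cast of the level -/
theorem Tcoh_corCast {M M' : ℕ} (h : M = M') (ℓ : ℕ) (ψ : Additive (Gamma0 M) →+ A) :
    corAlong A (castLevel h) (Tcoh M A ℓ ψ) = Tcoh M' A ℓ (corAlong A (castLevel h) ψ) := by
  subst h
  rw [corAlong_castLevel_rfl, corAlong_castLevel_rfl]

end Cast

section Comp3

variable {P H K G : Type*} [Group P] [Group H] [Group K] [Group G]
  {A : Type*} [AddCommGroup A]

theorem resAlong_comp3 (c : P →* H) (g : H →* K) (f : K →* G) (φ : Additive G →+ A) :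
    resAlong A (f.comp (g.comp c)) φ = resAlong A c (resAlong A g (resAlong A f φ)) :=
  AddMonoidHom.ext fun _ => rfl

theorem corAlong_comp3 (c : P →* H) (g : H →* K) (f : K →* G)
    (hc : Function.Injective c) (hg : Function.Injective g) (hf : Function.Injective f)
    [hfc : c.range.FiniteIndex] [hfg : g.range.FiniteIndex] [hff : f.range.FiniteIndex]
    (ψ : Additive P →+ A) :
    corAlong A (f.comp (g.comp c)) ψ = corAlong A f (corAlong A g (corAlong A c ψ)) := by
  have hgc : (g.comp c).range.FiniteIndex :=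
    ⟨by
      rw [index_range_comp c g hg]
      exact Nat.mul_ne_zero hfc.index_ne_zero hfg.index_ne_zero⟩
  rw [Fermat.Agent.S41.H77.corAlong_comp (g.comp c) f (hg.comp hc) hf,
    Fermat.Agent.S41.H77.corAlong_comp c g hc hg]

end Comp3

section Main

variable {N q ℓ : ℕ} {A : Type*} [AddCommGroup A]

/-- the two-step restriction `res_b (N q, q) ∘ res_a (N, q)` followed by the cast commutes with
`T_ℓ` -/
theorem Tcoh_res_two
    (f : Gamma0 (N * q) →* Gamma0 N) (g : Gamma0 (N * q * q) →* Gamma0 (N * q))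
    (hf : ∀ φ : Additive (Gamma0 N) →+ A,
      Tcoh (N * q) A ℓ (resAlong A f φ) = resAlong A f (Tcoh N A ℓ φ))
    (hg : ∀ φ : Additive (Gamma0 (N * q)) →+ A,
      Tcoh (N * q * q) A ℓ (resAlong A g φ) = resAlong A g (Tcoh (N * q) A ℓ φ))
    (φ : Additive (Gamma0 N) →+ A) :
    Tcoh (N * q ^ 2) A ℓ (resAlong A (f.comp (g.comp (castG N q))) φ) =
      resAlong A (f.comp (g.comp (castG N q))) (Tcoh N A ℓ φ) := by
  rw [resAlong_comp3, resAlong_comp3, castG_eq, Tcoh_resCast, hg, hf]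

/-- the two-step transfer commutes with `T_ℓ` -/
theorem Tcoh_cor_two
    (f : Gamma0 (N * q) →* Gamma0 N) (g : Gamma0 (N * q * q) →* Gamma0 (N * q))
    (hfi : Function.Injective f) (hgi : Function.Injective g)
    [hff : f.range.FiniteIndex] [hfg : g.range.FiniteIndex]
    (hf : ∀ ψ : Additive (Gamma0 (N * q)) →+ A,
      corAlong A f (Tcoh (N * q) A ℓ ψ) = Tcoh N A ℓ (corAlong A f ψ))
    (hg : ∀ ψ : Additive (Gamma0 (N * q * q)) →+ A,
      corAlong A g (Tcoh (N * q * q) A ℓ ψ) = Tcoh (N * q) A ℓ (corAlong A g ψ))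
    (ψ : Additive (Gamma0 (N * q ^ 2)) →+ A) :
    corAlong A (f.comp (g.comp (castG N q))) (Tcoh (N * q ^ 2) A ℓ ψ) =
      Tcoh N A ℓ (corAlong A (f.comp (g.comp (castG N q))) ψ) := by
  have hfc : (castG N q).range.FiniteIndex := by
    rw [castG_eq]
    exact finiteIndex_castLevel _
  have hci : Function.Injective (castG N q) := by
    rw [castG_eq]
    exact castLevel_injective _
  rw [corAlong_comp3 (castG N q) g f hci hgi hfi, corAlong_comp3 (castG N q) g f hci hgi hfi]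
  rw [castG_eq, Tcoh_corCast, hg, hf]

/-- **REL-T.** -/
theorem stmt_RELT : Stmt_RELT := by
  intro N q _ hq hqN ℓ hℓ hℓN hℓN' A _
  have hN : 0 < N := Nat.pos_of_ne_zero (NeZero.ne N)
  have hNq : 0 < N * q := Nat.mul_pos hN hq.pos
  have hNq2 : 0 < N * q ^ 2 := Nat.mul_pos hN (pow_pos hq.pos 2)
  have hℓq : ℓ ≠ q := by
    rintro rfl
    exact hℓN' (Dvd.dvd.mul_left (dvd_pow_self _ two_ne_zero) _)
  have hℓNq : ¬ ℓ ∣ N * q := not_dvd_mul_of hq hℓ hℓN hℓq
  have eT : ∀ x, TB N A hℓ hℓN x = Tcoh N A ℓ x :=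
    fun x => (Fermat.Agent.S41.H20.Tcoh_eq_TB hN hℓ hℓN x).symm
  have eT' : ∀ x, TB (N * q ^ 2) A hℓ hℓN' x = Tcoh (N * q ^ 2) A ℓ x :=
    fun x => (Fermat.Agent.S41.H20.Tcoh_eq_TB hNq2 hℓ hℓN' x).symm
  -- one-step statements
  have r1 : ∀ φ : Additive (Gamma0 N) →+ A,
      Tcoh (N * q) A ℓ (resAlong A (inclG N q) φ) = resAlong A (inclG N q) (Tcoh N A ℓ φ) :=
    fun φ => Tcoh_res1 hN hq hℓ hℓN hℓq φ
  have r2 : ∀ φ : Additive (Gamma0 N) →+ A,
      Tcoh (N * q) A ℓ (resAlong A (conjG N q) φ) = resAlong A (conjG N q) (Tcoh N A ℓ φ) :=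
    fun φ => Tcoh_res2 hN hq hℓ hℓN hℓq φ
  have r1' : ∀ φ : Additive (Gamma0 (N * q)) →+ A,
      Tcoh (N * q * q) A ℓ (resAlong A (inclG (N * q) q) φ) =
        resAlong A (inclG (N * q) q) (Tcoh (N * q) A ℓ φ) :=
    fun φ => Tcoh_res1 hNq hq hℓ hℓNq hℓq φ
  have r2' : ∀ φ : Additive (Gamma0 (N * q)) →+ A,
      Tcoh (N * q * q) A ℓ (resAlong A (conjG (N * q) q) φ) =
        resAlong A (conjG (N * q) q) (Tcoh (N * q) A ℓ φ) :=
    fun φ => Tcoh_res2 hNq hq hℓ hℓNq hℓq φ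
  have k1 : ∀ ψ : Additive (Gamma0 (N * q)) →+ A,
      corAlong A (inclG N q) (Tcoh (N * q) A ℓ ψ) = Tcoh N A ℓ (corAlong A (inclG N q) ψ) :=
    fun ψ => cor1_Tcoh hN hq hℓ hℓN hℓq ψ
  have k2 : ∀ ψ : Additive (Gamma0 (N * q)) →+ A,
      corAlong A (conjG N q) (Tcoh (N * q) A ℓ ψ) = Tcoh N A ℓ (corAlong A (conjG N q) ψ) :=
    fun ψ => cor2_Tcoh hN hq hℓ hℓN hℓq ψ
  have k1' : ∀ ψ : Additive (Gamma0 (N * q * q)) →+ A,
      corAlong A (inclG (N * q) q) (Tcoh (N * q * q) A ℓ ψ) =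
        Tcoh (N * q) A ℓ (corAlong A (inclG (N * q) q) ψ) :=
    fun ψ => cor1_Tcoh hNq hq hℓ hℓNq hℓq ψ
  have k2' : ∀ ψ : Additive (Gamma0 (N * q * q)) →+ A,
      corAlong A (conjG (N * q) q) (Tcoh (N * q * q) A ℓ ψ) =
        Tcoh (N * q) A ℓ (corAlong A (conjG (N * q) q) ψ) :=
    fun ψ => cor2_Tcoh hNq hq hℓ hℓNq hℓq ψ
  have fi1 := H94.finiteIndex_range_inclG N q hN.ne' hq.ne_zero
  have fi2 := H94.finiteIndex_range_conjG N q hN.ne' hq.ne_zero
  have fi1' := H94.finiteIndex_range_inclG (N * q) q hNq.ne' hq.ne_zero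
  have fi2' := H94.finiteIndex_range_conjG (N * q) q hNq.ne' hq.ne_zero
  refine ⟨fun φ => ⟨?_, ?_, ?_⟩, fun ψ => ⟨?_, ?_, ?_⟩⟩
  · rw [eT', eT]
    exact Tcoh_res_two (inclG N q) (inclG (N * q) q) r1 r1' φ
  · rw [eT', eT]
    exact Tcoh_res_two (conjG N q) (inclG (N * q) q) r2 r1' φ
  · rw [eT', eT]
    exact Tcoh_res_two (conjG N q) (conjG (N * q) q) r2 r2' φ
  · rw [eT', eT]
    exact Tcoh_cor_two (inclG N q) (inclG (N * q) q)
      (inclG_injective _ _) (inclG_injective _ _) k1 k1' ψ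
  · rw [eT', eT]
    exact Tcoh_cor_two (conjG N q) (inclG (N * q) q)
      (conjG_injective _ _ hq.ne_zero) (inclG_injective _ _) k2 k1' ψ
  · rw [eT', eT]
    exact Tcoh_cor_two (conjG N q) (conjG (N * q) q)
      (conjG_injective _ _ hq.ne_zero) (conjG_injective _ _ hq.ne_zero) k2 k2' ψ

end Main

end Fermat.Agent.S59.NonMin.Geom.H77
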