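import Fermat.Agent.S59.NonMin.Geom.H78_Ihara3Defs
import Fermat.Agent.S41.H37_IharaOrbit

/-!
# S59 / NMGEOM, leaf IHARA3 (helper78): the orbit sum over a field of characteristic `p`

`stmt_IhCk : Stmt_IhCk` — port of `S41.H37.stmt_IhC` (helper37) from `ZMod p` to a field `k` of
characteristic `p`: for `F : ℚ → k` invariant under `r ↦ q² r` and under translations by `ℤ[1/q]`,
an eigenfunction of `TT ℓ` with eigenvalue `a`, and an auxiliary prime `ℓ`: `(a - 2) F(r) = 0`.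
This file contains no `sorry`.
-/

set_option autoImplicit false

open Finset
open scoped MatrixGroups
open CongruenceSubgroup Matrix

namespace Fermat.Agent.S59.NonMin.Geom.H78

open Fermat.Agent.S41 Fermat.Agent.S41.H19 Fermat.Agent.S41.Ihara Fermat.Agent.S41.H37

/-- The shift lemma: modulo `ℤ[1/q]`, the point `r + s/ℓ` (`s ∈ ℤ[1/q]`) only depends on the class of
`s` in `ℤ[1/q]/ℓ = ZMod ℓ`. -/
theorem shiftk {k : Type*} {N q ℓ : ℕ} (hq : q.Prime) (_hqN : ¬ q ∣ N) (hℓ : ℓ.Prime) (hℓN : ¬ ℓ ∣ N)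
    (F : ℚ → k) (hper : ∀ r t, InX N r → InZq q t → F (r + t) = F r)
    (r : ℚ) (hr : InX N r) (n : ℕ) (z : ℤ) (i : ZMod ℓ)
    (hz : (z : ZMod ℓ) = i * (q : ZMod ℓ) ^ n) :
    F (r + ((z : ℚ) / (q : ℚ) ^ n) / ℓ) = F (r + (i.val : ℚ) / ℓ) := by
  have : NeZero ℓ := ⟨hℓ.ne_zero⟩
  have hdvd : (ℓ : ℤ) ∣ z - (i.val : ℤ) * (q : ℤ) ^ n := by
    rw [← ZMod.intCast_zmod_eq_zero_iff_dvd]
    push_cast
    rw [hz, ZMod.natCast_zmod_val]
    ring
  obtain ⟨y, hy⟩ := hdvd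
  have hq0 : (q : ℚ) ≠ 0 := by exact_mod_cast hq.ne_zero
  have hℓ0 : (ℓ : ℚ) ≠ 0 := by exact_mod_cast hℓ.ne_zero
  have hqn : ((q : ℚ) ^ n) ≠ 0 := pow_ne_zero _ hq0
  have hzq : (z : ℚ) = (i.val : ℚ) * (q : ℚ) ^ n + (ℓ : ℚ) * y := by
    have : ((z - (i.val : ℤ) * (q : ℤ) ^ n : ℤ) : ℚ) = (((ℓ : ℤ) * y : ℤ) : ℚ) := by rw [hy]
    push_cast at this
    linarith
  have key : r + ((z : ℚ) / (q : ℚ) ^ n) / ℓ = (r + (i.val : ℚ) / ℓ) + (y : ℚ) / (q : ℚ) ^ n := by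
    rw [hzq]; field_simp; ring
  rw [key]
  refine hper _ _ ?_ (inZq_of_eq_div hq.ne_zero y n)
  refine inX_add hr ?_
  rw [div_eq_mul_inv]
  exact inX_mul (inX_natCast N _) (inX_inv_natCast ((Nat.Prime.coprime_iff_not_dvd hℓ).2 hℓN))

/-- In characteristic `p`, the sum over a finite commutative group of a function invariant under
multiplication by an element whose order is divisible by `p` vanishes. -/
theorem sum_eq_zero_of_mul_invariantk {k : Type*} [Field k] {G : Type*} [CommGroup G]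
    [Fintype G] {p : ℕ} [CharP k p]
    (v : G) (hv : p ∣ orderOf v) (f : G → k) (hf : ∀ g, f (v * g) = f g) :
    ∑ g, f g = 0 := by
  classical
  set H : Subgroup G := Subgroup.zpowers v with hH
  have hpow : ∀ n : ℕ, ∀ g, f (v ^ n * g) = f g := by
    intro n
    induction n with
    | zero => intro g; simp
    | succ n ih =>
      intro g
      rw [pow_succ, mul_assoc, ih, hf]
  have hinv : ∀ h ∈ H, ∀ g, f (h * g) = f g := by
    intro h hh g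
    obtain ⟨n, rfl⟩ := (Subgroup.mem_zpowers_iff (g := v)).1 hh
    have hfin : IsOfFinOrder v := isOfFinOrder_of_finite v
    obtain ⟨k, hk⟩ : ∃ k : ℕ, v ^ n = v ^ k := by
      obtain ⟨k, hk⟩ := (hfin.mem_powers_iff_mem_zpowers (y := v ^ n)).2 ⟨n, rfl⟩
      exact ⟨k, hk.symm⟩
    rw [hk]
    exact hpow k g
  have hconst : ∀ g g' : G, (g : G ⧸ H) = (g' : G ⧸ H) → f g = f g' := by
    intro g g' h
    have h1 : g⁻¹ * g' ∈ H := QuotientGroup.eq.1 h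
    have h2 := hinv _ h1 g
    rw [← h2]
    congr 1
    rw [mul_comm g⁻¹ g', mul_assoc, inv_mul_cancel, mul_one]
  let e := Subgroup.groupEquivQuotientProdSubgroup (s := H)
  have hmk : ∀ x : (G ⧸ H) × H, ((e.symm x : G) : G ⧸ H) = x.1 := by
    intro x
    have : (e (e.symm x)).1 = ((e.symm x : G) : G ⧸ H) := rfl
    rw [← this, Equiv.apply_symm_apply]
  have hcard : (Fintype.card H : k) = 0 := by
    rw [Fintype.card_zpowers]
    exact (CharP.cast_eq_zero_iff k p _).2 hv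
  calc ∑ g, f g = ∑ x : (G ⧸ H) × H, f (e.symm x) := (Equiv.sum_comp e.symm f).symm
    _ = ∑ x : (G ⧸ H) × H, f (Quotient.out x.1) := by
        refine Finset.sum_congr rfl (fun x _ => hconst _ _ ?_)
        rw [hmk]
        exact (QuotientGroup.out_eq' x.1).symm
    _ = ∑ c : G ⧸ H, ∑ _h : H, f (Quotient.out c) := by
        rw [Fintype.sum_prod_type]
    _ = 0 := by
        refine Finset.sum_eq_zero (fun c _ => ?_)
        rw [Finset.sum_const, Finset.card_univ, nsmul_eq_mul, hcard, zero_mul]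

/-- Iterating the `q²`-invariance. -/
theorem inv_powk {k : Type*} {N q : ℕ} (hqN : q.Coprime N) (F : ℚ → k)
    (hq2 : ∀ r, InX N r → F ((q : ℚ) ^ 2 * r) = F r) (k : ℕ) :
    ∀ r, InX N r → F ((q : ℚ) ^ (2 * k) * r) = F r := by
  induction k with
  | zero => intro r _; simp
  | succ k ih =>
    intro r hr
    have h1 : (q : ℚ) ^ (2 * (k + 1)) * r = (q : ℚ) ^ 2 * ((q : ℚ) ^ (2 * k) * r) := by ring
    rw [h1, hq2 _ ?_, ih r hr]
    refine inX_mul ?_ hr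
    have := inX_natCast N (q ^ (2 * k))
    simpa using this

/-- **Leaf C** (Step 4 of the Kummer–Hecke proof of Ihara's lemma): the orbit sum, without the
hypothesis `q ≠ p`. -/
theorem ihCk_gen (k : Type) [Field k] (p : ℕ) [Fact p.Prime] [CharP k p] (N q : ℕ)
    (_hN : 2 ≤ N) (hq : q.Prime) (hqN : ¬ q ∣ N) (F : ℚ → k)
    (hq2 : ∀ r, InX N r → F ((q : ℚ) ^ 2 * r) = F r)
    (hper : ∀ r t, InX N r → InZq q t → F (r + t) = F r)
    (ℓ : ℕ) (a : k) (hℓ : ℓ.Prime) (hℓNq : ¬ ℓ ∣ N * q)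
    (heig : ∀ r, InX N r → TT ℓ F r = a * F r)
    (r : ℚ) (m j : ℕ) (hr : InX N r) (_hm : 0 < m) (hmr : InZq q ((m : ℚ) * r))
    (_hmq : m.Coprime q) (hqk : q ^ (2 * j) % m = 1 % m) (hℓm : ℓ % m = 1 % m)
    (hord : p ∣ orderOf ((q : ZMod ℓ) ^ (2 * j))) :
    (a - 2) * F r = 0 := by
  have : Fact ℓ.Prime := ⟨hℓ⟩
  have : NeZero ℓ := ⟨hℓ.ne_zero⟩
  have hℓN : ¬ ℓ ∣ N := fun h => hℓNq (Dvd.dvd.mul_right h q)
  have hℓq : ¬ ℓ ∣ q := fun h => hℓNq (Dvd.dvd.mul_left h N)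
  have hqNc : q.Coprime N := (Nat.Prime.coprime_iff_not_dvd hq).2 hqN
  have hℓNc : ℓ.Coprime N := (Nat.Prime.coprime_iff_not_dvd hℓ).2 hℓN
  have hq0 : (q : ℚ) ≠ 0 := by exact_mod_cast hq.ne_zero
  have hℓ0 : (ℓ : ℚ) ≠ 0 := by exact_mod_cast hℓ.ne_zero
  have hqℓ : (q : ZMod ℓ) ≠ 0 := by
    intro h
    exact hℓq ((ZMod.natCast_eq_zero_iff q ℓ).1 h)
  -- `(ℓ - 1) r ∈ ℤ[1/q]`
  obtain ⟨c, hc⟩ : ∃ c : ℤ, (ℓ : ℤ) - 1 = (m : ℤ) * c := by
    have : (1 : ℕ) ≡ ℓ [MOD m] := hℓm.symm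
    exact (Nat.modEq_iff_dvd.1 this)
  obtain ⟨c', hc'⟩ : ∃ c' : ℤ, ((q ^ (2 * j) : ℕ) : ℤ) - 1 = (m : ℤ) * c' := by
    have : (1 : ℕ) ≡ q ^ (2 * j) [MOD m] := hqk.symm
    exact (Nat.modEq_iff_dvd.1 this)
  have ht : InZq q (((ℓ : ℚ) - 1) * r) := by
    have h1 : ((ℓ : ℚ) - 1) * r = (c : ℚ) * ((m : ℚ) * r) := by
      have : ((ℓ : ℚ) - 1) = (m : ℚ) * c := by exact_mod_cast hc
      rw [this]; ring
    rw [h1]
    exact inZq_intCast_mul c hmr
  have ht' : InZq q ((((q : ℚ) ^ (2 * j)) - 1) * r) := by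
    have h1 : (((q : ℚ) ^ (2 * j)) - 1) * r = (c' : ℚ) * ((m : ℚ) * r) := by
      have : (((q : ℚ) ^ (2 * j)) - 1) = (m : ℚ) * c' := by exact_mod_cast hc'
      rw [this]; ring
    rw [h1]
    exact inZq_intCast_mul c' hmr
  -- the term `F (ℓ r)`
  have hℓr : F ((ℓ : ℚ) * r) = F r := by
    have : (ℓ : ℚ) * r = r + ((ℓ : ℚ) - 1) * r := by ring
    rw [this]
    exact hper r _ hr ht
  -- the function on `ZMod ℓ`
  set g : ZMod ℓ → k := fun i => F (r + (i.val : ℚ) / ℓ) with hg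
  have hg0 : g 0 = F r := by
    simp [hg]
  -- the terms `F ((r + j)/ℓ)`
  obtain ⟨n, z, hz⟩ := inZq_exists hq.ne_zero ht
  have hqn : ((q : ℚ) ^ n) ≠ 0 := pow_ne_zero _ hq0
  set τ : ZMod ℓ := (z : ZMod ℓ) * ((q : ZMod ℓ) ^ n)⁻¹ with hτ
  have hterm : ∀ j : ℕ, F ((r + (j : ℚ)) / ℓ) = g ((j : ZMod ℓ) - τ) := by
    intro j
    have h1 : (r + (j : ℚ)) / ℓ
        = r + (((j * (q : ℤ) ^ n - z : ℤ) : ℚ) / (q : ℚ) ^ n) / ℓ := by
      have h2 : r = (r + (j : ℚ)) / ℓ + (((ℓ : ℚ) - 1) * r - j) / ℓ := by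
        field_simp; ring
      push_cast
      rw [hz] at h2
      have h3 : ((j : ℚ) * (q : ℚ) ^ n - z) / (q : ℚ) ^ n = j - (z : ℚ) / (q : ℚ) ^ n := by
        field_simp
      rw [h3]
      linear_combination (-1 : ℚ) * h2
    rw [h1]
    refine shiftk hq hqN hℓ hℓN F hper r hr n _ _ ?_
    push_cast
    rw [hτ, sub_mul, mul_assoc, inv_mul_cancel₀ (pow_ne_zero _ hqℓ), mul_one]
  have hsum : ∑ j ∈ Finset.range ℓ, F ((r + (j : ℚ)) / ℓ) = ∑ i : ZMod ℓ, g i := by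
    rw [Finset.sum_congr rfl (fun j _ => hterm j)]
    rw [Fermat.Agent.S41.H37.sum_range_zmod (fun i => g (i - τ))]
    exact Equiv.sum_comp (Equiv.subRight τ) g
  -- invariance of `g` under multiplication by `v = q^(2k)`
  have hginv : ∀ i : ZMod ℓ, g ((q : ZMod ℓ) ^ (2 * j) * i) = g i := by
    intro i
    obtain ⟨n', z', hz'⟩ := inZq_exists hq.ne_zero ht'
    have hqn' : ((q : ℚ) ^ n') ≠ 0 := pow_ne_zero _ hq0
    have hri : InX N (r + (i.val : ℚ) / ℓ) := by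
      refine inX_add hr ?_
      rw [div_eq_mul_inv]
      exact inX_mul (inX_natCast N _) (inX_inv_natCast hℓNc)
    have h1 : g i = F ((q : ℚ) ^ (2 * j) * (r + (i.val : ℚ) / ℓ)) :=
      (inv_powk hqNc F hq2 j _ hri).symm
    have h2 : (q : ℚ) ^ (2 * j) * (r + (i.val : ℚ) / ℓ)
        = r + ((((ℓ : ℤ) * z' + (q : ℤ) ^ (2 * j) * (q : ℤ) ^ n' * (i.val : ℤ) : ℤ) : ℚ)
            / (q : ℚ) ^ n') / ℓ := by
      have h3 : (q : ℚ) ^ (2 * j) * r = r + (z' : ℚ) / (q : ℚ) ^ n' := by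
        rw [← hz']; ring
      push_cast
      rw [mul_add, h3]
      field_simp
      ring
    rw [h1, h2]
    symm
    refine shiftk hq hqN hℓ hℓN F hper r hr n' _ _ ?_
    push_cast
    rw [ZMod.natCast_self, zero_mul, zero_add, ZMod.natCast_zmod_val]
    ring
  have hunits : ∑ u : (ZMod ℓ)ˣ, g (u : ZMod ℓ) = 0 := by
    set v : (ZMod ℓ)ˣ := Units.mk0 ((q : ZMod ℓ) ^ (2 * j)) (pow_ne_zero _ hqℓ) with hv
    have hov : p ∣ orderOf v := by
      have : orderOf (v : ZMod ℓ) = orderOf v := orderOf_units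
      rw [← this]
      exact hord
    refine sum_eq_zero_of_mul_invariantk (p := p) v hov (fun u => g (u : ZMod ℓ)) ?_
    intro u
    have : ((v * u : (ZMod ℓ)ˣ) : ZMod ℓ) = (q : ZMod ℓ) ^ (2 * j) * (u : ZMod ℓ) := by
      simp [hv]
    show g ((v * u : (ZMod ℓ)ˣ) : ZMod ℓ) = g (u : ZMod ℓ)
    rw [this]
    exact hginv _
  have hTT := heig r hr
  unfold TT at hTT
  rw [hsum, Fermat.Agent.S41.H37.sum_zmod_eq, hunits, add_zero, hg0, hℓr] at hTT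
  have : (a - 2) * F r = a * F r - (F r + F r) := by ring
  rw [this, ← hTT, sub_self]

/-- **Leaf C** (Step 4 of the Kummer–Hecke proof of Ihara's lemma): the orbit sum. -/
theorem stmt_IhCk : Stmt_IhCk := by
  intro k _ p _ _ N q hN hq hqN _hqp F hq2 hper ℓ a hℓ hℓNq _hℓp heig r m j hr hm hmr hmq hqk hℓm
    hord
  exact ihCk_gen k p N q hN hq hqN F hq2 hper ℓ a hℓ hℓNq heig r m j hr hm hmr hmq hqk hℓm hord

end Fermat.Agent.S59.NonMin.Geom.H78
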