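import Fermat.Agent.S59.NonMin.Geom.H78_Ihara3Defs
import Fermat.Agent.S41.H19_IharaFinal

/-!
# S59 / NMGEOM, leaf IHARA3 (helper78): period functions over a field `k`, part 1

`x : Γ₀(N) → k` a cuspidal hom, `F` a period function of `x` on `X_N` (`IsPer x F`:
`F(g r) = F(r) + x(g)`), `G(r) = c₁ F(r) + c₂ F(q r) + c₃ F(q (q r))`.

* `gfn_inv` : `G` is `Γ₀(N q²)`-invariant if `c₁ x∘j₁ + c₂ x∘j₂ + c₃ x∘j₃ = 0`;
* `gfn_eig` : `G` is an eigenfunction of `TT ℓ` if `F` is;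
* `gfn_eq_zero` : `G = 0` on `X_N` (from `Stmt_ORB3`);
* `per_inv_q` : `F(r + 1/q) = F(r)` if `G = 0`, `(c₁, c₂, c₃) ≠ 0`;
* `per_q2` : `F(q² r) = F(r)` (explicit matrices);
* `per_Zq` : `F(r + t) = F(r)` for `t ∈ ℤ[1/q]`.
This file contains no `sorry`.
-/

set_option autoImplicit false

open scoped MatrixGroups
open CongruenceSubgroup Matrix

namespace Fermat.Agent.S59.NonMin.Geom.H78

open Fermat.Agent.S41 Fermat.Agent.S41.H19 Fermat.Agent.S41.Ihara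

section Per

variable {k : Type*} [Field k] {N : ℕ}

/-- `F` is a period function of `x` on `X_N`. -/
def IsPer (x : Additive (Gamma0 N) →+ k) (F : ℚ → k) : Prop :=
  ∀ (g : Gamma0 N) (r : ℚ), InX N r → F (mob (mat g) r) = F r + x (Additive.ofMul g)

theorem IsPer.add_int {x : Additive (Gamma0 N) →+ k} (hx : IsCuspidalHom (Gamma0 N) x)
    {F : ℚ → k} (hF : IsPer x F) {r : ℚ} (hr : InX N r) (n : ℤ) : F (r + (n : ℚ)) = F r := by
  have h := hF (uMat N n) r hr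
  rw [mob_uMat, hx (uMat N n) (trace_uMat N n), add_zero] at h
  exact h

theorem IsPer.add_const {x : Additive (Gamma0 N) →+ k} {F : ℚ → k} (hF : IsPer x F) (κ : k) :
    IsPer x (fun s => F s + κ) := by
  intro g r hr
  show F (mob (mat g) r) + κ = F r + κ + x (Additive.ofMul g)
  rw [hF g r hr]
  ring

theorem isPer_Pfn (hN : 2 ≤ N) (x : Additive (Gamma0 N) →+ k)
    (hx : IsCuspidalHom (Gamma0 N) x) : IsPer x (Pfn x) :=
  fun g _ hr => Pfn_mob hN x hx g hr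

end Per

section TTk

variable {k : Type*} [Field k]

theorem TT_add_const_k (ℓ : ℕ) (f : ℚ → k) (κ : k) (r : ℚ) :
    TT ℓ (fun s => f s + κ) r = TT ℓ f r + ((ℓ : k) + 1) * κ := by
  rw [TT_add ℓ f (fun _ => κ) r, TT_const, nsmul_eq_mul]
  push_cast
  rfl

theorem TT_mul_left (ℓ : ℕ) (c : k) (f : ℚ → k) (r : ℚ) :
    TT ℓ (fun s => c * f s) r = c * TT ℓ f r := by
  simp only [TT, Finset.mul_sum, mul_add]

/-- Correcting an eigenfunction up to a constant into an exact eigenfunction. -/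
theorem exists_const_eig_k (ℓ : ℕ) (a c : k) (ha : a ≠ (ℓ : k) + 1) :
    ∃ κ : k, ∀ (f : ℚ → k) (r : ℚ), TT ℓ f r = a * f r + c →
      TT ℓ (fun s => f s + κ) r = a * (f r + κ) := by
  have hne : a - ((ℓ : k) + 1) ≠ 0 := sub_ne_zero.mpr ha
  refine ⟨c / (a - ((ℓ : k) + 1)), fun f r h => ?_⟩
  rw [TT_add_const_k, h]
  field_simp
  ring

end TTk

section Conj

/-- `q · (M r) = conj(M) (q r)`. -/
theorem mul_mob_conj {q : ℕ} (M : Matrix (Fin 2) (Fin 2) ℤ) (hdvd : (q : ℤ) ∣ M 1 0) (r : ℚ)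
    (h1 : (M 1 0 : ℚ) * r + (M 1 1 : ℚ) ≠ 0) :
    (q : ℚ) * mob M r = mob (conjMat q M) ((q : ℚ) * r) := by
  have h2 : ((Dq q) 1 0 : ℚ) * r + ((Dq q) 1 1 : ℚ) ≠ 0 := by simp [Dq]
  rw [← mob_Dq q (mob M r), ← mob_Dq q r, ← mob_mul _ _ _ h1, ← mob_mul _ _ _ h2,
    conjMat_Dq hdvd]

theorem conjMat_10 (q : ℕ) (M : Matrix (Fin 2) (Fin 2) ℤ) : conjMat q M 1 0 = M 1 0 / (q : ℤ) := by
  simp [conjMat]

theorem conjMat_11 (q : ℕ) (M : Matrix (Fin 2) (Fin 2) ℤ) : conjMat q M 1 1 = M 1 1 := by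
  simp [conjMat]

/-- The denominator of `conj(M)` at `q r` is the denominator of `M` at `r`. -/
theorem conjMat_denom {q : ℕ} (hq : q ≠ 0) (M : Matrix (Fin 2) (Fin 2) ℤ)
    (hdvd : (q : ℤ) ∣ M 1 0) (r : ℚ) :
    ((conjMat q M 1 0 : ℤ) : ℚ) * ((q : ℚ) * r) + ((conjMat q M 1 1 : ℤ) : ℚ)
      = (M 1 0 : ℚ) * r + (M 1 1 : ℚ) := by
  obtain ⟨c, hc⟩ := hdvd
  have hq0 : (q : ℤ) ≠ 0 := by exact_mod_cast hq
  rw [conjMat_10, conjMat_11, hc, Int.mul_ediv_cancel_left _ hq0]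
  push_cast
  ring

end Conj

section G

variable {k : Type*} [Field k] {N q : ℕ}

/-- `G(r) = c₁ F(r) + c₂ F(q r) + c₃ F(q² r)`. -/
def gfn (q : ℕ) (c₁ c₂ c₃ : k) (F : ℚ → k) (r : ℚ) : k :=
  c₁ * F r + c₂ * F ((q : ℚ) * r) + c₃ * F ((q : ℚ) * ((q : ℚ) * r))

theorem q_sq_dvd (h : Gamma0 (N * q ^ 2)) : ((q : ℤ) ^ 2) ∣ mat h 1 0 := by
  have := mat_dvd h
  push_cast at this
  exact Dvd.dvd.trans (Dvd.intro_left _ rfl) this

/-- `G` is `Γ₀(N q²)`-invariant. -/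
theorem gfn_inv (hN : 2 ≤ N) (hq : q.Prime) (x : Additive (Gamma0 N) →+ k) (F : ℚ → k)
    (hF : IsPer x F) (g₁ g₂ g₃ : Gamma0 (N * q ^ 2) → Gamma0 N)
    (hg₁ : ∀ h, mat (g₁ h) = mat h) (hg₂ : ∀ h, mat (g₂ h) = conjMat q (mat h))
    (hg₃ : ∀ h, mat (g₃ h) = conjMat q (conjMat q (mat h)))
    (c₁ c₂ c₃ : k)
    (hrel : ∀ h : Gamma0 (N * q ^ 2), c₁ * x (Additive.ofMul (g₁ h))
      + c₂ * x (Additive.ofMul (g₂ h)) + c₃ * x (Additive.ofMul (g₃ h)) = 0)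
    (h : Gamma0 (N * q ^ 2)) {r : ℚ} (hr : InX N r) :
    gfn q c₁ c₂ c₃ F (mob (mat h) r) = gfn q c₁ c₂ c₃ F r := by
  have hq0 : q ≠ 0 := hq.ne_zero
  have hd2 := q_sq_dvd (N := N) (q := q) h
  have hd1 : (q : ℤ) ∣ mat h 1 0 := Dvd.dvd.trans (Dvd.intro_left _ (by ring)) hd2
  have hd1' : (q : ℤ) ∣ conjMat q (mat h) 1 0 := by
    obtain ⟨c, hc⟩ := hd2
    rw [conjMat_10, hc]
    have hq0' : (q : ℤ) ≠ 0 := by exact_mod_cast hq0
    refine ⟨c, ?_⟩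
    rw [show (q : ℤ) ^ 2 * c = (q : ℤ) * ((q : ℤ) * c) by ring, Int.mul_ediv_cancel_left _ hq0']
  have hden : (mat h 1 0 : ℚ) * r + (mat h 1 1 : ℚ) ≠ 0 := by
    have := denom_ne_zero hN (g₁ h) hr
    rwa [hg₁] at this
  have hden' : ((conjMat q (mat h) 1 0 : ℤ) : ℚ) * ((q : ℚ) * r)
      + ((conjMat q (mat h) 1 1 : ℤ) : ℚ) ≠ 0 := by
    rw [conjMat_denom hq0 _ hd1]
    exact hden
  have hqr : InX N ((q : ℚ) * r) := inX_nat_mul hr q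
  have hqqr : InX N ((q : ℚ) * ((q : ℚ) * r)) := inX_nat_mul hqr q
  have e1 : F (mob (mat h) r) = F r + x (Additive.ofMul (g₁ h)) := by
    have := hF (g₁ h) r hr
    rwa [hg₁] at this
  have e2 : F ((q : ℚ) * mob (mat h) r) = F ((q : ℚ) * r) + x (Additive.ofMul (g₂ h)) := by
    rw [mul_mob_conj _ hd1 r hden, ← hg₂]
    exact hF (g₂ h) _ hqr
  have e3 : F ((q : ℚ) * ((q : ℚ) * mob (mat h) r))
      = F ((q : ℚ) * ((q : ℚ) * r)) + x (Additive.ofMul (g₃ h)) := by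
    rw [mul_mob_conj _ hd1 r hden, mul_mob_conj _ hd1' _ hden', ← hg₃]
    exact hF (g₃ h) _ hqqr
  unfold gfn
  rw [e1, e2, e3]
  linear_combination hrel h

/-- `G` is an eigenfunction of `TT ℓ` if `F` is. -/
theorem gfn_eig (hq : q.Prime) (x : Additive (Gamma0 N) →+ k)
    (hx : IsCuspidalHom (Gamma0 N) x) (F : ℚ → k) (hF : IsPer x F) (c₁ c₂ c₃ : k)
    {ℓ : ℕ} (hℓ : ℓ.Prime) (hℓN : ¬ ℓ ∣ N) (hℓq : ℓ ≠ q) (a : k)
    (hE : ∀ r, InX N r → TT ℓ F r = a * F r) {r : ℚ} (hr : InX N r) :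
    TT ℓ (gfn q c₁ c₂ c₃ F) r = a * gfn q c₁ c₂ c₃ F r := by
  have hcopN : ℓ.Coprime N := (Nat.Prime.coprime_iff_not_dvd hℓ).mpr hℓN
  have hcopq : q.Coprime ℓ := (Nat.coprime_primes hq hℓ).mpr (Ne.symm hℓq)
  have hper : ∀ r, InX N r → ∀ n : ℤ, F (r + (n : ℚ)) = F r := fun r hr n => hF.add_int hx hr n
  have hper' : ∀ r, InX N r → ∀ n : ℤ,
      (fun s => F ((q : ℚ) * s)) (r + (n : ℚ)) = (fun s => F ((q : ℚ) * s)) r := by
    intro r hr n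
    show F ((q : ℚ) * (r + (n : ℚ))) = F ((q : ℚ) * r)
    have e : (q : ℚ) * (r + (n : ℚ)) = (q : ℚ) * r + (((q : ℤ) * n : ℤ) : ℚ) := by
      push_cast
      ring
    rw [e]
    exact hper _ (inX_nat_mul hr q) _
  have hqr : InX N ((q : ℚ) * r) := inX_nat_mul hr q
  have hqqr : InX N ((q : ℚ) * ((q : ℚ) * r)) := inX_nat_mul hqr q
  have t2 : TT ℓ (fun s => F ((q : ℚ) * s)) r = a * F ((q : ℚ) * r) := by
    rw [TT_comp_mul hℓ hcopN hcopq F hper hr, hE _ hqr]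
  have t3 : TT ℓ (fun s => F ((q : ℚ) * ((q : ℚ) * s))) r = a * F ((q : ℚ) * ((q : ℚ) * r)) := by
    rw [TT_comp_mul hℓ hcopN hcopq (fun s => F ((q : ℚ) * s)) hper' hr,
      TT_comp_mul hℓ hcopN hcopq F hper hqr, hE _ hqqr]
  have key : TT ℓ (fun s => (fun s => (fun s => c₁ * F s) s
      + (fun s => c₂ * F ((q : ℚ) * s)) s) s + (fun s => c₃ * F ((q : ℚ) * ((q : ℚ) * s))) s) r
      = a * (c₁ * F r + c₂ * F ((q : ℚ) * r) + c₃ * F ((q : ℚ) * ((q : ℚ) * r))) := by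
    rw [TT_add, TT_add, TT_mul_left, TT_mul_left ℓ c₂ (fun s => F ((q : ℚ) * s)),
      TT_mul_left ℓ c₃ (fun s => F ((q : ℚ) * ((q : ℚ) * s))), hE r hr, t2, t3]
    ring
  exact key

end G

end Fermat.Agent.S59.NonMin.Geom.H78
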