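import Fermat.Agent.S41.H19_IharaDefs

/-!
# S59 / NMGEOM, leaf IHARA3 (helper78): sub-leaves

Route (see `H78_Ihara3.lean`): `x : Γ₀(N) → k` cuspidal eigen, `F = Pfn x + κ` its normalised period
function on `X_N = {r : den r prime to N}`; `G(r) = c₁ F(r) + c₂ F(q r) + c₃ F(q² r)` is
`Γ₀(N q²)`-invariant, so (ORB3) `TT ℓ G = (ℓ + 1) G` for `ℓ ≡ 1 mod N q²`, so `G = 0`; hence `F` is
`1/q`-periodic, hence `F(q² r) = F(r)` (explicit matrices), hence (IhCk, orbit sum) `F = 0`.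

* `Stmt_ORB3` : a `Γ₀(N q²)`-invariant function on `X_N` is fixed by the `ℓ + 1` branches of
  `TT ℓ`, `ℓ ≡ 1 mod N q²` (the `q + 1` orbits of `Γ₀(N q²)` on `X_N`: `q ∤ den`, `q² ∣ den`,
  and `q ∥ den` with class `num · (den / q) mod q`).  Pure arithmetic of `ℚ` and `Γ₀`.
* `Stmt_IhCk` : `S41.Ihara.Stmt_IhC` with values in a field `k` of characteristic `p`.
This file contains no `sorry`.
-/

set_option autoImplicit false

open scoped MatrixGroups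
open CongruenceSubgroup Matrix

namespace Fermat.Agent.S59.NonMin.Geom.H78

open Fermat.Agent.S41 Fermat.Agent.S41.H19 Fermat.Agent.S41.Ihara

/-- **ORB3**: on a `Γ₀(N q²)`-invariant function on `X_N`, `TT ℓ` acts by `ℓ + 1` if
`ℓ ≡ 1 mod N q²`.  (Analogue of `S41.Ihara.TT_of_inv` at the level `N q²`.) -/
def Stmt_ORB3 : Prop :=
  ∀ (N q : ℕ), 2 ≤ N → q.Prime → ¬ q ∣ N →
  ∀ (A : Type) [AddCommGroup A] (E : ℚ → A),
    (∀ (h : Gamma0 (N * q ^ 2)) (r : ℚ), InX N r → E (mob (mat h) r) = E r) →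
  ∀ (ℓ : ℕ), ℓ.Prime → ¬ ℓ ∣ N * q → ℓ % (N * q ^ 2) = 1 % (N * q ^ 2) →
  ∀ r : ℚ, InX N r → TT ℓ E r = (ℓ + 1) • E r

/-- **IhC over `k`**: the orbit sum (`S41.Ihara.Stmt_IhC` with `ZMod p` replaced by a field of
characteristic `p`). -/
def Stmt_IhCk : Prop :=
  ∀ (k : Type) [Field k] (p : ℕ) [Fact p.Prime] [CharP k p] (N q : ℕ),
    2 ≤ N → q.Prime → ¬ q ∣ N → q ≠ p →
    ∀ (F : ℚ → k),
    (∀ r, InX N r → F ((q : ℚ) ^ 2 * r) = F r) →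
    (∀ r t, InX N r → InZq q t → F (r + t) = F r) →
    ∀ (ℓ : ℕ) (a : k), ℓ.Prime → ¬ ℓ ∣ N * q → ℓ ≠ p →
    (∀ r, InX N r → TT ℓ F r = a * F r) →
    ∀ (r : ℚ) (m j : ℕ), InX N r → 0 < m → InZq q ((m : ℚ) * r) → m.Coprime q →
      q ^ (2 * j) % m = 1 % m → ℓ % m = 1 % m →
      p ∣ orderOf ((q : ZMod ℓ) ^ (2 * j)) →
      (a - 2) * F r = 0

end Fermat.Agent.S59.NonMin.Geom.H78
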