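import Fermat.Agent.S59.NonMin.Geom.H78_Ihara3Per
import Fermat.Agent.S59.NonMin.Geom.H78_IhCk

/-!
# S59 / NMGEOM, leaf IHARA3 (helper78): period functions over a field `k`, part 3

`F` a period function of the cuspidal class `x` on `Γ₀(N)` which is `1/q`-periodic on `X_N`.

* `exists_tau3` : `F(q² r) = F(r) + τ` (explicit matrices: with `q² u + N w = 1`, `q e = w (1 - u)`,
  `M' = [q² + N w, e; -N q, u]`, `a₁ = [q u, -w; N, q]` one has `a₁ (M' r + w / q) = q² r`);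
* `per_q2` : `F(q² r) = F(r)`;
* `per_Zq` : `F(r + t) = F(r)` for `t ∈ ℤ[1/q]`.
This file contains no `sorry`.
-/

set_option autoImplicit false

open scoped MatrixGroups
open CongruenceSubgroup Matrix

namespace Fermat.Agent.S59.NonMin.Geom.H78

open Fermat.Agent.S41 Fermat.Agent.S41.H19 Fermat.Agent.S41.Ihara

section Inv

variable {k : Type*} [Field k] {N q : ℕ}

/-- The arithmetic input: `q² u + N w = 1` with `q ∣ w (1 - u)`. -/
theorem exists_uwe (hqN : q.Coprime N) :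
    ∃ u w e : ℤ, (q : ℤ) ^ 2 * u + (N : ℤ) * w = 1 ∧ (q : ℤ) * e = w * (1 - u) := by
  have hcop : IsCoprime (N : ℤ) ((q : ℤ) ^ 3) :=
    ((Nat.isCoprime_iff_coprime.2 hqN).pow_left).symm
  obtain ⟨α, β, hαβ⟩ := hcop
  refine ⟨1 + β * (q : ℤ) - β * (q : ℤ) ^ 3, α * (1 - (q : ℤ) ^ 2),
    -(α * (1 - (q : ℤ) ^ 2)) * β * (1 - (q : ℤ) ^ 2), ?_, ?_⟩
  · linear_combination (1 - (q : ℤ) ^ 2) * hαβ
  · ring

/-- The Möbius identity `a₁ (M' r + w / q) = q² r` in coordinates. -/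
theorem mob_key3 (q N u w e r : ℚ) (hq : q ≠ 0) (heQ : q * e = w * (1 - u)) (D : ℚ)
    (hD0 : D ≠ 0) (hDdef : D = u - N * q * r)
    (hne : N * (((q ^ 2 + N * w) * r + e) / D + w * q⁻¹) + q ≠ 0) :
    (q * u * (((q ^ 2 + N * w) * r + e) / D + w * q⁻¹) + -w) /
      (N * (((q ^ 2 + N * w) * r + e) / D + w * q⁻¹) + q) = q ^ 2 * r := by
  rw [div_eq_iff hne]
  field_simp
  subst hDdef
  linear_combination (u - N * q * r) * heQ

/-- `F(q² r) = F(r) + τ` with `τ` independent of `r`. -/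
theorem exists_tau3 (hN : 2 ≤ N) (hqN : q.Coprime N) (hq0 : q ≠ 0)
    (x : Additive (Gamma0 N) →+ k) (F : ℚ → k) (hF : IsPer x F)
    (hper : ∀ (z : ℤ) (r : ℚ), InX N r → F (r + (z : ℚ) * (q : ℚ)⁻¹) = F r) :
    ∃ τ : k, ∀ r, InX N r → F ((q : ℚ) ^ 2 * r) = F r + τ := by
  obtain ⟨u, w, e, huw, he⟩ := exists_uwe (N := N) (q := q) hqN
  set M' : Gamma0 N :=
    mkG0 N ((q : ℤ) ^ 2 + (N : ℤ) * w) e (-((N : ℤ) * (q : ℤ))) u
      (by linear_combination huw + (N : ℤ) * he)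
      (dvd_neg.mpr (Dvd.intro _ rfl)) with hM'
  set a₁ : Gamma0 N := mkG0 N ((q : ℤ) * u) (-w) N q (by linear_combination huw) dvd_rfl with ha₁
  refine ⟨x (Additive.ofMul M') + x (Additive.ofMul a₁), fun r hr => ?_⟩
  have hq0' : (q : ℚ) ≠ 0 := by exact_mod_cast hq0
  have hN0 : (N : ℚ) ≠ 0 := by
    have : N ≠ 0 := by omega
    exact_mod_cast this
  have huwQ : (q : ℚ) ^ 2 * (u : ℚ) + (N : ℚ) * (w : ℚ) = 1 := by exact_mod_cast huw
  have heQ : (q : ℚ) * (e : ℚ) = (w : ℚ) * (1 - (u : ℚ)) := by exact_mod_cast he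
  have hw : (w : ℚ) = (1 - (q : ℚ) ^ 2 * (u : ℚ)) / (N : ℚ) := by
    rw [eq_div_iff hN0]; linear_combination huwQ
  have he' : (e : ℚ) = (w : ℚ) * (1 - (u : ℚ)) / (q : ℚ) := by
    rw [eq_div_iff hq0']; linear_combination heQ
  -- the point `s₁ = M' r`
  have hD := denom_ne_zero hN M' hr
  have hs₁ : InX N (mob (mat M') r) := inX_mob M' hr
  have e1 : F (mob (mat M') r) = F r + x (Additive.ofMul M') := hF M' r hr
  set s₁ : ℚ := mob (mat M') r with hs₁def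
  -- the point `s = s₁ + w / q`
  set s : ℚ := s₁ + (w : ℚ) * (q : ℚ)⁻¹ with hsdef
  have hs : InX N s :=
    H37.inX_add hs₁ (H37.inX_mul (H37.inX_intCast N w) (inX_inv_nat hqN))
  have e2 : F s = F s₁ := hper w s₁ hs₁
  have hD' := denom_ne_zero hN a₁ hs
  have e3 : F (mob (mat a₁) s) = F s + x (Additive.ofMul a₁) := hF a₁ s hs
  have hDq : (-((N : ℚ) * (q : ℚ))) * r + (u : ℚ) ≠ 0 := by
    have := hD
    rw [hM', mat_mkG0] at this
    simpa using this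
  have hs₁v : s₁ = (((q : ℚ) ^ 2 + (N : ℚ) * (w : ℚ)) * r + (e : ℚ))
      / ((-((N : ℚ) * (q : ℚ))) * r + (u : ℚ)) := by
    rw [hs₁def]; unfold mob; rw [hM', mat_mkG0]; simp
  have hD'q : (N : ℚ) * s + (q : ℚ) ≠ 0 := by
    have := hD'
    rw [ha₁, mat_mkG0] at this
    simpa using this
  have e5 : mob (mat a₁) s = (q : ℚ) ^ 2 * r := by
    unfold mob
    rw [ha₁, mat_mkG0]
    simp only [Matrix.of_apply, Matrix.cons_val', Matrix.cons_val_zero, Matrix.cons_val_one,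
      Matrix.empty_val', Matrix.cons_val_fin_one, Int.cast_mul, Int.cast_natCast, Int.cast_neg]
    have hDq' : (u : ℚ) - (N : ℚ) * (q : ℚ) * r ≠ 0 := by
      intro h; apply hDq; linear_combination h
    have hs₁v' : s₁ = (((q : ℚ) ^ 2 + (N : ℚ) * (w : ℚ)) * r + (e : ℚ))
        / ((u : ℚ) - (N : ℚ) * (q : ℚ) * r) := by
      rw [hs₁v]; congr 1; ring
    have hsv : s = (((q : ℚ) ^ 2 + (N : ℚ) * (w : ℚ)) * r + (e : ℚ))
        / ((u : ℚ) - (N : ℚ) * (q : ℚ) * r) + (w : ℚ) * (q : ℚ)⁻¹ := by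
      rw [hsdef, hs₁v']
    rw [hsv] at hD'q ⊢
    exact mob_key3 (q : ℚ) (N : ℚ) (u : ℚ) (w : ℚ) (e : ℚ) r hq0' heQ _ hDq' rfl hD'q
  rw [e5] at e3
  rw [e3, e2, e1]
  ring

/-- **`q²`-invariance.** -/
theorem per_q2 (hN : 2 ≤ N) (hq : q.Prime) (hqN : ¬ q ∣ N)
    (x : Additive (Gamma0 N) →+ k) (F : ℚ → k) (hF : IsPer x F)
    (h1 : ∀ r, InX N r → F (r + (q : ℚ)⁻¹) = F r) {r : ℚ} (hr : InX N r) :
    F ((q : ℚ) ^ 2 * r) = F r := by
  have hqNc : q.Coprime N := (Nat.Prime.coprime_iff_not_dvd hq).2 hqN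
  obtain ⟨τ, hτ⟩ := exists_tau3 hN hqNc hq.ne_zero x F hF
    (fun z r hr => per_int_div_q hq hqN F h1 z hr)
  have hτ0 : τ = 0 := by
    have := hτ 0 (inX_zero N)
    simpa using this
  rw [hτ r hr, hτ0, add_zero]

/-- **`ℤ[1/q]`-translation invariance.** -/
theorem per_Zq (hq : q.Prime) (hqN : ¬ q ∣ N)
    (x : Additive (Gamma0 N) →+ k) (hx : IsCuspidalHom (Gamma0 N) x) (F : ℚ → k) (hF : IsPer x F)
    (hq2 : ∀ r, InX N r → F ((q : ℚ) ^ 2 * r) = F r) {r t : ℚ} (hr : InX N r) (ht : InZq q t) :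
    F (r + t) = F r := by
  have hqNc : q.Coprime N := (Nat.Prime.coprime_iff_not_dvd hq).2 hqN
  have htX : InX N t := H37.inZq_inX hq.ne_zero hqNc ht
  obtain ⟨j, z, rfl⟩ := H37.inZq_exists hq.ne_zero ht
  have hq0' : (q : ℚ) ≠ 0 := by exact_mod_cast hq.ne_zero
  have hpow := inv_powk hqNc F hq2 j
  have h1 : (q : ℚ) ^ (2 * j) * (r + (z : ℚ) / (q : ℚ) ^ j)
      = (q : ℚ) ^ (2 * j) * r + (((q : ℤ) ^ j * z : ℤ) : ℚ) := by
    push_cast
    have hqk : (q : ℚ) ^ j ≠ 0 := pow_ne_zero _ hq0'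
    rw [two_mul, pow_add]
    field_simp
  have hX : InX N ((q : ℚ) ^ (2 * j) * r) := by
    have : InX N (((q ^ (2 * j) : ℕ) : ℚ)) := H37.inX_natCast N _
    rw [Nat.cast_pow] at this
    exact H37.inX_mul this hr
  rw [← hpow (r + (z : ℚ) / (q : ℚ) ^ j) (H37.inX_add hr htX), h1, hF.add_int hx hX, hpow r hr]

end Inv

end Fermat.Agent.S59.NonMin.Geom.H78
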