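import Fermat.Agent.S59.NonMin.Geom.H78_Ihara3Core

/-!
# S59 / NMGEOM, leaf IHARA3 (helper78): period functions over a field `k`, part 2

* `gfn_eq_zero` : `G = 0` on `X_N` (from `Stmt_ORB3` and a non-Eisenstein prime `ℓ₀ ≡ 1 mod N q²`);
* `per_inv_q` : `F(r + 1/q) = F(r)` if `G = 0`, `(c₁, c₂, c₃) ≠ 0`;
* `per_q2` : `F(q² r) = F(r)` (explicit matrices);
* `per_Zq` : `F(r + t) = F(r)` for `t ∈ ℤ[1/q]`.
This file contains no `sorry`.
-/

set_option autoImplicit false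

open scoped MatrixGroups
open CongruenceSubgroup Matrix

namespace Fermat.Agent.S59.NonMin.Geom.H78

open Fermat.Agent.S41 Fermat.Agent.S41.H19 Fermat.Agent.S41.Ihara

section G0

variable {k : Type} [Field k] {N q : ℕ}

/-- `G = 0` on `X_N`. -/
theorem gfn_eq_zero (hO : Stmt_ORB3) (hN : 2 ≤ N) (hq : q.Prime) (hqN : ¬ q ∣ N)
    (E : ℚ → k)
    (hinv : ∀ (h : Gamma0 (N * q ^ 2)) (r : ℚ), InX N r → E (mob (mat h) r) = E r)
    {ℓ : ℕ} (hℓ : ℓ.Prime) (hℓNq : ¬ ℓ ∣ N * q) (hℓ1 : ℓ % (N * q ^ 2) = 1 % (N * q ^ 2))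
    (a : k) (ha : a ≠ (ℓ : k) + 1)
    (hE : ∀ r, InX N r → TT ℓ E r = a * E r) {r : ℚ} (hr : InX N r) : E r = 0 := by
  have h1 := hO N q hN hq hqN k E hinv ℓ hℓ hℓNq hℓ1 r hr
  rw [hE r hr, nsmul_eq_mul] at h1
  have h3 : (a - ((ℓ : k) + 1)) * E r = 0 := by
    push_cast at h1
    linear_combination h1
  exact (mul_eq_zero.mp h3).resolve_left (sub_ne_zero.mpr ha)

end G0

section Periodic

variable {k : Type*} [Field k] {N q : ℕ}

theorem inX_add_inv_q (hq : q.Prime) (hqN : ¬ q ∣ N) {r : ℚ} (hr : InX N r) :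
    InX N (r + (q : ℚ)⁻¹) :=
  H37.inX_add hr (inX_inv_nat ((Nat.Prime.coprime_iff_not_dvd hq).mpr hqN))

theorem inX_div_q (hq : q.Prime) (hqN : ¬ q ∣ N) {r : ℚ} (hr : InX N r) :
    InX N (r / (q : ℚ)) :=
  inX_div_nat ((Nat.Prime.coprime_iff_not_dvd hq).mpr hqN) hr

/-- **`1/q`-periodicity** from `G = 0`. -/
theorem per_inv_q (hq : q.Prime) (hqN : ¬ q ∣ N) (x : Additive (Gamma0 N) →+ k)
    (hx : IsCuspidalHom (Gamma0 N) x) (F : ℚ → k) (hF : IsPer x F) (c₁ c₂ c₃ : k)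
    (hc : c₁ ≠ 0 ∨ c₂ ≠ 0 ∨ c₃ ≠ 0)
    (hG : ∀ r, InX N r → gfn q c₁ c₂ c₃ F r = 0) {r : ℚ} (hr : InX N r) :
    F (r + (q : ℚ)⁻¹) = F r := by
  have hq0 : (q : ℚ) ≠ 0 := by exact_mod_cast hq.ne_zero
  have hper : ∀ r, InX N r → ∀ n : ℤ, F (r + (n : ℚ)) = F r := fun r hr n => hF.add_int hx hr n
  -- `F (q (r + 1/q)) = F (q r)` and `F (q² (r + 1/q)) = F (q² r)`
  have s1 : ∀ r, InX N r → F ((q : ℚ) * (r + (q : ℚ)⁻¹)) = F ((q : ℚ) * r) := by
    intro r hr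
    have e : (q : ℚ) * (r + (q : ℚ)⁻¹) = (q : ℚ) * r + ((1 : ℤ) : ℚ) := by
      push_cast
      field_simp
    rw [e]
    exact hper _ (inX_nat_mul hr q) 1
  have s2 : ∀ r, InX N r →
      F ((q : ℚ) * ((q : ℚ) * (r + (q : ℚ)⁻¹))) = F ((q : ℚ) * ((q : ℚ) * r)) := by
    intro r hr
    have e : (q : ℚ) * ((q : ℚ) * (r + (q : ℚ)⁻¹))
        = (q : ℚ) * ((q : ℚ) * r) + (((q : ℤ) : ℤ) : ℚ) := by
      push_cast
      field_simp
    rw [e]
    exact hper _ (inX_nat_mul (inX_nat_mul hr q) q) _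
  by_cases h1 : c₁ = 0
  · by_cases h2 : c₂ = 0
    · -- `c₃ ≠ 0`: `F = 0` on `X_N`
      have h3 : c₃ ≠ 0 := by
        rcases hc with h | h | h
        · exact absurd h1 h
        · exact absurd h2 h
        · exact h
      have hz : ∀ s, InX N s → F s = 0 := by
        intro s hs
        have hs' : InX N (s / (q : ℚ) / (q : ℚ)) := inX_div_q hq hqN (inX_div_q hq hqN hs)
        have := hG _ hs'
        unfold gfn at this
        rw [h1, h2, zero_mul, zero_mul, zero_add, zero_add] at this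
        have e : (q : ℚ) * ((q : ℚ) * (s / (q : ℚ) / (q : ℚ))) = s := by
          field_simp
        rw [e] at this
        exact (mul_eq_zero.mp this).resolve_left h3
      rw [hz _ hr, hz _ (inX_add_inv_q hq hqN hr)]
    · -- `c₁ = 0`, `c₂ ≠ 0`: `c₂ F(s) + c₃ F(q s) = 0`
      have hrel : ∀ s, InX N s → c₂ * F s + c₃ * F ((q : ℚ) * s) = 0 := by
        intro s hs
        have hs' : InX N (s / (q : ℚ)) := inX_div_q hq hqN hs
        have := hG _ hs'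
        unfold gfn at this
        rw [h1, zero_mul, zero_add] at this
        have e : (q : ℚ) * (s / (q : ℚ)) = s := by
          field_simp
        rw [e] at this
        exact this
      have e1 := hrel r hr
      have e2 := hrel _ (inX_add_inv_q hq hqN hr)
      rw [s1 r hr] at e2
      have : c₂ * (F (r + (q : ℚ)⁻¹) - F r) = 0 := by linear_combination e2 - e1
      exact sub_eq_zero.mp ((mul_eq_zero.mp this).resolve_left h2)
  · have e1 := hG r hr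
    have e2 := hG _ (inX_add_inv_q hq hqN hr)
    unfold gfn at e1 e2
    rw [s1 r hr, s2 r hr] at e2
    have : c₁ * (F (r + (q : ℚ)⁻¹) - F r) = 0 := by linear_combination e2 - e1
    exact sub_eq_zero.mp ((mul_eq_zero.mp this).resolve_left h1)

/-- Translation by `n / q`, `n : ℕ`. -/
theorem per_nat_div_q (hq : q.Prime) (hqN : ¬ q ∣ N) (F : ℚ → k)
    (h1 : ∀ r, InX N r → F (r + (q : ℚ)⁻¹) = F r) (n : ℕ) :
    ∀ r, InX N r → F (r + (n : ℚ) * (q : ℚ)⁻¹) = F r := by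
  induction n with
  | zero => intro r _; simp
  | succ n ih =>
    intro r hr
    have e : r + ((n + 1 : ℕ) : ℚ) * (q : ℚ)⁻¹ = (r + (q : ℚ)⁻¹) + (n : ℚ) * (q : ℚ)⁻¹ := by
      push_cast
      ring
    rw [e, ih _ (inX_add_inv_q hq hqN hr), h1 r hr]

/-- Translation by `z / q`, `z : ℤ`. -/
theorem per_int_div_q (hq : q.Prime) (hqN : ¬ q ∣ N) (F : ℚ → k)
    (h1 : ∀ r, InX N r → F (r + (q : ℚ)⁻¹) = F r) (z : ℤ) {r : ℚ} (hr : InX N r) :
    F (r + (z : ℚ) * (q : ℚ)⁻¹) = F r := by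
  have hqc : q.Coprime N := (Nat.Prime.coprime_iff_not_dvd hq).mpr hqN
  have hX : ∀ (w : ℤ) (s : ℚ), InX N s → InX N (s + (w : ℚ) * (q : ℚ)⁻¹) := fun w s hs =>
    H37.inX_add hs (H37.inX_mul (H37.inX_intCast N w) (inX_inv_nat hqc))
  rcases Int.eq_nat_or_neg z with ⟨n, rfl | rfl⟩
  · have := per_nat_div_q hq hqN F h1 n r hr
    simpa using this
  · have h2 := per_nat_div_q hq hqN F h1 n _ (hX (-(n : ℤ)) r hr)
    have e : r + ((-(n : ℤ) : ℤ) : ℚ) * (q : ℚ)⁻¹ + (n : ℚ) * (q : ℚ)⁻¹ = r := by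
      push_cast
      ring
    rw [e] at h2
    exact h2.symm

end Periodic

end Fermat.Agent.S59.NonMin.Geom.H78
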