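import Fermat.Agent.S59.NonMin.Geom.H78_Ihara3Inv

/-!
# S59 / NMGEOM, leaf IHARA3 (helper78): the three-vector form, core

`x₁, x₂, x₃ : Γ₀(N) → k` cuspidal, `F_i = Pfn x_i` their period functions on `X_N`,
`G(r) = F₁(r) + F₂(q r) + F₃(q² r)`.

* `TT_add_one`, `TT_add_nat` : `TT ℓ f` is `ℤ`-periodic on `X_N` if `f` is;
* `g3_inv` : `G` is `Γ₀(N q²)`-invariant if `x₁∘j₁ + x₂∘j₂ + x₃∘j₃ = 0`;
* `g3_TT` : `TT ℓ G (r) = TT ℓ F₁ (r) + TT ℓ F₂ (q r) + TT ℓ F₃ (q² r)`;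
* `first_per` : if moreover `x₁` is an eigenvector of `T_ℓ`, `ℓ ≡ 1 mod N q²`, with eigenvalue
  `a ≠ ℓ + 1`, then `F₁` is `1/q`-periodic (NO hypothesis on `x₂, x₃` besides cuspidality);
* `core_zero` : a cuspidal eigen-homomorphism (non-Eisenstein system of eigenvalues) with
  `1/q`-periodic period function is zero.
This file contains no `sorry`.
-/

set_option autoImplicit false

open scoped MatrixGroups
open CongruenceSubgroup Matrix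

namespace Fermat.Agent.S59.NonMin.Geom.H78

open Fermat.Agent.S41 Fermat.Agent.S41.H19 Fermat.Agent.S41.Ihara

section TTper

variable {N : ℕ} {A : Type*} [AddCommGroup A]

/-- `TT ℓ f` is `1`-periodic on `X_N` if `f` is `ℤ`-periodic on `X_N`. -/
theorem TT_add_one {ℓ : ℕ} (hℓ : ℓ.Prime) (hℓN : ℓ.Coprime N) (f : ℚ → A)
    (hf : ∀ r, InX N r → ∀ n : ℤ, f (r + (n : ℚ)) = f r) {r : ℚ} (hr : InX N r) :
    TT ℓ f (r + 1) = TT ℓ f r := by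
  have hℓ0 : (ℓ : ℚ) ≠ 0 := by exact_mod_cast hℓ.ne_zero
  unfold TT
  have e2 : f ((ℓ : ℚ) * (r + 1)) = f ((ℓ : ℚ) * r) := by
    have e : (ℓ : ℚ) * (r + 1) = (ℓ : ℚ) * r + (((ℓ : ℤ) : ℤ) : ℚ) := by
      push_cast
      ring
    rw [e]
    exact hf _ (inX_nat_mul hr ℓ) _
  have e1 : ∀ j : ℕ, f ((r + 1 + (j : ℚ)) / (ℓ : ℚ)) = f ((r + ((j + 1 : ℕ) : ℚ)) / (ℓ : ℚ)) := by
    intro j
    have e : r + 1 + (j : ℚ) = r + ((j + 1 : ℕ) : ℚ) := by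
      push_cast
      ring
    rw [e]
  have e3 : f ((r + ((ℓ : ℕ) : ℚ)) / (ℓ : ℚ)) = f ((r + ((0 : ℕ) : ℚ)) / (ℓ : ℚ)) := by
    have e : (r + ((ℓ : ℕ) : ℚ)) / (ℓ : ℚ) = r / (ℓ : ℚ) + ((1 : ℤ) : ℚ) := by
      push_cast
      field_simp
    rw [e, hf _ (inX_div_nat hℓN hr) 1]
    simp
  have e4 : ∑ j ∈ Finset.range ℓ, f ((r + ((j + 1 : ℕ) : ℚ)) / (ℓ : ℚ))
      = ∑ j ∈ Finset.range ℓ, f ((r + (j : ℚ)) / (ℓ : ℚ)) := by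
    have h1 := Finset.sum_range_succ' (fun j : ℕ => f ((r + (j : ℚ)) / (ℓ : ℚ))) ℓ
    have h2 := Finset.sum_range_succ (fun j : ℕ => f ((r + (j : ℚ)) / (ℓ : ℚ))) ℓ
    rw [h1] at h2
    rw [e3] at h2
    exact add_right_cancel h2
  rw [Finset.sum_congr rfl (fun j _ => e1 j), e4, e2]

/-- `TT ℓ f` is `ℕ`-periodic on `X_N` if `f` is `ℤ`-periodic on `X_N`. -/
theorem TT_add_nat {ℓ : ℕ} (hℓ : ℓ.Prime) (hℓN : ℓ.Coprime N) (f : ℚ → A)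
    (hf : ∀ r, InX N r → ∀ n : ℤ, f (r + (n : ℚ)) = f r) (n : ℕ) :
    ∀ r, InX N r → TT ℓ f (r + (n : ℚ)) = TT ℓ f r := by
  induction n with
  | zero => intro r _; simp
  | succ n ih =>
    intro r hr
    have e : r + ((n + 1 : ℕ) : ℚ) = (r + (n : ℚ)) + 1 := by
      push_cast
      ring
    have hrn : InX N (r + (n : ℚ)) := by
      have := inX_add_int hr (n : ℤ)
      simpa using this
    rw [e, TT_add_one hℓ hℓN f hf hrn, ih r hr]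

end TTper

section G3

variable {k : Type*} [Field k] {N q : ℕ}

/-- `G(r) = F₁(r) + F₂(q r) + F₃(q² r)`. -/
def g3fn (q : ℕ) (F₁ F₂ F₃ : ℚ → k) (r : ℚ) : k :=
  F₁ r + F₂ ((q : ℚ) * r) + F₃ ((q : ℚ) * ((q : ℚ) * r))

/-- `G` is `Γ₀(N q²)`-invariant. -/
theorem g3_inv (hN : 2 ≤ N) (hq : q.Prime) (x₁ x₂ x₃ : Additive (Gamma0 N) →+ k)
    (F₁ F₂ F₃ : ℚ → k) (hF₁ : IsPer x₁ F₁) (hF₂ : IsPer x₂ F₂) (hF₃ : IsPer x₃ F₃)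
    (g₁ g₂ g₃ : Gamma0 (N * q ^ 2) → Gamma0 N)
    (hg₁ : ∀ h, mat (g₁ h) = mat h) (hg₂ : ∀ h, mat (g₂ h) = conjMat q (mat h))
    (hg₃ : ∀ h, mat (g₃ h) = conjMat q (conjMat q (mat h)))
    (hrel : ∀ h : Gamma0 (N * q ^ 2), x₁ (Additive.ofMul (g₁ h))
      + x₂ (Additive.ofMul (g₂ h)) + x₃ (Additive.ofMul (g₃ h)) = 0)
    (h : Gamma0 (N * q ^ 2)) {r : ℚ} (hr : InX N r) :
    g3fn q F₁ F₂ F₃ (mob (mat h) r) = g3fn q F₁ F₂ F₃ r := by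
  have hq0 : q ≠ 0 := hq.ne_zero
  have hd2 := q_sq_dvd (N := N) (q := q) h
  have hd1 : (q : ℤ) ∣ mat h 1 0 := Dvd.dvd.trans (Dvd.intro_left _ (by ring)) hd2
  have hd1' : (q : ℤ) ∣ conjMat q (mat h) 1 0 := by
    obtain ⟨c, hc⟩ := hd2
    rw [conjMat_10, hc]
    have hq0' : (q : ℤ) ≠ 0 := by exact_mod_cast hq0
    refine ⟨c, ?_⟩
    rw [show (q : ℤ) ^ 2 * c = (q : ℤ) * ((q : ℤ) * c) by ring, Int.mul_ediv_cancel_left _ hq0']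
  have hden : (mat h 1 0 : ℚ) * r + (mat h 1 1 : ℚ) ≠ 0 := by
    have := denom_ne_zero hN (g₁ h) hr
    rwa [hg₁] at this
  have hden' : ((conjMat q (mat h) 1 0 : ℤ) : ℚ) * ((q : ℚ) * r)
      + ((conjMat q (mat h) 1 1 : ℤ) : ℚ) ≠ 0 := by
    rw [conjMat_denom hq0 _ hd1]
    exact hden
  have hqr : InX N ((q : ℚ) * r) := inX_nat_mul hr q
  have hqqr : InX N ((q : ℚ) * ((q : ℚ) * r)) := inX_nat_mul hqr q
  have e1 : F₁ (mob (mat h) r) = F₁ r + x₁ (Additive.ofMul (g₁ h)) := by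
    have := hF₁ (g₁ h) r hr
    rwa [hg₁] at this
  have e2 : F₂ ((q : ℚ) * mob (mat h) r) = F₂ ((q : ℚ) * r) + x₂ (Additive.ofMul (g₂ h)) := by
    rw [mul_mob_conj _ hd1 r hden, ← hg₂]
    exact hF₂ (g₂ h) _ hqr
  have e3 : F₃ ((q : ℚ) * ((q : ℚ) * mob (mat h) r))
      = F₃ ((q : ℚ) * ((q : ℚ) * r)) + x₃ (Additive.ofMul (g₃ h)) := by
    rw [mul_mob_conj _ hd1 r hden, mul_mob_conj _ hd1' _ hden', ← hg₃]
    exact hF₃ (g₃ h) _ hqqr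
  unfold g3fn
  rw [e1, e2, e3]
  linear_combination hrel h

/-- `TT ℓ G (r) = TT ℓ F₁ (r) + TT ℓ F₂ (q r) + TT ℓ F₃ (q² r)`. -/
theorem g3_TT (hq : q.Prime) (F₁ F₂ F₃ : ℚ → k)
    (hp₂ : ∀ r, InX N r → ∀ n : ℤ, F₂ (r + (n : ℚ)) = F₂ r)
    (hp₃ : ∀ r, InX N r → ∀ n : ℤ, F₃ (r + (n : ℚ)) = F₃ r)
    {ℓ : ℕ} (hℓ : ℓ.Prime) (hℓN : ¬ ℓ ∣ N) (hℓq : ℓ ≠ q) {r : ℚ} (hr : InX N r) :
    TT ℓ (g3fn q F₁ F₂ F₃) r
      = TT ℓ F₁ r + TT ℓ F₂ ((q : ℚ) * r) + TT ℓ F₃ ((q : ℚ) * ((q : ℚ) * r)) := by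
  have hcopN : ℓ.Coprime N := (Nat.Prime.coprime_iff_not_dvd hℓ).mpr hℓN
  have hcopq : q.Coprime ℓ := (Nat.coprime_primes hq hℓ).mpr (Ne.symm hℓq)
  have hp₃' : ∀ r, InX N r → ∀ n : ℤ,
      (fun s => F₃ ((q : ℚ) * s)) (r + (n : ℚ)) = (fun s => F₃ ((q : ℚ) * s)) r := by
    intro r hr n
    show F₃ ((q : ℚ) * (r + (n : ℚ))) = F₃ ((q : ℚ) * r)
    have e : (q : ℚ) * (r + (n : ℚ)) = (q : ℚ) * r + (((q : ℤ) * n : ℤ) : ℚ) := by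
      push_cast
      ring
    rw [e]
    exact hp₃ _ (inX_nat_mul hr q) _
  have hqr : InX N ((q : ℚ) * r) := inX_nat_mul hr q
  have t2 : TT ℓ (fun s => F₂ ((q : ℚ) * s)) r = TT ℓ F₂ ((q : ℚ) * r) :=
    TT_comp_mul hℓ hcopN hcopq F₂ hp₂ hr
  have t3 : TT ℓ (fun s => F₃ ((q : ℚ) * ((q : ℚ) * s))) r
      = TT ℓ F₃ ((q : ℚ) * ((q : ℚ) * r)) := by
    rw [TT_comp_mul hℓ hcopN hcopq (fun s => F₃ ((q : ℚ) * s)) hp₃' hr,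
      TT_comp_mul hℓ hcopN hcopq F₃ hp₃ hqr]
  have key : TT ℓ (fun s => (fun s => F₁ s + (fun s => F₂ ((q : ℚ) * s)) s) s
      + (fun s => F₃ ((q : ℚ) * ((q : ℚ) * s))) s) r
      = TT ℓ F₁ r + TT ℓ F₂ ((q : ℚ) * r) + TT ℓ F₃ ((q : ℚ) * ((q : ℚ) * r)) := by
    rw [TT_add, TT_add, t2, t3]
  exact key

end G3

section First

variable {k : Type} [Field k] {N q : ℕ}

/-- **The first component is `1/q`-periodic.**  Only `x₁` is assumed to be an eigenvector. -/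
theorem first_per (hO : Stmt_ORB3) (hN : 2 ≤ N) (hq : q.Prime) (hqN : ¬ q ∣ N)
    (x₁ x₂ x₃ : Additive (Gamma0 N) →+ k)
    (hx₁ : IsCuspidalHom (Gamma0 N) x₁) (hx₂ : IsCuspidalHom (Gamma0 N) x₂)
    (hx₃ : IsCuspidalHom (Gamma0 N) x₃)
    (g₁ g₂ g₃ : Gamma0 (N * q ^ 2) → Gamma0 N)
    (hg₁ : ∀ h, mat (g₁ h) = mat h) (hg₂ : ∀ h, mat (g₂ h) = conjMat q (mat h))
    (hg₃ : ∀ h, mat (g₃ h) = conjMat q (conjMat q (mat h)))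
    (hrel : ∀ h : Gamma0 (N * q ^ 2), x₁ (Additive.ofMul (g₁ h))
      + x₂ (Additive.ofMul (g₂ h)) + x₃ (Additive.ofMul (g₃ h)) = 0)
    {ℓ : ℕ} (hℓ : ℓ.Prime) (hℓNq : ¬ ℓ ∣ N * q) (hℓ1 : ℓ % (N * q ^ 2) = 1 % (N * q ^ 2))
    (a : k) (ha : a ≠ (ℓ : k) + 1) (hT : Tcoh N k ℓ x₁ = a • x₁) {r : ℚ} (hr : InX N r) :
    Pfn x₁ (r + (q : ℚ)⁻¹) = Pfn x₁ r := by
  have hℓN : ¬ ℓ ∣ N := fun h => hℓNq (Dvd.dvd.mul_right h q)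
  have hℓq : ℓ ≠ q := fun h => hℓNq (h ▸ Dvd.intro_left N rfl)
  have hcopN : ℓ.Coprime N := (Nat.Prime.coprime_iff_not_dvd hℓ).mpr hℓN
  have hq0 : (q : ℚ) ≠ 0 := by exact_mod_cast hq.ne_zero
  have hF₁ := isPer_Pfn hN x₁ hx₁
  have hF₂ := isPer_Pfn hN x₂ hx₂
  have hF₃ := isPer_Pfn hN x₃ hx₃
  have hp₂ : ∀ r, InX N r → ∀ n : ℤ, Pfn x₂ (r + (n : ℚ)) = Pfn x₂ r :=
    fun r hr n => hF₂.add_int hx₂ hr n
  have hp₃ : ∀ r, InX N r → ∀ n : ℤ, Pfn x₃ (r + (n : ℚ)) = Pfn x₃ r :=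
    fun r hr n => hF₃.add_int hx₃ hr n
  -- the key equation at every point of `X_N`
  have hE : ∀ s, InX N s → a * Pfn x₁ s + TT ℓ (Pfn x₁) 0 + TT ℓ (Pfn x₂) ((q : ℚ) * s)
      + TT ℓ (Pfn x₃) ((q : ℚ) * ((q : ℚ) * s))
      = ((ℓ : k) + 1) * (Pfn x₁ s + Pfn x₂ ((q : ℚ) * s) + Pfn x₃ ((q : ℚ) * ((q : ℚ) * s))) := by
    intro s hs
    have h1 := hO N q hN hq hqN k (g3fn q (Pfn x₁) (Pfn x₂) (Pfn x₃))
      (fun h r hr => g3_inv hN hq x₁ x₂ x₃ _ _ _ hF₁ hF₂ hF₃ g₁ g₂ g₃ hg₁ hg₂ hg₃ hrel h hr)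
      ℓ hℓ hℓNq hℓ1 s hs
    rw [g3_TT hq _ _ _ hp₂ hp₃ hℓ hℓN hℓq hs, TT_Pfn hN hℓ hℓN x₁ hx₁ a hT hs, smul_eq_mul,
      nsmul_eq_mul] at h1
    push_cast at h1
    exact h1
  have hr' : InX N (r + (q : ℚ)⁻¹) := inX_add_inv_q hq hqN hr
  have hqr : InX N ((q : ℚ) * r) := inX_nat_mul hr q
  have hqqr : InX N ((q : ℚ) * ((q : ℚ) * r)) := inX_nat_mul hqr q
  have c1 : (q : ℚ) * (r + (q : ℚ)⁻¹) = (q : ℚ) * r + 1 := by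
    field_simp
  have c2 : (q : ℚ) * ((q : ℚ) * r + 1) = (q : ℚ) * ((q : ℚ) * r) + ((q : ℕ) : ℚ) := by
    ring
  have E1 := hE r hr
  have E2 := hE _ hr'
  rw [c1, c2, TT_add_one hℓ hcopN _ hp₂ hqr, TT_add_nat hℓ hcopN _ hp₃ q _ hqqr] at E2
  have p2 : Pfn x₂ ((q : ℚ) * r + 1) = Pfn x₂ ((q : ℚ) * r) := by
    have := hp₂ _ hqr 1
    simpa using this
  have p3 : Pfn x₃ ((q : ℚ) * ((q : ℚ) * r) + ((q : ℕ) : ℚ)) = Pfn x₃ ((q : ℚ) * ((q : ℚ) * r)) := by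
    have := hp₃ _ hqqr (q : ℤ)
    simpa using this
  rw [p2, p3] at E2
  have h3 : (a - ((ℓ : k) + 1)) * (Pfn x₁ (r + (q : ℚ)⁻¹) - Pfn x₁ r) = 0 := by
    linear_combination E2 - E1
  exact sub_eq_zero.mp ((mul_eq_zero.mp h3).resolve_left (sub_ne_zero.mpr ha))

end First

section Core

/-- **Core**: a cuspidal eigen-homomorphism for a non-Eisenstein system of eigenvalues whose
period function is `1/q`-periodic vanishes.  (No hypothesis `q ≠ p`.) -/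
theorem core_zero (k : Type) [Field k] (p : ℕ) [Fact p.Prime] [CharP k p] {N q : ℕ}
    (hN : 2 ≤ N) (hq : q.Prime) (hqN : ¬ q ∣ N)
    (P : ℕ → Prop) (a : ℕ → k) (hP : ∀ ℓ, P ℓ → ℓ.Prime ∧ ¬ ℓ ∣ N * q ∧ ℓ ≠ p)
    (hex : ∀ M : ℕ, 0 < M → p ∣ M →
      ∃ ℓ, P ℓ ∧ ℓ % M = 1 % M ∧ (q : ZMod ℓ) ^ ((ℓ - 1) / p) ≠ 1 ∧ a ℓ ≠ 2)
    (x : Additive (Gamma0 N) →+ k) (hx : IsCuspidalHom (Gamma0 N) x)
    (heig : ∀ ℓ, P ℓ → Tcoh N k ℓ x = a ℓ • x)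
    (h1 : ∀ r, InX N r → Pfn x (r + (q : ℚ)⁻¹) = Pfn x r) : x = 0 := by
  have hp : p.Prime := Fact.out
  have hF := isPer_Pfn hN x hx
  have hinv : ∀ r, InX N r → Pfn x ((q : ℚ) ^ 2 * r) = Pfn x r :=
    fun r hr => per_q2 hN hq hqN x (Pfn x) hF h1 hr
  have hper : ∀ r t, InX N r → InZq q t → Pfn x (r + t) = Pfn x r :=
    fun r t hr ht => per_Zq hq hqN x hx (Pfn x) hF hinv hr ht
  -- the key claim
  have key : ∀ r, InX N r → Pfn x r = Pfn x 0 := by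
    intro r hr
    obtain ⟨m, hm0, hmr, hmq⟩ := exists_prime_to_q_part hq r
    have hk0 : 0 < m.totient := Nat.totient_pos.mpr hm0
    have hM0 : 0 < m * (2 * m.totient) * p := by
      have := hp.pos
      positivity
    obtain ⟨ℓ, hPℓ, hℓM, hqℓ, haℓ⟩ := hex (m * (2 * m.totient) * p) hM0 (dvd_mul_left _ _)
    obtain ⟨hℓ, hℓNq, hℓp⟩ := hP ℓ hPℓ
    have hℓN : ¬ ℓ ∣ N := fun h => hℓNq (dvd_mul_of_dvd_left h q)
    have hℓq : ¬ ℓ ∣ q := fun h => hℓNq (dvd_mul_of_dvd_right h N)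
    have hMdvd : m * (2 * m.totient) * p ∣ ℓ - 1 :=
      (Nat.modEq_iff_dvd' hℓ.one_le).mp (Nat.ModEq.symm hℓM)
    have hℓm : ℓ % m = 1 % m :=
      Nat.ModEq.of_dvd (Dvd.intro _ (mul_assoc m (2 * m.totient) p).symm) hℓM
    have h2kp : 2 * m.totient * p ∣ ℓ - 1 :=
      dvd_trans ⟨m, by ring⟩ hMdvd
    have hpℓ : p ∣ ℓ - 1 := dvd_trans (dvd_mul_left _ _) hMdvd
    have hℓ1 : (ℓ : k) = 1 := by
      have h0 : ((ℓ - 1 : ℕ) : k) = 0 := (CharP.cast_eq_zero_iff k p _).mpr hpℓ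
      rw [Nat.cast_sub hℓ.one_le, Nat.cast_one, sub_eq_zero] at h0
      exact h0
    have hord : p ∣ orderOf ((q : ZMod ℓ) ^ (2 * m.totient)) :=
      dvd_orderOf_of_pow_ne_one hp hℓ hℓq h2kp hqℓ
    have ha : a ℓ ≠ (ℓ : k) + 1 := by
      rw [hℓ1]
      intro h
      apply haℓ
      rw [h]
      norm_num
    have hTa : Tcoh N k ℓ x = a ℓ • x := heig ℓ hPℓ
    have hTT : ∀ s, InX N s → TT ℓ (Pfn x) s = a ℓ * Pfn x s + TT ℓ (Pfn x) 0 := by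
      intro s hs
      rw [TT_Pfn hN hℓ hℓN x hx (a ℓ) hTa hs, smul_eq_mul]
    obtain ⟨κ', hκ'⟩ := exists_const_eig_k ℓ (a ℓ) (TT ℓ (Pfn x) 0) ha
    have hE' : ∀ s, InX N s → TT ℓ (fun s => Pfn x s + κ') s = a ℓ * (Pfn x s + κ') :=
      fun s hs => hκ' (Pfn x) s (hTT s hs)
    have hinv' : ∀ s, InX N s → (fun s => Pfn x s + κ') ((q : ℚ) ^ 2 * s)
        = (fun s => Pfn x s + κ') s := by
      intro s hs
      have := hinv s hs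
      simp only at this ⊢
      rw [this]
    have hper' : ∀ s t, InX N s → InZq q t → (fun s => Pfn x s + κ') (s + t)
        = (fun s => Pfn x s + κ') s := by
      intro s t hs ht
      have := hper s t hs ht
      simp only at this ⊢
      rw [this]
    have hmod := pow_two_mul_totient_mod hmq
    have hCr := ihCk_gen k p N q hN hq hqN (fun s => Pfn x s + κ') hinv' hper' ℓ (a ℓ) hℓ hℓNq
      hE' r m m.totient hr hm0 hmr hmq hmod hℓm hord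
    have hC0 := ihCk_gen k p N q hN hq hqN (fun s => Pfn x s + κ') hinv' hper' ℓ (a ℓ) hℓ hℓNq
      hE' 0 m m.totient (inX_zero N) hm0 ⟨0, by simp⟩ hmq hmod hℓm hord
    have ha2 : a ℓ - 2 ≠ 0 := sub_ne_zero.mpr haℓ
    have e1 := (mul_eq_zero.mp hCr).resolve_left ha2
    have e2 := (mul_eq_zero.mp hC0).resolve_left ha2
    beta_reduce at e1 e2
    linear_combination e1 - e2
  -- conclusion
  apply AddMonoidHom.ext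
  intro g
  have h5 := Pfn_mob_zero hN x hx (Additive.toMul g)
  rw [key _ (inX_mob (Additive.toMul g) (inX_zero N)), Pfn_zero hN x hx] at h5
  exact h5.symm

end Core

end Fermat.Agent.S59.NonMin.Geom.H78
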