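/-
S59, package RT-NONMIN, sub-package NMGEOM, leaf B0 (helper92), part A (pure algebra):
the Tate module of `𝒪 ⊗ A` in coordinates.

`A` is a `p`-divisible group with a compatible system of coordinates `e k i ∈ A[p^k]`
(`IsCoordSys`: `p • e (k+1) i = e k i`, the `e k i` form a basis of `A[p^k]` over `ℤ/p^k`).
Then, for a complete discrete valuation ring `𝒪` flat over `ℤ` with `p = π' ϖ`,

  `Ψ : 𝒪^r ≃ T_ϖ(𝒪 ⊗ A)`,   `(Ψ d)_k = ∑ i, (d i π'^k) ⊗ e k i`,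

and `Ψ` intertwines an endomorphism of `A` with its matrix in the coordinates.
-/
import Mathlib
import Fermat.Agent.S59.Lim.H2_TateMap
import Fermat.Agent.S59.NonMin.Geom.H92_B0Coord

set_option autoImplicit false
set_option linter.unusedSectionVars false
set_option linter.style.haveILetI false
set_option linter.unusedVariables false

noncomputable section

open IsLocalRing TensorProduct

namespace Fermat.Agent.S59.NonMin.Geom.H92B

open Fermat.Agent.S59.Lim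

/-! ### Coordinate systems -/

section CoordSys

variable {A : Type} [AddCommGroup A] {r : ℕ}

variable {p : ℕ} {e : ℕ → Fin r → A}

variable {𝒪 : Type} [CommRing 𝒪]

/-- Independence of the coordinates after tensoring with a flat ring. -/
theorem tmul_indep [Module.Flat ℤ 𝒪] (he : IsCoordSys p e) (k : ℕ) (a : Fin r → 𝒪)
    (h : ∑ i, a i ⊗ₜ[ℤ] e k i = (0 : 𝒪 ⊗[ℤ] A)) :
    ∀ i, ∃ c : 𝒪, a i = (p : 𝒪) ^ k * c := by
  classical
  have hsum : ∑ i, e k i ⊗ₜ[ℤ] a i = (0 : A ⊗[ℤ] 𝒪) := by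
    have := congrArg (TensorProduct.comm ℤ 𝒪 A) h
    simpa using this
  have hinj : Function.Injective
      (LinearMap.rTensor 𝒪 (Submodule.span ℤ (Set.range (e k))).subtype) :=
    Module.Flat.rTensor_preserves_injective_linearMap _ (Submodule.injective_subtype _)
  obtain ⟨κ, α, y, h1, h2⟩ :=
    TensorProduct.vanishesTrivially_of_sum_tmul_eq_zero_of_rTensor_injective ℤ hinj hsum
  have hdvd : ∀ i j, ((p : ℤ) ^ k) ∣ α i j := fun i j =>
    he.indep k (fun i => α i j) (h2 j) i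
  choose c hc using hdvd
  intro i
  refine ⟨∑ j, (c i j : 𝒪) * y j, ?_⟩
  rw [h1 i, Finset.mul_sum]
  refine Finset.sum_congr rfl fun j _ => ?_
  rw [hc i j, zsmul_eq_mul]
  push_cast
  ring

/-- Every element of `𝒪 ⊗ A` killed by `p ^ k` is a combination of the `1 ⊗ e k i`. -/
theorem exists_tmul_of_pow_smul [Module.Flat ℤ 𝒪] (he : IsCoordSys p e) (k : ℕ)
    (y : 𝒪 ⊗[ℤ] A) (hy : ((p : 𝒪) ^ k) • y = 0) :
    ∃ a : Fin r → 𝒪, y = ∑ i, a i ⊗ₜ[ℤ] e k i := by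
  classical
  let f : A →ₗ[ℤ] A := ((p : ℤ) ^ k) • (LinearMap.id : A →ₗ[ℤ] A)
  have hf : ∀ z : 𝒪 ⊗[ℤ] A, f.baseChange 𝒪 z = ((p : 𝒪) ^ k) • z := by
    intro z
    induction z using TensorProduct.induction_on with
    | zero => simp
    | tmul b x =>
      rw [LinearMap.baseChange_tmul, TensorProduct.smul_tmul']
      show b ⊗ₜ[ℤ] (((p : ℤ) ^ k) • x) = _
      rw [TensorProduct.tmul_smul, TensorProduct.smul_tmul', zsmul_eq_mul, smul_eq_mul]
      congr 1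
      push_cast
      ring
    | add z w hz hw => rw [map_add, hz, hw, smul_add]
  have hker : f.baseChange 𝒪 y = 0 := by rw [hf, hy]
  have hmem : y ∈ LinearMap.ker (f.baseChange 𝒪) := hker
  have hex : Function.Exact (LinearMap.ker f).subtype f := fun x => by
    constructor
    · intro hx
      exact ⟨⟨x, hx⟩, rfl⟩
    · rintro ⟨z, rfl⟩
      exact z.2
  have hex' := Module.Flat.lTensor_exact 𝒪 hex
  have h2 := (hex' y).mp (by rw [← LinearMap.baseChange_eq_ltensor]; exact hker)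
  have key : ∀ y' : 𝒪 ⊗[ℤ] ↥(LinearMap.ker f),
      ∃ a : Fin r → 𝒪, (LinearMap.lTensor 𝒪 (LinearMap.ker f).subtype) y'
        = ∑ i, a i ⊗ₜ[ℤ] e k i := by
    intro y'
    induction y' using TensorProduct.induction_on with
    | zero => exact ⟨0, by simp⟩
    | tmul b x =>
      have hx : p ^ k • (x : A) = 0 := by
        have := x.2
        rw [LinearMap.mem_ker] at this
        have h3 : f (x : A) = ((p : ℤ) ^ k) • (x : A) := rfl
        rw [h3] at this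
        rw [← this, ← Nat.cast_pow, natCast_zsmul]
      obtain ⟨n, hn⟩ := he.span k (x : A) hx
      refine ⟨fun i => n i • b, ?_⟩
      show b ⊗ₜ[ℤ] (x : A) = _
      rw [hn, TensorProduct.tmul_sum]
      refine Finset.sum_congr rfl fun i _ => ?_
      rw [TensorProduct.tmul_smul, TensorProduct.smul_tmul']
    | add z w hz hw =>
      obtain ⟨a, ha⟩ := hz
      obtain ⟨a', ha'⟩ := hw
      refine ⟨a + a', ?_⟩
      rw [map_add, ha, ha', ← Finset.sum_add_distrib]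
      refine Finset.sum_congr rfl fun i _ => ?_
      rw [Pi.add_apply, TensorProduct.add_tmul]
  obtain ⟨y', hy'⟩ := h2
  obtain ⟨a, ha⟩ := key y'
  exact ⟨a, by rw [← hy', ha]⟩

end CoordSys

/-! ### The map `Ψ` -/

section Psi

variable {A : Type} [AddCommGroup A] {r : ℕ} {p : ℕ} {e : ℕ → Fin r → A}
variable {𝒪 : Type} [CommRing 𝒪]

/-- The `k`-th component of `Ψ d`. -/
def psiFun (π' : 𝒪) (e : ℕ → Fin r → A) (d : Fin r → 𝒪) (k : ℕ) : 𝒪 ⊗[ℤ] A :=
  ∑ i, (d i * π' ^ k) ⊗ₜ[ℤ] e k i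

theorem psiFun_mem {ϖ π' : 𝒪} (hp : (p : 𝒪) = π' * ϖ) (he : IsCoordSys p e)
    (d : Fin r → 𝒪) : psiFun π' e d ∈ H2.tate ϖ (𝒪 ⊗[ℤ] A) := by
  refine ⟨?_, fun k => ?_⟩
  · simp [psiFun, he.zero]
  · simp only [psiFun, Finset.smul_sum]
    refine Finset.sum_congr rfl fun i _ => ?_
    rw [TensorProduct.smul_tmul', smul_eq_mul, ← he.succ k i, TensorProduct.tmul_smul,
      TensorProduct.smul_tmul', nsmul_eq_mul, hp]
    congr 1
    ring

/-- **The coordinates of the Tate module**: `Ψ d = (∑ i, (d i π'^k) ⊗ e k i)_k`. -/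
def psi {ϖ π' : 𝒪} (hp : (p : 𝒪) = π' * ϖ) (he : IsCoordSys p e) :
    (Fin r → 𝒪) →ₗ[𝒪] H2.tate ϖ (𝒪 ⊗[ℤ] A) where
  toFun d := ⟨psiFun π' e d, psiFun_mem hp he d⟩
  map_add' d d' := by
    apply Subtype.ext
    funext k
    show psiFun π' e (d + d') k = psiFun π' e d k + psiFun π' e d' k
    simp only [psiFun, Pi.add_apply, add_mul, TensorProduct.add_tmul, Finset.sum_add_distrib]
  map_smul' c d := by
    apply Subtype.ext
    funext k
    show psiFun π' e (c • d) k = c • psiFun π' e d k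
    simp only [psiFun, Pi.smul_apply, smul_eq_mul, Finset.smul_sum, TensorProduct.smul_tmul',
      mul_assoc]

theorem ev_psi {ϖ π' : 𝒪} (hp : (p : 𝒪) = π' * ϖ) (he : IsCoordSys p e) (d : Fin r → 𝒪)
    (k : ℕ) : H2.ev ϖ (𝒪 ⊗[ℤ] A) k (psi hp he d) = ∑ i, (d i * π' ^ k) ⊗ₜ[ℤ] e k i := rfl

/-- `Ψ` intertwines an endomorphism of `A` with its matrix in the coordinates. -/
theorem psi_intertwine {ϖ π' : 𝒪} (hp : (p : 𝒪) = π' * ϖ) (he : IsCoordSys p e)
    (f : A →ₗ[ℤ] A) (M : Matrix (Fin r) (Fin r) ℤ)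
    (hf : ∀ k j, f (e k j) = ∑ i, M i j • e k i) (d : Fin r → 𝒪) :
    H2.map ϖ (f.baseChange 𝒪) (psi hp he d)
      = psi hp he ((M.map (Int.cast : ℤ → 𝒪)).mulVec d) := by
  apply H2.tate_ext
  intro k
  rw [H2.ev_map, ev_psi, ev_psi, map_sum]
  have h1 : ∀ j, (f.baseChange 𝒪) ((d j * π' ^ k) ⊗ₜ[ℤ] e k j)
      = ∑ i, (((M i j : ℤ) : 𝒪) * d j * π' ^ k) ⊗ₜ[ℤ] e k i := by
    intro j
    rw [LinearMap.baseChange_tmul, hf, TensorProduct.tmul_sum]
    refine Finset.sum_congr rfl fun i _ => ?_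
    rw [TensorProduct.tmul_smul, TensorProduct.smul_tmul', zsmul_eq_mul, mul_assoc]
  rw [Finset.sum_congr rfl fun j _ => h1 j, Finset.sum_comm]
  refine Finset.sum_congr rfl fun i _ => ?_
  rw [← TensorProduct.sum_tmul]
  congr 1
  rw [Matrix.mulVec, dotProduct, Finset.sum_mul]
  refine Finset.sum_congr rfl fun j _ => ?_
  rw [Matrix.map_apply]

variable [IsDomain 𝒪] [IsDiscreteValuationRing 𝒪] [IsAdicComplete (maximalIdeal 𝒪) 𝒪]
  [Module.Flat ℤ 𝒪]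

theorem psi_injective {ϖ π' : 𝒪} (hϖ : Irreducible ϖ) (hp : (p : 𝒪) = π' * ϖ)
    (hp0 : (p : 𝒪) ≠ 0) (he : IsCoordSys p e) : Function.Injective (psi (ϖ := ϖ) hp he) := by
  rw [injective_iff_map_eq_zero]
  intro d hd
  have hπ : π' ≠ 0 := fun h => hp0 (by rw [hp, h, zero_mul])
  funext i
  have hmem : ∀ k : ℕ, d i ∈ maximalIdeal 𝒪 ^ k := by
    intro k
    have h0 : ∑ j, (d j * π' ^ k) ⊗ₜ[ℤ] e k j = (0 : 𝒪 ⊗[ℤ] A) := by
      rw [← ev_psi (ϖ := ϖ) hp he d k, hd, map_zero]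
    obtain ⟨c, hc⟩ := tmul_indep he k (fun j => d j * π' ^ k) h0 i
    have h1 : d i * π' ^ k = (ϖ ^ k * c) * π' ^ k := by
      rw [hc, hp, mul_pow]
      ring
    have h2 : d i = ϖ ^ k * c := mul_right_cancel₀ (pow_ne_zero k hπ) h1
    rw [hϖ.maximalIdeal_eq, Ideal.span_singleton_pow, Ideal.mem_span_singleton]
    exact ⟨c, h2⟩
  have hH : IsHausdorff (maximalIdeal 𝒪) 𝒪 := inferInstance
  have := hH.haus (d i) (fun k => by
    rw [SModEq.zero, smul_eq_mul, Ideal.mul_top]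
    exact hmem k)
  exact this

theorem psi_surjective {ϖ π' : 𝒪} (hϖ : Irreducible ϖ) (hp : (p : 𝒪) = π' * ϖ)
    (hp0 : (p : 𝒪) ≠ 0) (he : IsCoordSys p e) : Function.Surjective (psi (ϖ := ϖ) hp he) := by
  classical
  have hϖ0 : ϖ ≠ 0 := hϖ.ne_zero
  haveI : IsPrecomplete (Ideal.span {ϖ}) 𝒪 := by
    rw [← hϖ.maximalIdeal_eq]
    infer_instance
  have hgen : ∀ x : H2.tate ϖ (𝒪 ⊗[ℤ] A), ∃ (a : Fin r → 𝒪) (y : H2.tate ϖ (𝒪 ⊗[ℤ] A)),
      x = ∑ i, a i • psi (ϖ := ϖ) hp he (Pi.single i 1) + ϖ • y := by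
    intro x
    have h1 : ϖ • H2.ev ϖ (𝒪 ⊗[ℤ] A) 1 x = 0 := by
      have := H2.pow_smul_ev 1 x
      rwa [pow_one] at this
    have h2 : ((p : 𝒪) ^ 1) • H2.ev ϖ (𝒪 ⊗[ℤ] A) 1 x = 0 := by
      rw [pow_one, hp, mul_smul, h1, smul_zero]
    obtain ⟨a, ha⟩ := exists_tmul_of_pow_smul he 1 _ h2
    have h3 : ∑ i, (ϖ * a i) ⊗ₜ[ℤ] e 1 i = (0 : 𝒪 ⊗[ℤ] A) := by
      rw [← h1, ha, Finset.smul_sum]
      refine Finset.sum_congr rfl fun i _ => ?_
      rw [TensorProduct.smul_tmul', smul_eq_mul]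
    have h4 := tmul_indep he 1 (fun i => ϖ * a i) h3
    choose c hc using h4
    have h5 : ∀ i, a i = c i * π' ^ 1 := by
      intro i
      have := hc i
      rw [pow_one, hp] at this
      have h6 : ϖ * a i = ϖ * (c i * π' ^ 1) := by rw [this]; ring
      exact mul_left_cancel₀ hϖ0 h6
    have h7 : H2.ev ϖ (𝒪 ⊗[ℤ] A) 1 (x - psi (ϖ := ϖ) hp he c) = 0 := by
      rw [map_sub, ev_psi, ha, sub_eq_zero]
      exact Finset.sum_congr rfl fun i _ => by rw [h5 i]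
    obtain ⟨y, hy⟩ := (H2.ev_eq_zero_iff 1 _).mp h7
    refine ⟨c, y, ?_⟩
    have h8 : psi (ϖ := ϖ) hp he c = ∑ i, c i • psi (ϖ := ϖ) hp he (Pi.single i 1) := by
      have : c = ∑ i, c i • (Pi.single i (1 : 𝒪) : Fin r → 𝒪) := by
        funext j
        simp [Finset.sum_apply, Pi.single_apply]
      conv_lhs => rw [this]
      rw [map_sum]
      exact Finset.sum_congr rfl fun i _ => by rw [map_smul]
    have hy' : x - psi (ϖ := ϖ) hp he c = ϖ • y := by rw [hy, pow_one]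
    rw [← h8, ← hy']
    abel
  have hspan := H2.span_eq_top_of_complete ϖ (fun x hx => H2.tate_separated x hx)
    (fun i => psi (ϖ := ϖ) hp he (Pi.single i 1)) hgen
  intro x
  have hx : x ∈ Submodule.span 𝒪 (Set.range fun i => psi (ϖ := ϖ) hp he (Pi.single i 1)) := by
    rw [hspan]
    exact Submodule.mem_top
  have hle : Submodule.span 𝒪 (Set.range fun i => psi (ϖ := ϖ) hp he (Pi.single i 1))
      ≤ LinearMap.range (psi (ϖ := ϖ) hp he) := by
    rw [Submodule.span_le]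
    rintro _ ⟨i, rfl⟩
    exact ⟨_, rfl⟩
  exact hle hx

/-- **`Ψ : 𝒪^r ≃ T_ϖ(𝒪 ⊗ A)`**. -/
def psiEquiv {ϖ π' : 𝒪} (hϖ : Irreducible ϖ) (hp : (p : 𝒪) = π' * ϖ)
    (hp0 : (p : 𝒪) ≠ 0) (he : IsCoordSys p e) :
    (Fin r → 𝒪) ≃ₗ[𝒪] H2.tate ϖ (𝒪 ⊗[ℤ] A) :=
  LinearEquiv.ofBijective (psi hp he) ⟨psi_injective hϖ hp hp0 he, psi_surjective hϖ hp hp0 he⟩

@[simp] theorem psiEquiv_apply {ϖ π' : 𝒪} (hϖ : Irreducible ϖ) (hp : (p : 𝒪) = π' * ϖ)
    (hp0 : (p : 𝒪) ≠ 0) (he : IsCoordSys p e) (d : Fin r → 𝒪) :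
    psiEquiv hϖ hp hp0 he d = psi hp he d := rfl

end Psi

end Fermat.Agent.S59.NonMin.Geom.H92B
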