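/-
S59, package RT-NONMIN, sub-package NMGEOM, leaf B0 (helper92), part B (pure algebra):
the Tate module of the `θ`-part in coordinates.

`A` a `p`-divisible group with a coordinate system `e` (`IsCoordSys p e`), `η : 𝕋 → End_ℤ A` a
commutative ring of operators whose generators `g ∈ G` have the integer matrices `Mat g` in the
coordinates.  Then (`exists_J`) there is an injective `𝒪`-linear map

  `J : T_ϖ((𝒪 ⊗ A)_θ) → 𝒪^r`

whose range is `locSub ⊤ (bmEta 𝒪 Mat) θ G` (helper61's `θ`-local part of `𝒪^r`) and which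
intertwines `T_ϖ(η t)` with `bmEta 𝒪 Mat t`.
-/
import Mathlib
import Fermat.Agent.S59.Lim.H2_Theta
import Fermat.Agent.S59.NonMin.Geom.H92_B0Psi
import Fermat.Agent.S59.NonMin.Geom.H61_BM

set_option autoImplicit false
set_option linter.unusedSectionVars false
set_option linter.style.haveILetI false
set_option linter.unusedVariables false

noncomputable section

open IsLocalRing TensorProduct

namespace Fermat.Agent.S59.NonMin.Geom.H92B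

open Fermat.Agent.S59.Lim Fermat.Agent.S59.NonMin.Geom.H61

/-! ### Matrices: from the generators to the ring -/

section Mat

variable {A : Type} [AddCommGroup A] {r : ℕ} {e : ℕ → Fin r → A}
  {𝕋 : Type} [CommRing 𝕋]

theorem mat_of_gen (η : 𝕋 →+* Module.End ℤ A) (Mat : 𝕋 →+* Matrix (Fin r) (Fin r) ℤ)
    {G : Set 𝕋} (hG : Algebra.adjoin ℤ G = ⊤)
    (h : ∀ g ∈ G, ∀ k j, η g (e k j) = ∑ i, Mat g i j • e k i) (t : 𝕋) :
    ∀ k j, η t (e k j) = ∑ i, Mat t i j • e k i := by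
  classical
  have ht : t ∈ Algebra.adjoin ℤ G := by rw [hG]; exact Algebra.mem_top
  induction ht using Algebra.adjoin_induction with
  | mem x hx => exact h x hx
  | algebraMap n =>
    intro k j
    rw [eq_intCast (algebraMap ℤ 𝕋) n, map_intCast, map_intCast]
    have h1 : ((n : Module.End ℤ A)) (e k j) = n • e k j := by
      rw [← zsmul_one, LinearMap.smul_apply, Module.End.one_apply]
    rw [h1]
    have h2 : ∀ i, ((n : Matrix (Fin r) (Fin r) ℤ)) i j • e k i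
        = if i = j then n • e k j else 0 := by
      intro i
      rw [← zsmul_one, Matrix.smul_apply, Matrix.one_apply]
      split_ifs with hij
      · rw [hij]
        simp
      · simp
    rw [Finset.sum_congr rfl fun i _ => h2 i, Finset.sum_ite_eq' Finset.univ j]
    simp
  | add x y _ _ hx hy =>
    intro k j
    rw [map_add, map_add, LinearMap.add_apply, hx, hy, ← Finset.sum_add_distrib]
    refine Finset.sum_congr rfl fun i _ => ?_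
    rw [Matrix.add_apply, add_smul]
  | mul x y _ _ hx hy =>
    intro k j
    rw [map_mul, map_mul, Module.End.mul_apply, hy, map_sum]
    have h1 : ∀ i, η x (Mat y i j • e k i) = ∑ l, (Mat x l i * Mat y i j) • e k l := by
      intro i
      rw [map_zsmul, hx, Finset.smul_sum]
      refine Finset.sum_congr rfl fun l _ => ?_
      rw [smul_smul, mul_comm]
    rw [Finset.sum_congr rfl fun i _ => h1 i, Finset.sum_comm]
    refine Finset.sum_congr rfl fun l _ => ?_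
    rw [← Finset.sum_smul, Matrix.mul_apply]

end Mat

/-! ### Powers -/

section Pow

variable {𝒪 : Type} [CommRing 𝒪] [IsDomain 𝒪] [IsDiscreteValuationRing 𝒪]
  {P : Type*} [AddCommGroup P] [Module 𝒪 P]

/-- An operator which is nilpotent modulo `𝔪` is topologically nilpotent. -/
theorem pow_mem_pow_smul_top {ϖ : 𝒪} (hϖ : Irreducible ϖ) {F : Module.End 𝒪 P} {m₀ : ℕ}
    (h : ∀ v : P, (F ^ m₀) v ∈ (maximalIdeal 𝒪 • ⊤ : Submodule 𝒪 P)) (k : ℕ) :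
    ∀ v : P, (F ^ (m₀ * k)) v ∈ (maximalIdeal 𝒪 ^ k • ⊤ : Submodule 𝒪 P) := by
  induction k with
  | zero =>
    intro v
    rw [mem_pow_smul_top_iff hϖ]
    exact ⟨v, by simp⟩
  | succ k ih =>
    intro v
    have h1 := h v
    rw [mem_smul_top_iff hϖ] at h1
    obtain ⟨y, hy⟩ := h1
    have h2 := ih y
    rw [mem_pow_smul_top_iff hϖ] at h2 ⊢
    obtain ⟨z, hz⟩ := h2
    refine ⟨z, ?_⟩
    have hF : (F ^ (m₀ * (k + 1))) v = (F ^ (m₀ * k)) ((F ^ m₀) v) := by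
      rw [mul_add, mul_one, pow_add, Module.End.mul_apply]
    rw [hF, ← hy, map_smul, ← hz, smul_smul, pow_succ']

end Pow

/-! ### The map `J` -/

section J

variable {𝒪 : Type} [CommRing 𝒪] [IsDomain 𝒪] [IsDiscreteValuationRing 𝒪]
  [IsAdicComplete (maximalIdeal 𝒪) 𝒪] [Module.Flat ℤ 𝒪]
  {A : Type} [AddCommGroup A] {r : ℕ} {p : ℕ} {e : ℕ → Fin r → A}
  {𝕋 : Type} [CommRing 𝕋]
  (η : 𝕋 →+* Module.End ℤ A) (Mat : 𝕋 →+* Matrix (Fin r) (Fin r) ℤ)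
  (θ : 𝕋 →+* ResidueField 𝒪)
  {ϖ π' : 𝒪}

/-- `Ψ` intertwines `T_ϖ(η t)` with the matrix of `t`. -/
theorem psi_eta (hp : (p : 𝒪) = π' * ϖ) (he : IsCoordSys p e)
    (hall : ∀ t k j, η t (e k j) = ∑ i, Mat t i j • e k i) (t : 𝕋) (d : Fin r → 𝒪) :
    H2.map ϖ ((η t).baseChange 𝒪) (psi (ϖ := ϖ) hp he d)
      = psi (ϖ := ϖ) hp he (bmEta 𝒪 Mat t d) :=
  psi_intertwine hp he (η t) (Mat t) (hall t) d

theorem psi_eta_sub (hp : (p : 𝒪) = π' * ϖ) (he : IsCoordSys p e)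
    (hall : ∀ t k j, η t (e k j) = ∑ i, Mat t i j • e k i) (t : 𝕋) (a : 𝒪)
    (d : Fin r → 𝒪) :
    H2.mapEnd ϖ (𝒪 ⊗[ℤ] A) ((η t).baseChange 𝒪 - a • (1 : Module.End 𝒪 (𝒪 ⊗[ℤ] A)))
        (psi (ϖ := ϖ) hp he d)
      = psi (ϖ := ϖ) hp he ((bmEta 𝒪 Mat t - a • (1 : Module.End 𝒪 (Fin r → 𝒪))) d) := by
  rw [map_sub, map_smul, map_one, LinearMap.sub_apply, LinearMap.smul_apply,
    Module.End.one_apply, H2.mapEnd_apply, psi_eta η Mat hp he hall, LinearMap.sub_apply,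
    LinearMap.smul_apply, Module.End.one_apply, map_sub, map_smul]

theorem psi_eta_pow (hp : (p : 𝒪) = π' * ϖ) (he : IsCoordSys p e)
    (hall : ∀ t k j, η t (e k j) = ∑ i, Mat t i j • e k i) (t : 𝕋) (a : 𝒪) (n : ℕ)
    (d : Fin r → 𝒪) :
    H2.mapEnd ϖ (𝒪 ⊗[ℤ] A)
        (((η t).baseChange 𝒪 - a • (1 : Module.End 𝒪 (𝒪 ⊗[ℤ] A))) ^ n) (psi (ϖ := ϖ) hp he d)
      = psi (ϖ := ϖ) hp he
          (((bmEta 𝒪 Mat t - a • (1 : Module.End 𝒪 (Fin r → 𝒪))) ^ n) d) := by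
  induction n generalizing d with
  | zero =>
    rw [pow_zero, pow_zero, map_one]
    rfl
  | succ n ih =>
    rw [pow_succ, map_mul, Module.End.mul_apply, psi_eta_sub η Mat hp he hall, ih, pow_succ,
      Module.End.mul_apply]

/-- The `k`-th component of `Ψ d` after `(η t - a)^n`. -/
theorem pow_ev_psi (hp : (p : 𝒪) = π' * ϖ) (he : IsCoordSys p e)
    (hall : ∀ t k j, η t (e k j) = ∑ i, Mat t i j • e k i) (t : 𝕋) (a : 𝒪) (n k : ℕ)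
    (d : Fin r → 𝒪) :
    (((η t).baseChange 𝒪 - a • (1 : Module.End 𝒪 (𝒪 ⊗[ℤ] A))) ^ n)
        (H2.ev ϖ (𝒪 ⊗[ℤ] A) k (psi (ϖ := ϖ) hp he d))
      = H2.ev ϖ (𝒪 ⊗[ℤ] A) k (psi (ϖ := ϖ) hp he
          (((bmEta 𝒪 Mat t - a • (1 : Module.End 𝒪 (Fin r → 𝒪))) ^ n) d)) := by
  rw [← psi_eta_pow η Mat hp he hall, H2.ev_mapEnd]

/-- `ev k (Ψ d) = 0` iff `d ∈ 𝔪^k 𝒪^r`. -/
theorem ev_psi_eq_zero_iff (hϖ : Irreducible ϖ) (hp : (p : 𝒪) = π' * ϖ) (hp0 : (p : 𝒪) ≠ 0)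
    (he : IsCoordSys p e) (k : ℕ) (d : Fin r → 𝒪) :
    H2.ev ϖ (𝒪 ⊗[ℤ] A) k (psi (ϖ := ϖ) hp he d) = 0 ↔
      d ∈ (maximalIdeal 𝒪 ^ k • ⊤ : Submodule 𝒪 (Fin r → 𝒪)) := by
  rw [mem_pow_smul_top_iff hϖ, H2.ev_eq_zero_iff]
  constructor
  · rintro ⟨y, hy⟩
    obtain ⟨d', rfl⟩ := psi_surjective hϖ hp hp0 he y
    refine ⟨d', psi_injective hϖ hp hp0 he ?_⟩
    rw [map_smul, hy]
  · rintro ⟨d', rfl⟩
    exact ⟨psi (ϖ := ϖ) hp he d', by rw [map_smul]⟩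

/-- The components of `Ψ d` are in the `θ`-part iff `d` is `θ`-local. -/
theorem ev_psi_mem_thetaPart_iff (hϖ : Irreducible ϖ) (hp : (p : 𝒪) = π' * ϖ)
    (hp0 : (p : 𝒪) ≠ 0) (he : IsCoordSys p e) {G : Set 𝕋} (hG : Algebra.adjoin ℤ G = ⊤)
    (hall : ∀ t k j, η t (e k j) = ∑ i, Mat t i j • e k i) (d : Fin r → 𝒪) :
    (∀ k, H2.ev ϖ (𝒪 ⊗[ℤ] A) k (psi (ϖ := ϖ) hp he d) ∈ H2.thetaPart η θ) ↔
      d ∈ locSub (⊤ : Submodule 𝒪 (Fin r → 𝒪)) (bmEta 𝒪 Mat) θ G := by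
  constructor
  · intro h
    refine ⟨Submodule.mem_top, fun g hg a ha m => ?_⟩
    obtain ⟨n, hn⟩ := H2.mem_thetaPart.mp (h m) g a ha
    refine ⟨n, ?_⟩
    rw [pow_ev_psi η Mat hp he hall, ev_psi_eq_zero_iff hϖ hp hp0 he] at hn
    exact hn
  · intro hd k
    rw [H2.mem_thetaPart]
    intro t a ha
    have hKst : ∀ t, ∀ v ∈ (⊤ : Submodule 𝒪 (Fin r → 𝒪)), bmEta 𝒪 Mat t v ∈
        (⊤ : Submodule 𝒪 (Fin r → 𝒪)) := fun _ _ _ => Submodule.mem_top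
    have hKsat : ∀ v : Fin r → 𝒪, ϖ • v ∈ (⊤ : Submodule 𝒪 (Fin r → 𝒪)) →
        v ∈ (⊤ : Submodule 𝒪 (Fin r → 𝒪)) := fun _ _ => Submodule.mem_top
    obtain ⟨m₀, hm₀⟩ := locSub_local (θ := θ) hG hϖ hKst hKsat t a ha
    refine ⟨m₀ * k, ?_⟩
    have h1 := pow_mem_pow_smul_top hϖ hm₀ k ⟨d, hd⟩
    rw [mem_pow_smul_top_iff hϖ] at h1
    obtain ⟨y, hy⟩ := h1
    have h2 := congrArg (Subtype.val :
      ↥(locSub (⊤ : Submodule 𝒪 (Fin r → 𝒪)) (bmEta 𝒪 Mat) θ G) → (Fin r → 𝒪)) hy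
    rw [coe_pow_of_coe _ (bmEta 𝒪 Mat t - a • (1 : Module.End 𝒪 (Fin r → 𝒪)))
      (fun v => rfl) (m₀ * k) ⟨d, hd⟩, Submodule.coe_smul] at h2
    rw [pow_ev_psi η Mat hp he hall, ev_psi_eq_zero_iff hϖ hp hp0 he, mem_pow_smul_top_iff hϖ]
    exact ⟨(y : Fin r → 𝒪), h2⟩

/-- `T_ϖ` of the inclusion of the `θ`-part. -/
def tateIncl (ϖ : 𝒪) : H2.tate ϖ ↥(H2.thetaPart η θ) →ₗ[𝒪] H2.tate ϖ (𝒪 ⊗[ℤ] A) :=
  H2.map ϖ (H2.thetaPart η θ).subtype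

theorem ev_tateIncl (k : ℕ) (x : H2.tate ϖ ↥(H2.thetaPart η θ)) :
    H2.ev ϖ (𝒪 ⊗[ℤ] A) k (tateIncl η θ ϖ x)
      = ((H2.ev ϖ ↥(H2.thetaPart η θ) k x : ↥(H2.thetaPart η θ)) : 𝒪 ⊗[ℤ] A) := rfl

theorem tateIncl_injective : Function.Injective (tateIncl η θ ϖ) :=
  H2.map_injective _ (Submodule.injective_subtype _)

theorem mem_range_tateIncl (x : H2.tate ϖ (𝒪 ⊗[ℤ] A)) :
    x ∈ Set.range (tateIncl η θ ϖ) ↔ ∀ k, H2.ev ϖ (𝒪 ⊗[ℤ] A) k x ∈ H2.thetaPart η θ := by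
  constructor
  · rintro ⟨y, rfl⟩ k
    rw [ev_tateIncl]
    exact Subtype.property _
  · intro h
    refine ⟨⟨fun k => ⟨H2.ev ϖ (𝒪 ⊗[ℤ] A) k x, h k⟩, ?_, fun k => ?_⟩, ?_⟩
    · exact Subtype.ext (H2.ev_zero x)
    · exact Subtype.ext (H2.smul_ev_succ k x)
    · exact H2.tate_ext fun k => rfl

theorem tateIncl_eta (t : 𝕋) (x : H2.tate ϖ ↥(H2.thetaPart η θ)) :
    tateIncl η θ ϖ (H2.mapEnd ϖ ↥(H2.thetaPart η θ) (H2.thetaEta η θ t) x)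
      = H2.map ϖ ((η t).baseChange 𝒪) (tateIncl η θ ϖ x) :=
  H2.tate_ext fun k => rfl

/-- **The Tate module of the `θ`-part in coordinates.** -/
theorem exists_J (hϖ : Irreducible ϖ) (hp : (p : 𝒪) = π' * ϖ) (hp0 : (p : 𝒪) ≠ 0)
    (he : IsCoordSys p e) {G : Set 𝕋} (hG : Algebra.adjoin ℤ G = ⊤)
    (hMat : ∀ g ∈ G, ∀ k j, η g (e k j) = ∑ i, Mat g i j • e k i) :
    ∃ J : H2.tate ϖ ↥(H2.thetaPart η θ) →ₗ[𝒪] (Fin r → 𝒪), Function.Injective J ∧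
      (∀ d, d ∈ Set.range J ↔
        d ∈ locSub (⊤ : Submodule 𝒪 (Fin r → 𝒪)) (bmEta 𝒪 Mat) θ G) ∧
      ∀ (t : 𝕋) (x : H2.tate ϖ ↥(H2.thetaPart η θ)),
        J (H2.mapEnd ϖ ↥(H2.thetaPart η θ) (H2.thetaEta η θ t) x) = bmEta 𝒪 Mat t (J x) := by
  have hall := mat_of_gen η Mat hG hMat
  set Ψ := psiEquiv (ϖ := ϖ) hϖ hp hp0 he with hΨ
  have hΨa : ∀ d, Ψ d = psi (ϖ := ϖ) hp he d := fun d => rfl
  refine ⟨Ψ.symm.toLinearMap ∘ₗ tateIncl η θ ϖ, ?_, ?_, ?_⟩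
  · exact Ψ.symm.injective.comp (tateIncl_injective η θ)
  · intro d
    rw [← ev_psi_mem_thetaPart_iff η Mat θ hϖ hp hp0 he hG hall d, ← mem_range_tateIncl]
    constructor
    · rintro ⟨x, hx⟩
      refine ⟨x, ?_⟩
      rw [← hΨa, ← hx]
      simp
    · rintro ⟨x, hx⟩
      refine ⟨x, ?_⟩
      show Ψ.symm (tateIncl η θ ϖ x) = d
      rw [hx, ← hΨa, LinearEquiv.symm_apply_apply]
  · intro t x
    show Ψ.symm (tateIncl η θ ϖ _) = bmEta 𝒪 Mat t (Ψ.symm (tateIncl η θ ϖ x))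
    rw [tateIncl_eta, LinearEquiv.symm_apply_eq, hΨa, ← psi_eta η Mat hp he hall, ← hΨa,
      LinearEquiv.apply_symm_apply]

end J

end Fermat.Agent.S59.NonMin.Geom.H92B
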