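import Fermat.Agent.S59.NonMin.Geom.H94_Red

/-!
# S59 / NMGEOM, leaf DUAL (helper94): the assembly

`dual_of : Stmt_DUALk → Stmt_LIFTB → Stmt_DUAL`: reduce `φ` (`H94.inBettik_redB`), solve over the
residue field (`Stmt_DUALk`), lift the solution (`Stmt_LIFTB`); `α'` commutes with the reduction.

* `sig_level` : under `GeomHyp`, every `r ∈ Sig` divides `N q²` exactly twice.

No `sorry`.
-/

set_option autoImplicit false

open CuspForm CongruenceSubgroup IsLocalRing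
open scoped MatrixGroups

namespace Fermat.Agent.S59.NonMin.Geom.H94

open Fermat.Agent.S41 Fermat.Agent.Betti Fermat.Agent.S59.NonMin.Geom
open ModularCurve.Period

/-- Under `GeomHyp`, every `r ∈ Sig` divides the level `N` exactly twice. -/
theorem sig_level_base {p : ℕ} {Smin : Finset ℕ} {N₀ : ℕ} {Sig : Finset ℕ} {N : ℕ} {S : Finset ℕ}
    (hG : GeomHyp p Smin N₀ Sig N S) {r : ℕ} (hr : r ∈ Sig) :
    r.Prime ∧ r ≠ p ∧ ∃ M₀ : ℕ, N = M₀ * r ^ 2 ∧ ¬ r ∣ M₀ := by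
  obtain ⟨hrp, hrne, hrS⟩ := hG.hSig r hr
  refine ⟨hrp, hrne, N₀ * ∏ r' ∈ Sig.erase r, r' ^ 2, ?_, ?_⟩
  · rw [hG.hN, ← Finset.mul_prod_erase Sig (fun r' => r' ^ 2) hr]
    ring
  · intro hdvd
    rcases (Nat.Prime.dvd_mul hrp).mp hdvd with h | h
    · exact hrS (hG.hN₀S r hrp h)
    · obtain ⟨r', hr', hdv⟩ := (Prime.dvd_finsetProd_iff hrp.prime _).mp h
      have h1 : r ∣ r' := hrp.dvd_of_dvd_pow hdv
      have hr'p : r'.Prime := (hG.hSig r' (Finset.mem_of_mem_erase hr')).1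
      have h2 : r = r' := (Nat.prime_dvd_prime_iff_eq hrp hr'p).mp h1
      exact (Finset.ne_of_mem_erase hr') h2.symm

/-- Under `GeomHyp`, every `r ∈ Sig` divides the level `N q²` exactly twice (`q ∉ S`). -/
theorem sig_level {p : ℕ} {Smin : Finset ℕ} {N₀ : ℕ} {Sig : Finset ℕ} {N : ℕ} {S : Finset ℕ}
    (hG : GeomHyp p Smin N₀ Sig N S) {q : ℕ} (hq : q.Prime) (hqS : q ∉ (↑S : Set ℕ))
    {r : ℕ} (hr : r ∈ Sig) :
    r.Prime ∧ r ≠ p ∧ ∃ M₀ : ℕ, N * q ^ 2 = M₀ * r ^ 2 ∧ ¬ r ∣ M₀ := by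
  obtain ⟨hrp, hrne, M₀, hM₀, hrM₀⟩ := sig_level_base hG hr
  refine ⟨hrp, hrne, M₀ * q ^ 2, ?_, ?_⟩
  · rw [hM₀]
    ring
  · intro hdvd
    rcases (Nat.Prime.dvd_mul hrp).mp hdvd with h | h
    · exact hrM₀ h
    · have h1 : r ∣ q := hrp.dvd_of_dvd_pow h
      have h2 : r = q := (Nat.prime_dvd_prime_iff_eq hrp hq).mp h1
      apply hqS
      rw [hG.hS, ← h2]
      exact Finset.mem_coe.mpr (Finset.mem_union_right _ hr)

/-- **DUAL** from its `k`-level form and the lifting. -/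
theorem dual_of (hk : Stmt_DUALk) (hL : Stmt_LIFTB) : Stmt_DUAL := by
  intro 𝒪 _ _ _ _ _ _ p _ hp2 hpm ρbar Smin hres N₀ Sig N _ S hG θ hF q hq hqp hqN hqS _ rest
    hrest φ hφ
  obtain ⟨ψb, hψb, hα⟩ := hk 𝒪 p hp2 hpm ρbar Smin hres N₀ Sig N S hG θ hF q hq hqp hqN hqS
    rest hrest (redB 𝒪 φ) (inBettik_redB hφ)
  obtain ⟨ψ, hψ, hred⟩ := hL 𝒪 p hpm (N * q ^ 2) (↑(insert q S) : Set ℕ) (θ.comp rest) Sig
    (fun r hr => sig_level hG hq hqS hr) ψb hψb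
  refine ⟨ψ, hψ, ?_⟩
  rw [← redB_eq_iff, ← alphaB'_redB, hred, hα]

end Fermat.Agent.S59.NonMin.Geom.H94
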