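import Fermat.Agent.S59.NonMin.Geom.H94_Red
import Fermat.Agent.S41.H77_LLiftBase

/-!
# S59 / NMGEOM, leaf DUAL, part LIFT-B (helper94): TORSLIFT with values in the residue field

`exists_par_lift` : a cuspidal homomorphism `Γ₀(M) → k`, `k` the (finite) residue field of `𝒪`, is
the reduction of a cuspidal homomorphism `Γ₀(M) → 𝒪`.
[Coordinates in a basis of `k` over `𝔽_p` and `S41.H77.exists_cusp_lift`.]

No `sorry`.
-/

set_option autoImplicit false
set_option linter.unusedSectionVars false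
set_option linter.style.haveILetI false

open CuspForm CongruenceSubgroup IsLocalRing
open scoped MatrixGroups

namespace Fermat.Agent.S59.NonMin.Geom.H94

open Fermat.Agent.S41 Fermat.Agent.Betti Fermat.Agent.S59.NonMin.Geom
open ModularCurve.Period

/-- TORSLIFT with values in the residue field. -/
theorem exists_par_lift {𝒪 : Type} [CommRing 𝒪] [IsLocalRing 𝒪] [Finite (ResidueField 𝒪)]
    (p : ℕ) [Fact p.Prime] (hp : (p : 𝒪) ∈ maximalIdeal 𝒪) (M : ℕ) (hM : M ≠ 0)
    (χ : Additive (Gamma0 M) →+ ResidueField 𝒪) (hχ : IsCuspidalHom (Gamma0 M) χ) :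
    ∃ φ : Additive (Gamma0 M) →+ 𝒪, IsCuspidalHom (Gamma0 M) φ ∧ redB 𝒪 φ = χ := by
  classical
  have hp0 : ((p : ℕ) : ResidueField 𝒪) = 0 := by
    have h1 : residue 𝒪 (p : 𝒪) = 0 := (residue_eq_zero_iff _).mpr hp
    rwa [map_natCast] at h1
  haveI : CharP (ResidueField 𝒪) p :=
    (CharP.charP_iff_prime_eq_zero (Fact.out : p.Prime)).mpr hp0
  letI : Algebra (ZMod p) (ResidueField 𝒪) := ZMod.algebra _ p
  haveI : Module.Finite (ZMod p) (ResidueField 𝒪) := Module.Finite.of_finite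
  let B := Module.finBasis (ZMod p) (ResidueField 𝒪)
  -- the coordinates of `χ`
  let χc : Fin (Module.finrank (ZMod p) (ResidueField 𝒪)) → (Additive (Gamma0 M) →+ ZMod p) :=
    fun i => (B.coord i).toAddMonoidHom.comp χ
  have hχc : ∀ i, IsCuspidalHom (Gamma0 M) (χc i) := by
    intro i γ hγ
    show B.coord i (χ (Additive.ofMul γ)) = 0
    rw [hχ γ hγ, map_zero]
  have hlift : ∀ i, ∃ φ : Additive (Gamma0 M) →+ ℤ, IsCuspidalHom (Gamma0 M) φ ∧
      Fermat.Agent.S41.H77.redHom p φ = χc i :=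
    fun i => Fermat.Agent.S41.H77.exists_cusp_lift M hM p (χc i) (hχc i)
  choose φc hφc hφred using hlift
  have hβ : ∀ i, ∃ β : 𝒪, residue 𝒪 β = B i := fun i => residue_surjective (B i)
  choose β hβ using hβ
  refine ⟨∑ i, β i • (Int.castAddHom 𝒪).comp (φc i), ?_, ?_⟩
  · intro γ hγ
    rw [AddMonoidHom.finsetSum_apply]
    refine Finset.sum_eq_zero fun i _ => ?_
    show β i • ((φc i (Additive.ofMul γ) : ℤ) : 𝒪) = 0
    rw [hφc i γ hγ, Int.cast_zero, smul_zero]
  · refine AddMonoidHom.ext fun γ => ?_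
    rw [redB_apply, AddMonoidHom.finsetSum_apply, map_sum]
    have h1 : χ γ = ∑ i, B.repr (χ γ) i • B i := (B.sum_repr (χ γ)).symm
    rw [h1]
    refine Finset.sum_congr rfl fun i _ => ?_
    show residue 𝒪 (β i • ((φc i γ : ℤ) : 𝒪)) = _
    rw [smul_eq_mul, map_mul, hβ i, map_intCast]
    have h2 : B.repr (χ γ) i = ((φc i γ : ℤ) : ZMod p) := by
      have := congrArg (fun f : Additive (Gamma0 M) →+ ZMod p => f γ) (hφred i)
      exact this.symm
    rw [h2, Algebra.smul_def, map_intCast, mul_comm]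

end Fermat.Agent.S59.NonMin.Geom.H94
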