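import Fermat.Agent.S59.NonMin.Geom.H94_LiftTheta
import Fermat.Agent.S59.NonMin.Geom.H94_LiftTors

/-!
# S59 / NMGEOM, leaf DUAL, part LIFT-B (helper94): the wiring

* `Stmt_UADJ` : the `U_r`-adjustment (a `θ`-local parabolic class whose reduction is killed by
  the `U_r`, `r ∈ Sig`, is congruent to a class of the Betti lattice);
* `liftB_of : Stmt_UADJ → Stmt_LIFTB` : TORSLIFT with values in `k` (`H94.exists_par_lift`), the
  `θ`-limit step (`H94.exists_theta_lift`), then the adjustment.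

No `sorry`.
-/

set_option autoImplicit false
set_option linter.unusedSectionVars false

open CuspForm CongruenceSubgroup IsLocalRing
open scoped MatrixGroups

namespace Fermat.Agent.S59.NonMin.Geom.H94

open Fermat.Agent.S41 Fermat.Agent.Betti Fermat.Agent.S59.NonMin.Geom
open ModularCurve.Period

/-- **U-ADJ**: the adjustment by the projectors `e_r` of `Stmt_RELSPLIT`. -/
def Stmt_UADJ : Prop :=
  ∀ (𝒪 : Type) [CommRing 𝒪] [IsDomain 𝒪] [IsDiscreteValuationRing 𝒪] [CharZero 𝒪]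
    (M : ℕ) [NeZero M] (S : Set ℕ) (θ : CuspForm.heckeAlgebra M 2 S →+* ResidueField 𝒪)
    (Sig : Finset ℕ),
    (∀ r ∈ Sig, r.Prime ∧ IsUnit (r : 𝒪) ∧ ∃ M₀ : ℕ, M = M₀ * r ^ 2 ∧ ¬ r ∣ M₀) →
    ∀ ψ₁ : Additive (Gamma0 M) →+ 𝒪, InBetti 𝒪 M S θ ∅ ψ₁ →
    (∀ r ∈ Sig, ∀ hr : r ∣ M, UB M (ResidueField 𝒪) hr (redB 𝒪 ψ₁) = 0) →
    ∃ ψ : Additive (Gamma0 M) →+ 𝒪, InBetti 𝒪 M S θ Sig ψ ∧ redB 𝒪 ψ = redB 𝒪 ψ₁

/-- A prime `r ≠ p` is a unit in a local ring of residue characteristic `p`. -/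
theorem isUnit_natCast_of_ne {A : Type} [CommRing A] [IsLocalRing A] {p r : ℕ}
    (hp : p.Prime) (hr : r.Prime) (hrp : r ≠ p) (hpA : (p : A) ∈ maximalIdeal A) :
    IsUnit (r : A) := by
  by_contra hu
  have hrA : (r : A) ∈ maximalIdeal A := (mem_maximalIdeal _).2 hu
  have hcop : IsCoprime (p : ℤ) (r : ℤ) :=
    Nat.isCoprime_iff_coprime.2 ((Nat.coprime_primes hp hr).2 (Ne.symm hrp))
  obtain ⟨a, b, hab⟩ := hcop
  have h1 : ((a : A) * (p : A) + (b : A) * (r : A)) = 1 := by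
    have := congrArg (Int.cast : ℤ → A) hab
    push_cast at this
    exact this
  have h2 : (1 : A) ∈ maximalIdeal A := by
    rw [← h1]
    exact Ideal.add_mem _ (Ideal.mul_mem_left _ _ hpA) (Ideal.mul_mem_left _ _ hrA)
  exact (Ideal.ne_top_iff_one _).mp (maximalIdeal.isMaximal A).ne_top h2

/-- **LIFT-B** from the `U_r`-adjustment. -/
theorem liftB_of (h : Stmt_UADJ) : Stmt_LIFTB := by
  intro 𝒪 _ _ _ _ _ _ p _ hpm M _ S θ Sig hSig ψb hψb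
  obtain ⟨hcusp, hU, hnil⟩ := hψb
  obtain ⟨ψ₀, hψ₀, hred₀⟩ := exists_par_lift p hpm M (NeZero.ne M) ψb hcusp
  obtain ⟨ψ₁, hψ₁, hred₁⟩ := exists_theta_lift M S θ ψ₀ (par_of_cusp hψ₀)
    (fun ℓ hℓ hℓN hℓS a ha => by
      obtain ⟨n, hn⟩ := hnil ℓ hℓ hℓN hℓS
      refine ⟨n, ?_⟩
      rw [← redB_eq_zero_iff, ← iterate_redB, ha, hred₀]
      exact hn)
  obtain ⟨ψ, hψ, hred⟩ := h 𝒪 M S θ Sig
    (fun r hr => ⟨(hSig r hr).1,
      isUnit_natCast_of_ne Fact.out (hSig r hr).1 (hSig r hr).2.1 hpm, (hSig r hr).2.2⟩)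
    ψ₁ hψ₁ (fun r hr hrM => by rw [hred₁, hred₀]; exact hU r hr hrM)
  exact ⟨ψ, hψ, by rw [hred, hred₁, hred₀]⟩

end Fermat.Agent.S59.NonMin.Geom.H94
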