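import Mathlib
import Fermat.Prelude.Thm_IsAdicComplete_of_module_finite
import Fermat.Agent.S59.Patch.ULim
import Fermat.Agent.S59.Lim.H61_Loc

/-!
# S59 / NMGEOM, leaf DUAL, part LIFT-B (helper94): the abstract lifting lemma

Pure algebra.  Let `𝒪` be a complete noetherian local ring with finite residue field, `X` a
finite `𝒪`-module with an action `Φ : R →+* End_𝒪 X` of a commutative ring `R`, and `s ⊆ R`.

* `exists_lift_level` : if every `t ∈ s` is nilpotent at `x₀` modulo `I X`, then some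
  `x ≡ x₀ mod I X` has every `t ∈ s` nilpotent modulo `I^m X` (primary decomposition of the finite
  `R`-module `X / I^m X`, `Lim.H61`);
* `abs_lift` : … then some `x ≡ x₀ mod 𝔪 X` has `(Φ t)^n x → 0` for every `t ∈ s` (a limit along
  an ultrafilter, `Patch.ulim`).

No `sorry`.
-/

set_option autoImplicit false
set_option linter.style.haveILetI false

open IsLocalRing Filter

namespace Fermat.Agent.S59.NonMin.Geom.H94

open Fermat.Agent.S59.Lim Fermat.Agent.S59.Patch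

section Level

variable {𝒪 : Type} [CommRing 𝒪] {X : Type} [AddCommGroup X] [Module 𝒪 X]
  {R : Type} [CommRing R]

/-- `I • ⊤` is stable under endomorphisms. -/
theorem end_mem_smul_top (I : Ideal 𝒪) (f : Module.End 𝒪 X) {x : X}
    (hx : x ∈ (I • ⊤ : Submodule 𝒪 X)) : f x ∈ (I • ⊤ : Submodule 𝒪 X) := by
  have h : (I • ⊤ : Submodule 𝒪 X).map f ≤ I • ⊤ := by
    rw [Submodule.map_smul'']
    exact Submodule.smul_mono le_rfl le_top
  exact h (Submodule.mem_map_of_mem hx)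

/-- The submodule `I X` as an `R`-submodule. -/
def smulTopR (Φ : R →+* Module.End 𝒪 X) (I : Ideal 𝒪) :
    letI : Module R X := Module.compHom X Φ
    Submodule R X :=
  letI : Module R X := Module.compHom X Φ
  { carrier := ((I • ⊤ : Submodule 𝒪 X) : Set X)
    add_mem' := fun ha hb => Submodule.add_mem _ ha hb
    zero_mem' := Submodule.zero_mem _
    smul_mem' := fun r _ hx => end_mem_smul_top I (Φ r) hx }

theorem mem_smulTopR (Φ : R →+* Module.End 𝒪 X) (I : Ideal 𝒪) (x : X) :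
    letI : Module R X := Module.compHom X Φ
    x ∈ smulTopR Φ I ↔ x ∈ (I • ⊤ : Submodule 𝒪 X) := Iff.rfl

/-- The finite level. -/
theorem exists_lift_level (I : Ideal 𝒪) (Φ : R →+* Module.End 𝒪 X) (s : Set R) (m : ℕ)
    (hm : 1 ≤ m) (hfin : Finite (X ⧸ (I ^ m • ⊤ : Submodule 𝒪 X)))
    (x₀ : X) (h₀ : ∀ t ∈ s, ∃ n : ℕ, (Φ t ^ n) x₀ ∈ (I • ⊤ : Submodule 𝒪 X)) :
    ∃ x : X, x - x₀ ∈ (I • ⊤ : Submodule 𝒪 X) ∧
      ∀ t ∈ s, ∃ n : ℕ, (Φ t ^ n) x ∈ (I ^ m • ⊤ : Submodule 𝒪 X) := by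
  letI : Module R X := Module.compHom X Φ
  have hsm : ∀ (t : R) (n : ℕ) (x : X), t ^ n • x = (Φ t ^ n) x := by
    intro t n x
    show Φ (t ^ n) x = (Φ t ^ n) x
    rw [map_pow]
  set Nm : Submodule R X := smulTopR Φ (I ^ m) with hNm
  set N1 : Submodule R X := smulTopR Φ I with hN1
  have hle : Nm ≤ N1 := by
    intro x hx
    have h1 : (I ^ m • ⊤ : Submodule 𝒪 X) ≤ I • ⊤ :=
      Submodule.smul_mono_left (Ideal.pow_le_self (by omega))
    exact h1 hx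
  -- finiteness
  haveI hfm : Finite (X ⧸ Nm) := by
    let g : (X ⧸ (I ^ m • ⊤ : Submodule 𝒪 X)) → (X ⧸ Nm) :=
      Quotient.lift (fun x : X => (Submodule.Quotient.mk x : X ⧸ Nm)) (by
        intro a b hab
        have h1 : a - b ∈ (I ^ m • ⊤ : Submodule 𝒪 X) :=
          (Submodule.quotientRel_def _).mp hab
        exact (Submodule.Quotient.eq Nm).mpr h1)
    refine Finite.of_surjective g ?_
    intro w
    obtain ⟨x, rfl⟩ := Submodule.Quotient.mk_surjective Nm w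
    exact ⟨Submodule.Quotient.mk x, rfl⟩
  let f : (X ⧸ Nm) →ₗ[R] (X ⧸ N1) := Submodule.mapQ Nm N1 LinearMap.id hle
  have hf : ∀ x : X, f (Submodule.Quotient.mk x) = Submodule.Quotient.mk x := fun x => rfl
  haveI hf1 : Finite (X ⧸ N1) := by
    refine Finite.of_surjective f ?_
    intro w
    obtain ⟨x, rfl⟩ := Submodule.Quotient.mk_surjective N1 w
    exact ⟨Submodule.Quotient.mk x, hf x⟩
  have hlfm : ∀ w : X ⧸ Nm, Finite (Submodule.span R {w}) := fun _ => inferInstance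
  have hlf1 : ∀ w : X ⧸ N1, Finite (Submodule.span R {w}) := fun _ => inferInstance
  -- the class of `x₀` modulo `I X` is primary
  have h1 : (Submodule.Quotient.mk x₀ : X ⧸ N1) ∈ primPart (Ideal.span s) (X ⧸ N1) := by
    refine (H61.stmt_LOC_gk R (X ⧸ N1) hlf1 s _).mp ?_
    intro t ht
    obtain ⟨n, hn⟩ := h₀ t ht
    refine ⟨n, ?_⟩
    rw [← Submodule.Quotient.mk_smul, hsm, Submodule.Quotient.mk_eq_zero]
    exact hn
  obtain ⟨w, hw, hfw⟩ := H61.exists_prim_of_map_prim (Ideal.span s) hlfm f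
    (Submodule.Quotient.mk x₀) (by rw [hf]; exact h1)
  obtain ⟨x, rfl⟩ := Submodule.Quotient.mk_surjective Nm w
  refine ⟨x, ?_, ?_⟩
  · rw [hf, hf] at hfw
    exact (Submodule.Quotient.eq N1).mp hfw
  · intro t ht
    obtain ⟨n, hn⟩ := (H61.stmt_LOC_gk R (X ⧸ Nm) hlfm s _).mpr hw t ht
    refine ⟨n, ?_⟩
    rw [← Submodule.Quotient.mk_smul, hsm, Submodule.Quotient.mk_eq_zero] at hn
    exact hn

end Level

section Limit

variable {𝒪 : Type} [CommRing 𝒪] [IsLocalRing 𝒪] [IsNoetherianRing 𝒪]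
  [IsAdicComplete (maximalIdeal 𝒪) 𝒪] [Finite (ResidueField 𝒪)]
  {X : Type} [AddCommGroup X] [Module 𝒪 X] [Module.Finite 𝒪 X]
  {R : Type} [CommRing R]

/-- **The abstract lifting lemma.** -/
theorem abs_lift (Φ : R →+* Module.End 𝒪 X) (s : Set R) (x₀ : X)
    (h₀ : ∀ t ∈ s, ∃ n : ℕ, (Φ t ^ n) x₀ ∈ (maximalIdeal 𝒪 • ⊤ : Submodule 𝒪 X)) :
    ∃ x : X, x - x₀ ∈ (maximalIdeal 𝒪 • ⊤ : Submodule 𝒪 X) ∧
      ∀ t ∈ s, ∀ m : ℕ, ∃ n : ℕ, (Φ t ^ n) x ∈ (maximalIdeal 𝒪 ^ m • ⊤ : Submodule 𝒪 X) := by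
  haveI : FinQuot (maximalIdeal 𝒪) 𝒪 := finQuot_of_isLocalRing 𝒪
  haveI : FinQuot (maximalIdeal 𝒪) X := finQuot_of_finite _
  haveI : IsAdicComplete (maximalIdeal 𝒪) X := IsAdicComplete.of_module_finite _ _
  have hex : ∀ m : ℕ, ∃ x : X, x - x₀ ∈ (maximalIdeal 𝒪 • ⊤ : Submodule 𝒪 X) ∧
      ∀ t ∈ s, ∃ n : ℕ, (Φ t ^ n) x ∈ (maximalIdeal 𝒪 ^ (m + 1) • ⊤ : Submodule 𝒪 X) :=
    fun m => exists_lift_level (maximalIdeal 𝒪) Φ s (m + 1) (by omega) (FinQuot.fin (m + 1))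
      x₀ h₀
  choose u hu1 hu2 using hex
  have h𝔘 : ((hyperfilter ℕ : Ultrafilter ℕ) : Filter ℕ) ≤ atTop := by
    rw [← Nat.cofinite_eq_atTop]
    exact hyperfilter_le_cofinite
  set L : X := ulim (maximalIdeal 𝒪) (hyperfilter ℕ) u with hL
  have hpick : ∀ m : ℕ, ∃ n : ℕ, m ≤ n ∧
      u n - L ∈ (maximalIdeal 𝒪 ^ m • ⊤ : Submodule 𝒪 X) := by
    intro m
    have h1 := ulim_spec (maximalIdeal 𝒪) (hyperfilter ℕ) u m
    have h2 : ∀ᶠ n in ((hyperfilter ℕ : Ultrafilter ℕ) : Filter ℕ), m ≤ n :=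
      h𝔘 (eventually_ge_atTop m)
    obtain ⟨n, hn1, hn2⟩ := (h2.and h1).exists
    exact ⟨n, hn1, hn2⟩
  refine ⟨L, ?_, ?_⟩
  · obtain ⟨n, -, hn⟩ := hpick 1
    rw [pow_one] at hn
    have : L - x₀ = (u n - x₀) - (u n - L) := by abel
    rw [this]
    exact Submodule.sub_mem _ (hu1 n) hn
  · intro t ht m
    obtain ⟨n, hmn, hn⟩ := hpick m
    obtain ⟨k, hk⟩ := hu2 n t ht
    refine ⟨k, ?_⟩
    have h3 : (maximalIdeal 𝒪 ^ (n + 1) • ⊤ : Submodule 𝒪 X) ≤ maximalIdeal 𝒪 ^ m • ⊤ :=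
      Submodule.smul_mono_left (Ideal.pow_le_pow_right (by omega))
    have : (Φ t ^ k) L = (Φ t ^ k) (u n) - (Φ t ^ k) (u n - L) := by
      rw [map_sub]
      abel
    rw [this]
    exact Submodule.sub_mem _ (h3 hk) (end_mem_smul_top _ _ hn)

end Limit

end Fermat.Agent.S59.NonMin.Geom.H94
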