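import Fermat.Agent.S59.NonMin.Geom.H94_Red
import Fermat.Agent.S59.NonMin.Geom.H94_LiftAbs
import Fermat.Agent.S59.NonMin.Geom.H61_BM

/-!
# S59 / NMGEOM, leaf DUAL, part LIFT-B (helper94): the `θ`-limit step

`exists_theta_lift` : a parabolic `φ₀ : Γ₀(N) → 𝒪` on which every `T_ℓ - a` (`a` a lift of
`θ(T_ℓ)`) is nilpotent modulo `𝔪` is congruent modulo `𝔪` to a `θ`-local parabolic `φ`
(`InBetti 𝒪 N S θ ∅ φ`).
[`H94.abs_lift` for `X = 𝒪^r` in the coordinates `H61.bmPhi` of a universal basis, with the action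
of the monoid algebra `𝒪[𝕋]` of the Hecke algebra through `Betti.H76.stmt_matrixRep`.]

No `sorry`.
-/

set_option autoImplicit false
set_option linter.unusedSectionVars false
set_option linter.style.haveILetI false

open CuspForm CongruenceSubgroup IsLocalRing
open scoped MatrixGroups

namespace Fermat.Agent.S59.NonMin.Geom.H94

open Fermat.Agent.S41 Fermat.Agent.Betti Fermat.Agent.S59.NonMin.Geom
open ModularCurve.Period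

variable {𝒪 : Type} [CommRing 𝒪] [IsDomain 𝒪] [IsDiscreteValuationRing 𝒪]
  [IsAdicComplete (maximalIdeal 𝒪) 𝒪] [Finite (ResidueField 𝒪)] [CharZero 𝒪]

/-- The `θ`-limit step. -/
theorem exists_theta_lift (N : ℕ) [NeZero N] (S : Set ℕ)
    (θ : CuspForm.heckeAlgebra N 2 S →+* ResidueField 𝒪)
    (φ₀ : Additive (Gamma0 N) →+ 𝒪) (hpar : IsParabolicHom (Gamma0 N) φ₀)
    (hnil : ∀ (ℓ : ℕ) (hℓ : ℓ.Prime) (hℓN : ¬ ℓ ∣ N) (hℓS : ℓ ∉ S) (a : 𝒪),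
      residue 𝒪 a = θ (CuspForm.heckeAlgebra.T hℓ hℓN hℓS) →
      ∃ n : ℕ, ∀ γ : Additive (Gamma0 N),
        ((fun χ : Additive (Gamma0 N) →+ 𝒪 => TB N 𝒪 hℓ hℓN χ - a • χ)^[n] φ₀) γ ∈
          maximalIdeal 𝒪) :
    ∃ φ : Additive (Gamma0 N) →+ 𝒪, InBetti 𝒪 N S θ ∅ φ ∧ redB 𝒪 φ = redB 𝒪 φ₀ := by
  classical
  obtain ⟨r, b, hb⟩ := stmt_basis N
  obtain ⟨Mat, -, hT, -⟩ := Fermat.Agent.Betti.H76.stmt_matrixRep N S r b hb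
  obtain ⟨v₀, rfl⟩ := H61.bmPhi_surj hb φ₀ hpar
  -- the action of the monoid algebra of the Hecke algebra
  let E := Module.End 𝒪 (Fin r → 𝒪)
  let η : CuspForm.heckeAlgebra N 2 S →+* E := H61.bmEta 𝒪 Mat
  let R := MonoidAlgebra 𝒪 (CuspForm.heckeAlgebra N 2 S)
  let Φ : R →+* E :=
    (MonoidAlgebra.lift 𝒪 E (CuspForm.heckeAlgebra N 2 S)
      (η : CuspForm.heckeAlgebra N 2 S →* E)).toRingHom
  have hΦ : ∀ (g : CuspForm.heckeAlgebra N 2 S) (a : 𝒪),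
      Φ (MonoidAlgebra.of 𝒪 (CuspForm.heckeAlgebra N 2 S) g - algebraMap 𝒪 R a)
        = η g - a • (1 : E) := by
    intro g a
    show (MonoidAlgebra.lift 𝒪 E (CuspForm.heckeAlgebra N 2 S)
      (η : CuspForm.heckeAlgebra N 2 S →* E))
        (MonoidAlgebra.of 𝒪 (CuspForm.heckeAlgebra N 2 S) g - algebraMap 𝒪 R a) = _
    rw [map_sub, MonoidAlgebra.lift_of, AlgHom.commutes, Algebra.algebraMap_eq_smul_one]
    rfl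
  let s : Set R := {ρ | ∃ (ℓ : ℕ) (hℓ : ℓ.Prime) (hℓN : ¬ ℓ ∣ N) (hℓS : ℓ ∉ S) (a : 𝒪),
    residue 𝒪 a = θ (CuspForm.heckeAlgebra.T hℓ hℓN hℓS) ∧
    ρ = MonoidAlgebra.of 𝒪 (CuspForm.heckeAlgebra N 2 S) (CuspForm.heckeAlgebra.T hℓ hℓN hℓS)
      - algebraMap 𝒪 R a}
  have h₀ : ∀ t ∈ s, ∃ n : ℕ, (Φ t ^ n) v₀ ∈
      (maximalIdeal 𝒪 • ⊤ : Submodule 𝒪 (Fin r → 𝒪)) := by
    rintro t ⟨ℓ, hℓ, hℓN, hℓS, a, ha, rfl⟩
    obtain ⟨n, hn⟩ := hnil ℓ hℓ hℓN hℓS a ha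
    refine ⟨n, ?_⟩
    have h3 := H61.iterate_bmPhi (b := b) (TB N 𝒪 hℓ hℓN)
      (H61.bmEta 𝒪 Mat (CuspForm.heckeAlgebra.T hℓ hℓN hℓS)) a
      (H61.bm_TB hT ℓ hℓ hℓN hℓS) n v₀
    rw [h3] at hn
    have h4 := (H61.bmPhi_mem_iff hb 1
      (((H61.bmEta 𝒪 Mat (CuspForm.heckeAlgebra.T hℓ hℓN hℓS) - a • (1 : E)) ^ n) v₀)).mp
      (fun γ => by rw [pow_one]; exact hn γ)
    rw [pow_one] at h4
    rw [hΦ]
    exact h4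
  obtain ⟨v, hv0, hv⟩ := abs_lift Φ s v₀ h₀
  refine ⟨H61.bmPhi 𝒪 b v, (H61.bmV_iff hb hT θ ∅ _).mp ⟨⟨v, ?_⟩, rfl⟩, ?_⟩
  · refine ⟨fun q hq => absurd hq (Finset.notMem_empty q), ?_⟩
    rintro g ⟨ℓ, hℓ, hℓN, hℓS, rfl⟩ a ha m
    obtain ⟨n, hn⟩ := hv _ ⟨ℓ, hℓ, hℓN, hℓS, a, ha, rfl⟩ m
    rw [hΦ] at hn
    exact ⟨n, hn⟩
  · rw [redB_eq_iff]
    intro γ
    rw [← map_sub]
    have h5 := (H61.bmPhi_mem_iff hb 1 (v - v₀)).mpr (by rw [pow_one]; exact hv0) γ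
    rwa [pow_one] at h5

end Fermat.Agent.S59.NonMin.Geom.H94
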