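import Fermat.Agent.S59.NonMin.Geom.H94_DualDefs
import Fermat.Agent.S41.H77_CorComp
import Fermat.Agent.S16.H38_Chi

/-!
# S59 / NMGEOM, leaf DUAL (helper94): reduction modulo the maximal ideal

* `TB_redB`, `UB_redB`, `corC_redB`, `alphaB'_redB` : the operators commute with the reduction;
* `iterate_redB` : `(T - a)^n` reduces to `(T - θ)^n`;
* `redB_eq_zero_iff` : `redB φ = 0` iff `φ` has values in the maximal ideal;
* `cusp_of_par` : a parabolic homomorphism with values in a torsion free group is cuspidal;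
* `inBettik_redB` : **RED**, the reduction of a class of the Betti lattice is in the `k`-level
  lattice part.

No `sorry`.
-/

set_option autoImplicit false
set_option linter.unusedSectionVars false

open CuspForm CongruenceSubgroup IsLocalRing
open scoped MatrixGroups

namespace Fermat.Agent.S59.NonMin.Geom.H94

open Fermat.Agent.S41 Fermat.Agent.Betti Fermat.Agent.S59.NonMin.Geom
open ModularCurve.Period

section Red

variable {𝒪 : Type} [CommRing 𝒪] [IsLocalRing 𝒪] {N : ℕ}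

theorem redB_zero {G : Type} [AddZeroClass G] : redB 𝒪 (0 : G →+ 𝒪) = 0 := by
  refine AddMonoidHom.ext fun γ => ?_
  simp [redB]

theorem redB_add {G : Type} [AddZeroClass G] (φ ψ : G →+ 𝒪) :
    redB 𝒪 (φ + ψ) = redB 𝒪 φ + redB 𝒪 ψ := by
  refine AddMonoidHom.ext fun γ => ?_
  simp [redB]

theorem redB_sub {G : Type} [AddGroup G] (φ ψ : G →+ 𝒪) :
    redB 𝒪 (φ - ψ) = redB 𝒪 φ - redB 𝒪 ψ := by
  refine AddMonoidHom.ext fun γ => ?_
  simp [redB]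

theorem redB_smul {G : Type} [AddZeroClass G] (c : 𝒪) (φ : G →+ 𝒪) :
    redB 𝒪 (c • φ) = residue 𝒪 c • redB 𝒪 φ := by
  refine AddMonoidHom.ext fun γ => ?_
  simp [redB]

theorem redB_nsmul {G : Type} [AddZeroClass G] (n : ℕ) (φ : G →+ 𝒪) :
    redB 𝒪 (n • φ) = n • redB 𝒪 φ := by
  refine AddMonoidHom.ext fun γ => ?_
  simp [redB]

theorem redB_eq_zero_iff {G : Type} [AddZeroClass G] (φ : G →+ 𝒪) :
    redB 𝒪 φ = 0 ↔ ∀ γ, φ γ ∈ maximalIdeal 𝒪 := by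
  constructor
  · intro h γ
    have h1 : residue 𝒪 (φ γ) = 0 := congrArg (fun χ : G →+ ResidueField 𝒪 => χ γ) h
    exact (residue_eq_zero_iff _).mp h1
  · intro h
    refine AddMonoidHom.ext fun γ => ?_
    exact (residue_eq_zero_iff _).mpr (h γ)

theorem redB_eq_iff {G : Type} [AddGroup G] (φ ψ : G →+ 𝒪) :
    redB 𝒪 φ = redB 𝒪 ψ ↔ ∀ γ, (φ - ψ) γ ∈ maximalIdeal 𝒪 := by
  rw [← redB_eq_zero_iff, redB_sub, sub_eq_zero]

theorem TB_redB {ℓ : ℕ} (hℓ : ℓ.Prime) (hℓN : ¬ ℓ ∣ N) (φ : Additive (Gamma0 N) →+ 𝒪) :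
    TB N (ResidueField 𝒪) hℓ hℓN (redB 𝒪 φ) = redB 𝒪 (TB N 𝒪 hℓ hℓN φ) := by
  have : Fact ℓ.Prime := ⟨hℓ⟩
  exact (isHeckeFamily_T N hℓN).heckeOp_comp (incl_injective N) (residue 𝒪).toAddMonoidHom φ

theorem UB_redB [NeZero N] {q : ℕ} (hq : q ∣ N) (φ : Additive (Gamma0 N) →+ 𝒪) :
    UB N (ResidueField 𝒪) hq (redB 𝒪 φ) = redB 𝒪 (UB N 𝒪 hq φ) := by
  have : NeZero q := neZero_of_dvd hq
  exact (isHeckeFamily_U N hq).heckeOp_comp (incl_injective N) (residue 𝒪).toAddMonoidHom φ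

theorem TB_smul_O {ℓ : ℕ} (hℓ : ℓ.Prime) (hℓN : ¬ ℓ ∣ N) (c : 𝒪)
    (φ : Additive (Gamma0 N) →+ 𝒪) : TB N 𝒪 hℓ hℓN (c • φ) = c • TB N 𝒪 hℓ hℓN φ := by
  have : Fact ℓ.Prime := ⟨hℓ⟩
  exact ((isHeckeFamily_T N hℓN).heckeOpLin (incl_injective N) 𝒪).map_smul c φ

theorem UB_smul_O [NeZero N] {q : ℕ} (hq : q ∣ N) (c : 𝒪)
    (φ : Additive (Gamma0 N) →+ 𝒪) : UB N 𝒪 hq (c • φ) = c • UB N 𝒪 hq φ := by
  have : NeZero q := neZero_of_dvd hq
  exact ((isHeckeFamily_U N hq).heckeOpLin (incl_injective N) 𝒪).map_smul c φ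

/-- `(T - a)^n` reduces to `(T - θ)^n`. -/
theorem iterate_redB {ℓ : ℕ} (hℓ : ℓ.Prime) (hℓN : ¬ ℓ ∣ N) (a : 𝒪) (n : ℕ)
    (φ : Additive (Gamma0 N) →+ 𝒪) :
    (fun χ : Additive (Gamma0 N) →+ ResidueField 𝒪 =>
        TB N (ResidueField 𝒪) hℓ hℓN χ - residue 𝒪 a • χ)^[n] (redB 𝒪 φ)
      = redB 𝒪 ((fun χ : Additive (Gamma0 N) →+ 𝒪 => TB N 𝒪 hℓ hℓN χ - a • χ)^[n] φ) := by
  induction n with
  | zero => rfl
  | succ n ih =>
    rw [Function.iterate_succ_apply', ih, Function.iterate_succ_apply', redB_sub, redB_smul,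
      TB_redB]

theorem corC1_redB (q : ℕ) (ψ : Additive (Gamma0 (N * q ^ 2)) →+ 𝒪) :
    corC1 N q (ResidueField 𝒪) (redB 𝒪 ψ) = redB 𝒪 (corC1 N q 𝒪 ψ) :=
  Fermat.Agent.S41.H77.corAlong_map (j1 N q) (residue 𝒪).toAddMonoidHom ψ

theorem corC2_redB (q : ℕ) (ψ : Additive (Gamma0 (N * q ^ 2)) →+ 𝒪) :
    corC2 N q (ResidueField 𝒪) (redB 𝒪 ψ) = redB 𝒪 (corC2 N q 𝒪 ψ) :=
  Fermat.Agent.S41.H77.corAlong_map (j2 N q) (residue 𝒪).toAddMonoidHom ψ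

theorem corC3_redB (q : ℕ) (ψ : Additive (Gamma0 (N * q ^ 2)) →+ 𝒪) :
    corC3 N q (ResidueField 𝒪) (redB 𝒪 ψ) = redB 𝒪 (corC3 N q 𝒪 ψ) :=
  Fermat.Agent.S41.H77.corAlong_map (j3 N q) (residue 𝒪).toAddMonoidHom ψ

theorem alphaB'_redB {q : ℕ} (hq : q.Prime) (hqN : ¬ q ∣ N)
    (ψ : Additive (Gamma0 (N * q ^ 2)) →+ 𝒪) :
    alphaB' N (ResidueField 𝒪) hq hqN (redB 𝒪 ψ) = redB 𝒪 (alphaB' N 𝒪 hq hqN ψ) := by
  unfold alphaB'
  rw [redB_add, redB_sub, redB_nsmul, corC1_redB, corC2_redB, corC3_redB, TB_redB]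

end Red

section Cusp

variable {N : ℕ}

/-- A parabolic homomorphism with values in a torsion free group is cuspidal. -/
theorem cusp_of_par {A : Type*} [AddCommGroup A] [IsAddTorsionFree A]
    {φ : Additive (Gamma0 N) →+ A} (h : IsParabolicHom (Gamma0 N) φ) :
    IsCuspidalHom (Gamma0 N) φ := by
  intro γ hγ
  rcases hγ.lt_or_eq with hlt | heq
  · have h12 : (γ : SL(2, ℤ)) ^ 12 = 1 := Fermat.Agent.S16.H38.pow_twelve_eq_one_of_trace _ hlt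
    have h12' : γ ^ 12 = 1 := Subtype.ext h12
    have h1 : (12 : ℕ) • φ (Additive.ofMul γ) = 0 := by
      rw [← map_nsmul, ← ofMul_pow, h12', ofMul_one, map_zero]
    exact (nsmul_eq_zero_iff_right (by norm_num)).mp h1
  · exact h γ heq

theorem par_of_cusp {A : Type*} [AddCommGroup A] {φ : Additive (Gamma0 N) →+ A}
    (h : IsCuspidalHom (Gamma0 N) φ) : IsParabolicHom (Gamma0 N) φ :=
  fun γ hγ => h γ (le_of_eq hγ)

theorem cusp_redB {𝒪 : Type} [CommRing 𝒪] [IsLocalRing 𝒪] {φ : Additive (Gamma0 N) →+ 𝒪}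
    (h : IsCuspidalHom (Gamma0 N) φ) : IsCuspidalHom (Gamma0 N) (redB 𝒪 φ) := by
  intro γ hγ
  rw [redB_apply, h γ hγ, map_zero]

end Cusp

section RED

variable {𝒪 : Type} [CommRing 𝒪] [IsLocalRing 𝒪] [IsDomain 𝒪] [CharZero 𝒪]
  {N : ℕ} [NeZero N]

/-- **RED**: the reduction of a class of the Betti lattice. -/
theorem inBettik_redB {S : Set ℕ} {θ : CuspForm.heckeAlgebra N 2 S →+* ResidueField 𝒪}
    {Sig : Finset ℕ} {φ : Additive (Gamma0 N) →+ 𝒪} (h : InBetti 𝒪 N S θ Sig φ) :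
    InBettik (ResidueField 𝒪) N S θ Sig (redB 𝒪 φ) := by
  obtain ⟨hpar, hU, hloc⟩ := h
  refine ⟨cusp_redB (cusp_of_par hpar), ?_, ?_⟩
  · intro r hr hrN
    rw [UB_redB, hU r hr hrN, redB_zero]
  · intro ℓ hℓ hℓN hℓS
    obtain ⟨a, ha⟩ := residue_surjective (θ (CuspForm.heckeAlgebra.T hℓ hℓN hℓS))
    obtain ⟨n, hn⟩ := hloc ℓ hℓ hℓN hℓS a ha 1
    refine ⟨n, ?_⟩
    rw [← ha, iterate_redB, redB_eq_zero_iff]
    intro γ
    have := hn γ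
    rwa [pow_one] at this

end RED

end Fermat.Agent.S59.NonMin.Geom.H94
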