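import Fermat.Agent.S41.H39_AL
import Fermat.Agent.S41.H20_Bridge
import Fermat.Agent.Betti.Defs

/-!
# S59 / NMGEOM (helper98): the Betti Hecke operators commute

* `heckeOp_comm` : two Hecke families `rep₁`, `rep₂` for `Γ` whose products `rep₂ j * rep₁ i` have
  pairwise distinct cosets and satisfy `rep₁ i * rep₂ j = ε * rep₂ j' * rep₁ i'` for a bijection
  `(i, j) ↦ (j', i')` have commuting Hecke operators;
* `UB_comm_UB` : `U_q U_r = U_r U_q` on `Hom(Γ₀(M), A)` (`q, r ∣ M`);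
* `UB_comm_TB` : `U_q T_ℓ = T_ℓ U_q` on `Hom(Γ₀(M), A)` (`q ∣ M`, `ℓ ∤ M` prime).
-/

set_option autoImplicit false
set_option linter.style.haveILetI false
set_option linter.unusedSectionVars false

open scoped MatrixGroups
open CongruenceSubgroup Matrix ModularForm

namespace Fermat.Agent.S59.NonMin.Geom.H98

open Fermat.Agent.S41 Fermat.Agent.S41.H19 Fermat.Agent.S41.H39 Fermat.Agent.Betti

/-! ### The abstract statement -/

section Abstract

variable {Γ G : Type*} [Group Γ] [Group G] {e : Γ →* G} {ι₁ ι₂ : Type*}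
  {rep₁ : ι₁ → G} {rep₂ : ι₂ → G}

/-- The product of two Hecke families is a Hecke family as soon as its cosets are pairwise
distinct. -/
theorem isHeckeFamily_mul (H₁ : IsHeckeFamily e rep₁) (H₂ : IsHeckeFamily e rep₂)
    (hinj : ∀ (a b : ι₁ × ι₂) (ε : Γ),
      rep₁ a.1 * rep₂ a.2 = e ε * (rep₁ b.1 * rep₂ b.2) → a = b) :
    IsHeckeFamily e (fun a : ι₁ × ι₂ => rep₁ a.1 * rep₂ a.2) where
  exists_mul γ a := by
    refine ⟨(H₁.perm (H₂.kap γ a.2) a.1, H₂.perm γ a.2), H₁.kap (H₂.kap γ a.2) a.1, ?_⟩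
    show rep₁ a.1 * rep₂ a.2 * e γ = e _ * (rep₁ _ * rep₂ _)
    rw [mul_assoc, H₂.rep_mul γ a.2, ← mul_assoc, H₁.rep_mul, mul_assoc]
  inj := hinj

variable [Fintype ι₁] [Fintype ι₂] {A : Type*} [AddCommGroup A]

/-- The Hecke operator of the product family is the composite of the Hecke operators. -/
theorem heckeOp_mul (he : Function.Injective e) (H₁ : IsHeckeFamily e rep₁)
    (H₂ : IsHeckeFamily e rep₂)
    (P : IsHeckeFamily e (fun a : ι₁ × ι₂ => rep₁ a.1 * rep₂ a.2)) (φ : Additive Γ →+ A) :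
    P.heckeOp he φ = H₂.heckeOp he (H₁.heckeOp he φ) := by
  refine AddMonoidHom.ext fun γ' => ?_
  obtain ⟨γ, rfl⟩ : ∃ g : Γ, Additive.ofMul g = γ' := ⟨Additive.toMul γ', rfl⟩
  rw [IsHeckeFamily.heckeOp_apply, IsHeckeFamily.heckeOp_apply]
  simp only [IsHeckeFamily.heckeOp_apply]
  rw [Fintype.sum_prod_type, Finset.sum_comm]
  refine Finset.sum_congr rfl fun j _ => Finset.sum_congr rfl fun i _ => ?_
  have h : rep₁ i * rep₂ j * e γ
      = e (H₁.kap (H₂.kap γ j) i) * (rep₁ (H₁.perm (H₂.kap γ j) i) * rep₂ (H₂.perm γ j)) := by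
    rw [mul_assoc, H₂.rep_mul γ j, ← mul_assoc, H₁.rep_mul, mul_assoc]
  have h2 := (P.unique he (γ := γ) (i := (i, j))
    (j := (H₁.perm (H₂.kap γ j) i, H₂.perm γ j)) h).2
  rw [← h2]

/-- **Commutation of two Hecke operators.** -/
theorem heckeOp_comm (he : Function.Injective e) (H₁ : IsHeckeFamily e rep₁)
    (H₂ : IsHeckeFamily e rep₂)
    (hinj : ∀ (a b : ι₂ × ι₁) (ε : Γ),
      rep₂ a.1 * rep₁ a.2 = e ε * (rep₂ b.1 * rep₁ b.2) → a = b)
    (π : ι₁ × ι₂ ≃ ι₂ × ι₁) (ε : ι₁ × ι₂ → Γ)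
    (hswap : ∀ a, rep₁ a.1 * rep₂ a.2 = e (ε a) * (rep₂ (π a).1 * rep₁ (π a).2))
    (φ : Additive Γ →+ A) :
    H₂.heckeOp he (H₁.heckeOp he φ) = H₁.heckeOp he (H₂.heckeOp he φ) := by
  have P₂₁ := isHeckeFamily_mul H₂ H₁ hinj
  have hinj' : ∀ (a b : ι₁ × ι₂) (g₀ : Γ),
      rep₁ a.1 * rep₂ a.2 = e g₀ * (rep₁ b.1 * rep₂ b.2) → a = b := by
    intro a b g₀ h
    rw [hswap a, hswap b] at h
    have h' : rep₂ (π a).1 * rep₁ (π a).2
        = e ((ε a)⁻¹ * g₀ * ε b) * (rep₂ (π b).1 * rep₁ (π b).2) := by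
      rw [map_mul, map_mul, map_inv, mul_assoc, mul_assoc, ← h, inv_mul_cancel_left]
    exact π.injective (hinj _ _ _ h')
  have P₁₂ := isHeckeFamily_mul H₁ H₂ hinj'
  rw [← heckeOp_mul he H₁ H₂ P₁₂, ← heckeOp_mul he H₂ H₁ P₂₁]
  have key := IsHeckeFamily.heckeOp_eq_of_twist P₁₂ P₂₁ he (MonoidHom.id G) (MonoidHom.id Γ)
    (fun _ => rfl) π ε hswap φ
  refine AddMonoidHom.ext fun γ => ?_
  have := congrArg (fun f : Additive Γ →+ A => f γ) key
  exact this.symm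

end Abstract

end Fermat.Agent.S59.NonMin.Geom.H98

namespace Fermat.Agent.S59.NonMin.Geom.H98

open Fermat.Agent.S41 Fermat.Agent.S41.H19 Fermat.Agent.S41.H39 Fermat.Agent.S41.H20
open Fermat.Agent.Betti

/-! ### Integer matrices -/

section Mat

/-- `X ∈ GL₂(ℝ)` is the integer matrix `Z`. -/
def IsInt (X : GL (Fin 2) ℝ) (Z : Matrix (Fin 2) (Fin 2) ℤ) : Prop :=
  (X : Matrix (Fin 2) (Fin 2) ℝ) = Z.map (Int.cast : ℤ → ℝ)

theorem IsInt.mul {X Y : GL (Fin 2) ℝ} {Z W : Matrix (Fin 2) (Fin 2) ℤ} (hX : IsInt X Z)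
    (hY : IsInt Y W) : IsInt (X * Y) (Z * W) := by
  unfold IsInt at *
  rw [Units.val_mul, hX, hY, Matrix.map_mul_intCast]

theorem IsInt.eq_of_eq {X Y : GL (Fin 2) ℝ} {Z W : Matrix (Fin 2) (Fin 2) ℤ} (hX : IsInt X Z)
    (hY : IsInt Y W) (h : Z = W) : X = Y := by
  apply Units.ext
  rw [hX, hY, h]

theorem IsInt.eq_of_eq' {X Y : GL (Fin 2) ℝ} {Z W : Matrix (Fin 2) (Fin 2) ℤ} (hX : IsInt X Z)
    (hY : IsInt Y W) (h : X = Y) : Z = W := by
  apply intCast_map_injective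
  show Z.map (Int.cast : ℤ → ℝ) = W.map (Int.cast : ℤ → ℝ)
  rw [← hX, ← hY, h]

theorem isInt_incl (M : ℕ) (g : Gamma0 M) : IsInt (incl M g) (mat g) := val_incl M g

theorem isInt_repU {q : ℕ} (hq : q ≠ 0) (x : ZMod q) : IsInt (repU q x) (Bmat q (x.val : ℤ)) := by
  show ((heckeMatrix q x.val : GL (Fin 2) ℝ) : Matrix (Fin 2) (Fin 2) ℝ) = _
  rw [val_heckeMatrix hq]
  ext i k
  fin_cases i <;> fin_cases k <;> simp [Bmat]

theorem isInt_repT_infty {ℓ : ℕ} (hℓ : ℓ ≠ 0) :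
    IsInt (repT ℓ (OnePoint.infty : OnePoint (ZMod ℓ))) (Dq ℓ) := by
  show ((heckeDiagMatrix ℓ : GL (Fin 2) ℝ) : Matrix (Fin 2) (Fin 2) ℝ) = _
  rw [val_heckeDiagMatrix hℓ]
  ext i k
  fin_cases i <;> fin_cases k <;> simp [Dq]

theorem isInt_repT_coe {ℓ : ℕ} (hℓ : ℓ ≠ 0) (j : ZMod ℓ) :
    IsInt (repT ℓ (j : OnePoint (ZMod ℓ))) (Bmat ℓ (j.val : ℤ)) :=
  isInt_repU hℓ j

/-- The unipotent element `[[1, m], [0, 1]]` of `Γ₀(M)`. -/
def tUp (M : ℕ) (m : ℤ) : Gamma0 M := mkG0 M 1 m 0 1 (by ring) (dvd_zero _)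

theorem mat_tUp (M : ℕ) (m : ℤ) : mat (tUp M m) = !![1, m; 0, 1] := rfl

theorem Bmat_mul_Bmat (q r : ℕ) (x y : ℤ) :
    Bmat q x * Bmat r y = !![1, y + x * r; 0, (q : ℤ) * r] := by
  ext i k
  fin_cases i <;> fin_cases k <;> simp [Bmat, Matrix.mul_apply, Fin.sum_univ_two]

theorem Bmat_mul_Dq (q ℓ : ℕ) (x : ℤ) : Bmat q x * Dq ℓ = !![(ℓ : ℤ), x; 0, (q : ℤ)] := by
  ext i k
  fin_cases i <;> fin_cases k <;> simp [Bmat, Dq, Matrix.mul_apply, Fin.sum_univ_two]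

theorem Dq_mul_Bmat (q ℓ : ℕ) (x : ℤ) : Dq ℓ * Bmat q x = !![(ℓ : ℤ), ℓ * x; 0, (q : ℤ)] := by
  ext i k
  fin_cases i <;> fin_cases k <;> simp [Bmat, Dq, Matrix.mul_apply, Fin.sum_univ_two]

theorem Dq_Bmat_swap (q ℓ : ℕ) {x x' m : ℤ} (h : x' + q * m = ℓ * x) :
    Dq ℓ * Bmat q x = !![1, m; 0, 1] * (Bmat q x' * Dq ℓ) := by
  rw [Dq_mul_Bmat, Bmat_mul_Dq]
  ext i k
  fin_cases i <;> fin_cases k <;> simp [Matrix.mul_apply, Fin.sum_univ_two]
  linarith

/-- Two upper triangular integer matrices with positive upper left entries in the same left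
`SL₂(ℤ)`-coset. -/
theorem ut_of_eq {a b d a' b' d' : ℤ} (ha : 0 < a) (ha' : 0 < a')
    {E : Matrix (Fin 2) (Fin 2) ℤ} (hE : E.det = 1)
    (h : !![a, b; 0, d] = E * !![a', b'; 0, d']) : a = a' ∧ d = d' ∧ d ∣ b - b' := by
  have h00 := congrFun (congrFun h 0) 0
  have h01 := congrFun (congrFun h 0) 1
  have h10 := congrFun (congrFun h 1) 0
  have h11 := congrFun (congrFun h 1) 1
  simp only [Matrix.mul_apply, Fin.sum_univ_two, Matrix.of_apply, Matrix.cons_val',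
    Matrix.cons_val_zero, Matrix.cons_val_one, Matrix.empty_val', Matrix.cons_val_fin_one,
    mul_zero, add_zero] at h00 h01 h10 h11
  have e10 : E 1 0 = 0 := by
    rcases mul_eq_zero.mp h10.symm with h | h
    · exact h
    · exact absurd h ha'.ne'
  rw [Matrix.det_fin_two, e10, mul_zero, sub_zero] at hE
  have e00 : E 0 0 = 1 := by
    rcases Int.eq_one_or_neg_one_of_mul_eq_one hE with h | h
    · exact h
    · exfalso
      rw [h] at h00
      linarith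
  have e11 : E 1 1 = 1 := by rw [e00, one_mul] at hE; exact hE
  rw [e00, one_mul] at h00 h01
  rw [e10, e11, zero_mul, zero_add, one_mul] at h11
  refine ⟨h00, h11, ⟨E 0 1, ?_⟩⟩
  rw [h01, h11]
  ring

end Mat

/-! ### Mixed radix -/

section Digits

theorem digits_unique {r x x' y y' : ℕ} (hy : y < r) (hy' : y' < r)
    (h : y + x * r = y' + x' * r) : x = x' ∧ y = y' := by
  have hr : 0 < r := lt_of_le_of_lt (Nat.zero_le _) hy
  have h1 : y = y' := by
    have := congrArg (· % r) h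
    simpa [Nat.add_mul_mod_self_right, Nat.mod_eq_of_lt hy, Nat.mod_eq_of_lt hy'] using this
  subst h1
  exact ⟨Nat.eq_of_mul_eq_mul_right hr (Nat.add_left_cancel h), rfl⟩

theorem digits_lt {q r x y : ℕ} (hx : x < q) (hy : y < r) : y + x * r < q * r := by
  have h1 : x + 1 ≤ q := hx
  calc y + x * r < r + x * r := by omega
    _ = (x + 1) * r := by ring
    _ ≤ q * r := Nat.mul_le_mul_right r h1

theorem digits_eq_of_dvd {q r x x' y y' : ℕ} (hx : x < q) (hx' : x' < q) (hy : y < r)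
    (hy' : y' < r)
    (h : ((q : ℤ) * r) ∣ ((y : ℤ) + x * r) - ((y' : ℤ) + x' * r)) : x = x' ∧ y = y' := by
  have h1 := digits_lt hx hy
  have h2 := digits_lt hx' hy'
  have h3 : ((y : ℤ) + x * r) - ((y' : ℤ) + x' * r) = 0 := by
    apply Int.eq_zero_of_abs_lt_dvd h
    rw [abs_lt]
    have e1 : ((y + x * r : ℕ) : ℤ) < ((q * r : ℕ) : ℤ) := by exact_mod_cast h1
    have e2 : ((y' + x' * r : ℕ) : ℤ) < ((q * r : ℕ) : ℤ) := by exact_mod_cast h2
    push_cast at e1 e2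
    constructor <;> nlinarith [Int.natCast_nonneg y, Int.natCast_nonneg y',
      Int.natCast_nonneg (x * r), Int.natCast_nonneg (x' * r)]
  apply digits_unique hy hy'
  have : ((y + x * r : ℕ) : ℤ) = ((y' + x' * r : ℕ) : ℤ) := by push_cast; linarith
  exact_mod_cast this

variable (q r : ℕ)

/-- `(y, x) ↦ (s / r, s % r)`, `s = x + y q`. -/
def swapFun (a : ZMod r × ZMod q) : ZMod q × ZMod r :=
  ((((a.2.val + a.1.val * q) / r : ℕ) : ZMod q), (((a.2.val + a.1.val * q) % r : ℕ) : ZMod r))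

variable {q r}

theorem swapFun_val [NeZero q] [NeZero r] (a : ZMod r × ZMod q) :
    (swapFun q r a).2.val + (swapFun q r a).1.val * r = a.2.val + a.1.val * q := by
  have hr : 0 < r := Nat.pos_of_ne_zero (NeZero.ne r)
  have hlt : a.2.val + a.1.val * q < r * q := digits_lt (ZMod.val_lt a.1) (ZMod.val_lt a.2)
  have h1 : (swapFun q r a).2.val = (a.2.val + a.1.val * q) % r := by
    show ((((a.2.val + a.1.val * q) % r : ℕ) : ZMod r)).val = _
    rw [ZMod.val_natCast, Nat.mod_mod]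
  have h2 : (swapFun q r a).1.val = (a.2.val + a.1.val * q) / r := by
    show ((((a.2.val + a.1.val * q) / r : ℕ) : ZMod q)).val = _
    rw [ZMod.val_natCast]
    apply Nat.mod_eq_of_lt
    rw [Nat.div_lt_iff_lt_mul hr]
    rwa [mul_comm r q] at hlt
  rw [h1, h2]
  exact Nat.mod_add_div' _ _

theorem swapFun_injective [NeZero q] [NeZero r] : Function.Injective (swapFun q r) := by
  intro a b h
  have h1 := swapFun_val a
  have h2 := swapFun_val b
  rw [h] at h1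
  have h3 := digits_unique (ZMod.val_lt a.2) (ZMod.val_lt b.2) (h1.symm.trans h2)
  exact Prod.ext (ZMod.val_injective r h3.1) (ZMod.val_injective q h3.2)

/-- The mixed radix bijection. -/
noncomputable def swapEquiv (q r : ℕ) [NeZero q] [NeZero r] : ZMod r × ZMod q ≃ ZMod q × ZMod r :=
  Equiv.ofBijective (swapFun q r)
    ((Fintype.bijective_iff_injective_and_card _).mpr
      ⟨swapFun_injective, by simp [ZMod.card, mul_comm]⟩)

theorem swapEquiv_apply [NeZero q] [NeZero r] (a : ZMod r × ZMod q) :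
    swapEquiv q r a = swapFun q r a := rfl

end Digits

end Fermat.Agent.S59.NonMin.Geom.H98

namespace Fermat.Agent.S59.NonMin.Geom.H98

open Fermat.Agent.S41 Fermat.Agent.S41.H19 Fermat.Agent.S41.H39 Fermat.Agent.S41.H20
open Fermat.Agent.Betti

/-! ### `U_q U_r = U_r U_q` -/

section UU

variable {M : ℕ} [NeZero M] {A : Type*} [AddCommGroup A]

theorem UB_comm_UB {q r : ℕ} (hq : q ∣ M) (hr : r ∣ M) (φ : Additive (Gamma0 M) →+ A) :
    UB M A hq (UB M A hr φ) = UB M A hr (UB M A hq φ) := by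
  haveI : NeZero q := neZero_of_dvd hq
  haveI : NeZero r := neZero_of_dvd hr
  have hq0 := NeZero.ne q
  have hr0 := NeZero.ne r
  refine heckeOp_comm (incl_injective M) (isHeckeFamily_U M hr) (isHeckeFamily_U M hq) ?_
    (swapEquiv q r) (fun _ => 1) ?_ φ
  · intro a b ε h
    have h1 := ((isInt_repU hq0 a.1).mul (isInt_repU hr0 a.2)).eq_of_eq'
      ((isInt_incl M ε).mul ((isInt_repU hq0 b.1).mul (isInt_repU hr0 b.2))) h
    rw [Bmat_mul_Bmat, Bmat_mul_Bmat] at h1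
    have h2 := ut_of_eq one_pos one_pos (mat_det ε) h1
    have h3 := digits_eq_of_dvd (ZMod.val_lt a.1) (ZMod.val_lt b.1) (ZMod.val_lt a.2)
      (ZMod.val_lt b.2) (by simpa using h2.2.2)
    exact Prod.ext (ZMod.val_injective q h3.1) (ZMod.val_injective r h3.2)
  · intro a
    rw [map_one, one_mul]
    apply ((isInt_repU hr0 a.1).mul (isInt_repU hq0 a.2)).eq_of_eq
      ((isInt_repU hq0 _).mul (isInt_repU hr0 _))
    rw [Bmat_mul_Bmat, Bmat_mul_Bmat, swapEquiv_apply]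
    have h := swapFun_val a
    have h' : (((swapFun q r a).2.val : ℕ) : ℤ) + ((swapFun q r a).1.val : ℕ) * (r : ℤ)
        = ((a.2.val : ℕ) : ℤ) + ((a.1.val : ℕ) : ℤ) * (q : ℤ) := by exact_mod_cast h
    rw [h', mul_comm (q : ℤ) (r : ℤ)]

end UU

/-! ### `U_q T_ℓ = T_ℓ U_q` -/

section UT

variable {M : ℕ} [NeZero M] {A : Type*} [AddCommGroup A]

/-- the bijection of the index sets -/
def piT (q ℓ : ℕ) (a : OnePoint (ZMod ℓ) × ZMod q) : ZMod q × OnePoint (ZMod ℓ) :=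
  match a.1 with
  | none => (((ℓ * a.2.val : ℕ) : ZMod q), (OnePoint.infty : OnePoint (ZMod ℓ)))
  | some j => ((swapFun q ℓ (j, a.2)).1, (((swapFun q ℓ (j, a.2)).2 : ZMod ℓ) : OnePoint (ZMod ℓ)))

/-- the unipotent corrections -/
def epsT (M q ℓ : ℕ) (a : OnePoint (ZMod ℓ) × ZMod q) : Gamma0 M :=
  match a.1 with
  | none => tUp M ((ℓ * a.2.val / q : ℕ) : ℤ)
  | some _ => 1

theorem piT_injective {q ℓ : ℕ} [NeZero q] [NeZero ℓ] (hcop : Nat.Coprime ℓ q) :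
    Function.Injective (piT q ℓ) := by
  rintro ⟨y, x⟩ ⟨y', x'⟩ h
  rcases y with _ | j <;> rcases y' with _ | j'
  · have h1 : (((ℓ * x.val : ℕ) : ZMod q)) = ((ℓ * x'.val : ℕ) : ZMod q) := by
      have := congrArg Prod.fst h
      exact this
    push_cast at h1
    rw [ZMod.natCast_zmod_val, ZMod.natCast_zmod_val] at h1
    have hu : IsUnit ((ℓ : ℕ) : ZMod q) := (ZMod.isUnit_iff_coprime ℓ q).mpr hcop
    rw [hu.mul_right_inj] at h1
    rw [h1]
  · exact absurd (congrArg Prod.snd h) (by simp [piT])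
  · exact absurd (congrArg Prod.snd h) (by simp [piT])
  · have h1 : (swapFun q ℓ (j, x)).1 = (swapFun q ℓ (j', x')).1 := by
      have := congrArg Prod.fst h
      exact this
    have h2 : (((swapFun q ℓ (j, x)).2 : ZMod ℓ) : OnePoint (ZMod ℓ))
        = (((swapFun q ℓ (j', x')).2 : ZMod ℓ) : OnePoint (ZMod ℓ)) := by
      have := congrArg Prod.snd h
      exact this
    have h3 := swapFun_injective (Prod.ext h1 (OnePoint.coe_injective h2))
    rw [Prod.mk.injEq] at h3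
    rw [h3.1, h3.2]

/-- The bijection `(y, x) ↦ (x', y')`. -/
noncomputable def piTEquiv (q ℓ : ℕ) [NeZero q] [NeZero ℓ] (hcop : Nat.Coprime ℓ q) :
    OnePoint (ZMod ℓ) × ZMod q ≃ ZMod q × OnePoint (ZMod ℓ) :=
  Equiv.ofBijective (piT q ℓ)
    ((Fintype.bijective_iff_injective_and_card _).mpr
      ⟨piT_injective hcop, by rw [Fintype.card_prod, Fintype.card_prod, mul_comm]⟩)

theorem UB_comm_TB {q ℓ : ℕ} (hq : q ∣ M) (hℓ : ℓ.Prime) (hℓM : ¬ ℓ ∣ M)
    (φ : Additive (Gamma0 M) →+ A) :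
    UB M A hq (TB M A hℓ hℓM φ) = TB M A hℓ hℓM (UB M A hq φ) := by
  haveI : NeZero q := neZero_of_dvd hq
  haveI : Fact ℓ.Prime := ⟨hℓ⟩
  haveI : NeZero ℓ := ⟨hℓ.ne_zero⟩
  have hq0 := NeZero.ne q
  have hℓ0 := hℓ.ne_zero
  have hℓ1 : (ℓ : ℤ) ≠ 1 := by exact_mod_cast hℓ.ne_one
  have hℓpos : (0 : ℤ) < ℓ := by exact_mod_cast hℓ.pos
  have hcop : Nat.Coprime ℓ q :=
    (Nat.Prime.coprime_iff_not_dvd hℓ).mpr fun h => hℓM (h.trans hq)
  refine heckeOp_comm (incl_injective M) (isHeckeFamily_T M hℓM) (isHeckeFamily_U M hq) ?_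
    (piTEquiv q ℓ hcop) (epsT M q ℓ) ?_ φ
  · rintro ⟨x, y⟩ ⟨x', y'⟩ ε h
    rcases y with _ | j <;> rcases y' with _ | j'
    · have h1 := ((isInt_repU hq0 x).mul (isInt_repT_infty hℓ0)).eq_of_eq'
        ((isInt_incl M ε).mul ((isInt_repU hq0 x').mul (isInt_repT_infty hℓ0))) h
      rw [Bmat_mul_Dq, Bmat_mul_Dq] at h1
      have h2 := ut_of_eq hℓpos hℓpos (mat_det ε) h1
      have h3 : x = x' := by
        have h4 := (ZMod.intCast_zmod_eq_zero_iff_dvd _ q).mpr h2.2.2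
        push_cast at h4
        rw [ZMod.natCast_zmod_val, ZMod.natCast_zmod_val] at h4
        exact sub_eq_zero.mp h4
      rw [h3]
    · exfalso
      have h1 := ((isInt_repU hq0 x).mul (isInt_repT_infty hℓ0)).eq_of_eq'
        ((isInt_incl M ε).mul ((isInt_repU hq0 x').mul (isInt_repT_coe hℓ0 j'))) h
      rw [Bmat_mul_Dq, Bmat_mul_Bmat] at h1
      exact hℓ1 (ut_of_eq hℓpos one_pos (mat_det ε) h1).1
    · exfalso
      have h1 := ((isInt_repU hq0 x).mul (isInt_repT_coe hℓ0 j)).eq_of_eq'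
        ((isInt_incl M ε).mul ((isInt_repU hq0 x').mul (isInt_repT_infty hℓ0))) h
      rw [Bmat_mul_Dq, Bmat_mul_Bmat] at h1
      exact hℓ1 (ut_of_eq one_pos hℓpos (mat_det ε) h1).1.symm
    · have h1 := ((isInt_repU hq0 x).mul (isInt_repT_coe hℓ0 j)).eq_of_eq'
        ((isInt_incl M ε).mul ((isInt_repU hq0 x').mul (isInt_repT_coe hℓ0 j'))) h
      rw [Bmat_mul_Bmat, Bmat_mul_Bmat] at h1
      have h2 := ut_of_eq one_pos one_pos (mat_det ε) h1
      have h3 := digits_eq_of_dvd (ZMod.val_lt x) (ZMod.val_lt x') (ZMod.val_lt j)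
        (ZMod.val_lt j') (by simpa using h2.2.2)
      rw [ZMod.val_injective q h3.1, ZMod.val_injective ℓ h3.2]
  · rintro ⟨y, x⟩
    rcases y with _ | j
    · show repT ℓ (OnePoint.infty : OnePoint (ZMod ℓ)) * repU q x
        = incl M (tUp M ((ℓ * x.val / q : ℕ) : ℤ))
          * (repU q (((ℓ * x.val : ℕ) : ZMod q)) * repT ℓ (OnePoint.infty : OnePoint (ZMod ℓ)))
      apply ((isInt_repT_infty hℓ0).mul (isInt_repU hq0 x)).eq_of_eq
        ((isInt_incl M _).mul ((isInt_repU hq0 _).mul (isInt_repT_infty hℓ0)))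
      rw [mat_tUp, ZMod.val_natCast]
      have h := Nat.mod_add_div (ℓ * x.val) q
      have h' : (((ℓ * x.val) % q : ℕ) : ℤ) + (q : ℤ) * ((ℓ * x.val / q : ℕ) : ℤ)
          = (ℓ : ℤ) * ((x.val : ℕ) : ℤ) := by exact_mod_cast h
      exact Dq_Bmat_swap q ℓ h'
    · show repT ℓ ((j : ZMod ℓ) : OnePoint (ZMod ℓ)) * repU q x
        = incl M 1 * (repU q (swapFun q ℓ (j, x)).1
          * repT ℓ (((swapFun q ℓ (j, x)).2 : ZMod ℓ) : OnePoint (ZMod ℓ)))
      rw [map_one, one_mul]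
      apply ((isInt_repT_coe hℓ0 j).mul (isInt_repU hq0 x)).eq_of_eq
        ((isInt_repU hq0 _).mul (isInt_repT_coe hℓ0 _))
      rw [Bmat_mul_Bmat, Bmat_mul_Bmat]
      have h := swapFun_val (q := q) (r := ℓ) (j, x)
      have h' : (((swapFun q ℓ (j, x)).2.val : ℕ) : ℤ)
            + ((swapFun q ℓ (j, x)).1.val : ℕ) * (ℓ : ℤ)
          = ((x.val : ℕ) : ℤ) + ((j.val : ℕ) : ℤ) * (q : ℤ) := by exact_mod_cast h
      rw [h', mul_comm (q : ℤ) (ℓ : ℤ)]

end UT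

end Fermat.Agent.S59.NonMin.Geom.H98
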