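import Fermat.Agent.S59.NonMin.Geom.H72_Rel3
import Fermat.Agent.S41.H94_Adj
import Fermat.Agent.S59.NonMin.Geom.H98_Comm

/-!
# S59 / NMGEOM (helper98): the relation `U³ - U = A₁ T C₃ - A₁ C₂ - A₂ C₃`

`U = U_q` of level `N q²`, `q ∤ N`.  Through the level `N q`, with `R₁ = resAlong kap1`
(restriction along the inclusion `Γ₀(N q²) → Γ₀(N q)`) and `K₂ = corAlong kap2` (transfer along
the conjugation by `diag(q, 1)`):

* `UB_eq_res_cor` : `U_q(N q²) = R₁ K₂`;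
* `UB_eq_cor_res` : `U_q(N q) = K₂ R₁`;
* `UB_res1`, `UB_res2` : `U_q(N q) r₁ = r₁ T_q - r₂`, `U_q(N q) r₂ = q r₁`;
* `UB_UB` : `U_q(N q)² = 1 + r₁ T_q c₂ - r₂ c₂ - r₁ c₁` (Atkin–Lehner, `S41.H39.cor1_incl`);
* `corC2_eq`, `corC3_eq` : `C₂ = c₁ K₂`, `C₃ = c₂ K₂`;
* `rel4` : the relation.
-/

set_option autoImplicit false
set_option linter.style.haveILetI false
set_option linter.unusedSectionVars false

open scoped MatrixGroups
open CongruenceSubgroup Matrix ModularForm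

namespace Fermat.Agent.S59.NonMin.Geom.H98

open Fermat.Agent.S41 Fermat.Agent.S41.H19 Fermat.Agent.S41.H77 Fermat.Agent.S41.H39
open Fermat.Agent.S41.H20 Fermat.Agent.Betti Fermat.Agent.S59.NonMin.Geom
open Fermat.Agent.S59.NonMin.Geom.H72R

/-! ### Restriction is additive -/

section Res

variable {H G : Type*} [Group H] [Group G] {A : Type*} [AddCommGroup A]

theorem resAlong_add' (ι : H →* G) (φ ψ : Additive G →+ A) :
    resAlong A ι (φ + ψ) = resAlong A ι φ + resAlong A ι ψ := rfl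

theorem resAlong_sub' (ι : H →* G) (φ ψ : Additive G →+ A) :
    resAlong A ι (φ - ψ) = resAlong A ι φ - resAlong A ι ψ := rfl

theorem resAlong_neg' (ι : H →* G) (φ : Additive G →+ A) :
    resAlong A ι (-φ) = -resAlong A ι φ := rfl

theorem resAlong_nsmul' (ι : H →* G) (n : ℕ) (φ : Additive G →+ A) :
    resAlong A ι (n • φ) = n • resAlong A ι φ := rfl

theorem resAlong_smul' {R : Type*} [Semiring R] [Module R A] (ι : H →* G) (c : R)
    (φ : Additive G →+ A) : resAlong A ι (c • φ) = c • resAlong A ι φ := rfl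

theorem resAlong_zero' (ι : H →* G) : resAlong A ι (0 : Additive G →+ A) = 0 := rfl

end Res

/-! ### The level `N q`, `q ∤ N` -/

section Stage1

variable {N q : ℕ} [NeZero (N * q)] {A : Type*} [AddCommGroup A] {u v : ℤ}
  (huv : (q : ℤ) * u + (N : ℤ) * v = 1)

/-- `w r₂ = r₁`. -/
theorem res_alG_res2 (hq : q ≠ 0) (φ : Additive (Gamma0 N) →+ A) :
    resAlong A (alG huv hq) (res2 N q A φ) = res1 N q A φ := by
  refine AddMonoidHom.ext fun x => ?_
  change φ (Additive.ofMul (conjG N q (alG huv hq (Additive.toMul x))))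
    = φ (Additive.ofMul (inclG N q (Additive.toMul x)))
  rw [conjG_alG, hom_conj]

/-- `w r₁ = r₂`. -/
theorem res_alG_res1 (hq : q ≠ 0) (φ : Additive (Gamma0 N) →+ A) :
    resAlong A (alG huv hq) (res1 N q A φ) = res2 N q A φ := by
  rw [← res_alG_res2 huv hq φ, res_alG_alG]

/-- `r₁ c₁ = 1 + U w`. -/
theorem res1_cor1 (hN : 0 < N) (hq : q.Prime) (hqN : ¬ q ∣ N)
    (ψ : Additive (Gamma0 (N * q)) →+ A) :
    res1 N q A (cor1 N q A ψ)
      = ψ + UB (N * q) A (dvd_mul_left q N) (resAlong A (alG huv hq.ne_zero) ψ) := by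
  refine AddMonoidHom.ext fun x => ?_
  exact cor1_incl huv hN hq hqN ψ (Additive.toMul x)

omit huv in
/-- `U r₁ = r₁ T_q - r₂`. -/
theorem UB_res1 (hN : 0 < N) (hq : q.Prime) (hqN : ¬ q ∣ N) (φ : Additive (Gamma0 N) →+ A) :
    UB (N * q) A (dvd_mul_left q N) (res1 N q A φ)
      = res1 N q A (TB N A hq hqN φ) - res2 N q A φ := by
  obtain ⟨u, v, huv⟩ := exists_bezout hq hqN
  have h := res1_cor1 huv hN hq hqN (res2 N q A φ)
  rw [res_alG_res2] at h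
  have e : cor1 N q A (res2 N q A φ) = TB N A hq hqN φ := Tcoh_eq_TB hN hq hqN φ
  rw [e] at h
  rw [h]
  abel

omit huv in
/-- `U r₂ = q r₁`. -/
theorem UB_res2 (hN : 0 < N) (hq : q.Prime) (hqN : ¬ q ∣ N) (φ : Additive (Gamma0 N) →+ A) :
    UB (N * q) A (dvd_mul_left q N) (res2 N q A φ) = q • res1 N q A φ := by
  obtain ⟨u, v, huv⟩ := exists_bezout hq hqN
  have h := res1_cor1 huv hN hq hqN (res1 N q A φ)
  rw [res_alG_res1, cor1_res1 hN hq hqN] at h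
  have e : res1 N q A ((q + 1) • φ) = (q + 1) • res1 N q A φ := rfl
  rw [e, add_smul, one_smul] at h
  have h2 : q • res1 N q A φ
      = UB (N * q) A (dvd_mul_left q N) (res2 N q A φ) := by
    have := congrArg (fun t => t - res1 N q A φ) h
    simpa using this
  exact h2.symm

/-- `U = r₁ c₂ - w`. -/
theorem UB_eq_sub (hN : 0 < N) (hq : q.Prime) (hqN : ¬ q ∣ N)
    (ψ : Additive (Gamma0 (N * q)) →+ A) :
    UB (N * q) A (dvd_mul_left q N) ψ
      = res1 N q A (cor2 N q A ψ) - resAlong A (alG huv hq.ne_zero) ψ := by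
  have h := res1_cor1 huv hN hq hqN (resAlong A (alG huv hq.ne_zero) ψ)
  rw [res_alG_alG, ← cor2_eq_cor1_alG huv hN hq hqN ψ] at h
  rw [h]
  abel

/-- `U w = r₁ c₁ - 1`. -/
theorem UB_w (hN : 0 < N) (hq : q.Prime) (hqN : ¬ q ∣ N)
    (ψ : Additive (Gamma0 (N * q)) →+ A) :
    UB (N * q) A (dvd_mul_left q N) (resAlong A (alG huv hq.ne_zero) ψ)
      = res1 N q A (cor1 N q A ψ) - ψ := by
  rw [res1_cor1 huv hN hq hqN ψ]
  abel

omit huv in
/-- **`U² = 1 + r₁ T_q c₂ - r₂ c₂ - r₁ c₁`** at the level `N q`. -/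
theorem UB_UB (hN : 0 < N) (hq : q.Prime) (hqN : ¬ q ∣ N)
    (ψ : Additive (Gamma0 (N * q)) →+ A) :
    UB (N * q) A (dvd_mul_left q N) (UB (N * q) A (dvd_mul_left q N) ψ)
      = ψ + res1 N q A (TB N A hq hqN (cor2 N q A ψ)) - res2 N q A (cor2 N q A ψ)
        - res1 N q A (cor1 N q A ψ) := by
  obtain ⟨u, v, huv⟩ := exists_bezout hq hqN
  rw [UB_eq_sub huv hN hq hqN ψ, map_sub, UB_res1 hN hq hqN, UB_w huv hN hq hqN]
  abel

end Stage1

/-! ### The level `N q²` -/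

section Stage2

variable {N q : ℕ} {A : Type*} [AddCommGroup A]

theorem mat_kap1 (κ : Gamma0 (N * q ^ 2)) : mat (kap1 N q κ) = mat κ := rfl

theorem mat_kap2 (κ : Gamma0 (N * q ^ 2)) : mat (kap2 N q κ) = conjMat q (mat κ) := rfl

theorem incl_kap1 (κ : Gamma0 (N * q ^ 2)) : incl (N * q) (kap1 N q κ) = incl (N * q ^ 2) κ := rfl

theorem q_dvd_mat' (κ : Gamma0 (N * q ^ 2)) : (q : ℤ) ∣ mat κ 1 0 := by
  refine Dvd.dvd.trans ?_ (mat_dvd κ)
  exact ⟨(N : ℤ) * q, by push_cast; ring⟩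

theorem Dq_Bmat' (q : ℕ) (j : ℤ) : Dq q * Bmat q j = (q : ℤ) • !![1, j; 0, 1] := by
  ext i k
  fin_cases i <;> fin_cases k <;>
    simp [Dq, Bmat, Matrix.mul_apply, Fin.sum_univ_two]

/-- `kap2(κ) t_{x'} = t_x γ` when `B_x γ = κ B_{x'}`. -/
theorem kap2_rel (hq : q ≠ 0) {γ : Gamma0 (N * q)} {κ : Gamma0 (N * q ^ 2)} {x x' : ZMod q}
    (h : repU q x * incl (N * q) γ = incl (N * q ^ 2) κ * repU q x') :
    kap2 N q κ * tUp (N * q) (x'.val : ℤ) = tUp (N * q) (x.val : ℤ) * γ := by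
  have hB : Bmat q (x.val : ℤ) * mat γ = mat κ * Bmat q (x'.val : ℤ) := by
    have h' : repU q x * incl (N * q) γ = incl (N * q) (kap1 N q κ) * repU q x' := h
    exact Bmat_rel hq h'
  apply mat_injective
  rw [mat_mul, mat_mul, mat_kap2, mat_tUp, mat_tUp]
  apply smul_mat_cancel hq
  calc (q : ℤ) • (conjMat q (mat κ) * !![1, (x'.val : ℤ); 0, 1])
      = conjMat q (mat κ) * (Dq q * Bmat q (x'.val : ℤ)) := by
        rw [Dq_Bmat', Matrix.mul_smul]
    _ = (conjMat q (mat κ) * Dq q) * Bmat q (x'.val : ℤ) := by rw [Matrix.mul_assoc]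
    _ = Dq q * (mat κ * Bmat q (x'.val : ℤ)) := by
        rw [conjMat_Dq (q_dvd_mat' κ), Matrix.mul_assoc]
    _ = Dq q * (Bmat q (x.val : ℤ) * mat γ) := by rw [hB]
    _ = (Dq q * Bmat q (x.val : ℤ)) * mat γ := by rw [Matrix.mul_assoc]
    _ = (q : ℤ) • (!![1, (x.val : ℤ); 0, 1] * mat γ) := by rw [Dq_Bmat', Matrix.smul_mul]

theorem mat01_tUp_mul (M : ℕ) (m : ℤ) (g : Gamma0 M) :
    mat (tUp M m * g) 0 1 = mat g 0 1 + m * mat g 1 1 := by
  rw [mat_mul, mat_tUp]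
  simp [Matrix.mul_apply, Fin.sum_univ_two]

theorem mat_tUp_inv (M : ℕ) (m : ℤ) : mat (tUp M m)⁻¹ = !![1, -m; 0, 1] := by
  rw [H39.mat_inv, mat_tUp]
  simp

/-- The representatives `[[1, -x], [0, 1]]`, `x mod q`, of `Γ₀(N q) / kap2 (Γ₀(N q²))`. -/
theorem isReps_kap2 (hq : q.Prime) :
    IsReps (kap2 N q) (fun x : ZMod q => (tUp (N * q) (x.val : ℤ))⁻¹) := by
  haveI : NeZero q := ⟨hq.ne_zero⟩
  constructor
  · rintro i j ⟨h, hh⟩
    have h1 := congrArg (fun g : Gamma0 (N * q) => mat g 0 1) hh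
    simp only [inv_inv] at h1
    rw [mat_kap2, mat01_tUp_mul, mat_tUp_inv] at h1
    simp only [conjMat, Matrix.of_apply, Matrix.cons_val', Matrix.cons_val_zero,
      Matrix.cons_val_one, Matrix.empty_val', Matrix.cons_val_fin_one, mul_one] at h1
    have h4 : (q : ℤ) ∣ (j.val : ℤ) - (i.val : ℤ) := ⟨-(mat h 0 1), by linarith⟩
    have h5 := (ZMod.intCast_zmod_eq_zero_iff_dvd _ q).mpr h4
    push_cast at h5
    rw [ZMod.natCast_zmod_val, ZMod.natCast_zmod_val] at h5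
    exact (sub_eq_zero.mp h5).symm
  · intro g
    have hdet := mat_det' g
    obtain ⟨c, hc⟩ : (q : ℤ) ∣ mat g 1 0 := q_dvd_of_mem_gamma0_mul g.2
    set i : ZMod q := -((mat g 0 1 : ℤ) : ZMod q) * ((mat g 0 0 : ℤ) : ZMod q) with hi
    refine ⟨i, ?_⟩
    simp only [inv_inv]
    have hdvd : (q : ℤ) ∣ mat (tUp (N * q) (i.val : ℤ) * g) 0 1 := by
      rw [mat01_tUp_mul, ← ZMod.intCast_zmod_eq_zero_iff_dvd]
      push_cast
      rw [ZMod.natCast_zmod_val, hi]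
      have hunit : ((mat g 0 0 : ℤ) : ZMod q) * ((mat g 1 1 : ℤ) : ZMod q) = 1 := by
        have : ((mat g 0 0 * mat g 1 1 - mat g 0 1 * mat g 1 0 : ℤ) : ZMod q) = 1 := by
          rw [hdet]; simp
        rw [hc] at this
        push_cast at this
        simpa using this
      linear_combination (-((mat g 0 1 : ℤ) : ZMod q)) * hunit
    obtain ⟨h', hh'⟩ := exists_conjG_eq hq.ne_zero (tUp (N * q) (i.val : ℤ) * g) hdvd
    obtain ⟨h'', rfl⟩ := castG_surjective N q h'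
    exact ⟨h'', hh'⟩

theorem finiteIndex_kap2 (hq : q.Prime) : (kap2 N q).range.FiniteIndex := by
  haveI : NeZero q := ⟨hq.ne_zero⟩
  exact (isReps_kap2 (N := N) hq).finiteIndex

/-- The explicit formula for the transfer along `kap2`. -/
theorem cor_kap2_apply (hq : q.Prime) (ψ : Additive (Gamma0 (N * q ^ 2)) →+ A)
    (γ : Gamma0 (N * q)) (σ : Equiv.Perm (ZMod q)) (κ : ZMod q → Gamma0 (N * q ^ 2))
    (h : ∀ x, repU q x * incl (N * q) γ = incl (N * q ^ 2) (κ x) * repU q (σ x)) :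
    haveI : NeZero q := ⟨hq.ne_zero⟩
    corAlong A (kap2 N q) ψ (Additive.ofMul γ) = ∑ x, ψ (Additive.ofMul (κ x)) := by
  haveI : NeZero q := ⟨hq.ne_zero⟩
  rw [corAlong_eq_sum (kap2 N q) (kap2_injective N q hq.ne_zero) _ (isReps_kap2 hq) ψ γ
    (fun i => σ.symm i) (fun i => κ (σ.symm i)) ?_]
  · exact Equiv.sum_comp σ.symm (fun x => ψ (Additive.ofMul (κ x)))
  · intro i
    have h1 := kap2_rel hq.ne_zero (h (σ.symm i))
    rw [Equiv.apply_symm_apply] at h1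
    show γ * (tUp (N * q) (i.val : ℤ))⁻¹
      = (tUp (N * q) ((σ.symm i).val : ℤ))⁻¹ * kap2 N q (κ (σ.symm i))
    rw [eq_inv_mul_iff_mul_eq, ← mul_assoc, ← h1, mul_inv_cancel_right]

/-- **`U_q(N q²) = R₁ K₂`.** -/
theorem UB_eq_res_cor [NeZero (N * q ^ 2)] (hq : q.Prime) (hd : q ∣ N * q ^ 2)
    (ψ : Additive (Gamma0 (N * q ^ 2)) →+ A) :
    UB (N * q ^ 2) A hd ψ = resAlong A (kap1 N q) (corAlong A (kap2 N q) ψ) := by
  haveI : NeZero q := ⟨hq.ne_zero⟩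
  refine AddMonoidHom.ext fun γ' => ?_
  obtain ⟨γ, rfl⟩ : ∃ g : Gamma0 (N * q ^ 2), Additive.ofMul g = γ' := ⟨Additive.toMul γ', rfl⟩
  set HU := isHeckeFamily_U (N * q ^ 2) hd with hHU
  rw [resAlong_apply, cor_kap2_apply hq ψ (kap1 N q γ) (HU.permEquiv (incl_injective _) γ)
    (fun x => HU.kap γ x) (fun x => HU.rep_mul γ x), UB_apply_apply]

/-- an element of `Γ₀(N q)` with lower left entry divisible by `N q²`, in `Γ₀(N q²)` -/
def liftK (g : Gamma0 (N * q)) (h : ((N * q ^ 2 : ℕ) : ℤ) ∣ mat g 1 0) : Gamma0 (N * q ^ 2) :=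
  ⟨(g : SL(2, ℤ)), mem_Gamma0_of_dvd h⟩

theorem kap1_liftK (g : Gamma0 (N * q)) (h : ((N * q ^ 2 : ℕ) : ℤ) ∣ mat g 1 0) :
    kap1 N q (liftK g h) = g := rfl

theorem kap_dvd [NeZero (N * q)] (hq : q.Prime) (hd : q ∣ N * q) (γ : Gamma0 (N * q))
    (x : ZMod q) :
    haveI : NeZero q := ⟨hq.ne_zero⟩
    ((N * q ^ 2 : ℕ) : ℤ) ∣ mat ((isHeckeFamily_U (N * q) hd).kap γ x) 1 0 := by
  haveI : NeZero q := ⟨hq.ne_zero⟩
  have hB := Bmat_rel hq.ne_zero ((isHeckeFamily_U (N * q) hd).rep_mul γ x)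
  have h10 := congrFun (congrFun hB 1) 0
  simp only [Bmat, Matrix.mul_apply, Fin.sum_univ_two, Matrix.of_apply, Matrix.cons_val',
    Matrix.cons_val_zero, Matrix.cons_val_one, Matrix.empty_val', Matrix.cons_val_fin_one,
    zero_mul, zero_add, mul_one, mul_zero, add_zero] at h10
  obtain ⟨c, hc⟩ := mat_dvd γ
  rw [← h10, hc]
  exact ⟨c, by push_cast; ring⟩

/-- **`U_q(N q) = K₂ R₁`.** -/
theorem UB_eq_cor_res [NeZero (N * q)] (hq : q.Prime) (hd : q ∣ N * q)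
    (φ : Additive (Gamma0 (N * q)) →+ A) :
    UB (N * q) A hd φ = corAlong A (kap2 N q) (resAlong A (kap1 N q) φ) := by
  haveI : NeZero q := ⟨hq.ne_zero⟩
  refine AddMonoidHom.ext fun γ' => ?_
  obtain ⟨γ, rfl⟩ : ∃ g : Gamma0 (N * q), Additive.ofMul g = γ' := ⟨Additive.toMul γ', rfl⟩
  set HU := isHeckeFamily_U (N * q) hd with hHU
  rw [cor_kap2_apply hq _ γ (HU.permEquiv (incl_injective _) γ)
    (fun x => liftK (HU.kap γ x) (kap_dvd hq hd γ x)) (fun x => HU.rep_mul γ x), UB_apply_apply]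
  rfl

theorem j2_eq' : j2 N q = (inclG N q).comp (kap2 N q) := rfl

/-- `C₂ = c₁ K₂`. -/
theorem corC2_eq (hN : 0 < N) (hq : q.Prime) (hqN : ¬ q ∣ N)
    (ψ : Additive (Gamma0 (N * q ^ 2)) →+ A) :
    corC2 N q A ψ = cor1 N q A (corAlong A (kap2 N q) ψ) := by
  have := finiteIndex_kap2 (N := N) hq
  have := finiteIndex_inclG hN hq hqN
  unfold corC2 cor1
  rw [j2_eq', corAlong_comp (kap2 N q) (inclG N q) (kap2_injective N q hq.ne_zero)
    (inclG_injective N q)]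

/-- `C₃ = c₂ K₂`. -/
theorem corC3_eq (hN : 0 < N) (hq : q.Prime)
    (ψ : Additive (Gamma0 (N * q ^ 2)) →+ A) :
    corC3 N q A ψ = cor2 N q A (corAlong A (kap2 N q) ψ) := by
  have := finiteIndex_kap2 (N := N) hq
  have := Fermat.Agent.S41.H94.finiteIndex_range_conjG N q hN.ne' hq.ne_zero
  unfold corC3 cor2
  rw [j3_eq, corAlong_comp (kap2 N q) (conjG N q) (kap2_injective N q hq.ne_zero)
    (conjG_injective N q hq.ne_zero)]

/-- **REL4**: `U³ - U = A₁ T_q C₃ - A₁ C₂ - A₂ C₃`. -/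
theorem rel4 [NeZero (N * q ^ 2)] (hN : 0 < N) (hq : q.Prime) (hqN : ¬ q ∣ N)
    (hd : q ∣ N * q ^ 2) (ψ : Additive (Gamma0 (N * q ^ 2)) →+ A) :
    UB (N * q ^ 2) A hd (UB (N * q ^ 2) A hd (UB (N * q ^ 2) A hd ψ)) - UB (N * q ^ 2) A hd ψ
      = resA1 N q A (TB N A hq hqN (corC3 N q A ψ)) - resA1 N q A (corC2 N q A ψ)
        - resA2 N q A (corC3 N q A ψ) := by
  haveI : NeZero (N * q) := ⟨Nat.mul_ne_zero hN.ne' hq.ne_zero⟩
  have hd' : q ∣ N * q := dvd_mul_left q N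
  set χ := corAlong A (kap2 N q) ψ with hχ
  have e1 : UB (N * q ^ 2) A hd ψ = resAlong A (kap1 N q) χ := UB_eq_res_cor hq hd ψ
  have e2 : ∀ φ : Additive (Gamma0 (N * q)) →+ A,
      UB (N * q ^ 2) A hd (resAlong A (kap1 N q) φ)
        = resAlong A (kap1 N q) (UB (N * q) A hd' φ) := by
    intro φ
    rw [UB_eq_res_cor hq hd, ← UB_eq_cor_res hq hd']
  rw [e1, e2, e2, UB_UB hN hq hqN χ, corC2_eq hN hq hqN, corC3_eq hN hq, ← hχ, resA1_eq,
    resA1_eq, resA2_eq]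
  simp only [resAlong_add', resAlong_sub']
  abel

end Stage2

end Fermat.Agent.S59.NonMin.Geom.H98
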