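import Fermat.Agent.S59.NonMin.Geom.H98_RelSplit
import Fermat.Agent.S59.NonMin.Geom.H98_KerU
import Fermat.Agent.S59.NonMin.Geom.H12_RelU
import Fermat.Agent.S59.NonMin.Geom.H94_RelPar

/-!
# S59 / NMGEOM leaf RELSPLIT (helper98): wiring with the landed relations

`relsplit_of_RELT : Stmt_RELT → Stmt_RELSPLIT` (`Stmt_REL1`, `Stmt_RELU`: helper12;
`Stmt_RELPAR`: helper94).
-/

set_option autoImplicit false

namespace Fermat.Agent.S59.NonMin.Geom.H98

open Fermat.Agent.S59.NonMin.Geom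

/-- **RELSPLIT**, from `Stmt_RELT` only. -/
theorem relsplit_of_RELT (hT : Stmt_RELT) : Stmt_RELSPLIT :=
  relsplit_of Fermat.Agent.S59.NonMin.Geom.H12.stmt_REL1 hT
    Fermat.Agent.S59.NonMin.Geom.H12.stmt_RELU Fermat.Agent.S59.NonMin.Geom.H94.stmt_RELPAR

end Fermat.Agent.S59.NonMin.Geom.H98
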